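import Fermat.Agent.S16.Defs

/-!
# S16, piece PS: formal lemmas on `U`, `V`, `PSModEq`, `phi`, `delta` (pure power series algebra)

NOTE (helper24): `U_C` needs `0 < p` (for `p = 0`, `U 0 (C c) = c/(1-X)`), hypothesis added.
-/

set_option autoImplicit false

namespace Fermat.Agent.S16

open PowerSeries

section UV

variable {R : Type*} [CommRing R] (p : ℕ) (P Q : PowerSeries R)

@[simp] theorem coeff_U (n : ℕ) : coeff n (U p P) = coeff (p * n) P := by
  simp [U]

@[simp] theorem coeff_V (n : ℕ) : coeff n (V p P) = if p ∣ n then coeff (n / p) P else 0 := by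
  simp [V]

theorem constantCoeff_U : constantCoeff (U p P) = constantCoeff P := by
  rw [← coeff_zero_eq_constantCoeff_apply, ← coeff_zero_eq_constantCoeff_apply, coeff_U, mul_zero]

theorem constantCoeff_V : constantCoeff (V p P) = constantCoeff P := by
  rw [← coeff_zero_eq_constantCoeff_apply, ← coeff_zero_eq_constantCoeff_apply, coeff_V]
  simp

theorem U_zero : U p (0 : PowerSeries R) = 0 := by
  ext n; simp

theorem U_add : U p (P + Q) = U p P + U p Q := by
  ext n; simp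

theorem U_sub : U p (P - Q) = U p P - U p Q := by
  ext n; simp

theorem U_neg : U p (-P) = -U p P := by
  ext n; simp

theorem U_C_mul (c : R) : U p (C c * P) = C c * U p P := by
  ext n; simp

theorem U_C (hp : 0 < p) (c : R) : U p (C c) = C c := by
  ext n
  rw [coeff_U, coeff_C, coeff_C]
  have : p * n = 0 ↔ n = 0 := by
    rw [Nat.mul_eq_zero]
    constructor
    · rintro (h | h)
      · omega
      · exact h
    · intro h; exact Or.inr h
  simp [this]

theorem U_sum {ι : Type*} (s : Finset ι) (f : ι → PowerSeries R) :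
    U p (∑ i ∈ s, f i) = ∑ i ∈ s, U p (f i) := by
  ext n; simp

variable {p}

theorem V_zero : V p (0 : PowerSeries R) = 0 := by
  ext n; simp

theorem V_add : V p (P + Q) = V p P + V p Q := by
  ext n; simp only [coeff_V, map_add]; split_ifs <;> simp

theorem V_sub : V p (P - Q) = V p P - V p Q := by
  ext n; simp only [coeff_V, map_sub]; split_ifs <;> simp

theorem V_neg : V p (-P) = -V p P := by
  ext n; simp only [coeff_V, map_neg]; split_ifs <;> simp



theorem V_eq_expand (hp : p ≠ 0) : V p P = expand p hp P := by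
  ext n
  rw [coeff_V, coeff_expand]

theorem V_C (c : R) : V p (C c) = C c := by
  ext n
  rw [coeff_V, coeff_C, coeff_C]
  by_cases hn : n = 0
  · simp [hn]
  · rw [if_neg hn]
    split_ifs with h1 h2
    · exfalso
      obtain ⟨k, rfl⟩ := h1
      rcases Nat.eq_zero_or_pos p with h0 | h0
      · simp [h0] at hn
      · rw [Nat.mul_div_cancel_left _ h0] at h2
        simp [h2] at hn
    · rfl
    · rfl

theorem V_one : V p (1 : PowerSeries R) = 1 := by
  have := V_C (p := p) (1 : R)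
  simpa using this

theorem V_mul (hp : 0 < p) : V p (P * Q) = V p P * V p Q := by
  simp only [V_eq_expand _ hp.ne', map_mul]

theorem V_pow (hp : 0 < p) (n : ℕ) : V p (P ^ n) = V p P ^ n := by
  simp only [V_eq_expand _ hp.ne', map_pow]

theorem V_C_mul (c : R) : V p (C c * P) = C c * V p P := by
  ext n
  simp only [coeff_V, coeff_C_mul]
  split_ifs <;> simp

theorem U_V (hp : 0 < p) : U p (V p P) = P := by
  ext n
  rw [coeff_U, coeff_V, if_pos (Dvd.intro _ rfl), Nat.mul_div_cancel_left _ hp]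

/-- `U_p(V_p(a) b) = a U_p(b)`. -/
theorem U_V_mul (hp : 0 < p) : U p (V p P * Q) = P * U p Q := by
  ext n
  rw [coeff_U, coeff_mul, coeff_mul]
  simp only [coeff_V, coeff_U]
  -- sum over antidiagonal (p*n) of (if p ∣ i then P_{i/p} else 0) * Q_j
  rw [← Finset.sum_filter_add_sum_filter_not (Finset.HasAntidiagonal.antidiagonal (p * n)) (fun x => p ∣ x.1)]
  have h2 : ∑ x ∈ (Finset.HasAntidiagonal.antidiagonal (p * n)).filter (fun x => ¬ p ∣ x.1),
      (if p ∣ x.1 then coeff (x.1 / p) P else 0) * coeff x.2 Q = 0 := by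
    apply Finset.sum_eq_zero
    intro x hx
    rw [Finset.mem_filter] at hx
    rw [if_neg hx.2, zero_mul]
  rw [h2, add_zero]
  symm
  apply Finset.sum_bij (fun x _ => (p * x.1, p * x.2))
  · intro x hx
    rw [Finset.HasAntidiagonal.mem_antidiagonal] at hx
    rw [Finset.mem_filter, Finset.HasAntidiagonal.mem_antidiagonal]
    exact ⟨by rw [← mul_add, hx], Dvd.intro _ rfl⟩
  · intro x _ y _ h
    simp only [Prod.mk.injEq] at h
    exact Prod.ext (Nat.eq_of_mul_eq_mul_left hp h.1) (Nat.eq_of_mul_eq_mul_left hp h.2)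
  · intro y hy
    rw [Finset.mem_filter, Finset.HasAntidiagonal.mem_antidiagonal] at hy
    obtain ⟨hy1, a, ha⟩ := hy
    have : p ∣ y.2 := by
      have h3 : p ∣ y.1 + y.2 := hy1 ▸ Dvd.intro _ rfl
      exact (Nat.dvd_add_right ⟨a, ha⟩).mp h3
    obtain ⟨b, hb⟩ := this
    refine ⟨(a, b), ?_, ?_⟩
    · rw [Finset.HasAntidiagonal.mem_antidiagonal]
      apply Nat.eq_of_mul_eq_mul_left hp
      rw [mul_add, ← ha, ← hb, hy1]
    · exact Prod.ext ha.symm hb.symm
  · intro x _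
    simp only
    rw [if_pos (Dvd.intro _ rfl), Nat.mul_div_cancel_left _ hp]

/-- `U_p` and `V_m` commute for coprime `p`, `m`. -/
theorem U_V_comm {m : ℕ} (h : Nat.Coprime p m) : U p (V m P) = V m (U p P) := by
  ext n
  rw [coeff_U, coeff_V, coeff_V, coeff_U]
  have h1 : m ∣ p * n ↔ m ∣ n := (Nat.Coprime.dvd_mul_left h.symm)
  by_cases hm : m ∣ n
  · rw [if_pos (h1.mpr hm), if_pos hm, Nat.mul_div_assoc _ hm]
  · rw [if_neg (fun h' => hm (h1.mp h')), if_neg hm]

end UV

section ModEq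

variable {m : ℤ} {P P' Q Q' S : PowerSeries ℤ}

theorem psModEq_iff_exists : PSModEq m P Q ↔ ∃ R, P = Q + C m * R := by
  constructor
  · intro h
    choose f hf using h
    refine ⟨PowerSeries.mk f, ?_⟩
    ext n
    have := hf n
    rw [map_sub] at this
    rw [map_add, coeff_C_mul, coeff_mk]
    linarith
  · rintro ⟨R, rfl⟩ n
    rw [add_sub_cancel_left, coeff_C_mul]
    exact Dvd.intro _ rfl

theorem psModEq_iff_dvd : PSModEq m P Q ↔ C m ∣ P - Q := by
  rw [psModEq_iff_exists]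
  constructor
  · rintro ⟨R, rfl⟩
    exact ⟨R, by ring⟩
  · rintro ⟨R, hR⟩
    exact ⟨R, by rw [← hR]; ring⟩

theorem PSModEq.refl (m : ℤ) (P : PowerSeries ℤ) : PSModEq m P P := by
  intro n; simp

theorem PSModEq.symm (h : PSModEq m P Q) : PSModEq m Q P := by
  rw [psModEq_iff_dvd] at h ⊢
  rw [← neg_sub]; exact (dvd_neg).mpr h

theorem PSModEq.trans (h : PSModEq m P Q) (h' : PSModEq m Q S) : PSModEq m P S := by
  rw [psModEq_iff_dvd] at h h' ⊢
  have := dvd_add h h'
  rwa [sub_add_sub_cancel] at this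

theorem PSModEq.add (h : PSModEq m P Q) (h' : PSModEq m P' Q') : PSModEq m (P + P') (Q + Q') := by
  rw [psModEq_iff_dvd] at h h' ⊢
  have := dvd_add h h'
  rwa [show P - Q + (P' - Q') = P + P' - (Q + Q') by ring] at this

theorem PSModEq.sub (h : PSModEq m P Q) (h' : PSModEq m P' Q') : PSModEq m (P - P') (Q - Q') := by
  rw [psModEq_iff_dvd] at h h' ⊢
  have := dvd_sub h h'
  rwa [show P - Q - (P' - Q') = P - P' - (Q - Q') by ring] at this

theorem PSModEq.neg (h : PSModEq m P Q) : PSModEq m (-P) (-Q) := by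
  rw [psModEq_iff_dvd] at h ⊢
  rw [show -P - -Q = -(P - Q) by ring]; exact (dvd_neg).mpr h

theorem PSModEq.mul (h : PSModEq m P Q) (h' : PSModEq m P' Q') : PSModEq m (P * P') (Q * Q') := by
  rw [psModEq_iff_dvd] at h h' ⊢
  rw [show P * P' - Q * Q' = (P - Q) * P' + Q * (P' - Q') by ring]
  exact dvd_add (Dvd.dvd.mul_right h _) (Dvd.dvd.mul_left h' _)

theorem PSModEq.pow (h : PSModEq m P Q) (n : ℕ) : PSModEq m (P ^ n) (Q ^ n) := by
  induction n with
  | zero => simpa using PSModEq.refl m 1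
  | succ k ih => rw [pow_succ, pow_succ]; exact ih.mul h

theorem PSModEq.of_dvd {m' : ℤ} (hm : m ∣ m') (h : PSModEq m' P Q) : PSModEq m P Q :=
  fun n => hm.trans (h n)

theorem PSModEq.coeff (h : PSModEq m P Q) (n : ℕ) : m ∣ PowerSeries.coeff n P - PowerSeries.coeff n Q := by
  have := h n
  rwa [map_sub] at this

theorem PSModEq.U (p : ℕ) (h : PSModEq m P Q) : PSModEq m (U p P) (U p Q) := by
  intro n
  rw [map_sub, coeff_U, coeff_U]
  exact h.coeff _

theorem PSModEq.V (p : ℕ) (h : PSModEq m P Q) : PSModEq m (V p P) (V p Q) := by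
  intro n
  rw [map_sub, coeff_V, coeff_V]
  split_ifs
  · exact h.coeff _
  · simp

theorem psModEq_C_mul_self (R : PowerSeries ℤ) : PSModEq m (C m * R) 0 := by
  rw [psModEq_iff_dvd, sub_zero]; exact Dvd.intro _ rfl

/-- cancel a common non-zero factor of the modulus and both sides -/
theorem PSModEq.of_C_mul {c : ℤ} (hc : c ≠ 0) (h : PSModEq (c * m) (C c * P) (C c * Q)) :
    PSModEq m P Q := by
  intro n
  have := h.coeff n
  rw [coeff_C_mul, coeff_C_mul, ← mul_sub] at this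
  rw [map_sub]
  exact (mul_dvd_mul_iff_left hc).mp this

/-- cancel a factor prime to the modulus -/
theorem PSModEq.cancel {c : ℤ} (hc : IsCoprime c m) (h : PSModEq m (C c * P) (C c * Q)) :
    PSModEq m P Q := by
  intro n
  have := h.coeff n
  rw [coeff_C_mul, coeff_C_mul, ← mul_sub] at this
  rw [map_sub]
  exact hc.symm.dvd_of_dvd_mul_left this

/-- `P ≡ Q (ℓ)  ⟹  P^(ℓ^s) ≡ Q^(ℓ^s) (ℓ^(s+1))`  (Mathlib `dvd_sub_pow_of_dvd_sub`). -/
theorem PSModEq.pow_prime_pow {ℓ : ℕ} (h : PSModEq (ℓ : ℤ) P Q) (s : ℕ) :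
    PSModEq ((ℓ : ℤ) ^ (s + 1)) (P ^ ℓ ^ s) (Q ^ ℓ ^ s) := by
  rw [psModEq_iff_dvd] at h ⊢
  have h1 : ((ℓ : ℕ) : PowerSeries ℤ) ∣ P - Q := by
    have : (C ((ℓ : ℕ) : ℤ) : PowerSeries ℤ) = ((ℓ : ℕ) : PowerSeries ℤ) := by
      simp
    rwa [this] at h
  have := dvd_sub_pow_of_dvd_sub h1 s
  have h2 : (C ((ℓ : ℤ) ^ (s + 1)) : PowerSeries ℤ) = ((ℓ : ℕ) : PowerSeries ℤ) ^ (s + 1) := by
    simp
  rwa [h2]

theorem psModEq_iff_map {ℓ : ℕ} :
    PSModEq (ℓ : ℤ) P Q ↔ PowerSeries.map (Int.castRingHom (ZMod ℓ)) P =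
      PowerSeries.map (Int.castRingHom (ZMod ℓ)) Q := by
  constructor
  · intro h
    ext n
    rw [coeff_map, coeff_map]
    have := h.coeff n
    rw [← ZMod.intCast_zmod_eq_zero_iff_dvd] at this
    push_cast at this
    simpa [sub_eq_zero] using this
  · intro h n
    have := congrArg (PowerSeries.coeff n) h
    rw [coeff_map, coeff_map] at this
    rw [map_sub, ← ZMod.intCast_zmod_eq_zero_iff_dvd]
    push_cast
    simpa [sub_eq_zero] using this

/-- Frobenius: `P^ℓ ≡ V_ℓ P (ℓ)`. -/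
theorem psModEq_pow_prime {ℓ : ℕ} (hℓ : ℓ.Prime) (P : PowerSeries ℤ) :
    PSModEq (ℓ : ℤ) (P ^ ℓ) (V ℓ P) := by
  have : Fact ℓ.Prime := ⟨hℓ⟩
  rw [psModEq_iff_map, map_pow, V_eq_expand _ hℓ.ne_zero, map_expand]
  have := MvPowerSeries.map_frobenius_expand (σ := Unit) (R := ZMod ℓ) ℓ hℓ.ne_zero
    (f := PowerSeries.map (Int.castRingHom (ZMod ℓ)) P)
  rw [← this]
  have hf : frobenius (ZMod ℓ) ℓ = RingHom.id _ := by
    ext x; simp
  rw [hf]
  simp [expand]

end ModEq

section Arith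

theorem coeff_phi (j n : ℕ) : coeff n (phi j) = (ArithmeticFunction.sigma j n : ℤ) := by
  simp [phi]

theorem constantCoeff_phi (j : ℕ) : constantCoeff (phi j) = 0 := by
  rw [← coeff_zero_eq_constantCoeff_apply, coeff_phi]; simp

theorem coeff_one_phi (j : ℕ) : coeff 1 (phi j) = 1 := by
  rw [coeff_phi]; simp

theorem coeff_prime_phi (j : ℕ) {p : ℕ} (hp : p.Prime) : coeff p (phi j) = 1 + (p : ℤ) ^ j := by
  rw [coeff_phi, ArithmeticFunction.sigma_apply, hp.sum_divisors]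
  push_cast; ring

theorem coeff_delta (N n : ℕ) : coeff n (delta N) = sig N n := by
  simp [delta]

theorem sig_zero (N : ℕ) : sig N 0 = 0 := by simp [sig]

theorem constantCoeff_delta (N : ℕ) : constantCoeff (delta N) = 0 := by
  rw [← coeff_zero_eq_constantCoeff_apply, coeff_delta, sig_zero]

theorem sig_one {p : ℕ} (hp : 1 < p) : sig p 1 = 1 := by
  have : ¬ p ∣ 1 := by
    intro h; have := Nat.le_of_dvd one_pos h; omega
  simp [sig, Finset.filter_singleton, this]

theorem coeff_one_delta {N : ℕ} (hN : 1 < N) : coeff 1 (delta N) = 1 := by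
  rw [coeff_delta, sig_one hN]

theorem constantCoeff_E4z : constantCoeff E4z = 1 := by
  simp [E4z, constantCoeff_phi]

theorem constantCoeff_E6z : constantCoeff E6z = 1 := by
  simp [E6z, constantCoeff_phi]

/-- `σ'(pk) = σ'(k)`. -/
theorem sig_mul_self {p : ℕ} (hp : p.Prime) (k : ℕ) : sig p (p * k) = sig p k := by
  rcases Nat.eq_zero_or_pos k with rfl | hk
  · simp
  unfold sig
  congr 1
  ext d
  simp only [Finset.mem_filter, Nat.mem_divisors]
  constructor
  · rintro ⟨⟨h1, _⟩, h2⟩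
    refine ⟨⟨?_, hk.ne'⟩, h2⟩
    have : Nat.Coprime d p := ((Nat.Prime.coprime_iff_not_dvd hp).mpr h2).symm
    exact this.dvd_of_dvd_mul_left h1
  · rintro ⟨⟨h1, _⟩, h2⟩
    exact ⟨⟨Dvd.dvd.mul_left h1 _, Nat.mul_ne_zero hp.ne_zero hk.ne'⟩, h2⟩

private def sigG (p d : ℕ) : ℤ := if p ∣ d then 0 else (d : ℤ)

private theorem sig_eq_sum (p k : ℕ) : sig p k = ∑ d ∈ k.divisors, sigG p d := by
  unfold sig sigG
  rw [Finset.sum_filter]
  apply Finset.sum_congr rfl
  intro d _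
  by_cases h : p ∣ d <;> simp [h]

private theorem sigG_mul {p ℓ : ℕ} (hp : p.Prime) (hℓ : ℓ.Prime) (h : ℓ ≠ p) (d : ℕ) :
    sigG p (ℓ * d) = (ℓ : ℤ) * sigG p d := by
  unfold sigG
  have h1 : p ∣ ℓ * d ↔ p ∣ d := by
    have : Nat.Coprime p ℓ := (Nat.coprime_primes hp hℓ).mpr (Ne.symm h)
    exact this.dvd_mul_left
  by_cases h2 : p ∣ d
  · rw [if_pos (h1.mpr h2), if_pos h2, mul_zero]
  · rw [if_neg (fun h' => h2 (h1.mp h')), if_neg h2]; push_cast; ring

/-- `σ'(ℓk) + ℓ σ'(k/ℓ) = (1+ℓ) σ'(k)` for a prime `ℓ ≠ p`. -/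
theorem sig_mul_prime {p ℓ : ℕ} (hp : p.Prime) (hℓ : ℓ.Prime) (h : ℓ ≠ p) (k : ℕ) :
    sig p (ℓ * k) + (if ℓ ∣ k then (ℓ : ℤ) * sig p (k / ℓ) else 0) = (1 + (ℓ : ℤ)) * sig p k := by
  rcases Nat.eq_zero_or_pos k with rfl | hk
  · simp [sig_zero]
  classical
  have hinj : Function.Injective (fun d : ℕ => ℓ * d) := fun a b hab =>
    Nat.eq_of_mul_eq_mul_left hℓ.pos hab
  set A := k.divisors with hA
  set B := (k.divisors).image (fun d => ℓ * d) with hB
  have hAB : (ℓ * k).divisors = A ∪ B := by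
    ext d
    simp only [hA, hB, Finset.mem_union, Finset.mem_image, Nat.mem_divisors]
    constructor
    · rintro ⟨h1, _⟩
      by_cases h2 : ℓ ∣ d
      · obtain ⟨e, rfl⟩ := h2
        right
        exact ⟨e, ⟨(Nat.mul_dvd_mul_iff_left hℓ.pos).mp h1, hk.ne'⟩, rfl⟩
      · left
        have : Nat.Coprime d ℓ := ((Nat.Prime.coprime_iff_not_dvd hℓ).mpr h2).symm
        exact ⟨this.dvd_of_dvd_mul_left h1, hk.ne'⟩
    · rintro (⟨h1, _⟩ | ⟨e, ⟨h1, _⟩, rfl⟩)
      · exact ⟨Dvd.dvd.mul_left h1 _, Nat.mul_ne_zero hℓ.ne_zero hk.ne'⟩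
      · exact ⟨Nat.mul_dvd_mul_left _ h1, Nat.mul_ne_zero hℓ.ne_zero hk.ne'⟩
  have hI : ∑ d ∈ A ∩ B, sigG p d = if ℓ ∣ k then (ℓ : ℤ) * sig p (k / ℓ) else 0 := by
    split_ifs with hd
    · obtain ⟨k', rfl⟩ := hd
      rw [Nat.mul_div_cancel_left _ hℓ.pos, sig_eq_sum, Finset.mul_sum]
      have hk' : k' ≠ 0 := by rintro rfl; simp at hk
      have : A ∩ B = (k'.divisors).image (fun d => ℓ * d) := by
        ext d
        simp only [hA, hB, Finset.mem_inter, Finset.mem_image, Nat.mem_divisors]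
        constructor
        · rintro ⟨⟨h1, _⟩, e, _, rfl⟩
          exact ⟨e, ⟨(Nat.mul_dvd_mul_iff_left hℓ.pos).mp h1, hk'⟩, rfl⟩
        · rintro ⟨e, ⟨h1, _⟩, rfl⟩
          exact ⟨⟨Nat.mul_dvd_mul_left _ h1, hk.ne'⟩, e, ⟨Dvd.dvd.mul_left h1 _, hk.ne'⟩, rfl⟩
      rw [this, Finset.sum_image (fun a _ b _ hab => hinj hab)]
      exact Finset.sum_congr rfl (fun d _ => sigG_mul hp hℓ h d)
    · have : A ∩ B = ∅ := by
        ext d
        simp only [hA, hB, Finset.mem_inter, Finset.mem_image, Nat.mem_divisors,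
          Finset.notMem_empty, iff_false]
        rintro ⟨⟨h1, _⟩, e, _, rfl⟩
        exact hd ((Dvd.intro _ rfl).trans h1)
      rw [this, Finset.sum_empty]
  have hBs : ∑ d ∈ B, sigG p d = (ℓ : ℤ) * sig p k := by
    rw [hB, Finset.sum_image (fun a _ b _ hab => hinj hab), sig_eq_sum, Finset.mul_sum]
    exact Finset.sum_congr rfl (fun d _ => sigG_mul hp hℓ h d)
  rw [← hI, sig_eq_sum p (ℓ * k), hAB, Finset.sum_union_inter, hBs, ← sig_eq_sum]
  ring

end Arith

end Fermat.Agent.S16
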