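import Fermat.Agent.S16.Eis
import Fermat.Agent.S16.PS
import Fermat.Prelude.Thm_ModularForm_sturm_bound_Gamma0

/-!
# S16, piece ST3: Sturm bound mod 2 on `Γ₀(3)`

`b = 1 + 12 δ₃` (weight 2, from `isQZ_eis 3`), `c4 = (E₄ - b²)/24 = 10 φ₃ - δ₃ - 6 δ₃² = 9 q + 81 q² + ..`
(weight 4), `c6 = (b³ - 60 b c4 - E₆)/8 = 729 q² + ..` (weight 6).
For `3 i ≤ 2 w` put `g_i = b^(w-3j) c6^j` (`i = 2j`), `g_i = b^(w-3j-2) c4 c6^j` (`i = 2j+1`):
integral, weight `2w`, `g_i = (odd) q^i + ..`.  Elimination by induction + the Prelude Sturm bound.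
-/

set_option autoImplicit false

namespace Fermat.Agent.S16

open PowerSeries

/-- `b = (3 E₂(3z) - E₂(z))/2`. -/
theorem isQZ_b3 : IsQZ 3 2 (1 + 12 * delta 3) := by
  have : Fact (Nat.Prime 3) := ⟨by norm_num⟩
  have h := isQZ_eis 3
  refine IsQZ.of_C_mul (c := 2) (by norm_num) ?_
  have e : (C (2 : ℤ) : PowerSeries ℤ) * (1 + 12 * delta 3) = C (((3 : ℕ) : ℤ) - 1) + 24 * delta 3 := by
    have h2 : (C (2 : ℤ) : PowerSeries ℤ) = 2 := map_ofNat C 2
    have h3 : (C (((3 : ℕ) : ℤ) - 1) : PowerSeries ℤ) = 2 := by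
      rw [show (((3 : ℕ) : ℤ) - 1) = 2 by norm_num]; exact h2
    rw [h2, h3]; ring
  rw [e]; exact h

namespace ST3

/-- weight 4 form `9 q + ...` -/
noncomputable def c4 : PowerSeries ℤ :=
  C (10 : ℤ) * phi 3 - delta 3 - C (6 : ℤ) * (delta 3 * delta 3)

/-- weight 6 form `729 q² + ...` -/
noncomputable def c6 : PowerSeries ℤ :=
  C (12 : ℤ) * delta 3 - C (75 : ℤ) * phi 3 + C (99 : ℤ) * (delta 3 * delta 3)
    + C (216 : ℤ) * (delta 3 * delta 3 * delta 3) - C (90 : ℤ) * (delta 3 * c4) + C (63 : ℤ) * phi 5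

lemma c4_spec : (C (24 : ℤ) : PowerSeries ℤ) * c4 = E4z - (1 + 12 * delta 3) ^ 2 := by
  rw [c4, E4z]
  simp only [map_ofNat]
  ring

lemma c6_spec : (C (8 : ℤ) : PowerSeries ℤ) * c6 =
    (1 + 12 * delta 3) ^ 3 - C (60 : ℤ) * ((1 + 12 * delta 3) * c4) - E6z := by
  rw [c6, E6z, c4]
  simp only [map_ofNat]
  ring

lemma isQZ_c4 : IsQZ 3 4 c4 := by
  refine IsQZ.of_C_mul (c := 24) (by norm_num) ?_
  rw [c4_spec]
  refine (isQZ1_E4z.isQZ 3).sub ?_
  have := isQZ_b3.pow 2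
  have e : ((2 : ℕ) : ℤ) * 2 = 4 := by norm_num
  rwa [e] at this

lemma isQZ_c6 : IsQZ 3 6 c6 := by
  refine IsQZ.of_C_mul (c := 8) (by norm_num) ?_
  rw [c6_spec]
  refine IsQZ.sub (IsQZ.sub ?_ ?_) (isQZ1_E6z.isQZ 3)
  · have := isQZ_b3.pow 3
    have e : ((3 : ℕ) : ℤ) * 2 = 6 := by norm_num
    rwa [e] at this
  · have := (isQZ_b3.mul isQZ_c4).C_mul 60
    have e : (2 : ℤ) + 4 = 6 := by norm_num
    rwa [e] at this

/-- `g = (odd) q^i + ...` -/
def Lead (g : PowerSeries ℤ) (i : ℕ) : Prop :=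
  ∃ g' : PowerSeries ℤ, g = X ^ i * g' ∧ Odd (constantCoeff g')

lemma Lead.mul {g h : PowerSeries ℤ} {i j : ℕ} (hg : Lead g i) (hh : Lead h j) :
    Lead (g * h) (i + j) := by
  obtain ⟨g', rfl, hg'⟩ := hg
  obtain ⟨h', rfl, hh'⟩ := hh
  exact ⟨g' * h', by ring, by rw [map_mul]; exact hg'.mul hh'⟩

lemma Lead.one : Lead 1 0 := ⟨1, by simp, by simp⟩

lemma Lead.pow {g : PowerSeries ℤ} {i : ℕ} (hg : Lead g i) (n : ℕ) : Lead (g ^ n) (n * i) := by
  induction n with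
  | zero => simpa using Lead.one
  | succ n ih =>
    rw [pow_succ, Nat.succ_mul]
    exact ih.mul hg

lemma Lead.coeff_lt {g : PowerSeries ℤ} {i : ℕ} (hg : Lead g i) {n : ℕ} (hn : n < i) :
    coeff n g = 0 := by
  obtain ⟨g', rfl, -⟩ := hg
  rw [coeff_X_pow_mul', if_neg (by omega)]

lemma Lead.coeff_self {g : PowerSeries ℤ} {i : ℕ} (hg : Lead g i) : Odd (coeff i g) := by
  obtain ⟨g', rfl, h⟩ := hg
  rw [coeff_X_pow_mul', if_pos le_rfl, Nat.sub_self, coeff_zero_eq_constantCoeff]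
  exact h

lemma lead_of_coeff {g : PowerSeries ℤ} {i : ℕ} (h0 : ∀ n < i, coeff n g = 0)
    (h1 : Odd (coeff i g)) : Lead g i := by
  obtain ⟨g', rfl⟩ := X_pow_dvd_iff.mpr h0
  refine ⟨g', rfl, ?_⟩
  rwa [coeff_X_pow_mul', if_pos le_rfl, Nat.sub_self, coeff_zero_eq_constantCoeff] at h1

lemma sig3_zero : sig 3 0 = 0 := by simp [sig]
lemma sig3_one : sig 3 1 = 1 := by decide
lemma sig3_two : sig 3 2 = 3 := by decide

lemma d0 : coeff 0 (delta 3) = 0 := by rw [coeff_delta, sig3_zero]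
lemma d1 : coeff 1 (delta 3) = 1 := by rw [coeff_delta, sig3_one]
lemma d2 : coeff 2 (delta 3) = 3 := by rw [coeff_delta, sig3_two]

lemma p0 (j : ℕ) : coeff 0 (phi j) = 0 := by rw [coeff_phi]; simp
lemma p1 (j : ℕ) : coeff 1 (phi j) = 1 := by rw [coeff_phi]; simp
lemma p2 (j : ℕ) : coeff 2 (phi j) = 1 + 2 ^ j := by
  rw [coeff_phi, ArithmeticFunction.sigma_apply, Nat.Prime.divisors Nat.prime_two]
  simp

lemma coeff_zero_mul' (P Q : PowerSeries ℤ) : coeff 0 (P * Q) = coeff 0 P * coeff 0 Q := by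
  simp [coeff_mul]

lemma coeff_one_mul' (P Q : PowerSeries ℤ) :
    coeff 1 (P * Q) = coeff 0 P * coeff 1 Q + coeff 1 P * coeff 0 Q := by
  rw [coeff_mul, Finset.Nat.sum_antidiagonal_eq_sum_range_succ_mk]
  simp [Finset.sum_range_succ]

lemma coeff_two_mul' (P Q : PowerSeries ℤ) :
    coeff 2 (P * Q) = coeff 0 P * coeff 2 Q + coeff 1 P * coeff 1 Q + coeff 2 P * coeff 0 Q := by
  rw [coeff_mul, Finset.Nat.sum_antidiagonal_eq_sum_range_succ_mk]
  simp [Finset.sum_range_succ]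

lemma coeff_ofNat_mul' (n : ℕ) (m : ℕ) [m.AtLeastTwo] (P : PowerSeries ℤ) :
    coeff n ((OfNat.ofNat m : PowerSeries ℤ) * P) = (OfNat.ofNat m : ℤ) * coeff n P := by
  rw [← map_ofNat (C : ℤ →+* PowerSeries ℤ) m, coeff_C_mul]

lemma c4_0 : coeff 0 c4 = 0 := by
  simp only [c4, map_sub, coeff_C_mul]
  simp only [coeff_zero_mul', d0, p0]; norm_num

lemma c4_1 : coeff 1 c4 = 9 := by
  simp only [c4, map_sub, coeff_C_mul]
  simp only [coeff_one_mul', d0, d1, p1]; norm_num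

lemma c6_0 : coeff 0 c6 = 0 := by
  simp only [c6, map_sub, map_add, coeff_C_mul]
  simp only [coeff_zero_mul', d0, p0]; norm_num

lemma c6_1 : coeff 1 c6 = 0 := by
  simp only [c6, map_sub, map_add, coeff_C_mul]
  simp only [coeff_one_mul', coeff_zero_mul', d0, d1, p1, c4_0]
  norm_num

lemma c6_2 : coeff 2 c6 = 729 := by
  simp only [c6, map_sub, map_add, coeff_C_mul]
  simp only [coeff_two_mul', coeff_one_mul', coeff_zero_mul', d0, d1, d2, p2, c4_0, c4_1]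
  norm_num

lemma lead_b : Lead (1 + 12 * delta 3) 0 := by
  refine lead_of_coeff (by simp) ?_
  rw [map_add, coeff_ofNat_mul', d0]
  simp

lemma lead_c4 : Lead c4 1 := by
  refine lead_of_coeff (fun n hn => ?_) ?_
  · obtain rfl : n = 0 := by omega
    exact c4_0
  · rw [c4_1]; decide

lemma lead_c6 : Lead c6 2 := by
  refine lead_of_coeff (fun n hn => ?_) ?_
  · have : n = 0 ∨ n = 1 := by omega
    rcases this with rfl | rfl
    · exact c6_0
    · exact c6_1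
  · rw [c6_2]; decide

/-- the triangular family -/
lemma exists_lead (w i : ℕ) (hi : 3 * i ≤ 2 * w) :
    ∃ g : PowerSeries ℤ, IsQZ 3 (2 * (w : ℤ)) g ∧ Lead g i := by
  rcases Nat.even_or_odd' i with ⟨j, rfl | rfl⟩
  · refine ⟨(1 + 12 * delta 3) ^ (w - 3 * j) * c6 ^ j, ?_, ?_⟩
    · have := (isQZ_b3.pow (w - 3 * j)).mul (isQZ_c6.pow j)
      have e : ((w - 3 * j : ℕ) : ℤ) * 2 + (j : ℤ) * 6 = 2 * (w : ℤ) := by
        have : ((w - 3 * j : ℕ) : ℤ) = (w : ℤ) - 3 * j := by omega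
        rw [this]; ring
      rwa [e] at this
    · have := (lead_b.pow (w - 3 * j)).mul (lead_c6.pow j)
      have e : (w - 3 * j) * 0 + j * 2 = 2 * j := by ring
      rwa [e] at this
  · refine ⟨(1 + 12 * delta 3) ^ (w - 3 * j - 2) * c4 * c6 ^ j, ?_, ?_⟩
    · have := ((isQZ_b3.pow (w - 3 * j - 2)).mul isQZ_c4).mul (isQZ_c6.pow j)
      have e : ((w - 3 * j - 2 : ℕ) : ℤ) * 2 + 4 + (j : ℤ) * 6 = 2 * (w : ℤ) := by
        have : ((w - 3 * j - 2 : ℕ) : ℤ) = (w : ℤ) - 3 * j - 2 := by omega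
        rw [this]; ring
      rwa [e] at this
    · have := ((lead_b.pow (w - 3 * j - 2)).mul lead_c4).mul (lead_c6.pow j)
      have e : (w - 3 * j - 2) * 0 + 1 + j * 2 = 2 * j + 1 := by ring
      rwa [e] at this

/-- Sturm bound in characteristic zero -/
lemma eq_zero_of_coeff {w : ℕ} {P : PowerSeries ℤ} (h : IsQZ 3 (2 * (w : ℤ)) P)
    (h0 : ∀ n : ℕ, 3 * n ≤ 2 * w → coeff n P = 0) : P = 0 := by
  have : Fact (Nat.Prime 3) := ⟨by norm_num⟩
  obtain ⟨f, hf⟩ := h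
  have hidx : (CongruenceSubgroup.Gamma0 3).index ≤ 4 := index_Gamma0_le 3
  have hf0 : f = 0 := by
    refine ModularForm.sturm_bound_Gamma0 3 f fun n hn => ?_
    rw [hf, coeff_toC, h0 n ?_, Int.cast_zero]
    have h1 : (2 * (w : ℤ) * ((CongruenceSubgroup.Gamma0 3).index : ℤ)).toNat ≤ 8 * w := by
      have : 2 * (w : ℤ) * ((CongruenceSubgroup.Gamma0 3).index : ℤ) ≤ 8 * w := by
        have h4 : ((CongruenceSubgroup.Gamma0 3).index : ℤ) ≤ 4 := by exact_mod_cast hidx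
        nlinarith [Int.natCast_nonneg w]
      omega
    have h2 : n ≤ 8 * w / 12 := hn.trans (Nat.div_le_div_right h1)
    omega
  apply toC_injective
  rw [← hf, hf0, map_zero]
  exact UpperHalfPlane.qExpansion_zero 1

end ST3

open ST3 in
theorem sturm_three {w : ℕ} {P : PowerSeries ℤ} (h : IsQZ 3 (2 * (w : ℤ)) P)
    (h0 : ∀ n : ℕ, 3 * n ≤ 2 * w → (2 : ℤ) ∣ coeff n P) : ∀ n, (2 : ℤ) ∣ coeff n P := by
  -- downward induction on the order of vanishing
  have key : ∀ (t i : ℕ), i + t = w + 1 → ∀ P : PowerSeries ℤ, IsQZ 3 (2 * (w : ℤ)) P →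
      (∀ n < i, coeff n P = 0) → (∀ n : ℕ, 3 * n ≤ 2 * w → (2 : ℤ) ∣ coeff n P) →
      ∀ n, (2 : ℤ) ∣ coeff n P := by
    intro t
    induction t with
    | zero =>
      intro i hi P hP hlt _ n
      have : P = 0 := eq_zero_of_coeff hP fun n hn => hlt n (by omega)
      rw [this]; simp
    | succ t ih =>
      intro i hi P hP hlt hdvd n
      by_cases h3 : 3 * i ≤ 2 * w
      · obtain ⟨g, hg, hlead⟩ := exists_lead w i h3
        obtain ⟨a', ha'⟩ := hdvd i h3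
        set u := coeff i g with hu
        have hodd : Odd u := hlead.coeff_self
        have hP' : IsQZ 3 (2 * (w : ℤ)) (C u * P - C (coeff i P) * g) :=
          (hP.C_mul u).sub (hg.C_mul _)
        have hall := ih (i + 1) (by omega) _ hP' (fun m hm => by
          rw [map_sub, coeff_C_mul, coeff_C_mul]
          rcases Nat.lt_succ_iff_lt_or_eq.mp hm with hm' | rfl
          · rw [hlt m hm', hlead.coeff_lt hm']; ring
          · rw [← hu]; ring) (fun m hm => by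
          rw [map_sub, coeff_C_mul, coeff_C_mul]
          exact dvd_sub (Dvd.dvd.mul_left (hdvd m hm) _) (Dvd.dvd.mul_right (hdvd i h3) _)) n
        rw [map_sub, coeff_C_mul, coeff_C_mul] at hall
        have h1 : (2 : ℤ) ∣ u * coeff n P := by
          have := dvd_add hall (Dvd.dvd.mul_right (hdvd i h3) (coeff n g))
          simpa using this
        have hcop : IsCoprime (2 : ℤ) u := by
          obtain ⟨m, hm⟩ := hodd
          exact ⟨-m, 1, by rw [hm]; ring⟩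
        exact hcop.dvd_of_dvd_mul_left h1
      · have : P = 0 := eq_zero_of_coeff hP fun n hn => hlt n (by omega)
        rw [this]; simp
  exact key (w + 1) 0 (by omega) P h (fun n hn => absurd hn (by omega)) h0

end Fermat.Agent.S16
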