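import Fermat.Agent.S16.Defs
import Fermat.Prelude.Def_CuspForm_HeckeLocal
import Fermat.Prelude.Def_CuspForm_HeckeEvalForms
import Fermat.Prelude.Def_HeckeGalois_EichlerShimura
import Fermat.Agent.S49.Hecke

/-!
# S16, piece DU, auxiliary file: integral coefficient functionals, the `a₁`-pairing is perfect
-/

set_option autoImplicit false
open ModularCurve CuspForm

namespace Fermat.Agent.S16.DU

open Fermat.Agent.S49 (qc)

/-- weight two cusp forms -/
abbrev CF (N : ℕ) := CuspForm (CongruenceSubgroup.Gamma0 N) 2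

noncomputable section

variable (N : ℕ) [NeZero N]

/-- the lattice -/
abbrev Lat := ↥(intLattice N 2)

/-- the Hecke algebra acting on the lattice -/
abbrev TL := ↥(heckeLatticeAlgebra N ∅)

variable {N}

theorem exists_int_qc {f : CF N} (hf : f ∈ intLattice N 2) (k : ℕ) :
    ∃ m : ℤ, qc N k f = (m : ℂ) := by
  induction hf using Submodule.span_induction with
  | mem x hx => exact hx k
  | zero => exact ⟨0, by rw [map_zero]; simp⟩
  | add x y _ _ hx hy =>
    obtain ⟨a, ha⟩ := hx
    obtain ⟨b, hb⟩ := hy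
    exact ⟨a + b, by rw [map_add, ha, hb]; push_cast; rfl⟩
  | smul c x _ hx =>
    obtain ⟨a, ha⟩ := hx
    exact ⟨c * a, by rw [map_zsmul, ha]; push_cast; simp⟩

/-- the `k`-th coefficient, as an integer -/
def cf0 (k : ℕ) (f : Lat N) : ℤ := (exists_int_qc f.2 k).choose

theorem cf0_spec (k : ℕ) (f : Lat N) : ((cf0 k f : ℤ) : ℂ) = qc N k (f : CF N) :=
  (exists_int_qc f.2 k).choose_spec.symm

/-- the `k`-th coefficient, as a linear form on the lattice -/
def cf (k : ℕ) : Lat N →ₗ[ℤ] ℤ where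
  toFun := cf0 k
  map_add' f g := by
    have : ((cf0 k (f + g) : ℤ) : ℂ) = ((cf0 k f + cf0 k g : ℤ) : ℂ) := by
      push_cast
      rw [cf0_spec, cf0_spec, cf0_spec, Submodule.coe_add, map_add]
    exact_mod_cast this
  map_smul' c f := by
    have : ((cf0 k (c • f) : ℤ) : ℂ) = ((c * cf0 k f : ℤ) : ℂ) := by
      push_cast
      rw [cf0_spec, cf0_spec, Submodule.coe_smul, map_zsmul]
      simp
    simpa using (by exact_mod_cast this : cf0 k (c • f) = c * cf0 k f)

theorem cf_spec (k : ℕ) (f : Lat N) : ((cf k f : ℤ) : ℂ) = qc N k (f : CF N) := cf0_spec k f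

theorem cf_zero (f : Lat N) : cf 0 f = 0 := by
  have : ((cf 0 f : ℤ) : ℂ) = ((0 : ℤ) : ℂ) := by
    rw [cf_spec, Fermat.Agent.S49.qc_zero]; simp
  exact_mod_cast this

theorem eq_zero_of_cf (f : Lat N) (h : ∀ k, cf k f = 0) : f = 0 := by
  apply Subtype.ext
  apply Fermat.Agent.S49.eq_zero_of_qc
  intro k
  rw [← cf_spec, h]; simp

omit [NeZero N] in
/-- a cusp form with integral coefficients is in the lattice -/
theorem mem_intLattice_of_int {f : CF N} (h : ∀ k, ∃ m : ℤ, qc N k f = (m : ℂ)) :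
    f ∈ intLattice N 2 :=
  Submodule.subset_span h

/-- restriction of a Hecke operator to the lattice -/
theorem coe_restrict_apply (t : ↥(heckeAlgebra N 2 ∅)) (f : Lat N) :
    (((latticeRestrictHom N ∅ t : TL N) : Module.End ℤ (Lat N)) f : CF N) =
      (t : Module.End ℂ (CF N)) (f : CF N) := rfl

theorem exists_tk (k : ℕ) (hk : 0 < k) :
    ∃ t : TL N, ∀ f : Lat N, cf k f = cf 1 ((t : Module.End ℤ (Lat N)) f) := by
  obtain ⟨t, ht, h⟩ := Fermat.Agent.S49.exists_hecke_qc N k hk
  refine ⟨latticeRestrictHom N ∅ ⟨t, ht⟩, fun f => ?_⟩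
  have : ((cf k f : ℤ) : ℂ) =
      ((cf 1 (((latticeRestrictHom N ∅ ⟨t, ht⟩ : TL N) : Module.End ℤ (Lat N)) f) : ℤ) : ℂ) := by
    rw [cf_spec, cf_spec, coe_restrict_apply, h]
  exact_mod_cast this

/-- the pairing `(f, t) ↦ a₁(t f)` -/
def Phi : Lat N →ₗ[ℤ] (TL N →ₗ[ℤ] ℤ) :=
  LinearMap.mk₂ ℤ (fun f (t : TL N) => cf 1 ((t : Module.End ℤ (Lat N)) f))
    (fun f g t => by simp only [map_add])
    (fun c f t => by simp only [map_smul])
    (fun f t s => by simp only [Subalgebra.coe_add, LinearMap.add_apply, map_add])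
    (fun c f t => by simp only [Subalgebra.coe_smul, LinearMap.smul_apply, map_smul])

@[simp] theorem Phi_apply (f : Lat N) (t : TL N) :
    Phi f t = cf 1 ((t : Module.End ℤ (Lat N)) f) := rfl

theorem Phi_injective : Function.Injective (Phi (N := N)) := by
  refine (injective_iff_map_eq_zero _).mpr fun f hf => ?_
  apply eq_zero_of_cf
  intro k
  rcases Nat.eq_zero_or_pos k with rfl | hk
  · exact cf_zero f
  · obtain ⟨t, h⟩ := exists_tk (N := N) k hk
    rw [h]
    exact congrArg (fun φ => φ t) hf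

theorem TL_comm_apply (s t : TL N) (f : Lat N) :
    (s : Module.End ℤ (Lat N)) ((t : Module.End ℤ (Lat N)) f) =
      (t : Module.End ℤ (Lat N)) ((s : Module.End ℤ (Lat N)) f) := by
  have h : s * t = t * s := mul_comm s t
  have h' : (s : Module.End ℤ (Lat N)) * (t : Module.End ℤ (Lat N)) =
      (t : Module.End ℤ (Lat N)) * (s : Module.End ℤ (Lat N)) := congrArg Subtype.val h
  exact congrArg (fun φ => φ f) h'

theorem Phi_flip_injective : Function.Injective (Phi (N := N)).flip := by
  refine (injective_iff_map_eq_zero _).mpr fun s hs => ?_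
  apply Subtype.ext
  apply LinearMap.ext
  intro f
  apply eq_zero_of_cf
  intro k
  rcases Nat.eq_zero_or_pos k with rfl | hk
  · exact cf_zero _
  · obtain ⟨t, h⟩ := exists_tk (N := N) k hk
    rw [h, TL_comm_apply]
    exact congrArg (fun φ => φ ((t : Module.End ℤ (Lat N)) f)) hs

instance : Module.Finite ℤ (Lat N) := intLattice.moduleFinite N
instance : Module.Free ℤ (Lat N) := intLattice.moduleFree N

theorem finrank_eq : Module.finrank ℤ (Lat N) = Module.finrank ℤ (TL N) := by
  apply le_antisymm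
  · have := LinearMap.finrank_le_finrank_of_injective (Phi_injective (N := N))
    rwa [Module.finrank_linearMap_self] at this
  · have := LinearMap.finrank_le_finrank_of_injective (Phi_flip_injective (N := N))
    rwa [Module.finrank_linearMap_self] at this

/-- a form in the lattice all of whose coefficients are divisible by `c` is `c •` an element of
the lattice -/
theorem exists_smul_eq (c : ℤ) (hc : c ≠ 0) (f : Lat N) (h : ∀ k, c ∣ cf k f) :
    ∃ g : Lat N, c • g = f := by
  have hc' : (c : ℂ) ≠ 0 := by exact_mod_cast hc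
  have hg : ((c : ℂ)⁻¹ • (f : CF N)) ∈ intLattice N 2 := by
    apply mem_intLattice_of_int
    intro k
    obtain ⟨m, hm⟩ := h k
    refine ⟨m, ?_⟩
    rw [map_smul, ← cf_spec, hm]
    push_cast
    rw [smul_eq_mul]
    field_simp
  refine ⟨⟨_, hg⟩, Subtype.ext ?_⟩
  rw [Submodule.coe_smul]
  show c • ((c : ℂ)⁻¹ • (f : CF N)) = f
  rw [← Int.cast_smul_eq_zsmul ℂ c, smul_smul, mul_inv_cancel₀ hc', one_smul]

/-- PERFECTNESS of the `a₁`-pairing. -/
theorem Phi_surjective : Function.Surjective (Phi (N := N)) := by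
  intro lam
  have hfin : Finite ((TL N →ₗ[ℤ] ℤ) ⧸ LinearMap.range (Phi (N := N))) := by
    apply Submodule.finiteQuotientOfFreeOfRankEq
    rw [LinearMap.finrank_range_of_inj Phi_injective, Module.finrank_linearMap_self, finrank_eq]
  -- some positive multiple of `lam` is in the range
  obtain ⟨c, hc, f, hf⟩ : ∃ c : ℤ, c ≠ 0 ∧ ∃ f, Phi f = c • lam := by
    have := Nat.card_pos (α := (TL N →ₗ[ℤ] ℤ) ⧸ LinearMap.range (Phi (N := N)))
    refine ⟨(Nat.card ((TL N →ₗ[ℤ] ℤ) ⧸ LinearMap.range (Phi (N := N))) : ℤ),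
      by exact_mod_cast this.ne', ?_⟩
    have h0 : Nat.card ((TL N →ₗ[ℤ] ℤ) ⧸ LinearMap.range (Phi (N := N))) •
        (Submodule.Quotient.mk lam : (TL N →ₗ[ℤ] ℤ) ⧸ LinearMap.range (Phi (N := N))) = 0 :=
      card_nsmul_eq_zero'
    rw [← Submodule.Quotient.mk_smul, Submodule.Quotient.mk_eq_zero] at h0
    obtain ⟨f, hf⟩ := h0
    exact ⟨f, by rw [hf]; simp⟩
  have hdiv : ∀ k, c ∣ cf k f := by
    intro k
    rcases Nat.eq_zero_or_pos k with rfl | hk
    · rw [cf_zero]; exact dvd_zero c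
    · obtain ⟨t, h⟩ := exists_tk (N := N) k hk
      rw [h, ← Phi_apply, hf]
      exact ⟨lam t, by simp⟩
  obtain ⟨g, hg⟩ := exists_smul_eq c hc f hdiv
  refine ⟨g, ?_⟩
  have : c • Phi g = c • lam := by rw [← map_smul, hg, hf]
  exact smul_right_injective _ hc this

end

end Fermat.Agent.S16.DU
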