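import Fermat.Agent.S16.Defs
import Fermat.Agent.S16.PS
import Fermat.Agent.S16.DualityAux
import Fermat.Prelude.Def_CuspForm_HeckeLocal
import Fermat.Prelude.Def_CuspForm_HeckeEvalForms
import Fermat.Prelude.Def_HeckeGalois_EichlerShimura
import Fermat.Prelude.Def_ModularCurve_ModularUnit
import Fermat.Agent.S49.Hecke

/-!
# S16, piece DU: formal reduction of the statement to congruences between `q`-expansions

`𝕋 = heckeLatticeAlgebra p ∅ ⊆ End_ℤ(L)`, `L = intLattice p 2`,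
`π = latticeRestrictHom ∘ heckeEvalForms : HeckeAlg → 𝕋` (surjective), `ev : HeckeAlg → ℤ` the
Eisenstein system, `eisensteinIdeal p = ker ev`, `J = Ideal.map π (ker ev)`.
-/

set_option autoImplicit false
open ModularCurve CuspForm

namespace Fermat.Agent.S16

namespace DU

open Fermat.Agent.S49 (qc)

noncomputable section

variable (p : ℕ) [Fact p.Prime]

/-- the surjection `HeckeAlg → 𝕋` -/
def pi : HeckeAlg →+* TL p := (latticeRestrictHom p ∅).toRingHom.comp (heckeEvalForms p 2)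

/-- the Eisenstein character -/
def ev : HeckeAlg →ₐ[ℤ] ℤ := MvPolynomial.aeval (eisensteinSystem p)

theorem heckeEvalForms_surjective : Function.Surjective (heckeEvalForms p 2) := by
  rintro ⟨t, ht⟩
  have key : ∀ t ∈ heckeAlgebra p 2 ∅, ∃ Q : HeckeAlg,
      ((heckeEvalForms p 2 Q : ↥(heckeAlgebra p 2 ∅)) : Module.End ℂ (CF p)) = t := by
    intro t ht
    induction ht using Algebra.adjoin_induction with
    | mem x hx =>
      rcases hx with ⟨ℓ, hℓ, hℓN, -, rfl⟩ | ⟨q, hqN, hq, -, rfl⟩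
      · refine ⟨heckeGen ⟨ℓ, hℓ⟩, ?_⟩
        rw [heckeEvalForms_heckeGen_of_not_dvd (ℓ := ⟨ℓ, hℓ⟩) hℓN]
        rfl
      · refine ⟨heckeGen ⟨q, hq⟩, ?_⟩
        rw [heckeEvalForms_heckeGen_of_dvd (q := ⟨q, hq⟩) hqN]
        rfl
    | algebraMap r =>
      refine ⟨MvPolynomial.C r, ?_⟩
      rw [heckeEvalForms_C]
      rfl
    | add x y _ _ hx hy =>
      obtain ⟨a, rfl⟩ := hx
      obtain ⟨b, rfl⟩ := hy
      exact ⟨a + b, by rw [map_add]; rfl⟩
    | mul x y _ _ hx hy =>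
      obtain ⟨a, rfl⟩ := hx
      obtain ⟨b, rfl⟩ := hy
      exact ⟨a * b, by rw [map_mul]; rfl⟩
  obtain ⟨Q, hQ⟩ := key t ht
  exact ⟨Q, Subtype.ext hQ⟩

theorem pi_surjective : Function.Surjective (pi p) :=
  (latticeRestrictHom_surjective p ∅).comp (heckeEvalForms_surjective p)

variable {p}

theorem cf_pi_T {ℓ : ℕ} (hℓ : ℓ.Prime) (hℓp : ℓ ≠ p) (f : Lat p) (k : ℕ) :
    cf k ((pi p (heckeGen ⟨ℓ, hℓ⟩) : Module.End ℤ (Lat p)) f) =
      cf (k * ℓ) f + if ℓ ∣ k then (ℓ : ℤ) * cf (k / ℓ) f else 0 := by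
  have hℓN : ¬ ℓ ∣ p := fun h => hℓp ((Nat.prime_dvd_prime_iff_eq hℓ Fact.out).mp h)
  have h1 : pi p (heckeGen ⟨ℓ, hℓ⟩) =
      latticeRestrictHom p ∅ (heckeAlgebra.T hℓ hℓN (Set.notMem_empty _)) := by
    show latticeRestrictHom p ∅ (heckeEvalForms p 2 (heckeGen ⟨ℓ, hℓ⟩)) = _
    rw [heckeEvalForms_heckeGen_of_not_dvd (ℓ := ⟨ℓ, hℓ⟩) hℓN]
  have : ((cf k ((pi p (heckeGen ⟨ℓ, hℓ⟩) : Module.End ℤ (Lat p)) f) : ℤ) : ℂ) =
      ((cf (k * ℓ) f + if ℓ ∣ k then (ℓ : ℤ) * cf (k / ℓ) f else 0 : ℤ) : ℂ) := by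
    rw [cf_spec, h1, coe_restrict_apply, heckeAlgebra.coe_T, Fermat.Agent.S49.qc_heckeT]
    split_ifs <;> push_cast <;> simp only [cf_spec]
  exact_mod_cast this

theorem cf_pi_U (f : Lat p) (k : ℕ) :
    cf k ((pi p (heckeGen ⟨p, Fact.out⟩) : Module.End ℤ (Lat p)) f) = cf (k * p) f := by
  have h1 : pi p (heckeGen ⟨p, Fact.out⟩) =
      latticeRestrictHom p ∅ (heckeAlgebra.U Fact.out (dvd_refl p) (Set.notMem_empty _)) := by
    show latticeRestrictHom p ∅ (heckeEvalForms p 2 (heckeGen ⟨p, Fact.out⟩)) = _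
    rw [heckeEvalForms_heckeGen_of_dvd (q := ⟨p, Fact.out⟩) (dvd_refl p)]
  have : ((cf k ((pi p (heckeGen ⟨p, Fact.out⟩) : Module.End ℤ (Lat p)) f) : ℤ) : ℂ) =
      ((cf (k * p) f : ℤ) : ℂ) := by
    rw [cf_spec, h1, coe_restrict_apply, heckeAlgebra.coe_U,
      Fermat.Agent.S49.qc_heckeU Fact.out, cf_spec]
  exact_mod_cast this

theorem ev_T {ℓ : ℕ} (hℓ : ℓ.Prime) (hℓp : ℓ ≠ p) : ev p (heckeGen ⟨ℓ, hℓ⟩) = 1 + (ℓ : ℤ) := by
  have hℓN : ¬ ℓ ∣ p := fun h => hℓp ((Nat.prime_dvd_prime_iff_eq hℓ Fact.out).mp h)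
  exact (aeval_heckeGen (eisensteinSystem p) (⟨ℓ, hℓ⟩ : Nat.Primes)).trans
    (eisensteinSystem_of_not_dvd (ℓ := ⟨ℓ, hℓ⟩) hℓN)

theorem ev_U : ev p (heckeGen ⟨p, Fact.out⟩) = 1 := by
  exact (aeval_heckeGen (eisensteinSystem p) (⟨p, Fact.out⟩ : Nat.Primes)).trans
    (eisensteinSystem_of_dvd (ℓ := ⟨p, Fact.out⟩) (dvd_refl p))

theorem dvd_of_eq' {n a b : ℤ} (h : n ∣ a) (e : b = a) : n ∣ b := e ▸ h

/-- `g ≡ c δ (mod n)` -/
def Cong (n : ℤ) (g : Lat p) (c : ℤ) : Prop := ∀ k, n ∣ cf k g - c * sig p k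

theorem coe_pi_C (a : ℤ) (g : Lat p) :
    (pi p (MvPolynomial.C a) : Module.End ℤ (Lat p)) g = a • g := by
  have h : pi p (MvPolynomial.C a) = algebraMap ℤ (TL p) a :=
    RingHom.congr_fun (Subsingleton.elim ((pi p).comp MvPolynomial.C) (algebraMap ℤ (TL p))) a
  rw [h, Subalgebra.coe_algebraMap, Module.algebraMap_end_apply]

theorem coe_intCast_apply (a : ℤ) (g : Lat p) :
    (((a : ℤ) : TL p) : Module.End ℤ (Lat p)) g = a • g := by
  have h : ((a : ℤ) : TL p) = algebraMap ℤ (TL p) a := (eq_intCast _ a).symm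
  rw [h, Subalgebra.coe_algebraMap, Module.algebraMap_end_apply]

theorem Cong.gen {n : ℤ} (i : Nat.Primes) {g : Lat p} {c : ℤ} (h : Cong n g c) :
    Cong n ((pi p (heckeGen i) : Module.End ℤ (Lat p)) g) (ev p (heckeGen i) * c) := by
  intro k
  obtain ⟨ℓ, hℓ⟩ := i
  by_cases hℓp : ℓ = p
  · subst hℓp
    rw [cf_pi_U, ev_U, one_mul, ← sig_mul_self hℓ k, mul_comm ℓ k]
    exact h _
  · rw [cf_pi_T hℓ hℓp, ev_T hℓ hℓp, mul_assoc, mul_left_comm, ← sig_mul_prime Fact.out hℓ hℓp k,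
      mul_comm ℓ k]
    split_ifs with hk
    · have h1 := h (k * ℓ)
      have h2 := (h (k / ℓ)).mul_left (ℓ : ℤ)
      have := dvd_add h1 h2
      refine dvd_of_eq' this ?_
      ring
    · simpa using h (k * ℓ)

theorem Cong.pi {n : ℤ} (Q : HeckeAlg) : ∀ (g : Lat p) (c : ℤ), Cong n g c →
    Cong n ((pi p Q : Module.End ℤ (Lat p)) g) (ev p Q * c) := by
  induction Q using MvPolynomial.induction_on with
  | C a =>
    intro g c h k
    rw [coe_pi_C, map_smul, smul_eq_mul]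
    have : ev p (MvPolynomial.C a) = a := by
      rw [ev, MvPolynomial.aeval_C]; rfl
    rw [this, mul_assoc, ← mul_sub]
    exact (h k).mul_left a
  | add P Q hP hQ =>
    intro g c h k
    rw [map_add, map_add, Subalgebra.coe_add, LinearMap.add_apply, map_add]
    have := dvd_add (hP g c h k) (hQ g c h k)
    refine dvd_of_eq' this ?_
    ring
  | mul_X P i hP =>
    intro g c h
    have h1 := hP _ _ (Cong.gen i h)
    rw [map_mul, map_mul, Subalgebra.coe_mul, Module.End.mul_apply, mul_assoc]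
    exact h1

theorem exists_psi {R : Type*} [CommRing R] [Module.Free ℤ R] (J : Ideal R)
    (hc : ∀ t : R, ∃ c : ℤ, t - ((c : ℤ) : R) ∈ J) :
    ∃ ψ : R →ₗ[ℤ] ℤ, ∀ t, t - ((ψ t : ℤ) : R) ∈ J := by
  classical
  let b := Module.Free.chooseBasis ℤ R
  choose c hc using hc
  refine ⟨b.constr ℤ fun i => c (b i), fun t => ?_⟩
  have ht : t ∈ Submodule.span ℤ (Set.range b) := by rw [b.span_eq]; trivial
  induction ht using Submodule.span_induction with
  | mem x hx =>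
    obtain ⟨i, rfl⟩ := hx
    rw [Module.Basis.constr_basis]
    exact hc _
  | zero => simp
  | add x y _ _ hx hy =>
    rw [map_add]
    push_cast
    have := J.add_mem hx hy
    rwa [sub_add_sub_comm] at this
  | smul a x _ hx =>
    rw [map_smul, smul_eq_mul]
    push_cast
    have := J.mul_mem_left ((a : ℤ) : R) hx
    rwa [mul_sub, ← zsmul_eq_mul] at this

theorem psi_mul {R : Type*} [CommRing R] (J : Ideal R) (ψ : R → ℤ)
    (hψ : ∀ t, t - ((ψ t : ℤ) : R) ∈ J) (s t : R) :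
    (((ψ (s * t) - ψ s * ψ t : ℤ)) : R) ∈ J := by
  have e : (((ψ (s * t) - ψ s * ψ t : ℤ)) : R) =
      -(s * t - ((ψ (s * t) : ℤ) : R)) + t * (s - ((ψ s : ℤ) : R)) +
        ((ψ s : ℤ) : R) * (t - ((ψ t : ℤ) : R)) := by
    push_cast; ring
  rw [e]
  exact J.add_mem (J.add_mem (J.neg_mem (hψ _)) (J.mul_mem_left _ (hψ _)))
    (J.mul_mem_left _ (hψ _))

theorem psi_sub {R : Type*} [CommRing R] (J : Ideal R) (ψ : R → ℤ)
    (hψ : ∀ t, t - ((ψ t : ℤ) : R) ∈ J) (t : R) (c : ℤ) (h : t - ((c : ℤ) : R) ∈ J) :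
    (((ψ t - c : ℤ)) : R) ∈ J := by
  have e : (((ψ t - c : ℤ)) : R) = -(t - ((ψ t : ℤ) : R)) + (t - ((c : ℤ) : R)) := by
    push_cast; ring
  rw [e]
  exact J.add_mem (J.neg_mem (hψ _)) h

theorem coe_mul_apply (s t : TL p) (f : Lat p) :
    ((s * t : TL p) : Module.End ℤ (Lat p)) f =
      (s : Module.End ℤ (Lat p)) ((t : Module.End ℤ (Lat p)) f) := rfl

theorem coe_one_apply (f : Lat p) : ((1 : TL p) : Module.End ℤ (Lat p)) f = f := rfl

/-- the recursion determines the coefficients modulo `m` -/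
theorem rec_sig (m : ℤ) (a : ℕ → ℤ) (h0 : a 0 = 0) (h1 : m ∣ a 1 - 1)
    (hU : ∀ k, m ∣ a (k * p) - a k)
    (hT : ∀ ℓ : ℕ, ℓ.Prime → ℓ ≠ p → ∀ k,
      m ∣ a (k * ℓ) + (if ℓ ∣ k then (ℓ : ℤ) * a (k / ℓ) else 0) - (1 + (ℓ : ℤ)) * a k) :
    ∀ k, m ∣ a k - sig p k := by
  have hp : p.Prime := Fact.out
  intro k
  induction k using Nat.strong_induction_on with
  | _ k ih =>
    rcases Nat.lt_or_ge 1 k with hk1 | hk1
    · obtain ⟨k', hk'⟩ := Nat.minFac_dvd k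
      set ℓ := k.minFac with hℓ_def
      have hℓ : ℓ.Prime := Nat.minFac_prime hk1.ne'
      have hk'0 : 0 < k' := by
        rcases Nat.eq_zero_or_pos k' with h | h
        · subst h; omega
        · exact h
      have hk'k : k' < k := by
        rw [hk']; exact (Nat.lt_mul_iff_one_lt_left hk'0).mpr hℓ.one_lt
      have ih1 := ih k' hk'k
      by_cases hℓp : ℓ = p
      · rw [hk', hℓp, sig_mul_self hp, mul_comm p k']
        refine dvd_of_eq' (dvd_add (hU k') ih1) ?_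
        ring
      · have e1 := hT ℓ hℓ hℓp k'
        have e3 := sig_mul_prime hp hℓ hℓp k'
        rw [hk']
        by_cases hd : ℓ ∣ k'
        · rw [if_pos hd] at e1 e3
          have ih2 := ih (k' / ℓ) (lt_of_le_of_lt (Nat.div_le_self _ _) hk'k)
          refine dvd_of_eq' (dvd_sub (dvd_add e1 (ih1.mul_left (1 + (ℓ : ℤ))))
            (ih2.mul_left (ℓ : ℤ))) ?_
          rw [mul_comm k' ℓ]
          linear_combination (-1 : ℤ) * e3
        · rw [if_neg hd] at e1 e3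
          refine dvd_of_eq' (dvd_add e1 (ih1.mul_left (1 + (ℓ : ℤ)))) ?_
          rw [mul_comm k' ℓ]
          linear_combination (-1 : ℤ) * e3
    · interval_cases k
      · simp [h0, sig]
      · rw [sig_one hp.one_lt]; exact h1

theorem step3 (J : Ideal (TL p)) (m : ℤ) (hmdvd : ∀ c : ℤ, ((c : ℤ) : TL p) ∈ J ↔ m ∣ c)
    (h1 : ∀ Q, pi p Q - ((ev p Q : ℤ) : TL p) ∈ J) :
    ∃ f : Lat p, ∀ k, m ∣ cf k f - sig p k := by
  have hc : ∀ t : TL p, ∃ c : ℤ, t - ((c : ℤ) : TL p) ∈ J := by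
    intro t
    obtain ⟨Q, rfl⟩ := pi_surjective p t
    exact ⟨_, h1 Q⟩
  obtain ⟨ψ, hψ⟩ := exists_psi J hc
  obtain ⟨f, hf⟩ := Phi_surjective (N := p) ψ
  have hf' : ∀ t : TL p, cf 1 ((t : Module.End ℤ (Lat p)) f) = ψ t := fun t => by
    rw [← Phi_apply, hf]
  have hmul : ∀ s t, m ∣ ψ (s * t) - ψ s * ψ t := fun s t =>
    (hmdvd _).1 (psi_mul J ψ hψ s t)
  have key : ∀ k (s : TL p), m ∣ cf k ((s : Module.End ℤ (Lat p)) f) - cf k f * ψ s := by
    intro k s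
    rcases Nat.eq_zero_or_pos k with rfl | hk
    · simp [cf_zero]
    · obtain ⟨t, ht⟩ := exists_tk (N := p) k hk
      rw [ht, ht f, ← coe_mul_apply, hf', hf']
      exact hmul t s
  have hψπ : ∀ Q, m ∣ ψ (pi p Q) - ev p Q := fun Q =>
    (hmdvd _).1 (psi_sub J ψ hψ _ _ (h1 Q))
  have hone : m ∣ cf 1 f - 1 := by
    have e0 : cf 1 f = ψ 1 := by rw [← hf', coe_one_apply]
    rw [e0]
    refine (hmdvd _).1 (psi_sub J ψ hψ 1 1 ?_)
    simp
  refine ⟨f, rec_sig m (fun k => cf k f) (cf_zero f) hone ?_ ?_⟩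
  · intro k
    have e1 := key k (pi p (heckeGen ⟨p, Fact.out⟩))
    have e2 := hψπ (heckeGen ⟨p, Fact.out⟩)
    rw [cf_pi_U] at e1
    rw [ev_U] at e2
    refine dvd_of_eq' (dvd_add e1 (e2.mul_left (cf k f))) ?_
    ring
  · intro ℓ hℓ hℓp k
    have e1 := key k (pi p (heckeGen ⟨ℓ, hℓ⟩))
    have e2 := hψπ (heckeGen ⟨ℓ, hℓ⟩)
    rw [cf_pi_T hℓ hℓp] at e1
    rw [ev_T hℓ hℓp] at e2
    refine dvd_of_eq' (dvd_add e1 (e2.mul_left (cf k f))) ?_
    ring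

theorem step2 (n m : ℤ) (f₀ : Lat p) (hC : Cong n f₀ 1) (Q : HeckeAlg) (hQ0 : ev p Q = 0)
    (hQ : pi p Q = ((m : ℤ) : TL p)) : n ∣ m := by
  have hp : p.Prime := Fact.out
  have h2 := Cong.pi Q _ _ hC 1
  rw [hQ, hQ0, coe_intCast_apply, map_smul, smul_eq_mul, zero_mul, zero_mul, sub_zero] at h2
  have h3 := hC 1
  rw [sig_one hp.one_lt, mul_one] at h3
  refine dvd_of_eq' (dvd_sub h2 (h3.mul_left m)) ?_
  ring

theorem exists_lat_of_isCuspQZ {P : PowerSeries ℤ} (hP : IsCuspQZ p 2 P) :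
    ∃ f : Lat p, ∀ k, cf k f = PowerSeries.coeff k P := by
  obtain ⟨f₀, hf₀⟩ := hP
  have hqc : ∀ k, Fermat.Agent.S49.qc p k f₀ = ((PowerSeries.coeff k P : ℤ) : ℂ) := by
    intro k
    show (UpperHalfPlane.qExpansion 1 f₀).coeff k = _
    rw [hf₀]
    simp [toC]
  have hmem : f₀ ∈ intLattice p 2 := mem_intLattice_of_int fun k => ⟨_, hqc k⟩
  refine ⟨⟨f₀, hmem⟩, fun k => ?_⟩
  have : ((cf k (⟨f₀, hmem⟩ : Lat p) : ℤ) : ℂ) = ((PowerSeries.coeff k P : ℤ) : ℂ) := by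
    rw [cf_spec, hqc]
  exact_mod_cast this

theorem isCuspQZ_of_lat (f : Lat p) : IsCuspQZ p 2 (PowerSeries.mk fun k => cf k f) := by
  refine ⟨(f : CF p), ?_⟩
  ext k
  have : (UpperHalfPlane.qExpansion 1 (f : CF p)).coeff k =
      Fermat.Agent.S49.qc p k (f : CF p) := rfl
  rw [this, ← cf_spec]
  simp [toC]

/-- pure algebra: the cardinality of a quotient generated by `1` -/
theorem card_quot {R : Type*} [CommRing R] (J : Ideal R)
    (hc : ∀ t : R, ∃ c : ℤ, t - ((c : ℤ) : R) ∈ J) :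
    ∃ m : ℤ, (∀ c : ℤ, ((c : ℤ) : R) ∈ J ↔ m ∣ c) ∧ Nat.card (R ⧸ J) = m.natAbs := by
  set ι : ℤ →+* R ⧸ J := Int.castRingHom _ with hι
  have hιmem : ∀ c : ℤ, c ∈ RingHom.ker ι ↔ ((c : ℤ) : R) ∈ J := by
    intro c
    rw [RingHom.mem_ker, ← Ideal.Quotient.eq_zero_iff_mem, map_intCast]
    rfl
  have hsurj : Function.Surjective ι := by
    intro x
    obtain ⟨t, rfl⟩ := Ideal.Quotient.mk_surjective x
    obtain ⟨c, hc⟩ := hc t
    refine ⟨c, ?_⟩
    have := (Ideal.Quotient.mk_eq_mk_iff_sub_mem _ _).2 hc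
    rw [this, map_intCast]
    rfl
  obtain ⟨m, hm⟩ : ∃ m : ℤ, RingHom.ker ι = Ideal.span {m} :=
    (IsPrincipalIdealRing.principal (RingHom.ker ι)).principal
  refine ⟨m, fun c => ?_, ?_⟩
  · rw [← hιmem, hm, Ideal.mem_span_singleton]
  · rw [← Nat.card_congr (RingHom.quotientKerEquivOfSurjective hsurj).toEquiv, hm,
      Nat.card_congr (Int.quotientSpanEquivZMod m).toEquiv, Nat.card_zmod]

end

end DU

open DU in
theorem card_eq_of (p : ℕ) [Fact p.Prime] (n : ℕ) (hn : 0 < n)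
    (hα : ∀ (M : ℕ) (P : PowerSeries ℤ), 0 < M → IsCuspQZ p 2 P → PSModEq (M : ℤ) P (delta p) →
      M ∣ n)
    (hβ : ∃ P : PowerSeries ℤ, IsCuspQZ p 2 P ∧ PSModEq (n : ℤ) P (delta p)) :
    Nat.card (↥(heckeLatticeAlgebra p ∅) ⧸
        Ideal.map ((latticeRestrictHom p ∅).toRingHom.comp (heckeEvalForms p 2))
          (eisensteinIdeal p)) = n := by
  set J : Ideal (TL p) := Ideal.map (DU.pi p) (eisensteinIdeal p) with hJ
  show Nat.card (TL p ⧸ J) = n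
  have hJmem : ∀ x, x ∈ J ↔ ∃ Q, ev p Q = 0 ∧ DU.pi p Q = x := by
    intro x
    rw [hJ, Ideal.mem_map_iff_of_surjective _ (pi_surjective p)]
    constructor
    · rintro ⟨Q, hQ, rfl⟩
      exact ⟨Q, (mem_eigenIdeal_iff _ _).1 hQ, rfl⟩
    · rintro ⟨Q, hQ, rfl⟩
      exact ⟨Q, (mem_eigenIdeal_iff _ _).2 hQ, rfl⟩
  have h1 : ∀ Q, DU.pi p Q - ((ev p Q : ℤ) : TL p) ∈ J := by
    intro Q
    rw [hJmem]
    refine ⟨Q - MvPolynomial.C (ev p Q), ?_, ?_⟩
    · rw [map_sub]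
      have : ev p (MvPolynomial.C (ev p Q)) = ev p Q := by
        rw [ev, MvPolynomial.aeval_C]; rfl
      rw [this, sub_self]
    · rw [map_sub]
      congr 1
      exact RingHom.congr_fun
        (Subsingleton.elim ((DU.pi p).comp MvPolynomial.C) (Int.castRingHom (TL p))) _
  have hc : ∀ t : TL p, ∃ c : ℤ, t - ((c : ℤ) : TL p) ∈ J := by
    intro t
    obtain ⟨Q, rfl⟩ := pi_surjective p t
    exact ⟨_, h1 Q⟩
  obtain ⟨m, hmdvd, hcard⟩ := card_quot J hc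
  rw [hcard]
  -- Step 2
  have hnm : (n : ℤ) ∣ m := by
    obtain ⟨P, hP, hPδ⟩ := hβ
    obtain ⟨f₀, hf₀⟩ := exists_lat_of_isCuspQZ hP
    have hC : Cong (n : ℤ) f₀ 1 := by
      intro k
      have := hPδ k
      rw [map_sub, coeff_delta] at this
      rwa [hf₀, one_mul]
    obtain ⟨Q, hQ0, hQ⟩ := (hJmem _).1 ((hmdvd m).2 dvd_rfl)
    exact step2 _ _ f₀ hC Q hQ0 hQ
  -- Step 3
  have hmn : m ∣ (n : ℤ) := by
    obtain ⟨f, hall⟩ := step3 J m hmdvd h1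
    have hfin : ∀ M : ℕ, 0 < M → (M : ℤ) ∣ m → M ∣ n := by
      intro M hM hMm
      refine hα M _ hM (isCuspQZ_of_lat f) fun k => ?_
      rw [map_sub, coeff_delta, PowerSeries.coeff_mk]
      exact hMm.trans (hall k)
    by_cases hm0 : m = 0
    · exfalso
      have := hfin (n + 1) (Nat.succ_pos n) (by rw [hm0]; exact dvd_zero _)
      have := Nat.le_of_dvd hn this
      omega
    · have := hfin m.natAbs (Int.natAbs_pos.2 hm0)
        (by rw [Int.natCast_natAbs]; exact (abs_dvd m m).2 dvd_rfl)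
      exact Int.natAbs_dvd.1 (by exact_mod_cast this)
  have := Int.natAbs_dvd_natAbs.2 hmn
  have h' := Int.natAbs_dvd_natAbs.2 hnm
  rw [Int.natAbs_natCast] at this h'
  exact Nat.dvd_antisymm this h'

end Fermat.Agent.S16
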