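import Fermat.Agent.S16.ThetaDefs

/-!
# S16, theta half, piece TH-A: existence of the lattice data (Dirichlet + quadratic reciprocity)
-/

set_option autoImplicit false

namespace Fermat.Agent.S16

/-- Dirichlet + CRT: a prime `q ≡ 3 (4)` with prescribed nonzero residue mod the odd prime `p`. -/
theorem thA_exists_prime (p : ℕ) [Fact p.Prime] (hp : p ≠ 2) (u : ZMod p) (hu : u ≠ 0) :
    ∃ q : ℕ, q.Prime ∧ q % 4 = 3 ∧ (q : ZMod p) = u := by
  have hpp : p.Prime := Fact.out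
  have hcop : Nat.Coprime 4 p := by
    have h2 : Nat.Coprime 2 p := (Nat.coprime_primes Nat.prime_two hpp).2 (Ne.symm hp)
    exact Nat.Coprime.pow_left 2 h2
  haveI : NeZero (4 * p) := ⟨by have := hpp.pos; omega⟩
  set e := ZMod.chineseRemainder hcop with he
  have hunit : IsUnit (e.symm ((3 : ZMod 4), u)) := by
    apply IsUnit.map e.symm
    rw [Prod.isUnit_iff]
    refine ⟨?_, hu.isUnit⟩
    exact ⟨⟨3, 3, by decide, by decide⟩, rfl⟩
  obtain ⟨q, -, hq, hqa⟩ := Nat.forall_exists_prime_gt_and_eq_mod hunit 0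
  have h1 : e (q : ZMod (4 * p)) = ((3 : ZMod 4), u) := by rw [hqa]; simp
  rw [map_natCast] at h1
  have h2 : ((q : ZMod 4)) = 3 := congrArg Prod.fst h1
  have h3 : ((q : ZMod p)) = u := congrArg Prod.snd h1
  refine ⟨q, hq, ?_, h3⟩
  have h4 : ((q : ZMod 4)) = ((3 : ℕ) : ZMod 4) := by rw [h2]; rfl
  rw [ZMod.natCast_eq_natCast_iff'] at h4
  simpa using h4

/-- Choose a non-residue `ν` mod `p` and (Dirichlet, `Nat.forall_exists_prime_gt_and_eq_mod` with modulus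
`4 p`, CRT) a prime `q ≡ 3 (4)`, `q ≡ -ν (p)`.  Then `-q ≡ ν` is not a square mod `p`, and by quadratic
reciprocity `(-p/q) = (-1/q)(p/q) = -(p/q) = -(-1)^{(p-1)/2}(q/p) = -(-q/p) = 1`, so there is `r` with
`q ∣ r² + p`.  `s = (q+1)/4`, `t = (r²+p)/q`. -/
theorem exists_latData (p : ℕ) [Fact p.Prime] (hp : p ≠ 2) :
    ∃ q r s t : ℤ, 0 < q ∧ 4 * s = q + 1 ∧ q * t = r ^ 2 + p ∧ ¬ IsSquare ((-q : ℤ) : ZMod p) := by
  have hpp : p.Prime := Fact.out
  obtain ⟨ν, hν⟩ := FiniteField.exists_nonsquare (F := ZMod p) (by rw [ZMod.ringChar_zmod_n]; exact hp)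
  have hν0 : ν ≠ 0 := by rintro rfl; exact hν (IsSquare.zero)
  obtain ⟨q, hq, hq4, hqν⟩ := thA_exists_prime p hp (-ν) (neg_ne_zero.2 hν0)
  haveI : Fact q.Prime := ⟨hq⟩
  have hq2 : q ≠ 2 := by rintro rfl; omega
  have hqp : q ≠ p := by
    rintro rfl
    rw [ZMod.natCast_self] at hqν
    exact hν0 (by simpa using hqν.symm)
  have hnsq : ¬ IsSquare ((-(q : ℤ) : ℤ) : ZMod p) := by
    have : ((-(q : ℤ) : ℤ) : ZMod p) = ν := by push_cast; rw [hqν]; ring
    rw [this]; exact hν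
  have hrec := quadraticChar_odd_prime (F := ZMod q) (by rw [ZMod.ringChar_zmod_n]; exact hq2) hp
    (by rw [ZMod.ringChar_zmod_n]; exact hqp)
  rw [ZMod.card, ZMod.χ₄_nat_three_mod_four hq4] at hrec
  have h1 : quadraticChar (ZMod p) (((-1 : ℤ) : ZMod p) * (q : ZMod p)) = -1 := by
    rw [quadraticChar_neg_one_iff_not_isSquare]
    have : (((-1 : ℤ) : ZMod p) * (q : ZMod p)) = ν := by push_cast; rw [hqν]; ring
    rw [this]; exact hν
  rw [h1] at hrec
  have hm1 := quadraticChar_neg_one (F := ZMod q) (by rw [ZMod.ringChar_zmod_n]; exact hq2)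
  rw [ZMod.card, ZMod.χ₄_nat_three_mod_four hq4] at hm1
  have h2 : quadraticChar (ZMod q) (-(p : ZMod q)) = 1 := by
    have : (-(p : ZMod q)) = (-1) * (p : ZMod q) := by ring
    rw [this, map_mul, hm1, hrec]; norm_num
  have hp0 : (-(p : ZMod q)) ≠ 0 := by
    intro h
    rw [h] at h2
    simp at h2
  obtain ⟨r, hr⟩ := (quadraticChar_one_iff_isSquare hp0).1 h2
  have hdvd : (q : ℤ) ∣ (r.val : ℤ) ^ 2 + p := by
    rw [← ZMod.intCast_zmod_eq_zero_iff_dvd]
    push_cast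
    rw [ZMod.natCast_zmod_val]
    have : (p : ZMod q) = -(r * r) := by rw [← hr]; ring
    rw [this]; ring
  obtain ⟨t, ht⟩ := hdvd
  refine ⟨q, r.val, ((q + 1) / 4 : ℕ), t, by exact_mod_cast hq.pos, ?_, ht.symm, hnsq⟩
  have : 4 * ((q + 1) / 4) = q + 1 := by omega
  exact_mod_cast this

end Fermat.Agent.S16
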