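import Fermat.Agent.S16.ThetaConcreteAlg

/-!
# S16, theta half, piece TH-C: the concrete lattice satisfies `IsLat`
-/

set_option autoImplicit false

namespace Fermat.Agent.S16

open Complex Matrix

theorem isLat_QF (p : ℕ) [Fact p.Prime] (hp : p ≠ 2) (q r s t : ℤ) (hq0 : 0 < q)
    (hs : 4 * s = q + 1) (ht : q * t = r ^ 2 + p) (hq : ¬ IsSquare ((-q : ℤ) : ZMod p)) :
    IsLat p (matA r s t p) (matB q r s t) (QF r s t (p : ℤ)) (QFd q r s t) :=
  isLat_QF_aux p hp q r s t hq0 hs ht hq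

end Fermat.Agent.S16
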