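import Fermat.Agent.S16.Defs
import Fermat.Agent.S20.CombIndex

/-!
# S16, piece COS: cosets of `Γ₀(p)`, generators of `Γ₀(p)`, criteria to build modular forms
-/

set_option autoImplicit false

namespace Fermat.Agent.S16

open UpperHalfPlane ModularForm CongruenceSubgroup
open scoped MatrixGroups ModularForm Manifold

/-- `SL₂(ℤ) = Γ₀(p) ∪ ⋃_j Γ₀(p) S T^j`.  (`γ = [a b; c d]`, `p ∤ c`: choose `j` with `c j ≡ d (p)`;
`γ (S T^j)⁻¹ = [aj-b, a; cj-d, c]`.) -/
theorem exists_coset (p : ℕ) [Fact p.Prime] (γ : SL(2, ℤ)) :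
    γ ∈ Gamma0 p ∨ ∃ γ₀ ∈ Gamma0 p, ∃ j : ℤ, γ = γ₀ * ModularGroup.S * ModularGroup.T ^ j := by
  by_cases hc : ((γ 1 0 : ℤ) : ZMod p) = 0
  · exact Or.inl (Gamma0_mem.mpr hc)
  · right
    set j : ℤ := (((((γ 1 1 : ℤ) : ZMod p) * ((γ 1 0 : ℤ) : ZMod p)⁻¹).val : ℕ) : ℤ) with hj
    refine ⟨γ * (ModularGroup.S * ModularGroup.T ^ j)⁻¹, ?_, j, ?_⟩
    · rw [Gamma0_mem]
      have h : (γ * (ModularGroup.S * ModularGroup.T ^ j)⁻¹) 1 0 = γ 1 0 * j - γ 1 1 := by
        simp [Matrix.adjugate_fin_two, Matrix.mul_apply, Fin.sum_univ_two, ModularGroup.coe_S,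
          ModularGroup.coe_T_zpow]
        ring
      rw [h, hj]
      push_cast
      rw [ZMod.natCast_zmod_val]
      field_simp
      ring
    · group

theorem index_Gamma0_le (p : ℕ) [Fact p.Prime] : (Gamma0 p).index ≤ p + 1 := by
  have hp : p.Prime := Fact.out
  have : NeZero p := ⟨hp.ne_zero⟩
  rw [S20.index_Gamma0 p]
  have := S20.dedekindPsi_prime_pow hp 0
  simp only [zero_add, pow_one, pow_zero] at this
  exact this.le

lemma cos_mem_of_c_eq_zero (K : Subgroup SL(2, ℤ)) (hT : ModularGroup.T ∈ K)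
    (hneg : (-1 : SL(2, ℤ)) ∈ K) (γ : SL(2, ℤ)) (hc : γ 1 0 = 0) : γ ∈ K := by
  have hdet := γ.det_coe
  rw [Matrix.det_fin_two, hc, mul_zero, sub_zero] at hdet
  rcases Int.eq_one_or_neg_one_of_mul_eq_one' hdet with ⟨h0, h1⟩ | ⟨h0, h1⟩
  · have : γ = ModularGroup.T ^ (γ 0 1) := by
      ext i j
      fin_cases i <;> fin_cases j <;> simp [ModularGroup.coe_T_zpow, h0, h1, hc]
    rw [this]
    exact K.zpow_mem hT _
  · have : γ = -1 * ModularGroup.T ^ (-(γ 0 1)) := by
      ext i j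
      fin_cases i <;> fin_cases j <;> simp [ModularGroup.coe_T_zpow, h0, h1, hc]
    rw [this]
    exact K.mul_mem hneg (K.zpow_mem hT _)

lemma cos_exists_delta (p : ℕ) [Fact p.Prime] (a₀ : ℤ) (ha : ¬ (p : ℤ) ∣ a₀) :
    ∃ δ : SL(2, ℤ), δ 0 0 = a₀ ∧ δ 1 0 = (p : ℤ) := by
  have hp : p.Prime := Fact.out
  have hcop : IsCoprime (p : ℤ) a₀ :=
    (Prime.coprime_iff_not_dvd (Nat.prime_iff_prime_int.mp hp)).mpr ha
  obtain ⟨y, x, hxy⟩ := hcop
  refine ⟨⟨!![a₀, -y; (p : ℤ), x], ?_⟩, rfl, rfl⟩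
  rw [Matrix.det_fin_two_of]
  linear_combination hxy

/-- `Γ₀(p)` is generated by `T`, `-1` and the matrices with lower left entry *exactly* `p`.
Descent on `|c'|`, `γ = [a b; p c' d]`: right multiplication by `[a₀ b₀; p d₀]` (which exists for
every `a₀` prime to `p`) replaces `c'` by `c' a₀ + d`; the two values of `a₀` with
`|c' a₀ + d| < |c'|` are consecutive integers (`gcd(c',d)=1`, `|c'| ≥ 2`), so one of them is prime
to `p`.  `c' = 0`: `± T^n`. -/
theorem Gamma0_le_of_generators (p : ℕ) [Fact p.Prime] (K : Subgroup SL(2, ℤ))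
    (hT : ModularGroup.T ∈ K) (hneg : (-1 : SL(2, ℤ)) ∈ K)
    (h : ∀ γ : SL(2, ℤ), γ 1 0 = (p : ℤ) → γ ∈ K) : Gamma0 p ≤ K := by
  have hp : p.Prime := Fact.out
  have key : ∀ n : ℕ, ∀ γ : SL(2, ℤ), ∀ c' : ℤ, γ 1 0 = p * c' → c'.natAbs = n → γ ∈ K := by
    intro n
    induction n using Nat.strong_induction_on with
    | _ n ih =>
      intro γ c' hc hn
      have step : ∀ a₀ : ℤ, ¬ (p : ℤ) ∣ a₀ → (c' * a₀ + γ 1 1).natAbs < n → γ ∈ K := by
        intro a₀ ha hlt
        obtain ⟨δ, hδ0, hδ1⟩ := cos_exists_delta p a₀ ha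
        have h10 : (γ * δ) 1 0 = p * (c' * a₀ + γ 1 1) := by
          simp only [Matrix.SpecialLinearGroup.coe_mul, Matrix.mul_apply, Fin.sum_univ_two]
          rw [hδ0, hδ1, hc]
          ring
        have h1 : γ * δ ∈ K := ih _ hlt (γ * δ) _ h10 rfl
        have h2 : δ ∈ K := h δ hδ1
        have : γ = (γ * δ) * δ⁻¹ := by group
        rw [this]
        exact K.mul_mem h1 (K.inv_mem h2)
      rcases Nat.lt_or_ge n 2 with hn2 | hn2
      · interval_cases n
        · have : c' = 0 := Int.natAbs_eq_zero.mp hn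
          rw [this, mul_zero] at hc
          exact cos_mem_of_c_eq_zero K hT hneg γ hc
        · rcases Int.natAbs_eq c' with h1 | h1
          · rw [hn] at h1
            exact h γ (by rw [hc, h1]; simp)
          · rw [hn] at h1
            have h2 : -γ ∈ K := h (-γ) (by
              simp only [Matrix.SpecialLinearGroup.coe_neg, Matrix.neg_apply]
              rw [hc, h1]; simp)
            have : γ = -1 * -γ := by simp
            rw [this]
            exact K.mul_mem hneg h2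
      · have hc0 : c' ≠ 0 := by
          intro h0
          rw [h0] at hn
          simp at hn
          omega
        set d := γ 1 1 with hd
        set r := d % c' with hr
        have hr0 : 0 ≤ r := Int.emod_nonneg _ hc0
        have hrlt : r < |c'| := Int.emod_lt_abs _ hc0
        have hdr : c' * (d / c') + r = d := Int.mul_ediv_add_emod d c'
        have habs : |c'| = (n : ℤ) := by rw [← hn, Int.abs_eq_natAbs]
        have hrne : r ≠ 0 := by
          intro h0
          have hdvd : c' ∣ d := Int.dvd_of_emod_eq_zero h0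
          have hdet := γ.det_coe
          rw [Matrix.det_fin_two, hc] at hdet
          have h1 : c' ∣ 1 := by
            rw [← hdet]
            exact dvd_sub (Dvd.dvd.mul_left hdvd _) (Dvd.dvd.mul_left (Dvd.intro_left _ rfl) _)
          have := Int.natAbs_dvd_natAbs.mpr h1
          simp only [Int.natAbs_one, Nat.dvd_one] at this
          omega
        by_cases ha : (p : ℤ) ∣ -(d / c')
        · refine step (-(d / c') - Int.sign c') ?_ ?_
          · intro h2
            have h3 : (p : ℤ) ∣ Int.sign c' := by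
              have := dvd_sub ha h2
              simpa using this
            have h4 : (Int.sign c').natAbs = 1 := by
              rw [Int.natAbs_sign_of_ne_zero hc0]
            have h5 := Int.natAbs_dvd_natAbs.mpr h3
            rw [h4, Int.natAbs_natCast, Nat.dvd_one] at h5
            exact hp.one_lt.ne' h5
          · have e : c' * (-(d / c') - Int.sign c') + d = r - |c'| := by
              have : c' * Int.sign c' = |c'| := by rw [Int.mul_sign_self, Int.abs_eq_natAbs]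
              linear_combination hdr.symm - this
            rw [e, habs]
            omega
        · refine step (-(d / c')) ha ?_
          have e : c' * (-(d / c')) + d = r := by linear_combination hdr.symm
          rw [e]
          omega
  intro γ hγ
  rw [Gamma0_mem, ZMod.intCast_zmod_eq_zero_iff_dvd] at hγ
  obtain ⟨c', hc'⟩ := hγ
  exact key _ γ c' hc' rfl

lemma cos_slash_T_zpow_apply (k : ℤ) (G : ℍ → ℂ) (j : ℤ) (z : ℍ) :
    (G ∣[k] (ModularGroup.T ^ j : SL(2, ℤ))) z = G ((j : ℝ) +ᵥ z) := by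
  rw [ModularForm.SL_slash_apply, UpperHalfPlane.modular_T_zpow_smul]
  have : denom ((ModularGroup.T ^ j : SL(2, ℤ)) : GL (Fin 2) ℝ) z = 1 := by
    rw [ModularGroup.denom_apply, ModularGroup.coe_T_zpow]
    simp
  rw [this, one_zpow, mul_one]

lemma cos_isBoundedAtImInfty_slash_T_zpow (k : ℤ) {G : ℍ → ℂ} (hG : IsBoundedAtImInfty G)
    (j : ℤ) : IsBoundedAtImInfty (G ∣[k] (ModularGroup.T ^ j : SL(2, ℤ))) := by
  rw [isBoundedAtImInfty_iff] at hG ⊢
  obtain ⟨M, A, h⟩ := hG
  refine ⟨M, A, fun z hz => ?_⟩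
  rw [cos_slash_T_zpow_apply]
  exact h _ (by rwa [UpperHalfPlane.vadd_im])

lemma cos_isZeroAtImInfty_slash_T_zpow (k : ℤ) {G : ℍ → ℂ} (hG : IsZeroAtImInfty G)
    (j : ℤ) : IsZeroAtImInfty (G ∣[k] (ModularGroup.T ^ j : SL(2, ℤ))) := by
  rw [isZeroAtImInfty_iff] at hG ⊢
  intro ε hε
  obtain ⟨A, h⟩ := hG ε hε
  refine ⟨A, fun z hz => ?_⟩
  rw [cos_slash_T_zpow_apply]
  exact h _ (by rwa [UpperHalfPlane.vadd_im])

/-- Criterion for level `Γ₀(p)`: only the cusps `∞` and `0` have to be checked. -/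
theorem exists_modularForm_Gamma0 (p : ℕ) [Fact p.Prime] (k : ℤ) (F : ℍ → ℂ) (hol : MDiff F)
    (inv : ∀ γ ∈ Gamma0 p, F ∣[k] γ = F) (b1 : IsBoundedAtImInfty F)
    (b2 : IsBoundedAtImInfty (F ∣[k] ModularGroup.S)) :
    ∃ f : ModularForm (Gamma0 p) k, ⇑f = F := by
  have : NeZero p := ⟨(Fact.out : p.Prime).ne_zero⟩
  refine ⟨{ toFun := F, slash_action_eq' := ?_, holo' := hol, bdd_at_cusps' := ?_ }, rfl⟩
  · rintro _ ⟨γ, hγ, rfl⟩
    exact inv γ hγ
  · intro c hc
    rw [Subgroup.IsArithmetic.isCusp_iff_isCusp_SL2Z] at hc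
    rw [OnePoint.isBoundedAt_iff_forall_SL2Z hc]
    intro γ _
    rcases exists_coset p γ with hγ | ⟨γ₀, hγ₀, j, rfl⟩
    · show IsBoundedAtImInfty (F ∣[k] γ)
      rw [inv γ hγ]; exact b1
    · show IsBoundedAtImInfty (F ∣[k] (γ₀ * ModularGroup.S * ModularGroup.T ^ j : SL(2, ℤ)))
      rw [SlashAction.slash_mul, SlashAction.slash_mul, inv γ₀ hγ₀]
      exact cos_isBoundedAtImInfty_slash_T_zpow k b2 j

theorem exists_cuspForm_Gamma0 (p : ℕ) [Fact p.Prime] (k : ℤ) (F : ℍ → ℂ) (hol : MDiff F)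
    (inv : ∀ γ ∈ Gamma0 p, F ∣[k] γ = F) (b1 : IsZeroAtImInfty F)
    (b2 : IsZeroAtImInfty (F ∣[k] ModularGroup.S)) :
    ∃ f : CuspForm (Gamma0 p) k, ⇑f = F := by
  have : NeZero p := ⟨(Fact.out : p.Prime).ne_zero⟩
  refine ⟨{ toFun := F, slash_action_eq' := ?_, holo' := hol, zero_at_cusps' := ?_ }, rfl⟩
  · rintro _ ⟨γ, hγ, rfl⟩
    exact inv γ hγ
  · intro c hc
    rw [Subgroup.IsArithmetic.isCusp_iff_isCusp_SL2Z] at hc
    rw [OnePoint.isZeroAt_iff_forall_SL2Z hc]
    intro γ _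
    rcases exists_coset p γ with hγ | ⟨γ₀, hγ₀, j, rfl⟩
    · show IsZeroAtImInfty (F ∣[k] γ)
      rw [inv γ hγ]; exact b1
    · show IsZeroAtImInfty (F ∣[k] (γ₀ * ModularGroup.S * ModularGroup.T ^ j : SL(2, ℤ)))
      rw [SlashAction.slash_mul, SlashAction.slash_mul, inv γ₀ hγ₀]
      exact cos_isZeroAtImInfty_slash_T_zpow k b2 j

/-- Criterion for level one. -/
theorem exists_modularForm_levelOne (k : ℤ) (F : ℍ → ℂ) (hol : MDiff F)
    (hS : F ∣[k] ModularGroup.S = F) (hT : F ∣[k] ModularGroup.T = F)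
    (b : IsBoundedAtImInfty F) : ∃ f : ModularForm 𝒮ℒ k, ⇑f = F := by
  have hinv : ∀ γ : SL(2, ℤ), F ∣[k] γ = F := by
    intro γ
    have hγ : γ ∈ Subgroup.closure {ModularGroup.S, ModularGroup.T} := by
      simp [SpecialLinearGroup.SL2Z_generators]
    induction hγ using Subgroup.closure_induction with
    | mem x hx =>
      rcases hx with rfl | rfl
      · exact hS
      · exact hT
    | one => exact SlashAction.slash_one _ _
    | mul x y _ _ hx hy => rw [SlashAction.slash_mul, hx, hy]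
    | inv x _ hx =>
      conv_lhs => rw [← hx]
      rw [← SlashAction.slash_mul, mul_inv_cancel, SlashAction.slash_one]
  refine ⟨{ toFun := F, slash_action_eq' := ?_, holo' := hol, bdd_at_cusps' := ?_ }, rfl⟩
  · rintro _ ⟨γ, rfl⟩
    exact hinv γ
  · intro c hc
    rw [OnePoint.isBoundedAt_iff_forall_SL2Z hc]
    intro γ _
    show IsBoundedAtImInfty (F ∣[k] γ)
    rw [hinv γ]
    exact b

end Fermat.Agent.S16
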