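import Fermat.Agent.S16.ThetaTransform
import Fermat.Agent.S16.Cosets

/-!
# S16, theta half, piece TH-M: auxiliary lemmas (analytic part)
-/

set_option autoImplicit false

namespace Fermat.Agent.S16

open UpperHalfPlane ModularForm CongruenceSubgroup Complex Matrix
open scoped MatrixGroups ModularForm Manifold Real

theorem thm_norm_ee (x : ℂ) : ‖ee x‖ = Real.exp (-(2 * π) * x.im) := by
  rw [ee, Complex.norm_exp]
  congr 1
  simp

theorem thm_norm_ee_mul_int (z : ℂ) (n : ℤ) : ‖ee (z * (n : ℂ))‖ = Real.exp (-(2 * π * z.im) * n) := by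
  rw [thm_norm_ee]
  congr 1
  simp
  ring

theorem thm_ee_int (n : ℤ) : ee (n : ℂ) = 1 := by
  rw [ee]
  have : 2 * (π : ℂ) * Complex.I * (n : ℂ) = (n : ℂ) * (2 * π * Complex.I) := by ring
  rw [this]
  exact Complex.exp_int_mul_two_pi_mul_I n

theorem thm_ee_add (x y : ℂ) : ee (x + y) = ee x * ee y := by
  rw [ee, ee, ee, mul_add, Complex.exp_add]

theorem thm_ee_zero : ee 0 = 1 := by simp [ee]

namespace IsLat

variable {p : ℕ} [NeZero p] {A B : Matrix (Fin 4) (Fin 4) ℤ} {Q Qd : (Fin 4 → ℤ) → ℤ}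

theorem Q_zero (h : IsLat p A B Q Qd) : Q 0 = 0 := by
  have := h.twoQ 0
  simp at this
  exact this

theorem Q_nonneg (h : IsLat p A B Q Qd) (x : Fin 4 → ℤ) : 0 ≤ Q x := by
  rcases eq_or_ne x 0 with rfl | hx
  · rw [h.Q_zero]
  · exact (h.pos x hx).le

theorem Q_smul (h : IsLat p A B Q Qd) (c : ℤ) (x : Fin 4 → ℤ) : Q (c • x) = c ^ 2 * Q x := by
  have h1 := h.twoQ (c • x)
  have h2 := h.twoQ x
  rw [Matrix.mulVec_smul, smul_dotProduct, dotProduct_smul, ← h2] at h1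
  simp only [smul_eq_mul] at h1
  linarith

theorem Q_neg (h : IsLat p A B Q Qd) (x : Fin 4 → ℤ) : Q (-x) = Q x := by
  have := h.Q_smul (-1) x
  simpa using this

theorem Q_mulVec (h : IsLat p A B Q Qd) (m : Fin 4 → ℤ) : Q (B *ᵥ m) = p * Qd m := by
  have h1 := h.twoQ (B *ᵥ m)
  have h2 := h.twoQd m
  rw [Matrix.mulVec_mulVec, h.mulAB, Matrix.smul_mulVec, Matrix.one_mulVec, dotProduct_smul,
    dotProduct_comm, ← h2] at h1
  simp only [smul_eq_mul] at h1
  linarith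

theorem Qd_nonneg (h : IsLat p A B Q Qd) (m : Fin 4 → ℤ) : 0 ≤ Qd m := by
  have h1 := h.Q_nonneg (B *ᵥ m)
  rw [h.Q_mulVec] at h1
  have hp : (0 : ℤ) < p := by exact_mod_cast Nat.pos_of_ne_zero (NeZero.ne p)
  exact nonneg_of_mul_nonneg_right h1 hp

theorem summable_norm (h : IsLat p A B Q Qd) {z : ℂ} (hz : 0 < z.im) :
    Summable fun x : Fin 4 → ℤ => ‖ee (z * (Q x : ℂ))‖ := by
  simp only [thm_norm_ee_mul_int]
  exact h.summ (2 * π * z.im) (by positivity)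

theorem summable_ee (h : IsLat p A B Q Qd) {z : ℂ} (hz : 0 < z.im) :
    Summable fun x : Fin 4 → ℤ => ee (z * (Q x : ℂ)) := (h.summable_norm hz).of_norm

theorem differentiableOn (h : IsLat p A B Q Qd) :
    DifferentiableOn ℂ (thetaFn Q) {z : ℂ | 0 < z.im} := by
  intro z₀ hz₀
  have hz₀' : 0 < z₀.im := hz₀
  set δ := z₀.im / 2 with hδ
  have hδ0 : 0 < δ := by positivity
  have hopen : IsOpen {z : ℂ | δ < z.im} := isOpen_lt continuous_const Complex.continuous_im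
  have hd : DifferentiableOn ℂ (fun w => ∑' x : Fin 4 → ℤ, ee (w * (Q x : ℂ))) {z : ℂ | δ < z.im} := by
    refine differentiableOn_tsum_of_summable_norm (u := fun x => Real.exp (-(2 * π * δ) * (Q x : ℝ)))
      (h.summ (2 * π * δ) (by positivity)) (fun x => ?_) hopen (fun x w hw => ?_)
    · apply Differentiable.differentiableOn
      unfold ee
      fun_prop
    · rw [thm_norm_ee_mul_int]
      apply Real.exp_le_exp.mpr
      have hw' : δ < w.im := hw
      have hQ : (0 : ℝ) ≤ Q x := by exact_mod_cast h.Q_nonneg x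
      have : 2 * π * δ * (Q x : ℝ) ≤ 2 * π * w.im * (Q x : ℝ) := by
        apply mul_le_mul_of_nonneg_right _ hQ
        apply mul_le_mul_of_nonneg_left hw'.le
        positivity
      linarith
  have hmem : z₀ ∈ {z : ℂ | δ < z.im} := by
    change δ < z₀.im
    rw [hδ]; linarith
  exact ((hd z₀ hmem).differentiableAt (hopen.mem_nhds hmem)).differentiableWithinAt

end IsLat

/-- the theta series as a function on `ℍ`. -/
noncomputable def thetaH (Q : (Fin 4 → ℤ) → ℤ) : ℍ → ℂ := fun z => thetaFn Q (z : ℂ)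

/-- the subgroup of `SL(2,ℤ)` fixing a function under the slash action. -/
def slashStab (k : ℤ) (F : ℍ → ℂ) : Subgroup SL(2, ℤ) where
  carrier := {γ | F ∣[k] γ = F}
  one_mem' := SlashAction.slash_one k F
  mul_mem' := by
    intro a b ha hb
    change F ∣[k] (a * b) = F
    rw [SlashAction.slash_mul, show F ∣[k] a = F from ha, show F ∣[k] b = F from hb]
  inv_mem' := by
    intro a ha
    change F ∣[k] a⁻¹ = F
    have h1 : (F ∣[k] a) ∣[k] a⁻¹ = F := by
      rw [← SlashAction.slash_mul, mul_inv_cancel, SlashAction.slash_one]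
    rwa [show F ∣[k] a = F from ha] at h1

theorem mem_slashStab {k : ℤ} {F : ℍ → ℂ} {γ : SL(2, ℤ)} : γ ∈ slashStab k F ↔ F ∣[k] γ = F :=
  Iff.rfl

namespace IsLat

variable {p : ℕ} [NeZero p] {A B : Matrix (Fin 4) (Fin 4) ℤ} {Q Qd : (Fin 4 → ℤ) → ℤ}

theorem mdiff (h : IsLat p A B Q Qd) : MDiff (thetaH Q) := by
  rw [UpperHalfPlane.mdifferentiable_iff]
  refine h.differentiableOn.congr fun z hz => ?_
  simp only [Function.comp_apply, thetaH, ofComplex_apply_of_im_pos hz]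

theorem T_mem (Q : (Fin 4 → ℤ) → ℤ) : ModularGroup.T ∈ slashStab 2 (thetaH Q) := by
  rw [mem_slashStab]
  funext z
  have h1 := cos_slash_T_zpow_apply 2 (thetaH Q) 1 z
  rw [zpow_one] at h1
  rw [h1]
  simp only [thetaH, thetaFn]
  refine tsum_congr fun x => ?_
  have : ((((1 : ℤ) : ℝ) +ᵥ z : ℍ) : ℂ) * (Q x : ℂ) = (z : ℂ) * (Q x : ℂ) + (Q x : ℂ) := by
    rw [UpperHalfPlane.coe_vadd]
    push_cast
    ring
  rw [this, thm_ee_add, thm_ee_int, mul_one]

theorem neg_one_mem (Q : (Fin 4 → ℤ) → ℤ) : (-1 : SL(2, ℤ)) ∈ slashStab 2 (thetaH Q) := by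
  rw [mem_slashStab]
  funext z
  rw [ModularForm.SL_slash_apply]
  have h1 : (-1 : SL(2, ℤ)) • z = z := by
    apply UpperHalfPlane.ext
    rw [UpperHalfPlane.specialLinearGroup_apply]
    simp
  have h2 : denom ((-1 : SL(2, ℤ)) : GL (Fin 2) ℝ) z = -1 := by
    rw [ModularGroup.denom_apply]
    simp
  rw [h1, h2]
  norm_num

theorem bdd (h : IsLat p A B Q Qd) : IsBoundedAtImInfty (thetaH Q) := by
  rw [isBoundedAtImInfty_iff]
  refine ⟨∑' x : Fin 4 → ℤ, Real.exp (-(2 * π) * (Q x : ℝ)), 1, fun z hz => ?_⟩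
  have hs := h.summable_norm z.im_pos
  refine (norm_tsum_le_tsum_norm hs).trans ?_
  refine hs.tsum_le_tsum (fun x => ?_) (h.summ (2 * π) (by positivity))
  rw [thm_norm_ee_mul_int]
  apply Real.exp_le_exp.mpr
  have hQ : (0 : ℝ) ≤ Q x := by exact_mod_cast h.Q_nonneg x
  have h1 : 2 * π * 1 * (Q x : ℝ) ≤ 2 * π * (z : ℂ).im * (Q x : ℝ) := by
    apply mul_le_mul_of_nonneg_right _ hQ
    apply mul_le_mul_of_nonneg_left hz
    positivity
  linarith

/-- the transformation under `S`. -/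
theorem slash_S_apply (h : IsLat p A B Q Qd) (z : ℍ) :
    (thetaH Q ∣[(2 : ℤ)] ModularGroup.S) z =
      -(p : ℂ)⁻¹ * ∑' m : Fin 4 → ℤ, ee ((z : ℂ) / (p : ℂ) * (Qd m : ℂ)) := by
  have hp : (p : ℂ) ≠ 0 := by exact_mod_cast NeZero.ne p
  have hz : (z : ℂ) ≠ 0 := z.ne_zero
  rw [ModularForm.SL_slash_apply]
  have h1 : ((ModularGroup.S • z : ℍ) : ℂ) = -(z : ℂ)⁻¹ := by
    rw [UpperHalfPlane.modular_S_smul]
    simp
  have h2 : denom ((ModularGroup.S : SL(2, ℤ)) : GL (Fin 2) ℝ) z = z := by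
    rw [ModularGroup.denom_apply]
    simp [ModularGroup.S]
  have him : 0 < (-(z : ℂ)⁻¹).im := by
    rw [← h1]
    exact (ModularGroup.S • z).im_pos
  have h3 := h.inv (-(z : ℂ)⁻¹) him 0
  have h4 : ∀ y : Fin 4 → ℤ, ee (-(z : ℂ)⁻¹ * (Q (0 + (p : ℤ) • y) : ℂ) / (p : ℂ) ^ 2) =
      ee (-(z : ℂ)⁻¹ * (Q y : ℂ)) := by
    intro y
    rw [zero_add, h.Q_smul]
    congr 1
    push_cast
    field_simp
  have h5 : ∀ m : Fin 4 → ℤ, ee (-(Qd m : ℂ) / ((p : ℂ) * -(z : ℂ)⁻¹)) *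
      ee (((m ⬝ᵥ (0 : Fin 4 → ℤ) : ℤ) : ℂ) / (p : ℂ)) = ee ((z : ℂ) / (p : ℂ) * (Qd m : ℂ)) := by
    intro m
    rw [dotProduct_zero, Int.cast_zero, zero_div, thm_ee_zero, mul_one]
    congr 1
    field_simp
  simp only [h4, h5] at h3
  rw [h2, thetaH, h1, thetaFn, h3]
  have h6 : (z : ℂ) ^ (-(2 : ℤ)) = ((z : ℂ) ^ 2)⁻¹ := by
    rw [_root_.zpow_neg]
    norm_cast
  rw [h6]
  field_simp

theorem bdd_S (h : IsLat p A B Q Qd) :
    IsBoundedAtImInfty (thetaH Q ∣[(2 : ℤ)] ModularGroup.S) := by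
  have hp0 : (0 : ℝ) < p := by exact_mod_cast Nat.pos_of_ne_zero (NeZero.ne p)
  rw [isBoundedAtImInfty_iff]
  refine ⟨‖-(p : ℂ)⁻¹‖ * ∑' m : Fin 4 → ℤ, Real.exp (-(2 * π / p) * (Qd m : ℝ)), 1, fun z hz => ?_⟩
  rw [h.slash_S_apply, norm_mul]
  apply mul_le_mul_of_nonneg_left _ (norm_nonneg _)
  have him : ((z : ℂ) / (p : ℂ)).im = z.im / p := by
    rw [Complex.div_natCast_im]
    rfl
  have hs : Summable fun m : Fin 4 → ℤ => ‖ee ((z : ℂ) / (p : ℂ) * (Qd m : ℂ))‖ := by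
    simp only [thm_norm_ee_mul_int]
    refine h.summd _ ?_
    rw [him]
    have := z.im_pos
    positivity
  refine (norm_tsum_le_tsum_norm hs).trans ?_
  refine hs.tsum_le_tsum (fun m => ?_) (h.summd (2 * π / p) (by positivity))
  rw [thm_norm_ee_mul_int, him]
  apply Real.exp_le_exp.mpr
  have hQ : (0 : ℝ) ≤ Qd m := by exact_mod_cast h.Qd_nonneg m
  have h1 : 2 * π / p * (Qd m : ℝ) ≤ 2 * π * (z.im / p) * (Qd m : ℝ) := by
    apply mul_le_mul_of_nonneg_right _ hQ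
    have h2 : 2 * π / p = 2 * π * (1 / p) := by ring
    rw [h2]
    apply mul_le_mul_of_nonneg_left _ (by positivity)
    exact div_le_div_of_nonneg_right hz hp0.le
  linarith

end IsLat

end Fermat.Agent.S16
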