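import Fermat.Agent.S16.ThetaTransform
import Fermat.Agent.S16.Cosets
import Fermat.Agent.S16.ThetaModularAux
import Fermat.Prelude.Thm_CongruenceSubgroup_one_mem_strictPeriods_Gamma0

/-!
# S16, theta half, piece TH-M: the theta series is a modular form; its `q`-expansion

Input: `IsLat p A B Q Qd` and `theta_transform`.  `Θ : ℍ → ℂ`, `Θ z = thetaFn Q z`.
* `‖ee (z * n)‖ = exp (-2 π n im z)`; summability of the series from `IsLat.summ`.
* holomorphy: `differentiableOn_tsum_of_summable_norm` on `{im z > δ}` with the bound `exp (-2 π δ Q x)`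
  (`Q x ≥ 0` from `pos`), then `UpperHalfPlane.mdifferentiable_iff`.
* invariance: the set of `γ` with `Θ ∣[2] γ = Θ` is a subgroup `K` of `SL(2,ℤ)`; `T ∈ K` (`Q` is integer valued),
  `-1 ∈ K` (even weight), `γ ∈ K` if `γ 1 0 = p` (`theta_transform`); conclude with `Gamma0_le_of_generators`.
* bounded at `i∞`: `‖Θ z‖ ≤ ∑ exp (-2 π Q x)` for `im z ≥ 1`.
* `Θ ∣[2] S`: `IsLat.inv` with `g = 0`, `w = -1/z` (`Q (p • y) = p² Q y`) gives
  `(Θ ∣[2] S) z = z⁻² Θ(-1/z) = - p⁻¹ ∑_m ee (z Qd(m) / p)`, bounded for `im z ≥ 1` by `p⁻¹ ∑ exp (-2 π Qd m / p)`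
  (`Qd m ≥ 0` since `p Qd m = Q (B *ᵥ m) ≥ 0`).
* `exists_modularForm_Gamma0` gives `f`.
* `q`-expansion: group the series by the value `n = Q x` (`HasSum.tsum_fiberwise` / `HasSum.sigma`); every fibre is
  finite (a summable constant non zero family is finite), so `Θ z = ∑_n c(n) qⁿ` with `c(n) = #{x | Q x = n}`, `c(0) = 1`
  (`pos`), `c(n)` even for `n ≥ 1` (fixed point free involution `x ↦ -x`, `Q (-x) = Q x`).  To identify `qExpansion 1 f` from
  a `HasSum` see `Fermat/Agent/S28/NormForm.lean` (`qExpansion_eq_of_hasSum`; copy it under a new name).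
-/

set_option autoImplicit false

namespace Fermat.Agent.S16

open UpperHalfPlane ModularForm CongruenceSubgroup PowerSeries
open scoped MatrixGroups ModularForm Manifold

/-- representation numbers. -/
noncomputable def thetaCount (Q : (Fin 4 → ℤ) → ℤ) (n : ℕ) : ℕ :=
  Nat.card ((fun x : Fin 4 → ℤ => (Q x).toNat) ⁻¹' {n})

theorem thm_ee_mul_nat (z : ℂ) (n : ℕ) : ee (z * (n : ℂ)) = Function.Periodic.qParam 1 z ^ n := by
  rw [ee, Function.Periodic.qParam, ← Complex.exp_nat_mul]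
  congr 1
  simp
  ring

theorem thm_hasSum {p : ℕ} [NeZero p] {A B : Matrix (Fin 4) (Fin 4) ℤ}
    {Q Qd : (Fin 4 → ℤ) → ℤ} (h : IsLat p A B Q Qd) (z : ℍ) :
    HasSum (fun n : ℕ => (thetaCount Q n : ℂ) • Function.Periodic.qParam 1 (z : ℂ) ^ n)
      (thetaH Q z) := by
  have h1 := (h.summable_ee z.im_pos).hasSum.tsum_fiberwise (fun x : Fin 4 → ℤ => (Q x).toNat)
  have hfun : (fun n : ℕ => (thetaCount Q n : ℂ) • Function.Periodic.qParam 1 (z : ℂ) ^ n) =
      fun c : ℕ => ∑' b : ((fun x : Fin 4 → ℤ => (Q x).toNat) ⁻¹' {c}),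
        ee ((z : ℂ) * (Q (b : Fin 4 → ℤ) : ℂ)) := by
    funext n
    have h2 : ∀ b : ((fun x : Fin 4 → ℤ => (Q x).toNat) ⁻¹' {n}),
        ee ((z : ℂ) * (Q (b : Fin 4 → ℤ) : ℂ)) = Function.Periodic.qParam 1 (z : ℂ) ^ n := by
      intro b
      have hb : (Q (b : Fin 4 → ℤ)).toNat = n := b.2
      have hb' : Q (b : Fin 4 → ℤ) = (n : ℤ) := by
        have := Int.toNat_of_nonneg (h.Q_nonneg (b : Fin 4 → ℤ))
        omega
      rw [hb', ← thm_ee_mul_nat]
      norm_cast
    rw [tsum_congr h2, tsum_const, thetaCount, nsmul_eq_mul, smul_eq_mul]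
  rw [hfun]
  exact h1

theorem thetaCount_zero {p : ℕ} [NeZero p] {A B : Matrix (Fin 4) (Fin 4) ℤ}
    {Q Qd : (Fin 4 → ℤ) → ℤ} (h : IsLat p A B Q Qd) : thetaCount Q 0 = 1 := by
  have : ((fun x : Fin 4 → ℤ => (Q x).toNat) ⁻¹' {0}) = {0} := by
    ext x
    simp only [Set.mem_preimage, Set.mem_singleton_iff]
    constructor
    · intro hx
      by_contra hne
      have := h.pos x hne
      omega
    · rintro rfl
      rw [h.Q_zero]
      rfl
  rw [thetaCount, this]
  simp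

theorem thetaCount_even {p : ℕ} [NeZero p] {A B : Matrix (Fin 4) (Fin 4) ℤ}
    {Q Qd : (Fin 4 → ℤ) → ℤ} (h : IsLat p A B Q Qd) {n : ℕ} (hn : n ≠ 0) :
    Even (thetaCount Q n) := by
  classical
  set s := ((fun x : Fin 4 → ℤ => (Q x).toNat) ⁻¹' {n}) with hs
  rcases s.finite_or_infinite with hfin | hinf
  · have h1 : thetaCount Q n = hfin.toFinset.card := by
      rw [thetaCount, Nat.card_coe_set_eq, Set.ncard_eq_toFinset_card _ hfin]
    rw [h1]
    have h2 : ∑ x ∈ hfin.toFinset, (1 : ZMod 2) = 0 := by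
      refine Finset.sum_involution (fun x _ => -x) (fun x _ => by decide) (fun x hx _ => ?_)
        (fun x hx => ?_) (fun x _ => neg_neg x)
      · intro hxx
        have hx0 : x = 0 := by
          funext i
          have := congrFun hxx i
          simp only [Pi.neg_apply, Pi.zero_apply] at this ⊢
          omega
        have hx' : (Q x).toNat = n := (Set.Finite.mem_toFinset hfin).mp hx
        rw [hx0, h.Q_zero] at hx'
        exact hn hx'.symm
      · rw [Set.Finite.mem_toFinset] at hx ⊢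
        have hx' : (Q x).toNat = n := hx
        change (Q (-x)).toNat = n
        rw [h.Q_neg, hx']
    rw [Finset.sum_const, nsmul_eq_mul, mul_one] at h2
    exact (ZMod.natCast_eq_zero_iff_even).mp h2
  · have : thetaCount Q n = 0 := by
      rw [thetaCount, Nat.card_coe_set_eq]
      exact hinf.ncard
    rw [this]
    exact Even.zero

theorem thm_mem_of_c_eq {p : ℕ} [Fact p.Prime] {A B : Matrix (Fin 4) (Fin 4) ℤ}
    {Q Qd : (Fin 4 → ℤ) → ℤ} (h : IsLat p A B Q Qd) (γ : SL(2, ℤ)) (hγ : γ 1 0 = (p : ℤ)) :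
    γ ∈ slashStab 2 (thetaH Q) := by
  rw [mem_slashStab]
  funext z
  rw [ModularForm.SL_slash_apply]
  have hdet : γ 0 0 * γ 1 1 - γ 0 1 * p = 1 := by
    have := γ.det_coe
    rw [Matrix.det_fin_two, hγ] at this
    exact this
  have h1 := theta_transform h (γ 0 0) (γ 0 1) (γ 1 1) hdet z z.im_pos
  have h2 : ((γ • z : ℍ) : ℂ) =
      ((γ 0 0 : ℂ) * z + (γ 0 1 : ℂ)) / ((p : ℂ) * z + (γ 1 1 : ℂ)) := by
    rw [UpperHalfPlane.coe_specialLinearGroup_apply, hγ]
    simp
  have h3 : denom (γ : GL (Fin 2) ℝ) z = (p : ℂ) * z + (γ 1 1 : ℂ) := by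
    rw [ModularGroup.denom_apply, hγ]
    simp
  have h4 : (p : ℂ) * z + (γ 1 1 : ℂ) ≠ 0 := by
    rw [← h3]
    exact denom_ne_zero _ z
  rw [thetaH, h2, h1, h3]
  have h6 : ((p : ℂ) * z + (γ 1 1 : ℂ)) ^ (-(2 : ℤ)) = (((p : ℂ) * z + (γ 1 1 : ℂ)) ^ 2)⁻¹ := by
    rw [zpow_neg]
    norm_cast
  rw [h6, thetaH]
  field_simp

theorem exists_modularForm_theta {p : ℕ} [Fact p.Prime] {A B : Matrix (Fin 4) (Fin 4) ℤ}
    {Q Qd : (Fin 4 → ℤ) → ℤ} (h : IsLat p A B Q Qd) :
    ∃ R : PowerSeries ℤ, constantCoeff R = 0 ∧ IsQZ p 2 (1 + 2 * R) := by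
  have hinv : Gamma0 p ≤ slashStab 2 (thetaH Q) :=
    Gamma0_le_of_generators p _ (IsLat.T_mem Q) (IsLat.neg_one_mem Q) (thm_mem_of_c_eq h)
  obtain ⟨f, hf⟩ := exists_modularForm_Gamma0 p 2 (thetaH Q) h.mdiff
    (fun γ hγ => mem_slashStab.mp (hinv hγ)) h.bdd h.bdd_S
  refine ⟨PowerSeries.mk fun n => if n = 0 then 0 else ((thetaCount Q n / 2 : ℕ) : ℤ), ?_, f, ?_⟩
  · rw [← PowerSeries.coeff_zero_eq_constantCoeff_apply, PowerSeries.coeff_mk, if_pos rfl]
  · ext n
    have h1 := ModularFormClass.qExpansion_coeff_unique (c := fun n => (thetaCount Q n : ℂ))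
      one_pos (CongruenceSubgroup.one_mem_strictPeriods_Gamma0 p) (f := f)
      (fun τ => by rw [hf]; exact thm_hasSum h τ) n
    rw [← h1]
    simp only [toC, PowerSeries.coeff_map, map_add, eq_intCast]
    have h2 : (2 : PowerSeries ℤ) = PowerSeries.C 2 := rfl
    rw [h2, PowerSeries.coeff_C_mul, PowerSeries.coeff_mk, PowerSeries.coeff_one]
    rcases eq_or_ne n 0 with rfl | hn
    · rw [thetaCount_zero h]
      simp
    · rw [if_neg hn, if_neg hn]
      obtain ⟨m, hm⟩ := thetaCount_even h hn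
      have : thetaCount Q n / 2 = m := by omega
      rw [this, hm]
      push_cast
      ring

end Fermat.Agent.S16
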