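import Fermat.Agent.S16.API
import Fermat.Agent.S16.ThetaArith
import Fermat.Agent.S16.ThetaConcrete
import Fermat.Agent.S16.ThetaModular

/-!
# S16, piece TH (interface): the theta series
-/

set_option autoImplicit false

namespace Fermat.Agent.S16

open PowerSeries

/-- There is a form in `M₂(Γ₀(p))` with `q`-expansion in `1 + 2 q ℤ⟦q⟧` (theta series of an even positive
definite quaternary lattice of determinant `p²` and level `p`). -/
theorem exists_theta (p : ℕ) [Fact p.Prime] (hp : 5 ≤ p) :
    ∃ R : PowerSeries ℤ, constantCoeff R = 0 ∧ IsQZ p 2 (1 + 2 * R) := by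
  have hp2 : p ≠ 2 := by omega
  obtain ⟨q, r, s, t, hq0, hs, ht, hq⟩ := exists_latData p hp2
  exact exists_modularForm_theta (isLat_QF p hp2 q r s t hq0 hs ht hq)

end Fermat.Agent.S16
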