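import Fermat.Agent.S16.Upper
import Fermat.Agent.S16.Lower
import Fermat.Agent.S16.Duality
import Fermat.Prelude.Thm_ModularForm_sturm_bound_Gamma0

/-!
# S16: final assembly
-/

set_option autoImplicit false

namespace Fermat.Agent.S16

open PowerSeries CongruenceSubgroup UpperHalfPlane

variable {p : ℕ} [Fact p.Prime]

theorem IsCuspQZ.constantCoeff_eq_zero {N : ℕ} {k : ℤ} {P : PowerSeries ℤ} (h : IsCuspQZ N k P) :
    constantCoeff P = 0 := by
  obtain ⟨f, hf⟩ := h
  have h0 : (qExpansion 1 f).coeff 0 = 0 :=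
    CuspFormClass.qExpansion_coeff_zero f one_pos (CongruenceSubgroup.one_mem_strictPeriods_Gamma0 N)
  rw [hf, coeff_toC] at h0
  rw [← coeff_zero_eq_constantCoeff_apply]
  exact_mod_cast h0

theorem IsCuspQZ.isQZ {N : ℕ} {k : ℤ} {P : PowerSeries ℤ} (h : IsCuspQZ N k P) : IsQZ N k P :=
  IsCuspQ.isQ h

/-- the upper bound, in the form needed by `card_eq_of` -/
theorem alpha (hp : 5 ≤ p) (M : ℕ) (P : PowerSeries ℤ) (hM : 0 < M) (hP : IsCuspQZ p 2 P)
    (h : PSModEq (M : ℤ) P (delta p)) : M ∣ (p - 1) / Nat.gcd (p - 1) 12 := by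
  obtain ⟨R, hR⟩ := psModEq_iff_exists.mp h.symm
  have hM' : (M : ℤ) ≠ 0 := by exact_mod_cast hM.ne'
  have hR0 : constantCoeff R = 0 := by
    have := congrArg constantCoeff hR
    rw [constantCoeff_delta, map_add, hP.constantCoeff_eq_zero, map_mul, constantCoeff_C,
      zero_add] at this
    exact (mul_eq_zero.mp this.symm).resolve_left hM'
  have hG : IsQZ p 2 (C ((p : ℤ) - 1) + C (24 * (M : ℤ)) * R) := by
    have h1 : IsQZ p 2 ((C ((p : ℤ) - 1) + 24 * delta p) - C 24 * P) :=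
      (isQZ_eis p).sub (hP.isQZ.C_mul 24)
    have h2 : (C ((p : ℤ) - 1) + 24 * delta p) - C 24 * P =
        C ((p : ℤ) - 1) + C (24 * (M : ℤ)) * R := by
      rw [hR, map_mul]
      have : (C (24 : ℤ) : PowerSeries ℤ) = 24 := by
        simp [map_ofNat]
      rw [this]
      ring
    rwa [h2] at h1
  have hdvd := upper hp ((p : ℤ) - 1) (24 * (M : ℤ)) (by positivity) R hR0 hG
  have hp1 : 1 ≤ p := by omega
  have h3 : ((M * Nat.gcd (p - 1) 12 : ℕ) : ℤ) ∣ ((p - 1 : ℕ) : ℤ) := by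
    have h4 : (24 : ℤ) * ((M : ℤ) * (Nat.gcd (p - 1) 12 : ℤ)) ∣ 24 * ((p : ℤ) - 1) := by
      rw [← mul_assoc]; exact hdvd
    have h5 := (mul_dvd_mul_iff_left (by norm_num : (24 : ℤ) ≠ 0)).mp h4
    push_cast [Nat.cast_sub hp1]
    exact h5
  have h6 : M * Nat.gcd (p - 1) 12 ∣ p - 1 := by exact_mod_cast h3
  have hg : 0 < Nat.gcd (p - 1) 12 := Nat.gcd_pos_of_pos_right _ (by norm_num)
  exact (Nat.dvd_div_iff_mul_dvd (Nat.gcd_dvd_left _ _)).mpr (by rwa [mul_comm] at h6)

/-- the lower bound, in the form needed by `card_eq_of` -/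
theorem beta (hp : 5 ≤ p) :
    ∃ P : PowerSeries ℤ, IsCuspQZ p 2 P ∧
      PSModEq (((p - 1) / Nat.gcd (p - 1) 12 : ℕ) : ℤ) P (delta p) := by
  obtain ⟨R, hR0, hR⟩ := exists_theta p hp
  set r := Nat.gcd (p - 1) 12 with hr
  set n := (p - 1) / r with hn
  have hp1 : 1 ≤ p := by omega
  have hnr : (n : ℤ) * (r : ℤ) = (p : ℤ) - 1 := by
    have : n * r = p - 1 := Nat.div_mul_cancel (Nat.gcd_dvd_left _ _)
    have h2 : ((n * r : ℕ) : ℤ) = ((p - 1 : ℕ) : ℤ) := by rw [this]
    push_cast [Nat.cast_sub hp1] at h2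
    exact h2
  -- Bezout
  set a := Nat.gcdA (p - 1) 12 with ha
  set b := Nat.gcdB (p - 1) 12 with hb
  have hbez : (r : ℤ) = ((p : ℤ) - 1) * a + 12 * b := by
    have := Nat.gcd_eq_gcd_ab (p - 1) 12
    push_cast [Nat.cast_sub hp1] at this
    exact this
  let S : PowerSeries ℤ := C a * delta p + C b * R
  let P : PowerSeries ℤ := delta p - C (n : ℤ) * S
  have c24 : (C (24 : ℤ) : PowerSeries ℤ) = 24 := by simp [map_ofNat]
  have c12 : (C (12 : ℤ) : PowerSeries ℤ) = 12 := by simp [map_ofNat]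
  have hform : IsQZ p 2 (C 24 * P) := by
    have h1 : IsQZ p 2 ((C ((p : ℤ) - 1) + 24 * delta p) -
        C (n : ℤ) * (C a * (C ((p : ℤ) - 1) + 24 * delta p) + C (b * 12) * (1 + 2 * R))) :=
      (isQZ_eis p).sub (((isQZ_eis p).C_mul a).add (hR.C_mul (b * 12)) |>.C_mul n)
    have h2 : (C ((p : ℤ) - 1) + 24 * delta p) -
        C (n : ℤ) * (C a * (C ((p : ℤ) - 1) + 24 * delta p) + C (b * 12) * (1 + 2 * R)) =
        C 24 * P := by
      have h3 : (C ((p : ℤ) - 1) : PowerSeries ℤ) =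
          C (n : ℤ) * (C ((p : ℤ) - 1) * C a + 12 * C b) := by
        rw [← c12, ← map_mul, ← map_mul, ← map_add, ← map_mul, ← hbez, hnr]
      simp only [P, S, map_mul, c24, c12]
      linear_combination (1 : PowerSeries ℤ) * h3
    rwa [h2] at h1
  have hP : IsQZ p 2 P := hform.of_C_mul (by norm_num)
  have hP0 : constantCoeff P = 0 := by
    simp [P, S, constantCoeff_delta, hR0]
  refine ⟨P, isCuspQZ_of_constantCoeff hP hP0, ?_⟩
  rw [psModEq_iff_exists]
  exact ⟨-S, by simp only [P]; ring⟩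

/-- weight two cusp forms on `Γ₀(2)`, `Γ₀(3)` vanish -/
theorem eq_zero_of_lt_five (hp : p < 5) {P : PowerSeries ℤ} (h : IsCuspQZ p 2 P) : P = 0 := by
  obtain ⟨f, hf⟩ := h
  have hidx := index_Gamma0_le p
  have hz : (ModularFormClass.modularForm f : ModularForm (Gamma0 p) 2) = 0 := by
    have : NeZero p := ⟨(Fact.out : p.Prime).ne_zero⟩
    apply ModularForm.sturm_bound_Gamma0 p
    intro n hn
    have hn0 : n = 0 := by
      have : ((2 : ℤ) * ((Gamma0 p).index : ℤ)).toNat / 12 = 0 := by omega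
      omega
    subst hn0
    exact CuspFormClass.qExpansion_coeff_zero f one_pos
      (CongruenceSubgroup.one_mem_strictPeriods_Gamma0 p)
  have hf0 : (f : UpperHalfPlane → ℂ) = 0 := by
    ext z
    have := congrArg (fun g : ModularForm (Gamma0 p) 2 => g z) hz
    simpa using this
  apply toC_injective
  rw [← hf, hf0, map_zero]
  exact qExpansion_zero _

theorem main (p : ℕ) [Fact p.Prime] :
    Nat.card (↥(CuspForm.heckeLatticeAlgebra p ∅) ⧸
        Ideal.map ((CuspForm.latticeRestrictHom p ∅).toRingHom.comp (CuspForm.heckeEvalForms p 2))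
          (ModularCurve.eisensteinIdeal p)) = (p - 1) / Nat.gcd (p - 1) 12 := by
  have hpp : p.Prime := Fact.out
  have hn : 0 < (p - 1) / Nat.gcd (p - 1) 12 :=
    Nat.div_pos (Nat.gcd_le_left _ (by have := hpp.two_le; omega))
      (Nat.gcd_pos_of_pos_right _ (by norm_num))
  apply card_eq_of p _ hn
  · intro M P hM hP h
    by_cases hp : 5 ≤ p
    · exact alpha hp M P hM hP h
    · have hP0 := eq_zero_of_lt_five (by omega) hP
      subst hP0
      have h1 := h.coeff 1
      rw [coeff_one_delta hpp.one_lt] at h1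
      simp only [map_zero, zero_sub] at h1
      have h2 : (M : ℤ) ∣ 1 := by simpa using h1
      have h3 : M ∣ 1 := by exact_mod_cast h2
      exact h3.trans (one_dvd _)
  · by_cases hp : 5 ≤ p
    · exact beta hp
    · have h23 : p = 2 ∨ p = 3 := by
        have := hpp.two_le
        have h4 : p ≠ 4 := by rintro rfl; norm_num at hpp
        omega
      have hn1 : (p - 1) / Nat.gcd (p - 1) 12 = 1 := by
        rcases h23 with rfl | rfl <;> norm_num
      refine ⟨0, ⟨0, ?_⟩, ?_⟩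
      · rw [map_zero]; exact qExpansion_zero _
      · rw [hn1]; intro n; simp

end Fermat.Agent.S16
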