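import Fermat.Agent.S16.Defs
import Fermat.Prelude.Def_ModularForm_HeckeOperatorForms
import Fermat.Prelude.Thm_ModularFormClass_qCoeff_heckeU
import Fermat.Prelude.Thm_CongruenceSubgroup_one_mem_strictPeriods_Gamma0

/-!
# S16, piece API: closure properties of `IsQ`, `IsQ1`, `IsQZ`, `IsQZ1`
-/

set_option autoImplicit false

namespace Fermat.Agent.S16

open UpperHalfPlane ModularForm CongruenceSubgroup PowerSeries
open scoped MatrixGroups ModularForm

variable {N : ℕ} {k l : ℤ} {P Q : PowerSeries ℂ}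

/-! ### `toC` -/

theorem toC_injective : Function.Injective toC :=
  PowerSeries.map_injective _ Int.cast_injective

theorem coeff_toC (n : ℕ) (P : PowerSeries ℤ) : coeff n (toC P) = ((coeff n P : ℤ) : ℂ) := by
  simp [toC]

theorem toC_C (c : ℤ) : toC (C c) = C (c : ℂ) := by
  simp [toC]

theorem toC_U (p : ℕ) (P : PowerSeries ℤ) : toC (U p P) = U p (toC P) := by
  ext n
  simp [coeff_toC, U]

theorem toC_V (p : ℕ) (P : PowerSeries ℤ) : toC (V p P) = V p (toC P) := by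
  ext n
  simp only [coeff_toC, V, coeff_mk]
  split_ifs <;> simp

/-! ### generic layer -/

section Generic

variable {Γ : Subgroup (GL (Fin 2) ℝ)}

/-- `P` is the `q`-expansion of a modular form of weight `k` on `Γ`. -/
def IsQG (Γ : Subgroup (GL (Fin 2) ℝ)) (k : ℤ) (P : PowerSeries ℂ) : Prop :=
  ∃ f : ModularForm Γ k, qExpansion 1 f = P

theorem IsQG.zero : IsQG Γ k 0 := ⟨0, by rw [FunLike.coe_zero]; exact qExpansion_zero 1⟩

theorem IsQG.add (hΓ : (1 : ℝ) ∈ Γ.strictPeriods) (hP : IsQG Γ k P) (hQ : IsQG Γ k Q) :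
    IsQG Γ k (P + Q) := by
  obtain ⟨f, rfl⟩ := hP
  obtain ⟨g, rfl⟩ := hQ
  exact ⟨f + g, by rw [FunLike.coe_add, ModularForm.qExpansion_add one_pos hΓ]⟩

theorem IsQG.C_mul [Γ.HasDetOne] (hΓ : (1 : ℝ) ∈ Γ.strictPeriods) (c : ℂ) (hP : IsQG Γ k P) :
    IsQG Γ k (C c * P) := by
  obtain ⟨f, rfl⟩ := hP
  refine ⟨c • f, ?_⟩
  rw [FunLike.coe_smul, ModularForm.qExpansion_smul one_pos hΓ, PowerSeries.smul_eq_C_mul]

theorem IsQG.one [Γ.HasDetPlusMinusOne] : IsQG Γ 0 1 := ⟨1, ModularForm.qExpansion_one⟩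

theorem IsQG.mul [Γ.HasDetPlusMinusOne] (hΓ : (1 : ℝ) ∈ Γ.strictPeriods) (hP : IsQG Γ k P)
    (hQ : IsQG Γ l Q) : IsQG Γ (k + l) (P * Q) := by
  obtain ⟨f, rfl⟩ := hP
  obtain ⟨g, rfl⟩ := hQ
  exact ⟨f.mul g, ModularForm.qExpansion_mul one_pos hΓ f g⟩

theorem IsQG.pow [Γ.HasDetPlusMinusOne] (hΓ : (1 : ℝ) ∈ Γ.strictPeriods) (hP : IsQG Γ k P)
    (n : ℕ) : IsQG Γ (n * k) (P ^ n) := by
  obtain ⟨f, rfl⟩ := hP
  exact ⟨f.pow n, ModularForm.qExpansion_pow one_pos hΓ f n⟩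

end Generic


/-! ### `IsQ` -/

lemma api_hΓ (N : ℕ) : (1 : ℝ) ∈
    (Subgroup.map (Matrix.SpecialLinearGroup.mapGL ℝ) (Gamma0 N)).strictPeriods :=
  CongruenceSubgroup.one_mem_strictPeriods_Gamma0 N

theorem IsQ.zero : IsQ N k 0 := IsQG.zero

theorem IsQ.add (hP : IsQ N k P) (hQ : IsQ N k Q) : IsQ N k (P + Q) :=
  IsQG.add (api_hΓ N) hP hQ

theorem IsQ.C_mul (c : ℂ) (hP : IsQ N k P) : IsQ N k (C c * P) :=
  IsQG.C_mul (api_hΓ N) c hP

theorem IsQ.neg (hP : IsQ N k P) : IsQ N k (-P) := by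
  have := IsQ.C_mul (-1) hP
  simpa using this

theorem IsQ.sub (hP : IsQ N k P) (hQ : IsQ N k Q) : IsQ N k (P - Q) := by
  rw [sub_eq_add_neg]
  exact hP.add hQ.neg

theorem IsQ.sum {ι : Type*} (s : Finset ι) (f : ι → PowerSeries ℂ) (h : ∀ i ∈ s, IsQ N k (f i)) :
    IsQ N k (∑ i ∈ s, f i) := by
  classical
  induction s using Finset.induction_on with
  | empty => simpa using IsQ.zero
  | insert a s ha ih =>
    rw [Finset.sum_insert ha]
    exact (h a (Finset.mem_insert_self a s)).add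
      (ih fun i hi => h i (Finset.mem_insert_of_mem hi))

theorem IsQ.const (c : ℂ) : IsQ N 0 (C c) := by
  have := IsQ.C_mul (N := N) c (IsQG.one)
  simpa using this

theorem IsQ.mul (hP : IsQ N k P) (hQ : IsQ N l Q) : IsQ N (k + l) (P * Q) :=
  IsQG.mul (api_hΓ N) hP hQ

theorem IsQ.pow (hP : IsQ N k P) (n : ℕ) : IsQ N (n * k) (P ^ n) :=
  IsQG.pow (api_hΓ N) hP n

/-- `U_p` preserves `M_k(Γ₀(N))` for `p ∣ N` (Prelude `heckeULin`, `qCoeff_heckeU`). -/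
theorem IsQ.U [NeZero N] {p : ℕ} (hpN : p ∣ N) (hP : IsQ N k P) : IsQ N k (U p P) := by
  obtain ⟨f, rfl⟩ := hP
  refine ⟨ModularForm.heckeULin k hpN f, ?_⟩
  have hp0 : p ≠ 0 := by
    rintro rfl
    exact NeZero.ne N (Nat.eq_zero_of_zero_dvd hpN)
  ext n
  have h := ModularFormClass.qCoeff_heckeU f (api_hΓ N) hp0 n
  rw [ModularForm.coeffHeckeU_apply] at h
  simp only [S16.U, coeff_mk]
  rw [mul_comm p n]
  exact h

theorem IsCuspQ.isQ (hP : IsCuspQ N k P) : IsQ N k P := by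
  obtain ⟨f, rfl⟩ := hP
  exact ⟨CuspForm.toModularFormₗ f, rfl⟩

/-! ### `IsQ1` -/

theorem IsQ1.zero : IsQ1 k 0 := IsQG.zero

theorem IsQ1.add (hP : IsQ1 k P) (hQ : IsQ1 k Q) : IsQ1 k (P + Q) :=
  IsQG.add one_mem_strictPeriods_SL hP hQ

theorem IsQ1.C_mul (c : ℂ) (hP : IsQ1 k P) : IsQ1 k (C c * P) :=
  IsQG.C_mul one_mem_strictPeriods_SL c hP

theorem IsQ1.neg (hP : IsQ1 k P) : IsQ1 k (-P) := by
  have := IsQ1.C_mul (-1) hP
  simpa using this

theorem IsQ1.sub (hP : IsQ1 k P) (hQ : IsQ1 k Q) : IsQ1 k (P - Q) := by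
  rw [sub_eq_add_neg]
  exact hP.add hQ.neg

theorem IsQ1.sum {ι : Type*} (s : Finset ι) (f : ι → PowerSeries ℂ) (h : ∀ i ∈ s, IsQ1 k (f i)) :
    IsQ1 k (∑ i ∈ s, f i) := by
  classical
  induction s using Finset.induction_on with
  | empty => simpa using IsQ1.zero
  | insert a s ha ih =>
    rw [Finset.sum_insert ha]
    exact (h a (Finset.mem_insert_self a s)).add
      (ih fun i hi => h i (Finset.mem_insert_of_mem hi))

theorem IsQ1.const (c : ℂ) : IsQ1 0 (C c) := by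
  have := IsQ1.C_mul c (IsQG.one)
  simpa using this

theorem IsQ1.mul (hP : IsQ1 k P) (hQ : IsQ1 l Q) : IsQ1 (k + l) (P * Q) :=
  IsQG.mul one_mem_strictPeriods_SL hP hQ

theorem IsQ1.pow (hP : IsQ1 k P) (n : ℕ) : IsQ1 (n * k) (P ^ n) :=
  IsQG.pow one_mem_strictPeriods_SL hP n

/-- A level one form is a form on `Γ₀(N)`. -/
theorem IsQ1.isQ (N : ℕ) (hP : IsQ1 k P) : IsQ N k P := by
  obtain ⟨g, rfl⟩ := hP
  have hle : (Subgroup.map (Matrix.SpecialLinearGroup.mapGL ℝ) (Gamma0 N)) ≤ 𝒮ℒ := by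
    rintro _ ⟨γ, -, rfl⟩
    exact ⟨γ, rfl⟩
  exact ⟨{ toFun := g
           slash_action_eq' := fun γ hγ => g.slash_action_eq' γ (hle hγ)
           holo' := g.holo'
           bdd_at_cusps' := fun hc => g.bdd_at_cusps' (hc.mono hle) }, rfl⟩

/-! ### integral versions -/

section Int

variable {P Q : PowerSeries ℤ}

theorem IsQZ.zero : IsQZ N k 0 := by
  unfold IsQZ; rw [map_zero]; exact IsQ.zero

theorem IsQZ.add (hP : IsQZ N k P) (hQ : IsQZ N k Q) : IsQZ N k (P + Q) := by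
  unfold IsQZ at *; rw [map_add]; exact hP.add hQ

theorem IsQZ.C_mul (c : ℤ) (hP : IsQZ N k P) : IsQZ N k (C c * P) := by
  unfold IsQZ at *; rw [map_mul, toC_C]; exact hP.C_mul _

theorem IsQZ.neg (hP : IsQZ N k P) : IsQZ N k (-P) := by
  unfold IsQZ at *; rw [map_neg]; exact hP.neg

theorem IsQZ.sub (hP : IsQZ N k P) (hQ : IsQZ N k Q) : IsQZ N k (P - Q) := by
  unfold IsQZ at *; rw [map_sub]; exact hP.sub hQ

theorem IsQZ.sum {ι : Type*} (s : Finset ι) (f : ι → PowerSeries ℤ) (h : ∀ i ∈ s, IsQZ N k (f i)) :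
    IsQZ N k (∑ i ∈ s, f i) := by
  unfold IsQZ at *; rw [map_sum]; exact IsQ.sum s _ h

theorem IsQZ.const (c : ℤ) : IsQZ N 0 (C c) := by
  unfold IsQZ; rw [toC_C]; exact IsQ.const _

theorem IsQZ.mul (hP : IsQZ N k P) (hQ : IsQZ N l Q) : IsQZ N (k + l) (P * Q) := by
  unfold IsQZ at *; rw [map_mul]; exact hP.mul hQ

theorem IsQZ.pow (hP : IsQZ N k P) (n : ℕ) : IsQZ N (n * k) (P ^ n) := by
  unfold IsQZ at *; rw [map_pow]; exact hP.pow n

theorem IsQZ.U [NeZero N] {p : ℕ} (hpN : p ∣ N) (hP : IsQZ N k P) : IsQZ N k (U p P) := by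
  unfold IsQZ at *; rw [toC_U]; exact hP.U hpN

/-- division by a non-zero integer -/
theorem IsQZ.of_C_mul {c : ℤ} (hc : c ≠ 0) (hP : IsQZ N k (C c * P)) : IsQZ N k P := by
  unfold IsQZ at *
  rw [map_mul, toC_C] at hP
  have h := hP.C_mul ((c : ℂ)⁻¹)
  rw [← mul_assoc, ← map_mul, inv_mul_cancel₀ (by exact_mod_cast hc), map_one, one_mul] at h
  exact h

theorem IsQZ1.zero : IsQZ1 k 0 := by
  unfold IsQZ1; rw [map_zero]; exact IsQ1.zero

theorem IsQZ1.add (hP : IsQZ1 k P) (hQ : IsQZ1 k Q) : IsQZ1 k (P + Q) := by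
  unfold IsQZ1 at *; rw [map_add]; exact hP.add hQ

theorem IsQZ1.C_mul (c : ℤ) (hP : IsQZ1 k P) : IsQZ1 k (C c * P) := by
  unfold IsQZ1 at *; rw [map_mul, toC_C]; exact hP.C_mul _

theorem IsQZ1.neg (hP : IsQZ1 k P) : IsQZ1 k (-P) := by
  unfold IsQZ1 at *; rw [map_neg]; exact hP.neg

theorem IsQZ1.sub (hP : IsQZ1 k P) (hQ : IsQZ1 k Q) : IsQZ1 k (P - Q) := by
  unfold IsQZ1 at *; rw [map_sub]; exact hP.sub hQ

theorem IsQZ1.sum {ι : Type*} (s : Finset ι) (f : ι → PowerSeries ℤ) (h : ∀ i ∈ s, IsQZ1 k (f i)) :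
    IsQZ1 k (∑ i ∈ s, f i) := by
  unfold IsQZ1 at *; rw [map_sum]; exact IsQ1.sum s _ h

theorem IsQZ1.const (c : ℤ) : IsQZ1 0 (C c) := by
  unfold IsQZ1; rw [toC_C]; exact IsQ1.const _

theorem IsQZ1.mul (hP : IsQZ1 k P) (hQ : IsQZ1 l Q) : IsQZ1 (k + l) (P * Q) := by
  unfold IsQZ1 at *; rw [map_mul]; exact hP.mul hQ

theorem IsQZ1.pow (hP : IsQZ1 k P) (n : ℕ) : IsQZ1 (n * k) (P ^ n) := by
  unfold IsQZ1 at *; rw [map_pow]; exact hP.pow n

theorem IsQZ1.of_C_mul {c : ℤ} (hc : c ≠ 0) (hP : IsQZ1 k (C c * P)) : IsQZ1 k P := by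
  unfold IsQZ1 at *
  rw [map_mul, toC_C] at hP
  have h := hP.C_mul ((c : ℂ)⁻¹)
  rw [← mul_assoc, ← map_mul, inv_mul_cancel₀ (by exact_mod_cast hc), map_one, one_mul] at h
  exact h

theorem IsQZ1.isQZ (N : ℕ) (hP : IsQZ1 k P) : IsQZ N k P := IsQ1.isQ N hP

end Int

/-! ### basic level one facts -/

open EisensteinSeries in
theorem api_qExpansion_E₄ : qExpansion 1 E₄ = toC E4z := by
  ext m
  rw [E_qExpansion_coeff _ ⟨2, rfl⟩, show bernoulli 4 = -1 / 30 by decide +kernel]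
  rw [coeff_toC, E4z, phi]
  rcases m with _ | m
  · simp
  · have h240 : (240 : PowerSeries ℤ) = C (240 : ℤ) := by simp
    rw [h240]
    simp only [map_add, coeff_C_mul, coeff_mk, coeff_one]
    push_cast
    simp
    norm_num

open EisensteinSeries in
theorem api_qExpansion_E₆ : qExpansion 1 E₆ = toC E6z := by
  ext m
  rw [E_qExpansion_coeff _ ⟨3, rfl⟩, show bernoulli 6 = 1 / 42 by decide +kernel]
  rw [coeff_toC, E6z, phi]
  rcases m with _ | m
  · simp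
  · have h504 : (504 : PowerSeries ℤ) = C (504 : ℤ) := by simp
    rw [h504]
    simp only [map_sub, coeff_C_mul, coeff_mk, coeff_one]
    push_cast
    simp
    norm_num

theorem isQZ1_E4z : IsQZ1 4 E4z := ⟨E₄, api_qExpansion_E₄⟩

theorem isQZ1_E6z : IsQZ1 6 E6z := ⟨E₆, api_qExpansion_E₆⟩

/-- `M₂(SL₂(ℤ)) = 0`. -/
theorem IsQ1.eq_zero_of_weight_two (hP : IsQ1 2 P) : P = 0 := by
  obtain ⟨f, rfl⟩ := hP
  have h := ModularForm.levelOne_weight_two_rank_zero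
  rw [rank_zero_iff] at h
  have hf : f = 0 := Subsingleton.elim _ _
  rw [hf, FunLike.coe_zero]
  exact qExpansion_zero 1

theorem api_constantCoeff_E4z : constantCoeff E4z = 1 := by
  simp [E4z, phi]

/-- `M₄(SL₂(ℤ)) = ℂ E₄`. -/
theorem IsQ1.weight_four (hP : IsQ1 4 P) : P = C (constantCoeff P) * toC E4z := by
  obtain ⟨f, rfl⟩ := hP
  have h1 : Module.finrank ℂ (ModularForm 𝒮ℒ 4) = 1 :=
    Module.rank_eq_one_iff_finrank_eq_one.mp ModularForm.levelOne_weight_four_rank_one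
  have hE : (E₄ : ModularForm 𝒮ℒ 4) ≠ 0 := by
    intro h0
    have := api_qExpansion_E₄
    rw [h0, FunLike.coe_zero, qExpansion_zero] at this
    have h2 := congrArg constantCoeff this
    rw [map_zero, ← coeff_zero_eq_constantCoeff_apply, coeff_toC, coeff_zero_eq_constantCoeff_apply,
      api_constantCoeff_E4z] at h2
    simp at h2
  obtain ⟨c, hc⟩ := (finrank_eq_one_iff_of_nonzero' E₄ hE).mp h1 f
  have hq : qExpansion 1 f = C c * toC E4z := by
    rw [← hc, FunLike.coe_smul, ModularForm.qExpansion_smul one_pos one_mem_strictPeriods_SL,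
      api_qExpansion_E₄, PowerSeries.smul_eq_C_mul]
  have hcc : constantCoeff (qExpansion 1 f) = c := by
    rw [hq, map_mul, constantCoeff_C, ← coeff_zero_eq_constantCoeff_apply, coeff_toC,
      coeff_zero_eq_constantCoeff_apply, api_constantCoeff_E4z]
    simp
  rw [hcc]
  exact hq

theorem IsQZ1.weight_four {P : PowerSeries ℤ} (hP : IsQZ1 4 P) :
    P = C (constantCoeff P) * E4z := by
  apply toC_injective
  have h := IsQ1.weight_four hP
  rw [map_mul, toC_C]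
  have h2 : constantCoeff (toC P) = ((constantCoeff P : ℤ) : ℂ) := by
    rw [← coeff_zero_eq_constantCoeff_apply, coeff_toC, coeff_zero_eq_constantCoeff_apply]
  rw [h2] at h
  exact h

end Fermat.Agent.S16
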