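import Fermat.Agent.S16.API
import Fermat.Agent.S16.PS
import Fermat.Agent.S28.QExp

/-!
# S16, piece L1: integral structure of level one forms, Sturm bound mod `ℓ` in level one
-/

set_option autoImplicit false

namespace Fermat.Agent.S16

open UpperHalfPlane ModularForm CongruenceSubgroup PowerSeries
open scoped MatrixGroups ModularForm

namespace L1

open EisensteinSeries ModularFormClass ModularCurve

theorem coeff_E4z (m : ℕ) :
    coeff m E4z = if m = 0 then 1 else 240 * (ArithmeticFunction.sigma 3 m : ℤ) := by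
  rw [E4z, phi, show (240 : PowerSeries ℤ) = C (240 : ℤ) by simp, map_add, PowerSeries.coeff_C_mul,
    PowerSeries.coeff_mk, PowerSeries.coeff_one]
  split_ifs with hm
  · subst hm; simp
  · simp

theorem coeff_E6z (m : ℕ) :
    coeff m E6z = if m = 0 then 1 else -504 * (ArithmeticFunction.sigma 5 m : ℤ) := by
  rw [E6z, phi, show (504 : PowerSeries ℤ) = C (504 : ℤ) by simp, map_sub, PowerSeries.coeff_C_mul,
    PowerSeries.coeff_mk, PowerSeries.coeff_one]
  split_ifs with hm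
  · subst hm; simp
  · simp

theorem qExpansion_E4 : qExpansion 1 E₄ = toC E4z := by
  ext m
  rw [E_qExpansion_coeff _ ⟨2, rfl⟩, show bernoulli 4 = -1 / 30 by decide +kernel]
  simp only [toC, PowerSeries.coeff_map, coeff_E4z]
  split_ifs with hm
  · simp
  · push_cast
    norm_num

theorem qExpansion_E6 : qExpansion 1 E₆ = toC E6z := by
  ext m
  rw [E_qExpansion_coeff _ ⟨3, rfl⟩, show bernoulli 6 = 1 / 42 by decide +kernel]
  simp only [toC, PowerSeries.coeff_map, coeff_E6z]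
  split_ifs with hm
  · simp
  · push_cast
    norm_num

theorem toC_inj : Function.Injective toC :=
  PowerSeries.map_injective _ Int.cast_injective

theorem qExpansion_Delta :
    qExpansion 1 ModularForm.discriminant = toC (X * dedekindEtaUnit) := by
  rw [Fermat.Agent.S28.qExpansion_discriminant, map_mul]
  simp [toC]

theorem isQZ1_Delta : IsQZ1 12 (X * dedekindEtaUnit) :=
  ⟨(CuspForm.discriminant : CuspForm 𝒮ℒ 12), by
    rw [← qExpansion_Delta]; rfl⟩

theorem qExp_rel : (1728 : PowerSeries ℂ) * qExpansion 1 ModularForm.discriminant =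
    qExpansion 1 E₄ ^ 3 - qExpansion 1 E₆ ^ 2 := by
  set G : ModularForm 𝒮ℒ 12 :=
    ModularForm.mcast (by decide) (E₄.pow 3) - ModularForm.mcast (by decide) (E₆.pow 2) with hG
  have h1 : qExpansion 1 G = qExpansion 1 E₄ ^ 3 - qExpansion 1 E₆ ^ 2 := by
    simp only [hG, FunLike.coe_sub, coe_mcast,
      ModularForm.qExpansion_sub one_pos one_mem_strictPeriods_SL,
      ModularForm.qExpansion_pow one_pos one_mem_strictPeriods_SL]
  have h2 : (G : ℍ → ℂ) =
      ((1728 : ℂ) • (CuspForm.discriminant : CuspForm 𝒮ℒ 12) : CuspForm 𝒮ℒ 12) := by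
    funext z
    have := discriminant_eq_E₄_cube_sub_E₆_sq z
    simp only [hG, coe_mcast, ModularForm.coe_pow, sub_apply, Pi.pow_apply]
    change _ = (1728 : ℂ) * ModularForm.discriminant z
    rw [this]; ring
  rw [← h1, h2, FunLike.coe_smul, ModularForm.qExpansion_smul one_pos one_mem_strictPeriods_SL]
  rw [show (1728 : PowerSeries ℂ) = C (1728 : ℂ) from (map_ofNat C 1728).symm,
    ← PowerSeries.smul_eq_C_mul]
  rfl

theorem Delta_eq : 1728 * (X * dedekindEtaUnit) = E4z ^ 3 - E6z ^ 2 := by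
  apply toC_inj
  rw [map_mul, ← qExpansion_Delta, map_sub, map_pow, map_pow, ← qExpansion_E4, ← qExpansion_E6,
    ← qExp_rel, map_ofNat]

theorem div_Delta (k : ℤ) (P : PowerSeries ℤ) (h : IsQZ1 k P) (h0 : constantCoeff P = 0) :
    ∃ P' : PowerSeries ℤ, IsQZ1 (k - 12) P' ∧ P = (X * dedekindEtaUnit) * P' := by
  obtain ⟨f, hf⟩ := h
  have hc : (qExpansion 1 f).coeff 0 = 0 := by
    rw [hf]; simp [toC, h0]
  have h1 := qExpansion_eq_qExpansion_discriminant_mul f hc
  obtain ⟨P1, rfl⟩ := PowerSeries.X_dvd_iff.mpr h0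
  have hX : toC X = X := by simp [toC]
  rw [hf, qExpansion_Delta, map_mul, map_mul, mul_assoc, hX] at h1
  have h2 := mul_left_cancel₀ X_ne_zero h1
  have h3 : qExpansion 1 (CuspForm.discriminantEquiv (toCuspForm f hc)) =
      toC (dedekindEtaUnitInv * P1) := by
    rw [map_mul, h2, ← mul_assoc, ← map_mul, mul_comm dedekindEtaUnitInv, dedekindEtaUnit_mul_inv,
      map_one, one_mul]
  refine ⟨dedekindEtaUnitInv * P1, ⟨_, h3⟩, ?_⟩
  calc X * P1 = X * (dedekindEtaUnit * dedekindEtaUnitInv) * P1 := by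
        rw [dedekindEtaUnit_mul_inv, mul_one]
    _ = _ := by ring

theorem dvd_coeff_mul (m : ℤ) (A B : PowerSeries ℤ) (n : ℕ) (h : ∀ j ≤ n, m ∣ coeff j A) :
    m ∣ coeff n (B * A) := by
  rw [PowerSeries.coeff_mul]
  refine Finset.dvd_sum fun x hx => Dvd.dvd.mul_left (h _ ?_) _
  have := Finset.HasAntidiagonal.mem_antidiagonal.mp hx
  omega

end L1

open L1 ModularCurve in
/-- The `q`-expansion of `Δ` is integral, `= q + O(q²)`.
(`Fermat.Agent.S28.qExpansion_discriminant` in `Fermat/Agent/S28/QExp.lean` gives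
`qExpansion 1 Δ = X * dedekindEtaUnit.map _`; Mathlib: `discriminant_eq_E₄_cube_sub_E₆_sq`.) -/
theorem exists_Deltaz : ∃ D : PowerSeries ℤ, IsQZ1 12 D ∧ (∃ u : PowerSeries ℤ, constantCoeff u = 1 ∧
    D = X * u) ∧ 1728 * D = E4z ^ 3 - E6z ^ 2 ∧
    ∀ (k : ℤ) (P : PowerSeries ℤ), IsQZ1 k P → constantCoeff P = 0 →
      ∃ P' : PowerSeries ℤ, IsQZ1 (k - 12) P' ∧ P = D * P' :=
  ⟨X * dedekindEtaUnit, isQZ1_Delta, ⟨_, constantCoeff_dedekindEtaUnit, rfl⟩, Delta_eq, div_Delta⟩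

/-- The integral `q`-expansion of `Δ`. -/
noncomputable def Deltaz : PowerSeries ℤ := exists_Deltaz.choose

theorem isQZ1_Deltaz : IsQZ1 12 Deltaz := exists_Deltaz.choose_spec.1

theorem Deltaz_eq_X_mul : ∃ u : PowerSeries ℤ, constantCoeff u = 1 ∧ Deltaz = X * u :=
  exists_Deltaz.choose_spec.2.1

theorem Deltaz_eq : 1728 * Deltaz = E4z ^ 3 - E6z ^ 2 := exists_Deltaz.choose_spec.2.2.1

/-- Division of an integral cusp form by `Δ` (Mathlib `CuspForm.discriminantEquiv`); the quotient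
is integral because `Δ = q · unit` in `ℤ⟦q⟧`. -/
theorem IsQZ1.exists_eq_Deltaz_mul {k : ℤ} {P : PowerSeries ℤ} (h : IsQZ1 k P)
    (h0 : constantCoeff P = 0) : ∃ P' : PowerSeries ℤ, IsQZ1 (k - 12) P' ∧ P = Deltaz * P' :=
  exists_Deltaz.choose_spec.2.2.2 k P h h0

theorem IsQZ1.eq_zero_of_neg {k : ℤ} {P : PowerSeries ℤ} (hk : k < 0) (h : IsQZ1 k P) : P = 0 := by
  obtain ⟨f, hf⟩ := h
  have : f = 0 := rank_zero_iff_forall_zero.mp (levelOne_neg_weight_rank_zero hk) f
  apply L1.toC_inj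
  rw [← hf, this, map_zero]
  exact qExpansion_zero _

theorem IsQZ1.eq_zero_of_odd {k : ℤ} {P : PowerSeries ℤ} (hk : Odd k) (h : IsQZ1 k P) : P = 0 := by
  obtain ⟨f, hf⟩ := h
  have : f = 0 := rank_zero_iff_forall_zero.mp (levelOne_odd_weight_rank_zero hk) f
  apply L1.toC_inj
  rw [← hf, this, map_zero]
  exact qExpansion_zero _

/-- Structure step with the normalisation `b ≤ 1`. -/
theorem IsQZ1.decomp' {k : ℤ} {P : PowerSeries ℤ} (h : IsQZ1 k P) :
    P = 0 ∨ ∃ (a b : ℕ) (P' : PowerSeries ℤ), b ≤ 1 ∧ 4 * (a : ℤ) + 6 * (b : ℤ) = k ∧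
      IsQZ1 (k - 12) P' ∧ P = C (constantCoeff P) * E4z ^ a * E6z ^ b + Deltaz * P' := by
  rcases lt_or_ge k 0 with hk | hk
  · exact Or.inl (h.eq_zero_of_neg hk)
  rcases Int.even_or_odd k with he | ho
  swap
  · exact Or.inl (h.eq_zero_of_odd ho)
  by_cases h2 : k = 2
  · subst h2
    left
    apply L1.toC_inj
    rw [map_zero]
    exact IsQ1.eq_zero_of_weight_two h
  right
  obtain ⟨a, b, hb, hab⟩ : ∃ a b : ℕ, b ≤ 1 ∧ 4 * (a : ℤ) + 6 * (b : ℤ) = k := by
    obtain ⟨m, hm⟩ := he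
    have hm0 : 0 ≤ m := by omega
    lift m to ℕ using hm0
    rcases Nat.even_or_odd' m with ⟨c, hc | hc⟩
    · exact ⟨c, 0, by omega, by subst hc; push_cast; omega⟩
    · have : 1 ≤ c := by
        rcases Nat.eq_zero_or_pos c with h | h
        · subst h; subst hc; simp at hm; omega
        · exact h
      exact ⟨c - 1, 1, le_rfl, by subst hc; push_cast [Nat.cast_sub this]; omega⟩
  have hM : IsQZ1 k (E4z ^ a * E6z ^ b) := by
    have := (isQZ1_E4z.pow a).mul (isQZ1_E6z.pow b)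
    rwa [show (a : ℤ) * 4 + (b : ℤ) * 6 = k by omega] at this
  have hS := h.sub (hM.C_mul (constantCoeff P))
  obtain ⟨P', hP', hP⟩ := hS.exists_eq_Deltaz_mul (by
    simp [constantCoeff_E4z, constantCoeff_E6z])
  refine ⟨a, b, P', hb, hab, hP', ?_⟩
  rw [← hP]
  ring

/-- Structure step: `P = a₀ E₄^a E₆^b + Δ P'` (or `P = 0`: weights `k < 0`, `k = 2`, `k` odd). -/
theorem IsQZ1.decomp {k : ℤ} {P : PowerSeries ℤ} (h : IsQZ1 k P) :
    P = 0 ∨ ∃ (a b : ℕ) (P' : PowerSeries ℤ), 4 * (a : ℤ) + 6 * (b : ℤ) = k ∧ IsQZ1 (k - 12) P' ∧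
      P = C (constantCoeff P) * E4z ^ a * E6z ^ b + Deltaz * P' := by
  rcases h.decomp' with h0 | ⟨a, b, P', _, h1, h2, h3⟩
  · exact Or.inl h0
  · exact Or.inr ⟨a, b, P', h1, h2, h3⟩

/-- Sturm bound mod `m` in level one (induction on `k` with `decomp`). -/
theorem sturm_levelOne (m : ℤ) {k : ℤ} {P : PowerSeries ℤ} (h : IsQZ1 k P)
    (h0 : ∀ n : ℕ, 12 * (n : ℤ) ≤ k → m ∣ coeff n P) : ∀ n, m ∣ coeff n P := by
  obtain ⟨N, hN⟩ : ∃ N : ℕ, k < N := ⟨(k + 1).toNat, by omega⟩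
  induction N using Nat.strong_induction_on generalizing k P with
  | _ N ih =>
    rcases h.decomp with rfl | ⟨a, b, P', hab, hP', hP⟩
    · simp
    have hk : 0 ≤ k := by omega
    obtain ⟨u, hu, hD⟩ := Deltaz_eq_X_mul
    have hc : m ∣ constantCoeff P := by
      have := h0 0 (by simpa using hk)
      simpa using this
    have h1 : ∀ n, m ∣ coeff n (C (constantCoeff P) * E4z ^ a * E6z ^ b) := by
      intro n
      rw [mul_assoc, PowerSeries.coeff_C_mul]
      exact Dvd.dvd.mul_right hc _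
    have h2 : ∀ n : ℕ, 12 * (n : ℤ) ≤ k - 12 → m ∣ coeff n (u * P') := by
      intro n hn
      have h3 := h0 (n + 1) (by push_cast; omega)
      rw [hP, map_add, hD, mul_assoc X, PowerSeries.coeff_succ_X_mul] at h3
      exact (Int.dvd_add_right (h1 _)).mp h3
    have h3 : ∀ n : ℕ, 12 * (n : ℤ) ≤ k - 12 → m ∣ coeff n P' := by
      intro n hn
      have h4 : P' = u.invOfUnit 1 * (u * P') := by
        rw [← mul_assoc, mul_comm _ u, PowerSeries.mul_invOfUnit _ _ (by rw [hu]; rfl), one_mul]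
      rw [h4]
      exact L1.dvd_coeff_mul m _ _ n fun j hj => h2 j (by omega)
    have h4 := ih (N - 12) (by omega) hP' h3 (by omega)
    intro n
    rw [hP, map_add]
    exact dvd_add (h1 n) (L1.dvd_coeff_mul m _ _ n fun j _ => h4 j)

end Fermat.Agent.S16
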