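import Fermat.Agent.S16.Tr2
import Fermat.Agent.S16.Sturm3
import Fermat.Agent.S16.LevelOne

/-!
# S16, piece BIG: the remaining cases of the upper bound at `ℓ = 3` (`9 ∣ p+1`) and `ℓ = 2` (`8 ∣ p+1`)
-/

set_option autoImplicit false

namespace Fermat.Agent.S16

open PowerSeries
open UpperHalfPlane ModularForm CongruenceSubgroup
open scoped MatrixGroups ModularForm

variable {p : ℕ} [Fact p.Prime]

theorem isQ_one_iff {k : ℤ} {P : PowerSeries ℂ} : IsQ 1 k P ↔ IsQ1 k P := by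
  constructor
  · rintro ⟨g, rfl⟩
    have hle : 𝒮ℒ ≤ (Subgroup.map (Matrix.SpecialLinearGroup.mapGL ℝ) (Gamma0 1)) := by
      rintro _ ⟨γ, rfl⟩
      refine ⟨γ, ?_, rfl⟩
      rw [SetLike.mem_coe, Gamma0_mem]
      exact Subsingleton.elim _ _
    exact ⟨{ toFun := g
             slash_action_eq' := fun γ hγ => g.slash_action_eq' γ (hle hγ)
             holo' := g.holo'
             bdd_at_cusps' := fun hc => g.bdd_at_cusps' (hc.mono hle) }, rfl⟩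
  · exact IsQ1.isQ 1

/-- `Γ₀(1) = SL₂(ℤ)`. -/
theorem isQZ_one_iff {k : ℤ} {P : PowerSeries ℤ} : IsQZ 1 k P ↔ IsQZ1 k P := isQ_one_iff

theorem IsQZ.congr_weight {N : ℕ} {k k' : ℤ} {P : PowerSeries ℤ} (h : IsQZ N k P) (hk : k = k') :
    IsQZ N k' P := hk ▸ h

theorem trace_binom_identity {H a b : PowerSeries ℤ} (m : ℕ) :
    (a - C (p : ℤ) * b * H) ^ m + C (p : ℤ) * U p ((V p a + V p b * U p H) ^ m) =
    ∑ i ∈ Finset.range (m + 1), C ((-1 : ℤ) ^ i * (m.choose i : ℤ)) * ((a ^ (m - i) * b ^ i) *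
      (C ((p : ℤ) ^ i) * H ^ i + C ((-1) ^ i * (p : ℤ)) * U p ((U p H) ^ i))) := by
  have hp : 0 < p := (Fact.out : p.Prime).pos
  have h1 : (a - C (p : ℤ) * b * H) ^ m = ∑ i ∈ Finset.range (m + 1),
      C ((-1 : ℤ) ^ i * (m.choose i : ℤ)) * ((a ^ (m - i) * b ^ i) * (C ((p : ℤ) ^ i) * H ^ i)) := by
    rw [sub_eq_add_neg, add_comm, add_pow]
    apply Finset.sum_congr rfl
    intro i _
    simp only [map_mul, map_pow, map_neg, map_one, map_natCast]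
    rw [neg_pow, mul_pow, mul_pow]
    ring
  have h2 : U p ((V p a + V p b * U p H) ^ m) = ∑ i ∈ Finset.range (m + 1),
      C (m.choose i : ℤ) * ((a ^ (m - i) * b ^ i) * U p ((U p H) ^ i)) := by
    rw [add_comm, add_pow, U_sum]
    apply Finset.sum_congr rfl
    intro i _
    rw [mul_pow, ← V_pow _ hp, ← V_pow _ hp,
      show V p (b ^ i) * U p H ^ i * V p (a ^ (m - i)) * (m.choose i : PowerSeries ℤ) =
        C (m.choose i : ℤ) * ((V p (a ^ (m - i)) * V p (b ^ i)) * U p H ^ i) by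
          simp only [map_natCast]; ring,
      U_C_mul, ← V_mul _ _ hp, U_V_mul _ _ hp]
  rw [h1, h2, Finset.mul_sum, ← Finset.sum_add_distrib]
  apply Finset.sum_congr rfl
  intro i _
  have h3 : ((-1 : ℤ) ^ i) * ((-1 : ℤ) ^ i) = 1 := by
    rw [← mul_pow]; simp
  have h4 : (C ((-1 : ℤ) ^ i) : PowerSeries ℤ) * C ((-1 : ℤ) ^ i) = 1 := by
    rw [← map_mul, h3, map_one]
  simp only [map_mul]
  linear_combination (C (p : ℤ) * (C (m.choose i : ℤ)) * ((a ^ (m - i) * b ^ i) * U p ((U p H) ^ i))) * (1 - h4)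

/-- Binomial expansion + `trace_powZ` + `U_V_mul`:
`(a - p b H)^m + p U_p((V_p a + V_p b · U_p H)^m)
   = ∑_i C(m,i) a^(m-i) b^i (-1)^i [p^i H^i + (-1)^i p U_p((U_p H)^i)]`. -/
theorem trace_binom {N : ℕ} {κ : ℤ} {H a b : PowerSeries ℤ} (h : IsQZ p 2 H) (ha : IsQZ N κ a)
    (hb : IsQZ N (κ - 2) b) (m : ℕ) :
    IsQZ N (m * κ) ((a - C (p : ℤ) * b * H) ^ m +
      C (p : ℤ) * U p ((V p a + V p b * U p H) ^ m)) := by
  rw [trace_binom_identity]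
  apply IsQZ.sum
  intro i hi
  have hi' : i ≤ m := by
    rw [Finset.mem_range] at hi; omega
  apply IsQZ.C_mul
  have h1 := ((ha.pow (m - i)).mul (hb.pow i)).mul ((trace_powZ h i).isQZ N)
  refine h1.congr_weight ?_
  have : ((m - i : ℕ) : ℤ) = (m : ℤ) - i := by
    push_cast [Nat.cast_sub hi']; ring
  rw [this]; ring

theorem big_coeff_pow_lt {ψ : PowerSeries ℤ} (hψ0 : constantCoeff ψ = 0) (m n : ℕ) (hn : n < m) :
    coeff n (ψ ^ m) = 0 := by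
  obtain ⟨ψ1, rfl⟩ := X_dvd_iff.mpr hψ0
  rw [mul_pow, coeff_X_pow_mul', if_neg (by omega)]

theorem big_coeff_pow_self {ψ : PowerSeries ℤ} (hψ0 : constantCoeff ψ = 0) (m : ℕ) :
    coeff m (ψ ^ m) = (coeff 1 ψ) ^ m := by
  obtain ⟨ψ1, rfl⟩ := X_dvd_iff.mpr hψ0
  rw [mul_pow, coeff_X_pow_mul', if_pos le_rfl, Nat.sub_self, coeff_zero_eq_constantCoeff_apply,
    map_pow]
  congr 1
  have := coeff_succ_X_mul 0 ψ1
  rw [zero_add] at this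
  rw [this, coeff_zero_eq_constantCoeff_apply]

/-- The common argument.  Let `ℓ^s ∥ p + 1`, `s ≥ 1`, `m = ℓ^s`.  Then `Y^m ≡ ψ^m`, `Ŷ^m ≡ V_p(ψ^m)`
mod `ℓ^(s+1)` (`PSModEq.pow_prime_pow`), so
`(a - p b H)^m + p U_p(..^m) = ℓ^(cm) (Y^m + p U_p(Ŷ^m)) ≡ ℓ^(cm) (1+p) ψ^m` mod `ℓ^(cm+s+1)`;
dividing by `ℓ^(cm+s)` gives an integral form `F` of weight `m κ` with `F ≡ t ψ^m (ℓ)`, `ℓ ∤ t`:
its coefficients of index `< m` vanish mod `ℓ`, the one of index `m` does not. -/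
theorem big_aux {N ℓ : ℕ} (hℓ : ℓ.Prime) {κ : ℤ} {H a b Y Y' ψ : PowerSeries ℤ} {c : ℕ}
    (h : IsQZ p 2 H) (ha : IsQZ N κ a) (hb : IsQZ N (κ - 2) b)
    (hY : a - C (p : ℤ) * b * H = C ((ℓ : ℤ) ^ c) * Y)
    (hY' : V p a + V p b * U p H = C ((ℓ : ℤ) ^ c) * Y')
    (hYψ : PSModEq (ℓ : ℤ) Y ψ) (hY'ψ : PSModEq (ℓ : ℤ) Y' (V p ψ))
    (hψ0 : constantCoeff ψ = 0) (hψ1 : ¬ (ℓ : ℤ) ∣ coeff 1 ψ) (hp : ℓ ∣ p + 1)
    (sturm : ∀ (m : ℕ) (F : PowerSeries ℤ), 0 < m → IsQZ N (m * κ) F →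
      (∀ n < m, (ℓ : ℤ) ∣ coeff n F) → ∀ n, (ℓ : ℤ) ∣ coeff n F) : False := by
  have hp0 : 0 < p := (Fact.out : p.Prime).pos
  have hℓ' : Prime (ℓ : ℤ) := Nat.prime_iff_prime_int.mp hℓ
  have hℓ0 : (ℓ : ℤ) ≠ 0 := hℓ'.ne_zero
  -- `p + 1 = ℓ^s t`
  obtain ⟨s, t, ht, hst⟩ := Nat.exists_eq_pow_mul_and_not_dvd (n := p + 1) (by omega) ℓ hℓ.ne_one
  set m := ℓ ^ s with hm
  have hm0 : 0 < m := pos_of_ne_zero (pow_ne_zero _ hℓ.ne_zero)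
  have hG := trace_binom h ha hb m
  rw [hY, hY', mul_pow, mul_pow, ← map_pow, U_C_mul] at hG
  -- congruences
  have e1 : PSModEq ((ℓ : ℤ) ^ (s + 1)) (Y ^ m) (ψ ^ m) := hYψ.pow_prime_pow s
  have e2 : PSModEq ((ℓ : ℤ) ^ (s + 1)) (U p (Y' ^ m)) (ψ ^ m) := by
    have := (hY'ψ.pow_prime_pow s).U p
    rwa [← V_pow _ hp0, U_V _ hp0] at this
  have e3 : PSModEq ((ℓ : ℤ) ^ (s + 1)) (Y ^ m + C (p : ℤ) * U p (Y' ^ m))
      (ψ ^ m + C (p : ℤ) * ψ ^ m) := e1.add ((PSModEq.refl _ _).mul e2)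
  obtain ⟨R, hR⟩ := psModEq_iff_exists.mp e3
  have hpt : (1 : ℤ) + (p : ℤ) = (ℓ : ℤ) ^ s * (t : ℤ) := by
    have : ((p + 1 : ℕ) : ℤ) = ((m * t : ℕ) : ℤ) := by rw [hst]
    push_cast [hm] at this
    linarith
  set F : PowerSeries ℤ := C (t : ℤ) * ψ ^ m + C (ℓ : ℤ) * R with hF
  have hGF : C (((ℓ : ℤ) ^ c) ^ m) * Y ^ m + C (p : ℤ) * (C (((ℓ : ℤ) ^ c) ^ m) * U p (Y' ^ m)) =
      C (((ℓ : ℤ) ^ c) ^ m * (ℓ : ℤ) ^ s) * F := by
    have h1 : C (((ℓ : ℤ) ^ c) ^ m) * Y ^ m + C (p : ℤ) * (C (((ℓ : ℤ) ^ c) ^ m) * U p (Y' ^ m)) =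
        C (((ℓ : ℤ) ^ c) ^ m) * (Y ^ m + C (p : ℤ) * U p (Y' ^ m)) := by ring
    rw [h1, hR, hF]
    have h2 : ψ ^ m + C (p : ℤ) * ψ ^ m = C ((1 : ℤ) + (p : ℤ)) * ψ ^ m := by
      rw [map_add, map_one]; ring
    rw [h2, hpt, pow_succ]
    simp only [map_mul]
    ring
  rw [hGF] at hG
  have hFQ : IsQZ N (m * κ) F :=
    hG.of_C_mul (mul_ne_zero (pow_ne_zero _ (pow_ne_zero _ hℓ0)) (pow_ne_zero _ hℓ0))
  have hlow : ∀ n < m, (ℓ : ℤ) ∣ coeff n F := by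
    intro n hn
    rw [hF, map_add, coeff_C_mul, coeff_C_mul, big_coeff_pow_lt hψ0 m n hn, mul_zero, zero_add]
    exact Dvd.intro _ rfl
  have hall := sturm m F hm0 hFQ hlow m
  rw [hF, map_add, coeff_C_mul, coeff_C_mul, big_coeff_pow_self hψ0] at hall
  have h5 : (ℓ : ℤ) ∣ (t : ℤ) * coeff 1 ψ ^ m :=
    (Int.dvd_add_left (Dvd.intro _ rfl)).mp hall
  rcases hℓ'.dvd_or_dvd h5 with h6 | h6
  · exact ht (Int.natCast_dvd_natCast.mp h6)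
  · exact hψ1 (hℓ'.dvd_of_dvd_pow h6)

theorem big_V_ofNat_mul (q : ℕ) (n : ℕ) [n.AtLeastTwo] (P : PowerSeries ℤ) :
    V q ((OfNat.ofNat n : PowerSeries ℤ) * P) = (OfNat.ofNat n : PowerSeries ℤ) * V q P := by
  have : (OfNat.ofNat n : PowerSeries ℤ) = C (OfNat.ofNat n : ℤ) := by simp
  rw [this, V_C_mul]

theorem big_V_E4z (q : ℕ) : V q E4z = 1 + 240 * V q (phi 3) := by
  rw [E4z, V_add, V_one, big_V_ofNat_mul]

theorem big_V_E6z (q : ℕ) : V q E6z = 1 - 504 * V q (phi 5) := by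
  rw [E6z, V_sub, V_one, big_V_ofNat_mul]

/-- `ℓ = 3`, `p ≡ 2 (3)`.  By `dvd_of_bad_three_two`, `27 ∣ p + 1`.  `H = u + 9R`.  Apply `big_aux` with
`N = 1` (`isQZ_one_iff`), `κ = 8`, `a = -u E₄²`, `b = E₆`, `c = 1`,
`ψ = -u φ₃`:  `E₄² = 1 + 480 φ₃ + 57600 φ₃² ≡ 1 + 480 φ₃ (9)`, `E₆ ≡ 1 (9)`, so
`a - p b H ≡ -u(p+1) - 480 u φ₃ ≡ -480 u φ₃ (9)` and `V_p a + V_p b Ĥ ≡ -480 u V_p φ₃ (9)`; `160 ≡ 1 (3)`.
Sturm: `sturm_levelOne` (weight `8m`, `12 n ≤ 8 m ⟹ n < m` for `m ≥ 1`). -/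
theorem not_bad_three_two (hp : p % 3 = 2) : ¬ Bad p 3 2 := by
  intro hbad
  have hp0 : 0 < p := (Fact.out : p.Prime).pos
  obtain ⟨w, hw⟩ := dvd_of_bad_three_two hbad
  obtain ⟨u, R, hu, hR0, hH⟩ := hbad
  have hpw : (C (p : ℤ) : PowerSeries ℤ) = 27 * C (w : ℤ) - 1 := by
    have h1 : (p : ℤ) = 27 * (w : ℤ) - 1 := by
      have : ((p + 1 : ℕ) : ℤ) = ((27 * w : ℕ) : ℤ) := by rw [hw]
      push_cast at this; linarith
    rw [h1]; simp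
  set H : PowerSeries ℤ := C u + C (((3 : ℕ) : ℤ) ^ 2) * R with hHdef
  set ψ : PowerSeries ℤ := C (-u) * phi 3 with hψ
  set Z : PowerSeries ℤ := -3 * C u * C (w : ℤ) - 53 * C u * phi 3 - 6400 * C u * phi 3 ^ 2
    - C (p : ℤ) * R + 56 * C (p : ℤ) * phi 5 * (C u + 9 * R) with hZ
  set Z' : PowerSeries ℤ := - 53 * C u * V p (phi 3) - 6400 * C u * V p (phi 3) ^ 2
    + U p R - 56 * V p (phi 5) * (C u + 9 * U p R) with hZ'
  have hUH : U p H = C u + 9 * U p R := by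
    rw [hHdef, U_add, U_C p hp0, U_C_mul]; simp
  refine big_aux (p := p) (N := 1) (ℓ := 3) Nat.prime_three (κ := 8) (H := H)
    (a := C (-u) * E4z ^ 2) (b := E6z) (Y := ψ + C 3 * Z) (Y' := V p ψ + C 3 * Z') (ψ := ψ) (c := 1)
    hH ?_ ?_ ?_ ?_ ?_ ?_ ?_ ?_ ?_ ?_
  · exact isQZ_one_iff.mpr ((isQZ1_E4z.pow 2).C_mul _)
  · exact isQZ_one_iff.mpr isQZ1_E6z
  · rw [hHdef, hψ, hZ, E4z, E6z]
    simp only [map_neg, map_pow, map_ofNat, Nat.cast_ofNat, pow_one]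
    linear_combination (-C u) * hpw
  · rw [hUH, hψ, hZ', V_C_mul, V_C_mul, V_pow _ hp0, big_V_E4z, big_V_E6z]
    simp only [map_neg, map_pow, map_ofNat, Nat.cast_ofNat, pow_one]
    ring
  · exact psModEq_iff_exists.mpr ⟨Z, by simp⟩
  · exact psModEq_iff_exists.mpr ⟨Z', by simp⟩
  · rw [hψ, map_mul, constantCoeff_phi, mul_zero]
  · rw [hψ, coeff_C_mul, coeff_one_phi, mul_one]
    intro h; exact hu ((dvd_neg).mp h)
  · omega
  · intro m F hm hF hlow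
    refine sturm_levelOne 3 (isQZ_one_iff.mp hF) ?_
    intro n hn
    apply hlow
    have : (12 : ℤ) * n ≤ m * 8 := hn
    have hm' : (0 : ℤ) < m := by exact_mod_cast hm
    have : (n : ℤ) < m := by linarith
    exact_mod_cast this

/-- `ℓ = 2`, `p ≡ 3 (4)`.  By `dvd_of_bad_two_three`, `8 ∣ p + 1`.  `H = u + 8R`.  Apply `big_aux` with `N = 3`,
`κ = 2`, `a = p u (1 + 12 δ₃)`, `b = 1`, `c = 2`, `ψ = δ₃`:
`a - p H = 4 (3 p u δ₃ - 2 p R)`, `V_p a + Ĥ = 4 (u (p+1)/4 + 3 p u V_p δ₃ + 2 R̂)`.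
Sturm: `sturm_three` (weight `2m`, `3 n ≤ 2 m ⟹ n < m`). -/
theorem not_bad_two_three (hp : p % 4 = 3) : ¬ Bad p 2 3 := by
  intro hbad
  have hp0 : 0 < p := (Fact.out : p.Prime).pos
  obtain ⟨w, hw⟩ := dvd_of_bad_two_three hp hbad
  obtain ⟨u, R, hu, hR0, hH⟩ := hbad
  have h1 : (p : ℤ) = 8 * (w : ℤ) - 1 := by
    have : ((p + 1 : ℕ) : ℤ) = ((8 * w : ℕ) : ℤ) := by rw [hw]
    push_cast at this; linarith
  have hpw : (C (p : ℤ) : PowerSeries ℤ) = 8 * C (w : ℤ) - 1 := by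
    rw [h1]; simp
  -- `u = 2 v + 1`
  obtain ⟨v, hv⟩ : ∃ v, u = 2 * v + 1 := by
    have : Odd u := by
      rw [← Int.not_even_iff_odd, even_iff_two_dvd]; exact_mod_cast hu
    exact this
  have huv : (C u : PowerSeries ℤ) = 2 * C v + 1 := by rw [hv]; simp
  set H : PowerSeries ℤ := C u + C (((2 : ℕ) : ℤ) ^ 3) * R with hHdef
  -- `3 p u = 1 + 2 e`
  set e : PowerSeries ℤ := 24 * C (w : ℤ) * C v + 12 * C (w : ℤ) - 3 * C v - 2 with he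
  have h3pu : 3 * C (p : ℤ) * C u = 1 + 2 * e := by
    rw [he, hpw, huv]; ring
  set Z : PowerSeries ℤ := e * delta 3 - C (p : ℤ) * R with hZ
  set Z' : PowerSeries ℤ := C u * C (w : ℤ) + e * V p (delta 3) + U p R with hZ'
  have hUH : U p H = C u + 8 * U p R := by
    rw [hHdef, U_add, U_C p hp0, U_C_mul]; simp
  refine big_aux (p := p) (N := 3) (ℓ := 2) Nat.prime_two (κ := 2) (H := H)
    (a := C ((p : ℤ) * u) * (1 + 12 * delta 3)) (b := 1) (Y := delta 3 + C 2 * Z)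
    (Y' := V p (delta 3) + C 2 * Z') (ψ := delta 3) (c := 2)
    hH ?_ ?_ ?_ ?_ ?_ ?_ ?_ ?_ ?_ ?_
  · exact isQZ_b3.C_mul _
  · have := IsQZ.const (N := 3) 1
    rw [map_one] at this
    exact this.congr_weight (by norm_num)
  · rw [hHdef, hZ]
    simp only [map_mul, map_pow, map_ofNat, Nat.cast_ofNat]
    linear_combination (4 * delta 3) * h3pu
  · rw [hUH, hZ', V_C_mul, V_add, V_one, big_V_ofNat_mul]
    simp only [map_mul, map_pow, map_ofNat, Nat.cast_ofNat]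
    linear_combination (4 * V p (delta 3)) * h3pu + C u * hpw
  · exact psModEq_iff_exists.mpr ⟨Z, by simp⟩
  · exact psModEq_iff_exists.mpr ⟨Z', by simp⟩
  · exact constantCoeff_delta 3
  · rw [coeff_one_delta (by norm_num)]
    norm_num
  · omega
  · intro m F hm hF hlow
    refine sturm_three (w := m) (hF.congr_weight (by ring)) ?_
    intro n hn
    apply hlow
    omega

end Fermat.Agent.S16
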