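import Fermat.Agent.S21.Defs
import Fermat.Agent.S21.InjAux
import Fermat.Prelude.Def_ModularForm_HeckeOperatorForms

/-!
# S16, cohomological lower bound (`n ∣ m`): shared definitions

Blueprint: findings #123 (helper2) + the docstrings of the files `Fermat/Agent/S16/Coh*.lean`.
`Γ = Γ₀(p)`.  Everything is phrased with *functions* `F : ℍ → ℂ` which change by a constant under
every `γ ∈ Γ`; the "period" `γ ↦ F (γ z) - F z` is a homomorphism `Γ → ℂ`.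
-/

set_option autoImplicit false

namespace Fermat.Agent.S16.Coh

open UpperHalfPlane CongruenceSubgroup ModularForm
open scoped MatrixGroups

noncomputable section

/-- `F` changes by an *integer* constant under every element of `Γ₀(N)`. -/
def IsIntEquiv (N : ℕ) (F : ℍ → ℂ) : Prop :=
  ∀ γ ∈ Gamma0 N, ∃ m : ℤ, ∀ z : ℍ, F (γ • z) - F z = m

/-- unweighted `U_p`: `F ↦ ∑_{j<p} F((z+j)/p)`. -/
def UU (p : ℕ) (F : ℍ → ℂ) (z : ℍ) : ℂ := ∑ j ∈ Finset.range p, F (heckeMatrix p j • z)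

/-- unweighted `T_p`: `F ↦ ∑_{j<p} F((z+j)/p) + F(pz)`. -/
def TT (p : ℕ) (F : ℍ → ℂ) (z : ℍ) : ℂ := UU p F z + F (heckeDiagMatrix p • z)

/-- `[1 0; -p 1] = S T^p S⁻¹`, the generator of the stabiliser of the cusp `0` in `Γ₀(p)`. -/
def Tlow (p : ℕ) : SL(2, ℤ) := ⟨!![1, 0; -(p : ℤ), 1], by simp [Matrix.det_fin_two_of]⟩

theorem T_mem (p : ℕ) : ModularGroup.T ∈ Gamma0 p := by
  rw [Gamma0_mem]; simp [ModularGroup.T]

theorem Tlow_mem (p : ℕ) : Tlow p ∈ Gamma0 p := by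
  rw [Gamma0_mem]; simp [Tlow]

/-- `T` as an element of `Γ₀(p)`. -/
def Tg (p : ℕ) : Gamma0 p := ⟨ModularGroup.T, T_mem p⟩

/-- `[1 0; -p 1]` as an element of `Γ₀(p)`. -/
def Tlowg (p : ℕ) : Gamma0 p := ⟨Tlow p, Tlow_mem p⟩

/-- the primitive of `E₂ - 1` which tends to `0` at `i∞`: `B = (2πi)⁻¹ log (Δ / q)`. -/
def BB : ℍ → ℂ := Fermat.Agent.S21.prim (fun z => EisensteinSeries.E2 z - 1)

/-- `A = (2πi)⁻¹ log Δ`, normalised by `A z - z → 0`. -/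
def AA (z : ℍ) : ℂ := (z : ℂ) + BB z

/-- `Ψ = A(pz) - A(z) = (2πi)⁻¹ log (Δ(pz)/Δ(z))`. -/
def Psi (p : ℕ) (z : ℍ) : ℂ := AA (heckeDiagMatrix p • z) - AA z

/-- the Fricke involution `z ↦ -1/(pz)`. -/
def fricke (p : ℕ) (z : ℍ) : ℍ := ModularGroup.S • (heckeDiagMatrix p • z)

end

end Fermat.Agent.S16.Coh
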