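import Fermat.Agent.S16.CohDefs
import Fermat.Agent.S22.LatHecke

/-!
# S16 (cohomological lower bound), piece EQ: integrality of periods is preserved by the Hecke sums

Model: `Fermat/Agent/S22/LatHecke.lean` (`perL_comp_eq_sum`, `perL_comp_heckeTLin_mem`,
`perL_comp_heckeULin_mem`), which uses the Prelude lemmas (namespace
`P2MW.S_ModularForm_heckeT_slash_eq_self_of_mem_Gamma0.ModularForm.HeckeSlashInvariance`)
`heckeRep`, `heckeRep_mul : heckeRep p x * mapGL ℝ g = mapGL ℝ g' * heckeRep p (redMatrix p g • x)` with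
`N ∣ g' 1 0`, and `heckeMatrix_mul_of_dvd`, `affinePerm`, `sum_range_eq_sum_zmod`.
`TT ℓ F (γ z) = ∑_x F (δ_x γ z) = ∑_x F (γ'_x δ_{π x} z) = ∑_x (F (δ_{π x} z) + m_x) = TT ℓ F z + ∑ m_x`.
-/

set_option autoImplicit false

namespace Fermat.Agent.S16.Coh

open UpperHalfPlane CongruenceSubgroup ModularForm
open scoped MatrixGroups

variable {N : ℕ} {F G : ℍ → ℂ}

theorem IsIntEquiv.add (hF : IsIntEquiv N F) (hG : IsIntEquiv N G) :
    IsIntEquiv N (fun z => F z + G z) := by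
  intro γ hγ
  obtain ⟨m, hm⟩ := hF γ hγ
  obtain ⟨n, hn⟩ := hG γ hγ
  refine ⟨m + n, fun z => ?_⟩
  push_cast
  linear_combination hm z + hn z

theorem IsIntEquiv.int_mul (hF : IsIntEquiv N F) (a : ℤ) : IsIntEquiv N (fun z => (a : ℂ) * F z) := by
  intro γ hγ
  obtain ⟨m, hm⟩ := hF γ hγ
  refine ⟨a * m, fun z => ?_⟩
  push_cast
  linear_combination (a : ℂ) * hm z

theorem IsIntEquiv.sub (hF : IsIntEquiv N F) (hG : IsIntEquiv N G) :
    IsIntEquiv N (fun z => F z - G z) := by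
  intro γ hγ
  obtain ⟨m, hm⟩ := hF γ hγ
  obtain ⟨n, hn⟩ := hG γ hγ
  refine ⟨m - n, fun z => ?_⟩
  push_cast
  linear_combination hm z - hn z

/-- only the differences `F (γ z) - F z` matter. -/
theorem IsIntEquiv.congr_const (hF : IsIntEquiv N F) (C : ℂ) (h : ∀ z, G z = F z + C) :
    IsIntEquiv N G := by
  intro γ hγ
  obtain ⟨m, hm⟩ := hF γ hγ
  refine ⟨m, fun z => ?_⟩
  rw [h, h]
  linear_combination hm z

/-- the abstract double coset computation. -/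
theorem IsIntEquiv.sum_of {ι : Type*} [Fintype ι] (δ : ι → GL (Fin 2) ℝ) (hF : IsIntEquiv N F)
    (H : ∀ g ∈ Gamma0 N, ∃ (π : Equiv.Perm ι) (g' : ι → SL(2, ℤ)), (∀ x, g' x ∈ Gamma0 N) ∧
      ∀ x, δ x * Matrix.SpecialLinearGroup.mapGL ℝ g
        = Matrix.SpecialLinearGroup.mapGL ℝ (g' x) * δ (π x)) :
    IsIntEquiv N (fun z => ∑ x, F (δ x • z)) := by
  intro γ hγ
  obtain ⟨π, g', hg', hmul⟩ := H γ hγ
  choose m hm using fun x => hF (g' x) (hg' x)
  refine ⟨∑ x, m x, fun z => ?_⟩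
  have h1 : ∀ x, F (δ x • γ • z) = F (δ (π x) • z) + m x := by
    intro x
    have : δ x • γ • z = g' x • (δ (π x) • z) := by
      change δ x • (Matrix.SpecialLinearGroup.mapGL ℝ γ • z)
        = Matrix.SpecialLinearGroup.mapGL ℝ (g' x) • (δ (π x) • z)
      rw [← mul_smul, ← mul_smul, hmul]
    rw [this]
    linear_combination hm x (δ (π x) • z)
  simp only [h1]
  rw [Finset.sum_add_distrib, Equiv.sum_comp π (fun x => F (δ x • z))]
  push_cast
  ring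

open P2MW.S_ModularForm_heckeT_slash_eq_self_of_mem_Gamma0.ModularForm.HeckeSlashInvariance

theorem IsIntEquiv.TT {ℓ : ℕ} (hℓ : ℓ.Prime) (hℓN : ¬ ℓ ∣ N) (hF : IsIntEquiv N F) :
    IsIntEquiv N (TT ℓ F) := by
  haveI : Fact ℓ.Prime := ⟨hℓ⟩
  have h1 : Coh.TT ℓ F = fun z => ∑ x : OnePoint (ZMod ℓ), F (heckeRep ℓ x • z) := by
    funext z
    unfold Coh.TT Coh.UU
    rw [sum_range_eq_sum_zmod (fun j => F (heckeMatrix ℓ j • z)), add_comm]
    exact (Fintype.sum_option (fun x : OnePoint (ZMod ℓ) ↦ F (heckeRep ℓ x • z))).symm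
  rw [h1]
  apply IsIntEquiv.sum_of _ hF
  intro g0 hg0
  have hcN : (N : ℤ) ∣ g0 1 0 :=
    (ZMod.intCast_zmod_eq_zero_iff_dvd _ _).mp (CongruenceSubgroup.Gamma0_mem.mp hg0)
  choose g' hg'N hmul using heckeRep_mul hℓN g0 hcN
  exact ⟨MulAction.toPerm (redMatrix ℓ g0), g', fun x =>
    CongruenceSubgroup.Gamma0_mem.mpr ((ZMod.intCast_zmod_eq_zero_iff_dvd _ _).mpr (hg'N x)), hmul⟩

theorem IsIntEquiv.UU {q : ℕ} (hq : q.Prime) (hqN : q ∣ N) (hF : IsIntEquiv N F) :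
    IsIntEquiv N (UU q F) := by
  haveI : NeZero q := ⟨hq.ne_zero⟩
  have h1 : Coh.UU q F = fun z => ∑ x : ZMod q, F (heckeMatrix q x.val • z) := by
    funext z
    unfold Coh.UU
    rw [sum_range_eq_sum_zmod (fun j => F (heckeMatrix q j • z))]
  rw [h1]
  apply IsIntEquiv.sum_of (fun x : ZMod q => heckeMatrix q x.val) hF
  intro g0 hg0
  have hcN : (N : ℤ) ∣ g0 1 0 :=
    (ZMod.intCast_zmod_eq_zero_iff_dvd _ _).mp (CongruenceSubgroup.Gamma0_mem.mp hg0)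
  have hc : (q : ℤ) ∣ g0 1 0 := (Int.natCast_dvd_natCast.mpr hqN).trans hcN
  choose g' hg'N hmul using heckeMatrix_mul_of_dvd g0 hc
  refine ⟨affinePerm g0 ((ZMod.intCast_zmod_eq_zero_iff_dvd _ _).mpr hc), g', fun x => ?_, hmul⟩
  rw [CongruenceSubgroup.Gamma0_mem, hg'N x]
  push_cast
  rw [CongruenceSubgroup.Gamma0_mem.mp hg0, mul_zero]

end Fermat.Agent.S16.Coh
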