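import Fermat.Agent.S16.API
import Fermat.Agent.S16.Cosets
import Fermat.Prelude.Thm_CongruenceSubgroup_one_mem_strictPeriods_Gamma0

/-!
# S16, piece EIS: the weight two Eisenstein series `N E₂(Nz) - E₂(z)` on `Γ₀(N)`, `N` prime
-/

set_option autoImplicit false

namespace Fermat.Agent.S16

open UpperHalfPlane ModularForm CongruenceSubgroup PowerSeries
open scoped MatrixGroups ModularForm

namespace Eis

open EisensteinSeries Complex Function
open scoped Real Manifold

/-- `z ↦ r z` on the upper half plane. -/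
noncomputable def sc (r : ℝ) (hr : 0 < r) (z : ℍ) : ℍ :=
  ⟨(r : ℂ) * z, by simpa using mul_pos hr z.im_pos⟩

@[simp] lemma coe_sc (r : ℝ) (hr : 0 < r) (z : ℍ) : ((sc r hr z : ℍ) : ℂ) = (r : ℂ) * z := rfl

lemma im_sc (r : ℝ) (hr : 0 < r) (z : ℍ) : (sc r hr z).im = r * z.im := by
  change ((r : ℂ) * z).im = _
  simp

lemma mdiff_comp_sc {f : ℍ → ℂ} (hf : MDiff f) (r : ℝ) (hr : 0 < r) :
    MDiff (fun z => f (sc r hr z)) := by
  rw [mdifferentiable_iff] at hf ⊢
  have h1 : DifferentiableOn ℂ ((f ∘ ofComplex) ∘ fun w : ℂ => (r : ℂ) * w) {z | 0 < z.im} := by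
    refine hf.comp (by fun_prop) ?_
    intro w hw
    simpa using mul_pos hr hw
  refine h1.congr ?_
  intro w hw
  have hw' : 0 < ((r : ℂ) * w).im := by simpa using mul_pos hr hw
  simp only [Function.comp_apply, ofComplex_apply_of_im_pos hw, ofComplex_apply_of_im_pos hw']
  rfl

lemma bdd_comp_sc {f : ℍ → ℂ} (hf : IsBoundedAtImInfty f) (r : ℝ) (hr : 0 < r) :
    IsBoundedAtImInfty (fun z => f (sc r hr z)) := by
  rw [isBoundedAtImInfty_iff] at hf ⊢
  obtain ⟨M, A, h⟩ := hf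
  refine ⟨M, A / r, fun z hz => h _ ?_⟩
  rw [im_sc]
  rwa [div_le_iff₀' hr] at hz

/-- the constant `1 / (2 ζ(2))`. -/
noncomputable def c0 : ℂ := 1 / (2 * riemannZeta 2)

lemma E2_smul (γ : SL(2, ℤ)) (z : ℍ) :
    E2 (γ • z) = denom γ z ^ 2 * E2 z - c0 * (2 * π * Complex.I * γ 1 0) * denom γ z := by
  have h := congrFun (E2_slash_action γ) z
  rw [SL_slash_apply] at h
  simp only [Pi.sub_apply, Pi.smul_apply, D2, smul_eq_mul] at h
  have hd : denom γ z ≠ 0 := denom_ne_zero _ z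
  rw [zpow_neg, zpow_two] at h
  rw [c0]
  field_simp at h ⊢
  linear_combination h

/-- `N E₂(N z) - E₂(z)`. -/
noncomputable def F (N : ℕ) (hN : 0 < N) (z : ℍ) : ℂ :=
  (N : ℂ) * E2 (sc N (by exact_mod_cast hN) z) - E2 z

lemma F_mdiff (N : ℕ) (hN : 0 < N) : MDiff (F N hN) := by
  have h1 : MDiff (fun z => E2 (sc N (by exact_mod_cast hN) z)) :=
    mdiff_comp_sc E2_mdifferentiable _ _
  have h2 : MDiff (fun _ : ℍ => (N : ℂ)) := mdifferentiable_const
  exact (h2.mul h1).sub E2_mdifferentiable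

lemma F_bdd (N : ℕ) (hN : 0 < N) : IsBoundedAtImInfty (F N hN) := by
  have h1 : IsBoundedAtImInfty (fun z => E2 (sc N (by exact_mod_cast hN) z)) :=
    bdd_comp_sc isBoundedAtImInfty_E2 _ _
  have h2 : IsBoundedAtImInfty (fun _ : ℍ => (N : ℂ)) := Filter.const_boundedAtFilter _ _
  exact (h2.mul h1).sub isBoundedAtImInfty_E2

lemma F_inv (N : ℕ) (hN : 0 < N) (γ : SL(2, ℤ)) (hγ : γ ∈ Gamma0 N) :
    F N hN ∣[(2 : ℤ)] γ = F N hN := by
  rw [Gamma0_mem, ZMod.intCast_zmod_eq_zero_iff_dvd] at hγ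
  obtain ⟨c', hc'⟩ := hγ
  have hdet : γ 0 0 * γ 1 1 - γ 0 1 * γ 1 0 = 1 := by
    have := γ.det_coe
    rwa [Matrix.det_fin_two] at this
  let γ' : SL(2, ℤ) := ⟨!![γ 0 0, N * γ 0 1; c', γ 1 1], by
    rw [Matrix.det_fin_two_of]
    rw [hc'] at hdet
    linear_combination hdet⟩
  have hN' : (0 : ℝ) < N := by exact_mod_cast hN
  ext z
  have e00 : γ' 0 0 = γ 0 0 := rfl
  have e01 : γ' 0 1 = N * γ 0 1 := rfl
  have e10 : γ' 1 0 = c' := rfl
  have e11 : γ' 1 1 = γ 1 1 := rfl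
  have hden : denom γ' (sc N hN' z) = denom γ z := by
    rw [ModularGroup.denom_apply, ModularGroup.denom_apply, e10, e11, hc', coe_sc]
    push_cast
    ring
  have hd : denom γ z ≠ 0 := denom_ne_zero _ z
  have hsm : sc N hN' (γ • z) = γ' • sc N hN' z := by
    apply UpperHalfPlane.ext
    have hd' := hd
    rw [ModularGroup.denom_apply, hc'] at hd'
    push_cast at hd'
    rw [coe_sc, coe_specialLinearGroup_apply, coe_specialLinearGroup_apply, e00, e01, e10, e11,
      hc', coe_sc]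
    simp only [algebraMap_int_eq, eq_intCast, Int.cast_mul, Int.cast_natCast, ofReal_intCast,
      ofReal_mul, ofReal_natCast]
    have hd'' : (c' : ℂ) * ((N : ℂ) * z) + (γ 1 1 : ℂ) ≠ 0 := by
      intro h
      apply hd'
      linear_combination h
    field_simp
  rw [SL_slash_apply]
  unfold F
  rw [hsm, E2_smul, E2_smul, hden, e10, hc', zpow_neg, zpow_two]
  push_cast
  field_simp
  ring

lemma F_slash_S (N : ℕ) (hN : 0 < N) :
    F N hN ∣[(2 : ℤ)] ModularGroup.S =
      fun z => E2 (sc (1 / N) (by positivity) z) / N - E2 z := by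
  have hN' : (0 : ℝ) < N := by exact_mod_cast hN
  have hN1 : (0 : ℝ) < 1 / N := by positivity
  have hNC : (N : ℂ) ≠ 0 := by exact_mod_cast hN.ne'
  ext z
  have hz : (z : ℂ) ≠ 0 := ne_zero z
  have hsm : sc N hN' (ModularGroup.S • z) = ModularGroup.S • sc (1 / N) hN1 z := by
    apply UpperHalfPlane.ext
    rw [coe_sc, modular_S_smul, modular_S_smul]
    simp only [coe_sc]
    push_cast
    field_simp
  rw [SL_slash_apply]
  unfold F
  rw [hsm, E2_smul, E2_smul, ModularGroup.denom_S, ModularGroup.denom_S, zpow_neg, zpow_two,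
    coe_sc]
  have : (ModularGroup.S 1 0 : ℤ) = 1 := by simp [ModularGroup.S]
  rw [this]
  push_cast
  field_simp
  ring

lemma F_slash_S_bdd (N : ℕ) (hN : 0 < N) :
    IsBoundedAtImInfty (F N hN ∣[(2 : ℤ)] ModularGroup.S) := by
  rw [F_slash_S]
  have h1 : IsBoundedAtImInfty (fun z => E2 (sc (1 / N) (by positivity) z)) :=
    bdd_comp_sc isBoundedAtImInfty_E2 _ _
  have h2 : IsBoundedAtImInfty (fun _ : ℍ => ((N : ℂ))⁻¹) := Filter.const_boundedAtFilter _ _
  have := (h1.mul h2).sub isBoundedAtImInfty_E2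
  simp only [div_eq_mul_inv]
  exact this

open ArithmeticFunction in
lemma sig_eq (N m : ℕ) (hN : 0 < N) (hm : m ≠ 0) :
    sig N m = (sigma 1 m : ℤ) - (if N ∣ m then (N : ℤ) * (sigma 1 (m / N) : ℤ) else 0) := by
  have h1 : (sigma 1 m : ℤ) = ∑ d ∈ m.divisors, (d : ℤ) := by
    rw [sigma_one_apply]; push_cast; rfl
  have h2 := Finset.sum_filter_add_sum_filter_not m.divisors (fun d => N ∣ d) (fun d => (d : ℤ))
  have h3 : ∑ d ∈ m.divisors with N ∣ d, (d : ℤ) =
      if N ∣ m then (N : ℤ) * (sigma 1 (m / N) : ℤ) else 0 := by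
    split_ifs with h
    · obtain ⟨k, rfl⟩ := h
      have hk : k ≠ 0 := by rintro rfl; simp at hm
      rw [Nat.mul_div_cancel_left _ hN, sigma_one_apply]
      push_cast
      rw [Finset.mul_sum]
      symm
      refine Finset.sum_nbij' (fun e => N * e) (fun d => d / N) ?_ ?_ ?_ ?_ ?_
      · intro e he
        simp only [Finset.mem_filter, Nat.mem_divisors] at he ⊢
        exact ⟨⟨Nat.mul_dvd_mul_left N he.1, hm⟩, dvd_mul_right _ _⟩
      · intro d hd
        simp only [Finset.mem_filter, Nat.mem_divisors] at hd ⊢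
        obtain ⟨⟨h1, _⟩, e, rfl⟩ := hd
        rw [Nat.mul_div_cancel_left _ hN]
        exact ⟨Nat.dvd_of_mul_dvd_mul_left hN h1, hk⟩
      · intro e _
        exact Nat.mul_div_cancel_left _ hN
      · intro d hd
        simp only [Finset.mem_filter] at hd
        exact Nat.mul_div_cancel' hd.2
      · intro e _
        push_cast
        rfl
    · apply Finset.sum_eq_zero
      intro d hd
      simp only [Finset.mem_filter, Nat.mem_divisors] at hd
      exact absurd (hd.2.trans hd.1.1) h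
  rw [sig, h1, ← h2, h3]
  ring

open ArithmeticFunction in
/-- the coefficients of `E₂`. -/
noncomputable def e2c (m : ℕ) : ℂ := if m = 0 then 1 else -24 * (sigma 1 m : ℂ)

lemma hasSum_E2 (z : ℍ) : HasSum (fun m : ℕ => e2c m • Periodic.qParam 1 (z : ℂ) ^ m) (E2 z) := by
  simpa only [Function.Periodic.qParam, ofReal_one, div_one, e2c] using
    hasSum_qExpansion_E2 (z := z)

lemma qParam_sc (N : ℕ) (hN : (0 : ℝ) < N) (z : ℍ) :
    Periodic.qParam 1 ((sc N hN z : ℍ) : ℂ) = Periodic.qParam 1 (z : ℂ) ^ N := by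
  rw [coe_sc, Periodic.qParam, Periodic.qParam, ← Complex.exp_nat_mul]
  congr 1
  push_cast
  ring

/-- the coefficients of `F`. -/
noncomputable def cF (N m : ℕ) : ℂ := (if N ∣ m then (N : ℂ) * e2c (m / N) else 0) - e2c m

lemma hasSum_F (N : ℕ) (hN : 0 < N) (z : ℍ) :
    HasSum (fun m : ℕ => cF N m • Periodic.qParam 1 (z : ℂ) ^ m) (F N hN z) := by
  have hN' : (0 : ℝ) < N := by exact_mod_cast hN
  have h := hasSum_E2 (sc N hN' z)
  rw [qParam_sc] at h
  have h2 := h.mul_left (N : ℂ)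
  have hinj : Function.Injective (fun m : ℕ => N * m) := fun a b hab =>
    Nat.eq_of_mul_eq_mul_left hN hab
  have h3 : HasSum (fun m : ℕ => (if N ∣ m then (N : ℂ) * e2c (m / N) else 0) •
      Periodic.qParam 1 (z : ℂ) ^ m) ((N : ℂ) * E2 (sc N hN' z)) := by
    rw [← hinj.hasSum_iff]
    · have hfun : ((fun m : ℕ => (if N ∣ m then (N : ℂ) * e2c (m / N) else 0) •
          Periodic.qParam 1 (z : ℂ) ^ m) ∘ fun m => N * m) =
          fun i => (N : ℂ) * (e2c i • (Periodic.qParam 1 (z : ℂ) ^ N) ^ i) := by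
        funext m
        simp only [Function.comp, dvd_mul_right, if_true,
          Nat.mul_div_cancel_left _ hN, smul_eq_mul, pow_mul]
        ring
      rw [hfun]
      exact h2
    · intro n hn
      have : ¬ N ∣ n := fun ⟨m, hm⟩ => hn ⟨m, hm.symm⟩
      simp [this]
  have h4 := h3.sub (hasSum_E2 z)
  simp only [← sub_smul] at h4
  exact h4

lemma cF_eq (N : ℕ) (hN : 0 < N) (m : ℕ) :
    cF N m = ((coeff m (C ((N : ℤ) - 1) + 24 * delta N) : ℤ) : ℂ) := by
  have h24 : (24 : PowerSeries ℤ) = C 24 := by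
    rw [map_ofNat]
  rw [h24, map_add, coeff_C_mul, delta, coeff_mk, coeff_C]
  rcases eq_or_ne m 0 with rfl | hm
  · simp [cF, e2c, sig]
  · rw [sig_eq N m hN hm, cF]
    by_cases h : N ∣ m
    · have : m / N ≠ 0 := by
        obtain ⟨k, rfl⟩ := h
        rw [Nat.mul_div_cancel_left _ hN]
        rintro rfl; simp at hm
      simp only [e2c, h, if_true, hm, if_false, this]
      push_cast
      ring
    · simp only [e2c, h, hm, if_false]
      push_cast
      ring

end Eis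

/-- `N E₂(Nz) - E₂(z) = (N-1) + 24 ∑ σ'(k) q^k ∈ M₂(Γ₀(N))`.
Mathlib: `EisensteinSeries.E2_slash_action`, `E2_mdifferentiable`, `hasSum_qExpansion_E2`,
`isBoundedAtImInfty_E2`.  For `γ = [a b; c d] ∈ Γ₀(N)` put `γ' = [a, bN; c/N, d]`; then
`N (γ z) = γ' (N z)` and the two correction terms `D2` cancel.  At the cusp `0`:
`(N E₂(N·) - E₂) ∣ S = N⁻¹ E₂(z/N) - E₂(z)`, bounded. -/
theorem isQZ_eis (N : ℕ) [Fact N.Prime] : IsQZ N 2 (C ((N : ℤ) - 1) + 24 * delta N) := by
  have hN : 0 < N := (Fact.out : N.Prime).pos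
  obtain ⟨f, hf⟩ := exists_modularForm_Gamma0 N 2 (Eis.F N hN) (Eis.F_mdiff N hN)
    (Eis.F_inv N hN) (Eis.F_bdd N hN) (Eis.F_slash_S_bdd N hN)
  refine ⟨f, ?_⟩
  ext m
  rw [coeff_toC, ← Eis.cF_eq N hN m]
  refine (ModularFormClass.qExpansion_coeff_unique one_pos (one_mem_strictPeriods_Gamma0 N)
    (fun τ => ?_) m).symm
  rw [hf]
  exact Eis.hasSum_F N hN τ

end Fermat.Agent.S16
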