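import Fermat.Agent.S16.CohLog
import Fermat.Agent.S16.Eis
import Fermat.Agent.S28.QExp
import Fermat.Agent.S28.NormForm
import Fermat.Agent.S23.Nice

/-!
# S16 (cohomological lower bound), piece RAT: rational `q`-expansions of `u^s Δ`, `Δ(p·)/u^s`

`s = a/(p-1)`, `0 < a < p - 1`, `H = exp(2πi s Ψ) = "u^s"`, `u = Δ(pz)/Δ(z)`.
`R_t := exp(2πi t B) = "(Δ/q)^t"` is `1`-periodic, holomorphic, `→ 1` at `i∞`; `R_t R_t' = R_(t+t')`.
With `q = exp(2πi z)`:
  `M  := H Δ      = q^(a+1) · R_s(pz) · R_(1-s)(z)`,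
  `M' := Δ(p·)/H  = q^(p-a) · R_(1-s)(pz) · R_s(z)`.
* `root_mem_ratPS` (pure algebra): by strong induction on `n`, `coeff n P ∈ ℚ`: write `P = T + X^n W`,
  `T = trunc n P` (rational by induction); `coeff n (P^N) = coeff n (T^N) + N * coeff n P`.
* `P_t := qExpansion 1 R_t`, `constantCoeff = 1`; `Δ = q R_1` gives `qExpansion 1 Δ = X * P_1`, and
  `S28.qExpansion_discriminant` shows that `P_1` is rational (integral);  `P_(k/N) ^ N = P_1 ^ k`
  (`qExpansion_mul`/`UpperHalfPlane.qExpansion_prod`).  So `P_(k/N)` is rational.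
* `qExpansion 1 (F (p·)) = ∑ a_n X^(pn)` (`qExpansion_coeff_unique` + `hasSum_qExpansion`), rational if `F`'s is.
* `qExpansion 1 (q^k) = X^k`.
-/

set_option autoImplicit false

namespace Fermat.Agent.S16.Coh

open UpperHalfPlane CongruenceSubgroup ModularForm Filter Topology PowerSeries
open scoped MatrixGroups Manifold Real

noncomputable section

/-- power series with rational coefficients -/
def ratPS : Subring (PowerSeries ℂ) := (PowerSeries.map (algebraMap ℚ ℂ)).range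

theorem mem_ratPS_iff (P : PowerSeries ℂ) : P ∈ ratPS ↔ ∀ n, ∃ r : ℚ, coeff n P = (r : ℂ) := by
  constructor
  · rintro ⟨Q, rfl⟩ n
    exact ⟨coeff n Q, by simp⟩
  · intro h
    choose r hr using h
    refine ⟨PowerSeries.mk r, ?_⟩
    ext n
    simp [hr]

theorem root_mem_ratPS (P : PowerSeries ℂ) (h0 : constantCoeff P = 1) (N : ℕ) (hN : 0 < N)
    (h : P ^ N ∈ ratPS) : P ∈ ratPS := by
  rw [mem_ratPS_iff]
  intro n
  induction n using Nat.strong_induction_on with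
  | _ n ih =>
    rcases Nat.eq_zero_or_pos n with rfl | hn
    · exact ⟨1, by simp [h0]⟩
    set T : PowerSeries ℂ := ((P.trunc n : Polynomial ℂ) : PowerSeries ℂ) with hT
    set W : PowerSeries ℂ := PowerSeries.mk fun i => coeff (i + n) P with hW
    have hP : P - T = X ^ n * W := by
      have := P.eq_X_pow_mul_shift_add_trunc n
      rw [← hT, ← hW] at this
      rw [sub_eq_iff_eq_add]
      exact this
    have hTr : T ∈ ratPS := by
      rw [mem_ratPS_iff]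
      intro i
      rw [hT, Polynomial.coeff_coe, coeff_trunc]
      split_ifs with hi
      · exact ih i hi
      · exact ⟨0, by simp⟩
    have hT0 : constantCoeff T = 1 := by
      rw [← coeff_zero_eq_constantCoeff_apply, hT, Polynomial.coeff_coe, coeff_trunc, if_pos hn,
        coeff_zero_eq_constantCoeff_apply, h0]
    have hgeom := geom_sum₂_mul P T N
    rw [hP] at hgeom
    have hc : coeff n (P ^ N - T ^ N) = (N : ℂ) * coeff n P := by
      rw [← hgeom, mul_comm, mul_assoc, coeff_X_pow_mul', if_pos le_rfl, Nat.sub_self,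
        coeff_zero_eq_constantCoeff_apply, map_mul, map_sum]
      simp only [map_mul, map_pow, h0, hT0, one_pow, mul_one, Finset.sum_const, Finset.card_range,
        nsmul_eq_mul]
      rw [← coeff_zero_eq_constantCoeff_apply, hW, coeff_mk, zero_add, mul_comm]
    have hmem : P ^ N - T ^ N ∈ ratPS := sub_mem h (pow_mem hTr N)
    obtain ⟨r, hr⟩ := (mem_ratPS_iff _).mp hmem n
    refine ⟨r / N, ?_⟩
    have hN' : (N : ℂ) ≠ 0 := by exact_mod_cast hN.ne'
    rw [hc] at hr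
    push_cast
    rw [← hr]
    field_simp


/-! ### nice functions -/

open Fermat.Agent.S23 (Nice mem_Nice)

namespace RatQ

lemma periodic_of_T {F : ℍ → ℂ} (h : ∀ z, F (ModularGroup.T • z) = F z) :
    Function.Periodic (F ∘ ofComplex) 1 := by
  intro w
  by_cases hw : 0 < w.im
  · have hw' : 0 < (w + 1).im := by simpa using hw
    simp only [Function.comp_apply, ofComplex_apply_of_im_pos hw', ofComplex_apply_of_im_pos hw]
    rw [← h ⟨w, hw⟩]
    congr 1
    apply UpperHalfPlane.ext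
    rw [modular_T_smul]
    simp [add_comm]
  · have hw1 : (w + 1).im ≤ 0 := by simpa using hw
    have hw0 : w.im ≤ 0 := not_lt.mp hw
    simp only [Function.comp_apply, ofComplex_apply_eq_of_im_nonpos hw1 hw0]

lemma qExp_mul {F G : ℍ → ℂ} (hF : F ∈ Nice) (hG : G ∈ Nice) :
    qExpansion 1 (F * G) = qExpansion 1 F * qExpansion 1 G :=
  qExpansion_mul (Fermat.Agent.S23.Nice.analyticAt hF) (Fermat.Agent.S23.Nice.analyticAt hG)

lemma qExp_pow {F : ℍ → ℂ} (hF : F ∈ Nice) (n : ℕ) :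
    qExpansion 1 (F ^ n) = qExpansion 1 F ^ n := by
  induction n with
  | zero => simp only [pow_zero]; exact qExpansion_one 1
  | succ n ih => rw [pow_succ, qExp_mul (pow_mem hF n) hF, ih, pow_succ]

lemma mdiff_BB : MDiff BB := by
  rw [mdifferentiable_iff]
  intro w hw
  exact ((isPrim_BB.1 ⟨w, hw⟩).differentiableAt).differentiableWithinAt

lemma tendsto_BB : Tendsto BB atImInfty (𝓝 0) := isPrim_BB.2

/-- `R_t = exp (2πi t B) = (Δ/q)^t`. -/
def RR (t : ℂ) (z : ℍ) : ℂ := Complex.exp (2 * π * Complex.I * t * BB z)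

lemma mdiff_exp {G : ℍ → ℂ} (hG : MDiff G) (c : ℂ) : MDiff (fun z => Complex.exp (c * G z)) := by
  rw [mdifferentiable_iff] at hG ⊢
  have : DifferentiableOn ℂ (fun w => Complex.exp (c * (G ∘ ofComplex) w)) {z | 0 < z.im} :=
    (hG.const_mul c).cexp
  exact this

lemma mdiff_RR (t : ℂ) : MDiff (RR t) := mdiff_exp mdiff_BB _

lemma tendsto_RR (t : ℂ) : Tendsto (RR t) atImInfty (𝓝 1) := by
  have h1 : Tendsto (fun z => 2 * π * Complex.I * t * BB z) atImInfty (𝓝 0) := by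
    simpa using tendsto_BB.const_mul (2 * π * Complex.I * t)
  have h2 := (Complex.continuous_exp.tendsto 0).comp h1
  rw [Complex.exp_zero] at h2
  exact h2

lemma bdd_of_tendsto {F : ℍ → ℂ} {c : ℂ} (h : Tendsto F atImInfty (𝓝 c)) :
    IsBoundedAtImInfty F := h.isBigO_one ℝ

lemma RR_mem (t : ℂ) : RR t ∈ Nice :=
  ⟨periodic_of_T fun z => by simp only [RR, BB_T], mdiff_RR t, bdd_of_tendsto (tendsto_RR t)⟩

lemma constantCoeff_of_tendsto {F : ℍ → ℂ} (hF : F ∈ Nice) {c : ℂ}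
    (h : Tendsto F atImInfty (𝓝 c)) : constantCoeff (qExpansion 1 F) = c := by
  rw [← coeff_zero_eq_constantCoeff_apply,
    qExpansion_coeff_zero one_pos (Fermat.Agent.S23.Nice.analyticAt hF) hF.1]
  exact h.limUnder_eq

lemma constantCoeff_RR (t : ℂ) : constantCoeff (qExpansion 1 (RR t)) = 1 :=
  constantCoeff_of_tendsto (RR_mem t) (tendsto_RR t)

lemma RR_add (s t : ℂ) : RR (s + t) = RR s * RR t := by
  ext z
  simp only [RR, Pi.mul_apply, ← Complex.exp_add]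
  congr 1
  ring

lemma RR_zero : RR 0 = 1 := by
  ext z
  simp [RR]

lemma RR_nat_mul (n : ℕ) (t : ℂ) : RR (n * t) = RR t ^ n := by
  induction n with
  | zero => simp [RR_zero]
  | succ n ih => rw [pow_succ, ← ih, ← RR_add]; push_cast; ring_nf

/-- `q^k`. -/
def qq (k : ℕ) (z : ℍ) : ℂ := Complex.exp (2 * π * Complex.I * k * z)

lemma qq_eq (k : ℕ) (z : ℍ) : qq k z = Function.Periodic.qParam 1 (z : ℂ) ^ k := by
  rw [qq, Function.Periodic.qParam, ← Complex.exp_nat_mul]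
  congr 1
  simp
  ring

lemma mdiff_coe : MDiff (fun z : ℍ => (z : ℂ)) := by
  rw [mdifferentiable_iff]
  refine differentiableOn_id.congr ?_
  intro w hw
  simp [Function.comp_apply, ofComplex_apply_of_im_pos hw]

lemma mdiff_qq (k : ℕ) : MDiff (qq k) := mdiff_exp mdiff_coe _

lemma qExp_qq (k : ℕ) : qExpansion 1 (qq k) = X ^ k := by
  refine Fermat.Agent.S28.NormForm.qExpansion_eq_of_hasSum one_pos (mdiff_qq k) fun τ => ?_
  rw [qq_eq]
  convert hasSum_single k ?_ using 1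
  · simp [coeff_X_pow]
  · intro m hm
    simp [coeff_X_pow, hm]

lemma qq_mem (k : ℕ) : qq k ∈ Nice := by
  have h := Fermat.Agent.S28.NormForm.good_of_hasSum (g := qq k) (c := fun m => coeff m (X ^ k))
    one_pos (mdiff_qq k) fun τ => ?_
  · exact ⟨h.per, h.holo, h.bdd⟩
  · rw [qq_eq]
    convert hasSum_single k ?_ using 1
    · simp [coeff_X_pow]
    · intro m hm
      simp [coeff_X_pow, hm]

/-- `F (p z)`. -/
def lv (p : ℕ) (F : ℍ → ℂ) (z : ℍ) : ℂ := F (heckeDiagMatrix p • z)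

lemma heckeDiag_smul_eq {p : ℕ} (hp : p ≠ 0) (z : ℍ) :
    heckeDiagMatrix p • z = Eis.sc p (by exact_mod_cast Nat.pos_of_ne_zero hp) z := by
  apply UpperHalfPlane.ext
  rw [coe_heckeDiagMatrix_smul hp, Eis.coe_sc]
  simp

lemma mdiff_lv (p : ℕ) {F : ℍ → ℂ} (hF : MDiff F) : MDiff (lv p F) := by
  rcases eq_or_ne p 0 with rfl | hp
  · have : lv 0 F = F := by ext z; simp [lv]
    rwa [this]
  · have : lv p F = fun z => F (Eis.sc p (by exact_mod_cast Nat.pos_of_ne_zero hp) z) := by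
      ext z; rw [lv, heckeDiag_smul_eq hp]
    rw [this]
    exact Eis.mdiff_comp_sc hF _ _

lemma tendsto_heckeDiag {p : ℕ} (hp : p ≠ 0) :
    Tendsto (fun z : ℍ => heckeDiagMatrix p • z) atImInfty atImInfty := by
  rw [atImInfty, tendsto_comap_iff]
  have h1 : (im ∘ fun z : ℍ => heckeDiagMatrix p • z) = fun z : ℍ => (p : ℝ) * z.im := by
    ext z
    rw [Function.comp_apply, heckeDiag_smul_eq hp, Eis.im_sc]
  rw [h1]
  have h2 : Tendsto (fun z : ℍ => z.im) (comap im atTop) atTop := Filter.tendsto_comap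
  exact h2.const_mul_atTop (by exact_mod_cast Nat.pos_of_ne_zero hp)

lemma tendsto_lv {p : ℕ} (hp : p ≠ 0) {F : ℍ → ℂ} {c : ℂ} (h : Tendsto F atImInfty (𝓝 c)) :
    Tendsto (lv p F) atImInfty (𝓝 c) := h.comp (tendsto_heckeDiag hp)

lemma qParam_heckeDiag {p : ℕ} (hp : p ≠ 0) (z : ℍ) :
    Function.Periodic.qParam 1 ((heckeDiagMatrix p • z : ℍ) : ℂ) =
      Function.Periodic.qParam 1 (z : ℂ) ^ p := by
  rw [coe_heckeDiagMatrix_smul hp, Function.Periodic.qParam, Function.Periodic.qParam,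
    ← Complex.exp_nat_mul]
  congr 1
  ring

lemma hasSum_lv {p : ℕ} (hp : p ≠ 0) {F : ℍ → ℂ} (hF : F ∈ Nice) (τ : ℍ) :
    HasSum (fun n => ((qExpansion 1 F).expand p hp).coeff n •
      Function.Periodic.qParam 1 (τ : ℂ) ^ n) (lv p F τ) := by
  apply Fermat.Agent.S28.NormForm.hasSum_expand
  rw [← qParam_heckeDiag hp]
  exact hasSum_qExpansion one_pos hF.1 hF.2.1 hF.2.2 _

lemma qExp_lv {p : ℕ} (hp : p ≠ 0) {F : ℍ → ℂ} (hF : F ∈ Nice) :
    qExpansion 1 (lv p F) = (qExpansion 1 F).expand p hp :=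
  Fermat.Agent.S28.NormForm.qExpansion_eq_of_hasSum one_pos (mdiff_lv p hF.2.1) (hasSum_lv hp hF)

lemma lv_mem {p : ℕ} (hp : p ≠ 0) {F : ℍ → ℂ} (hF : F ∈ Nice) : lv p F ∈ Nice := by
  have h := Fermat.Agent.S28.NormForm.good_of_hasSum one_pos (mdiff_lv p hF.2.1) (hasSum_lv hp hF)
  exact ⟨h.per, h.holo, h.bdd⟩

lemma expand_mem {p : ℕ} (hp : p ≠ 0) {P : PowerSeries ℂ} (hP : P ∈ ratPS) :
    P.expand p hp ∈ ratPS := by
  rw [mem_ratPS_iff] at hP ⊢
  intro n
  rw [coeff_expand]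
  split_ifs
  · exact hP _
  · exact ⟨0, by simp⟩

lemma discriminant_eq : (discriminant : ℍ → ℂ) = qq 1 * RR 1 := by
  ext z
  rw [← exp_AA, AA, Pi.mul_apply, qq, RR, ← Complex.exp_add]
  congr 1
  push_cast
  ring

lemma qExp_RR_one :
    qExpansion 1 (RR 1) = ModularCurve.dedekindEtaUnit.map (Int.castRingHom ℂ) := by
  have h := Fermat.Agent.S28.qExpansion_discriminant
  rw [discriminant_eq, qExp_mul (qq_mem 1) (RR_mem 1), qExp_qq, pow_one] at h
  exact mul_left_cancel₀ X_ne_zero h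

lemma map_int_mem (Q : PowerSeries ℤ) : Q.map (Int.castRingHom ℂ) ∈ ratPS := by
  rw [mem_ratPS_iff]
  intro n
  exact ⟨(coeff n Q : ℤ), by simp⟩

lemma qExp_RR_rat (k N : ℕ) (hN : 0 < N) : qExpansion 1 (RR ((k : ℂ) / N)) ∈ ratPS := by
  apply root_mem_ratPS _ (constantCoeff_RR _) N hN
  have hN' : (N : ℂ) ≠ 0 := by exact_mod_cast hN.ne'
  rw [← qExp_pow (RR_mem _), ← RR_nat_mul, mul_div_cancel₀ _ hN',
    show (k : ℂ) = (k : ℂ) * 1 by ring, RR_nat_mul, qExp_pow (RR_mem _), qExp_RR_one]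
  exact pow_mem (map_int_mem _) k

end RatQ

/-- `H = u^(a/(p-1))`. -/
def HH (p a : ℕ) (z : ℍ) : ℂ :=
  Complex.exp (2 * π * Complex.I * ((a : ℂ) / ((p : ℂ) - 1)) * Psi p z)

/-- `M = H Δ`. -/
def MM (p a : ℕ) (z : ℍ) : ℂ := HH p a z * discriminant z

/-- `M' = Δ(p·)/H`. -/
def MM' (p a : ℕ) (z : ℍ) : ℂ := discriminant (heckeDiagMatrix p • z) / HH p a z

namespace RatQ

lemma mdiff_AA : MDiff AA := mdiff_coe.add mdiff_BB

lemma mdiff_Psi (p : ℕ) : MDiff (Psi p) := (mdiff_lv p mdiff_AA).sub mdiff_AA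

lemma mdiff_discriminant : MDiff (discriminant : ℍ → ℂ) := by
  rw [discriminant_eq]
  exact (mdiff_qq 1).mul (mdiff_RR 1)

lemma Psi_eq {p : ℕ} (hp : p ≠ 0) (z : ℍ) :
    Psi p z = ((p : ℂ) - 1) * z + BB (heckeDiagMatrix p • z) - BB z := by
  rw [Psi, AA, AA, coe_heckeDiagMatrix_smul hp]
  ring

lemma MM_eq {p a : ℕ} (hp : 2 ≤ p) :
    MM p a = qq (a + 1) * lv p (RR ((a : ℂ) / ((p : ℂ) - 1))) *
      RR (1 - (a : ℂ) / ((p : ℂ) - 1)) := by
  have hp1 : (p : ℂ) - 1 ≠ 0 := by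
    have : (p : ℂ) ≠ 1 := by exact_mod_cast (by omega : p ≠ 1)
    exact sub_ne_zero.mpr this
  ext z
  rw [MM, HH, ← exp_AA, AA, Psi_eq (by omega), Pi.mul_apply, Pi.mul_apply, qq, lv, RR, RR,
    ← Complex.exp_add, ← Complex.exp_add, ← Complex.exp_add]
  congr 1
  push_cast
  field_simp
  ring

lemma MM'_eq {p a : ℕ} (hp : 2 ≤ p) (z : ℍ) :
    MM' p a z = Complex.exp (2 * π * Complex.I * ((p : ℂ) - a) * z) *
      lv p (RR (1 - (a : ℂ) / ((p : ℂ) - 1))) z * RR ((a : ℂ) / ((p : ℂ) - 1)) z := by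
  have hp1 : (p : ℂ) - 1 ≠ 0 := by
    have : (p : ℂ) ≠ 1 := by exact_mod_cast (by omega : p ≠ 1)
    exact sub_ne_zero.mpr this
  rw [MM', HH, ← exp_AA, AA, Psi_eq (by omega), lv, RR, RR, coe_heckeDiagMatrix_smul (by omega),
    ← Complex.exp_sub, ← Complex.exp_add, ← Complex.exp_add]
  congr 1
  field_simp
  ring

lemma MM'_eq_qq {p a : ℕ} (hp : 2 ≤ p) (hap : a < p - 1) :
    MM' p a = qq (p - a) * lv p (RR (1 - (a : ℂ) / ((p : ℂ) - 1))) *
      RR ((a : ℂ) / ((p : ℂ) - 1)) := by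
  ext z
  rw [MM'_eq hp, Pi.mul_apply, Pi.mul_apply, qq, Nat.cast_sub (by omega)]

lemma T_of_periodic {F : ℍ → ℂ} (h : Function.Periodic (F ∘ ofComplex) 1) (z : ℍ) :
    F (ModularGroup.T • z) = F z := by
  have h1 := h (z : ℂ)
  simp only [Function.comp_apply, ofComplex_apply] at h1
  rw [← h1]
  congr 1
  apply UpperHalfPlane.ext
  have hz : 0 < ((z : ℂ) + 1).im := by simpa using z.im_pos
  rw [modular_T_smul, ofComplex_apply_of_im_pos hz]
  simp [add_comm]

lemma one_sub_eq {p a : ℕ} (hp : 2 ≤ p) (hap : a < p - 1) :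
    1 - (a : ℂ) / ((p : ℂ) - 1) = ((p - 1 - a : ℕ) : ℂ) / ((p - 1 : ℕ) : ℂ) := by
  have hp1 : (p : ℂ) - 1 ≠ 0 := by
    have : (p : ℂ) ≠ 1 := by exact_mod_cast (by omega : p ≠ 1)
    exact sub_ne_zero.mpr this
  rw [Nat.cast_sub (by omega), Nat.cast_sub (by omega)]
  push_cast
  field_simp

lemma s_eq {p a : ℕ} (hp : 2 ≤ p) :
    (a : ℂ) / ((p : ℂ) - 1) = (a : ℂ) / ((p - 1 : ℕ) : ℂ) := by
  rw [Nat.cast_sub (by omega)]
  push_cast
  rfl

lemma tendsto_qq {k : ℕ} (hk : 0 < k) : Tendsto (qq k) atImInfty (𝓝 0) := by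
  have h1 : Tendsto (fun z : ℍ => Function.Periodic.qParam 1 (z : ℂ)) atImInfty (𝓝 0) :=
    qParam_tendsto_atImInfty one_pos
  have h2 := h1.pow k
  rw [zero_pow hk.ne'] at h2
  refine h2.congr fun z => ?_
  rw [qq_eq]

end RatQ

open RatQ

theorem mdiff_HH (p a : ℕ) : MDiff (HH p a) := mdiff_exp (mdiff_Psi p) _

theorem qExpansion_discriminant_mem : qExpansion 1 discriminant ∈ ratPS := by
  rw [Fermat.Agent.S28.qExpansion_discriminant]
  refine mul_mem ?_ (map_int_mem _)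
  rw [mem_ratPS_iff]
  intro n
  rw [coeff_X]
  split_ifs
  · exact ⟨1, by simp⟩
  · exact ⟨0, by simp⟩

variable {p a : ℕ}

namespace RatQ

lemma MM_mem (hp : 2 ≤ p) : MM p a ∈ Nice := by
  rw [MM_eq hp]
  exact mul_mem (mul_mem (qq_mem _) (lv_mem (by omega) (RR_mem _))) (RR_mem _)

lemma qExp_MM (hp : 2 ≤ p) :
    qExpansion 1 (MM p a) = X ^ (a + 1) *
      ((qExpansion 1 (RR ((a : ℂ) / ((p : ℂ) - 1)))).expand p (by omega) *
        qExpansion 1 (RR (1 - (a : ℂ) / ((p : ℂ) - 1)))) := by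
  rw [MM_eq hp, qExp_mul (mul_mem (qq_mem _) (lv_mem (by omega) (RR_mem _))) (RR_mem _),
    qExp_mul (qq_mem _) (lv_mem (by omega) (RR_mem _)), qExp_qq, qExp_lv (by omega) (RR_mem _),
    mul_assoc]

lemma X_pow_mem (k : ℕ) : (X : PowerSeries ℂ) ^ k ∈ ratPS := by
  apply pow_mem
  rw [mem_ratPS_iff]
  intro n
  rw [coeff_X]
  split_ifs
  · exact ⟨1, by simp⟩
  · exact ⟨0, by simp⟩

lemma HH_T (hp : 2 ≤ p) (z : ℍ) : HH p a (ModularGroup.T • z) = HH p a z := by
  have hp1 : (p : ℂ) - 1 ≠ 0 := by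
    have : (p : ℂ) ≠ 1 := by exact_mod_cast (by omega : p ≠ 1)
    exact sub_ne_zero.mpr this
  have h := Psi_T p (by omega) z
  rw [sub_eq_iff_eq_add] at h
  rw [HH, HH, h, mul_add, Complex.exp_add]
  have : 2 * π * Complex.I * ((a : ℂ) / ((p : ℂ) - 1)) * ((p : ℂ) - 1) =
      (a : ℂ) * (2 * π * Complex.I) := by
    field_simp
  rw [this, Complex.exp_nat_mul_two_pi_mul_I, one_mul]

end RatQ

theorem MM_periodic (hp : 2 ≤ p) : Function.Periodic (MM p a ∘ ofComplex) 1 := (MM_mem hp).1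

theorem MM_mdiff : MDiff (MM p a) := (mdiff_HH p a).mul mdiff_discriminant

theorem MM_zero (hp : 2 ≤ p) : IsZeroAtImInfty (MM p a) := by
  rw [MM_eq hp]
  have h := ((tendsto_qq (Nat.succ_pos a)).mul
    (tendsto_lv (p := p) (by omega) (tendsto_RR ((a : ℂ) / ((p : ℂ) - 1))))).mul
    (tendsto_RR (1 - (a : ℂ) / ((p : ℂ) - 1)))
  simp only [zero_mul] at h
  exact h

theorem qExpansion_MM_mem (hp : 2 ≤ p) (hap : a < p - 1) : qExpansion 1 (MM p a) ∈ ratPS := by
  rw [qExp_MM hp]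
  refine mul_mem (X_pow_mem _) (mul_mem (expand_mem _ ?_) ?_)
  · rw [s_eq hp]
    exact qExp_RR_rat _ _ (by omega)
  · rw [one_sub_eq hp hap]
    exact qExp_RR_rat _ _ (by omega)

theorem coeff_qExpansion_MM_of_le (hp : 2 ≤ p) (hap : a < p - 1) {n : ℕ} (hn : n ≤ a) :
    coeff n (qExpansion 1 (MM p a)) = 0 := by
  rw [qExp_MM hp, coeff_X_pow_mul', if_neg (by omega)]

theorem coeff_qExpansion_MM (hp : 2 ≤ p) (hap : a < p - 1) :
    coeff (a + 1) (qExpansion 1 (MM p a)) = 1 := by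
  rw [qExp_MM hp, coeff_X_pow_mul', if_pos le_rfl, Nat.sub_self, coeff_zero_eq_constantCoeff_apply,
    map_mul, constantCoeff_expand, constantCoeff_RR, constantCoeff_RR, one_mul]

theorem MM'_periodic (hp : 2 ≤ p) : Function.Periodic (MM' p a ∘ ofComplex) 1 := by
  apply periodic_of_T
  intro z
  have h1 : lv p discriminant ∈ Nice := by
    rw [discriminant_eq]
    exact lv_mem (by omega) (mul_mem (qq_mem 1) (RR_mem 1))
  have h2 := T_of_periodic h1.1 z
  simp only [lv] at h2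
  rw [MM', MM', HH_T hp, h2]

theorem MM'_mdiff : MDiff (MM' p a) := by
  have h1 : MDiff (fun z => Complex.exp (-(2 * π * Complex.I * ((a : ℂ) / ((p : ℂ) - 1))) *
      Psi p z)) := mdiff_exp (mdiff_Psi p) _
  have h2 : MM' p a = lv p discriminant * fun z =>
      Complex.exp (-(2 * π * Complex.I * ((a : ℂ) / ((p : ℂ) - 1))) * Psi p z) := by
    ext z
    rw [MM', HH, Pi.mul_apply, lv, div_eq_mul_inv, ← Complex.exp_neg, neg_mul]
  rw [h2]
  exact (mdiff_lv p mdiff_discriminant).mul h1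

theorem MM'_zero (hp : 2 ≤ p) (hap : a < p - 1) : IsZeroAtImInfty (MM' p a) := by
  rw [MM'_eq_qq hp hap]
  have h := ((tendsto_qq (k := p - a) (by omega)).mul
    (tendsto_lv (p := p) (by omega) (tendsto_RR (1 - (a : ℂ) / ((p : ℂ) - 1))))).mul
    (tendsto_RR ((a : ℂ) / ((p : ℂ) - 1)))
  simp only [zero_mul] at h
  exact h

theorem qExpansion_MM'_mem (hp : 2 ≤ p) (hap : a < p - 1) : qExpansion 1 (MM' p a) ∈ ratPS := by
  rw [MM'_eq_qq hp hap, qExp_mul (mul_mem (qq_mem _) (lv_mem (by omega) (RR_mem _))) (RR_mem _),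
    qExp_mul (qq_mem _) (lv_mem (by omega) (RR_mem _)), qExp_qq, qExp_lv (by omega) (RR_mem _)]
  refine mul_mem (mul_mem (X_pow_mem _) (expand_mem _ ?_)) ?_
  · rw [one_sub_eq hp hap]
    exact qExp_RR_rat _ _ (by omega)
  · rw [s_eq hp]
    exact qExp_RR_rat _ _ (by omega)

end

end Fermat.Agent.S16.Coh
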