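import Fermat.Agent.S16.CohTrace
import Fermat.Agent.S16.CohRat
import Fermat.Prelude.Thm_UpperHalfPlane_qCoeff_heckeU
import Fermat.Prelude.Thm_ModularForm_periodic_heckeU_comp_ofComplex
import Fermat.Prelude.Thm_ModularForm_isBoundedAtImInfty_heckeU

/-!
# S16 (cohomological lower bound), piece GCD: `u^(a/(p-1))` is `Γ₀(p)`-invariant only if `(p-1) ∣ 12 a`

`H = HH p a`.  The hypothesis gives `H (γ z) = H z` for `γ ∈ Γ₀(p)`; `Psi_fricke` gives
`H (fricke z) H z = c := exp(-12 (a/(p-1)) log p)`.  `trace_const`: `M + c p · heckeU 12 p M' = t Δ`.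
Compare `q`-coefficients (`qExpansion_add`, `qExpansion_smul`, Prelude `UpperHalfPlane.qCoeff_heckeU`:
`a_n(heckeU M') = a_(np)(M')`; `discriminant_qExpansion_coeff_one`):
  `n = 1`:     `0 + c p m'_p = t`               (`a ≥ 1`)
  `n = a + 1`: `1 + c p m'_(p(a+1)) = t τ(a+1)`
so `c p (m'_p τ(a+1) - m'_(p(a+1))) = 1` and `c = r ∈ ℚ`.  `c^(p-1) = p^(-12a)`, so
`(p-1) · padicValRat p r = -12 a`.
-/

set_option autoImplicit false

namespace Fermat.Agent.S16.Coh

open UpperHalfPlane CongruenceSubgroup ModularForm Filter Topology PowerSeries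
open scoped MatrixGroups Manifold Real

namespace Gcd

open Fermat.Agent.S23 (Nice)

/-- pure arithmetic: `ρ^(p-1) p^(12a) = 1` with `ρ` rational forces `(p-1) ∣ 12a`. -/
lemma arith (p : ℕ) [Fact p.Prime] (a : ℕ) (ρ : ℚ) (h : ρ ^ (p - 1) * (p : ℚ) ^ (12 * a) = 1) :
    (p - 1) ∣ 12 * a := by
  have hp0 : (p : ℚ) ≠ 0 := by exact_mod_cast (Fact.out : p.Prime).ne_zero
  have hρ : ρ ≠ 0 := by
    rintro rfl
    have hp1 : p - 1 ≠ 0 := by have := (Fact.out : p.Prime).two_le; omega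
    simp [zero_pow hp1] at h
  have h1 := congrArg (padicValRat p) h
  rw [padicValRat.mul (pow_ne_zero _ hρ) (pow_ne_zero _ hp0), padicValRat.pow ρ,
    padicValRat.pow (p : ℚ), padicValRat.self (Fact.out : p.Prime).one_lt, padicValRat.one] at h1
  have h2 : ((p - 1 : ℕ) : ℤ) ∣ ((12 * a : ℕ) : ℤ) := by
    refine ⟨-padicValRat p ρ, ?_⟩
    linarith
  exact_mod_cast h2

end Gcd

open Gcd RatQ Fermat.Agent.S23 in
theorem dvd_of_isIntEquiv (p : ℕ) [Fact p.Prime] (a : ℕ) (ha : 0 < a) (hap : a < p - 1)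
    (h : IsIntEquiv p (fun z => (a : ℂ) / ((p : ℂ) - 1) * Psi p z)) : (p - 1) ∣ 12 * a := by
  have hp : 2 ≤ p := (Fact.out : p.Prime).two_le
  have hp0 : p ≠ 0 := by omega
  have hpC : (p : ℂ) ≠ 0 := by exact_mod_cast hp0
  have hp1 : (p : ℂ) - 1 ≠ 0 := by
    have : (p : ℂ) ≠ 1 := by exact_mod_cast (by omega : p ≠ 1)
    exact sub_ne_zero.mpr this
  set c : ℂ := Complex.exp (-(12 * ((a : ℂ) / ((p : ℂ) - 1)) * (Real.log p : ℂ))) with hc
  have hc0 : c ≠ 0 := Complex.exp_ne_zero _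
  have hinv : ∀ γ ∈ Gamma0 p, ∀ z : ℍ, HH p a (γ • z) = HH p a z := by
    intro γ hγ z
    obtain ⟨m, hm⟩ := h γ hγ
    have h1 := hm z
    simp only at h1
    rw [sub_eq_iff_eq_add] at h1
    rw [HH, HH, mul_assoc, h1, mul_add, Complex.exp_add, ← mul_assoc,
      show 2 * π * Complex.I * (m : ℂ) = (m : ℂ) * (2 * π * Complex.I) by ring,
      Complex.exp_int_mul_two_pi_mul_I, one_mul]
  have hfr : ∀ z, HH p a (fricke p z) * HH p a z = c := by
    intro z
    rw [HH, HH, Psi_fricke p hp0, ← Complex.exp_add, hc]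
    congr 1
    have hπ : (π : ℂ) ≠ 0 := by exact_mod_cast Real.pi_ne_zero
    field_simp
    ring
  obtain ⟨t, ht⟩ := trace_const p (HH p a) (mdiff_HH p a) (fun z => Complex.exp_ne_zero _) hinv c hfr
    (MM_zero hp) (MM'_zero hp hap)
  -- the functions involved are nice
  have hΔN : (discriminant : ℍ → ℂ) ∈ Nice := by
    rw [discriminant_eq]; exact mul_mem (qq_mem 1) (RR_mem 1)
  have hMN : MM p a ∈ Nice := MM_mem hp
  have hM'N : MM' p a ∈ Nice :=
    ⟨MM'_periodic hp, MM'_mdiff, (MM'_zero hp hap).isBoundedAtImInfty⟩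
  have hcp : c * p ≠ 0 := mul_ne_zero hc0 hpC
  have hU : heckeU 12 p (MM' p a) = (c * p)⁻¹ • (t • (discriminant : ℍ → ℂ) - MM p a) := by
    ext z
    have h1 : HH p a z * discriminant z + c * p * heckeU 12 p (MM' p a) z =
      t * discriminant z := ht z
    simp only [Pi.smul_apply, Pi.sub_apply, smul_eq_mul]
    rw [eq_inv_mul_iff_mul_eq₀ hcp, MM]
    linear_combination h1
  have hcoef : ∀ n : ℕ, c * p * coeff (n * p) (qExpansion 1 (MM' p a)) =
      t * coeff n (qExpansion 1 discriminant) - coeff n (qExpansion 1 (MM p a)) := by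
    intro n
    have h1 := UpperHalfPlane.qCoeff_heckeU hM'N.1 hM'N.2.1 hM'N.2.2 12 hp0 n
    rw [coeffHeckeU_apply, ModularFormClass.qCoeff, ModularFormClass.qCoeff, hU,
      qExpansion_smul (Fermat.Agent.S23.Nice.analyticAt
        (sub_mem (Nice.smul_mem hΔN t) hMN)),
      qExpansion_sub (Fermat.Agent.S23.Nice.analyticAt (Nice.smul_mem hΔN t))
        (Fermat.Agent.S23.Nice.analyticAt hMN),
      qExpansion_smul (Fermat.Agent.S23.Nice.analyticAt hΔN)] at h1
    simp only [map_smul, map_sub, smul_eq_mul] at h1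
    rw [← h1, mul_inv_cancel_left₀ hcp]
  -- rational coefficients
  obtain ⟨r1, hr1⟩ := (mem_ratPS_iff _).mp (qExpansion_MM'_mem hp hap) (1 * p)
  obtain ⟨r2, hr2⟩ := (mem_ratPS_iff _).mp (qExpansion_MM'_mem hp hap) ((a + 1) * p)
  obtain ⟨r3, hr3⟩ := (mem_ratPS_iff _).mp qExpansion_discriminant_mem (a + 1)
  have e1 := hcoef 1
  have e2 := hcoef (a + 1)
  rw [discriminant_qExpansion_coeff_one, coeff_qExpansion_MM_of_le hp hap (by omega), hr1] at e1
  rw [coeff_qExpansion_MM hp hap, hr2, hr3] at e2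
  have e3 : c * ((p : ℂ) * ((r1 : ℂ) * r3 - r2)) = 1 := by
    linear_combination (r3 : ℂ) * e1 - e2
  have hρ : c = (((p : ℚ) * (r1 * r3 - r2))⁻¹ : ℚ) := by
    push_cast
    exact eq_inv_of_mul_eq_one_left e3
  apply arith p a ((p : ℚ) * (r1 * r3 - r2))⁻¹
  have hpow : c ^ (p - 1) * (p : ℂ) ^ (12 * a) = 1 := by
    have hlog : (p : ℂ) = Complex.exp (Real.log p : ℂ) := by
      rw [← Complex.ofReal_exp, Real.exp_log (by exact_mod_cast Nat.pos_of_ne_zero hp0)]
      simp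
    have hlog' : (p : ℂ) ^ (12 * a) = Complex.exp ((12 * a : ℕ) * (Real.log p : ℂ)) := by
      rw [Complex.exp_nat_mul, ← hlog]
    rw [hc, ← Complex.exp_nat_mul, hlog', ← Complex.exp_add, Nat.cast_sub (by omega)]
    convert Complex.exp_zero using 2
    push_cast
    field_simp
    ring
  rw [hρ] at hpow
  exact_mod_cast hpow

end Fermat.Agent.S16.Coh
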