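import Fermat.Agent.S16.CohLog
import Fermat.Agent.S21.Prim
import Fermat.Agent.S22.LatHecke
import Fermat.Agent.S28.NormForm
import Fermat.Prelude.Thm_UpperHalfPlane_qCoeff_heckeT
import Fermat.Prelude.Thm_CongruenceSubgroup_one_mem_strictPeriods_Gamma0
import Fermat.Prelude.Thm_ModularForm_periodic_heckeT_comp_ofComplex
import Fermat.Prelude.Thm_ModularForm_isBoundedAtImInfty_heckeT

/-!
# S16 (cohomological lower bound), piece HK: the Hecke sums of `A`, `Ψ`, and of primitives of cusp forms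

* `IsPrim.TT/UU`: `S22.IsPrim.comp_upper` with `(c, c') = (ℓ⁻¹, 1)` for `heckeMatrix ℓ j`, `(ℓ, 1)` for
  `heckeDiagMatrix ℓ`; `S22.IsPrim.add`; `heckeT_apply`, `heckeU_apply`.
* `heckeT_E2`: both sides are `1`-periodic, holomorphic, bounded at `i∞`; compare `q`-coefficients:
  Prelude `UpperHalfPlane.qCoeff_heckeT`, Mathlib `hasSum_qExpansion_E2`, `qExpansion_coeff_unique`,
  `σ(nℓ) + [ℓ ∣ n] ℓ σ(n/ℓ) = (1+ℓ) σ(n)`.
* `TT_AA`: `A = z + B`; `TT ℓ z = (1+ℓ) z + (ℓ-1)/2`; `TT ℓ B = (1+ℓ) B` by `IsPrim.unique`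
  (`heckeT 2 ℓ (E₂ - 1) = (1+ℓ)(E₂ - 1)`).
* `TT_Psi`: `A(p (z+j)/ℓ) = A((pz + j')/ℓ) + k_j`, `p j = j' + ℓ k_j`, `j ↦ j'` a bijection of `range ℓ`.
* `UU_Psi`: `∑_j A(z+j) - (TT p A z - A(pz))`.
* `TT_comp_rfl`: `rfl' ((z+j)/ℓ) = (rfl' z - j)/ℓ = (rfl' z + (ℓ - j))/ℓ - 1`.
-/

set_option autoImplicit false

namespace Fermat.Agent.S16.Coh

open UpperHalfPlane CongruenceSubgroup ModularForm Filter Topology
open scoped MatrixGroups Manifold Real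

open Fermat.Agent.S22 (IsPrim)

theorem hk_isPrim_sum {ι : Type*} (s : Finset ι) {φ ψ : ι → ℍ → ℂ}
    (h : ∀ i ∈ s, IsPrim (φ i) (ψ i)) : IsPrim (∑ i ∈ s, φ i) (∑ i ∈ s, ψ i) := by
  classical
  induction s using Finset.induction_on with
  | empty => simpa using Fermat.Agent.S22.isPrim_zero
  | insert a s ha ih =>
    rw [Finset.sum_insert ha, Finset.sum_insert ha]
    exact (h a (Finset.mem_insert_self a s)).add
      (ih fun i hi => h i (Finset.mem_insert_of_mem hi))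

theorem IsPrim.UU {φ ψ : ℍ → ℂ} (h : Fermat.Agent.S22.IsPrim φ ψ) {ℓ : ℕ} (hℓ : ℓ ≠ 0) :
    Fermat.Agent.S22.IsPrim (heckeU 2 ℓ φ) (UU ℓ ψ) := by
  have hℓc : (ℓ : ℂ) ≠ 0 := by exact_mod_cast hℓ
  have hpos : (0 : ℝ) < ℓ := by exact_mod_cast Nat.pos_of_ne_zero hℓ
  have h1 : Coh.UU ℓ ψ = ∑ j ∈ Finset.range ℓ, fun τ => (1 : ℂ) * ψ (heckeMatrix ℓ j • τ) := by
    funext τ
    simp [Coh.UU, Finset.sum_apply]
  rw [heckeU_def, h1]
  refine hk_isPrim_sum _ fun j _ => ?_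
  have h2 : (φ ∣[(2 : ℤ)] heckeMatrix ℓ j) = fun τ => (ℓ : ℂ)⁻¹ * φ (heckeMatrix ℓ j • τ) :=
    funext fun τ => slash_heckeMatrix_apply 2 hℓ j φ τ
  rw [h2]
  refine h.comp_upper (by rw [Fermat.Agent.S22.val_det_heckeMatrix hℓ]; exact hpos)
    (Fermat.Agent.S22.heckeMatrix_one_zero hℓ j) _ _ ?_
  simp [val_heckeMatrix hℓ, hℓc]

theorem IsPrim.TT {φ ψ : ℍ → ℂ} (h : Fermat.Agent.S22.IsPrim φ ψ) {ℓ : ℕ} (hℓ : ℓ ≠ 0) :
    Fermat.Agent.S22.IsPrim (heckeT 2 ℓ φ) (TT ℓ ψ) := by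
  have hℓc : (ℓ : ℂ) ≠ 0 := by exact_mod_cast hℓ
  have hpos : (0 : ℝ) < ℓ := by exact_mod_cast Nat.pos_of_ne_zero hℓ
  have h1 : Coh.TT ℓ ψ = Coh.UU ℓ ψ + fun τ => (1 : ℂ) * ψ (heckeDiagMatrix ℓ • τ) := by
    funext τ
    simp [Coh.TT]
  rw [heckeT_eq_heckeU_add, h1]
  refine (IsPrim.UU h hℓ).add ?_
  have h2 : (φ ∣[(2 : ℤ)] heckeDiagMatrix ℓ) = fun τ => (ℓ : ℂ) * φ (heckeDiagMatrix ℓ • τ) :=
    funext fun τ => by
      rw [slash_heckeDiagMatrix_apply 2 hℓ φ τ]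
      norm_num
  rw [h2]
  refine h.comp_upper (by rw [Fermat.Agent.S22.val_det_heckeDiagMatrix hℓ]; exact hpos)
    (Fermat.Agent.S22.heckeDiagMatrix_one_zero hℓ) _ _ ?_
  simp [val_heckeDiagMatrix hℓ]

open ArithmeticFunction in
/-- `σ(ℓk) + ℓ σ(k/ℓ) = (1+ℓ) σ(k)`. -/
theorem hk_sigma_mul_prime {ℓ : ℕ} (hℓ : ℓ.Prime) (k : ℕ) :
    sigma 1 (ℓ * k) + (if ℓ ∣ k then ℓ * sigma 1 (k / ℓ) else 0) = (1 + ℓ) * sigma 1 k := by
  rcases Nat.eq_zero_or_pos k with rfl | hk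
  · simp
  classical
  simp only [sigma_one_apply]
  have hinj : Function.Injective (fun d : ℕ => ℓ * d) := fun a b hab =>
    Nat.eq_of_mul_eq_mul_left hℓ.pos hab
  set A := k.divisors with hA
  set B := (k.divisors).image (fun d => ℓ * d) with hB
  have hAB : (ℓ * k).divisors = A ∪ B := by
    ext d
    simp only [hA, hB, Finset.mem_union, Finset.mem_image, Nat.mem_divisors]
    constructor
    · rintro ⟨h1, _⟩
      by_cases h2 : ℓ ∣ d
      · obtain ⟨e, rfl⟩ := h2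
        right
        exact ⟨e, ⟨(Nat.mul_dvd_mul_iff_left hℓ.pos).mp h1, hk.ne'⟩, rfl⟩
      · left
        have : Nat.Coprime d ℓ := ((Nat.Prime.coprime_iff_not_dvd hℓ).mpr h2).symm
        exact ⟨this.dvd_of_dvd_mul_left h1, hk.ne'⟩
    · rintro (⟨h1, _⟩ | ⟨e, ⟨h1, _⟩, rfl⟩)
      · exact ⟨Dvd.dvd.mul_left h1 _, Nat.mul_ne_zero hℓ.ne_zero hk.ne'⟩
      · exact ⟨Nat.mul_dvd_mul_left _ h1, Nat.mul_ne_zero hℓ.ne_zero hk.ne'⟩
  have hI : ∑ d ∈ A ∩ B, d = if ℓ ∣ k then ℓ * ∑ d ∈ (k / ℓ).divisors, d else 0 := by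
    split_ifs with hd
    · obtain ⟨k', rfl⟩ := hd
      rw [Nat.mul_div_cancel_left _ hℓ.pos, Finset.mul_sum]
      have hk' : k' ≠ 0 := by rintro rfl; simp at hk
      have : A ∩ B = (k'.divisors).image (fun d => ℓ * d) := by
        ext d
        simp only [hA, hB, Finset.mem_inter, Finset.mem_image, Nat.mem_divisors]
        constructor
        · rintro ⟨⟨h1, _⟩, e, _, rfl⟩
          exact ⟨e, ⟨(Nat.mul_dvd_mul_iff_left hℓ.pos).mp h1, hk'⟩, rfl⟩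
        · rintro ⟨e, ⟨h1, _⟩, rfl⟩
          exact ⟨⟨Nat.mul_dvd_mul_left _ h1, hk.ne'⟩, e, ⟨Dvd.dvd.mul_left h1 _, hk.ne'⟩, rfl⟩
      rw [this, Finset.sum_image (fun a _ b _ hab => hinj hab)]
    · have : A ∩ B = ∅ := by
        ext d
        simp only [hA, hB, Finset.mem_inter, Finset.mem_image, Nat.mem_divisors,
          Finset.notMem_empty, iff_false]
        rintro ⟨⟨h1, _⟩, e, _, rfl⟩
        exact hd ((Dvd.intro _ rfl).trans h1)
      rw [this, Finset.sum_empty]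
  have hBs : ∑ d ∈ B, d = ℓ * ∑ d ∈ k.divisors, d := by
    rw [hB, Finset.sum_image (fun a _ b _ hab => hinj hab), Finset.mul_sum]
  rw [← hI, hAB, Finset.sum_union_inter, hBs]
  ring

theorem hk_qExpansion_E2 : qExpansion 1 EisensteinSeries.E2 =
    PowerSeries.mk fun m : ℕ => (if m = 0 then 1 else -24 * ArithmeticFunction.sigma 1 m : ℂ) := by
  refine Fermat.Agent.S28.NormForm.qExpansion_eq_of_hasSum one_pos E2_mdifferentiable fun τ => ?_
  simp only [PowerSeries.coeff_mk]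
  simpa only [Function.Periodic.qParam, Complex.ofReal_one, div_one] using
    EisensteinSeries.hasSum_qExpansion_E2 (z := τ)

theorem heckeT_E2 {ℓ : ℕ} (hℓ : ℓ.Prime) (z : ℍ) :
    heckeT 2 ℓ EisensteinSeries.E2 z = (1 + (ℓ : ℂ)) * EisensteinSeries.E2 z := by
  have hper := log_periodic_of_T E2_T
  have hper' : Function.Periodic (EisensteinSeries.E2 ∘ ofComplex) 1 := by simpa using hper
  have hol := E2_mdifferentiable
  have hbd := EisensteinSeries.isBoundedAtImInfty_E2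
  have h1per := ModularForm.periodic_heckeT_comp_ofComplex hper' 2 ℓ
  have h1per' : Function.Periodic (heckeT 2 ℓ EisensteinSeries.E2 ∘ ofComplex) ((1 : ℝ) : ℂ) := by
    simpa using h1per
  have h1hol := mdifferentiable_heckeT hol 2 ℓ
  have h1bd := ModularForm.isBoundedAtImInfty_heckeT hbd 2 ℓ
  have hs1 := hasSum_qExpansion one_pos h1per' h1hol h1bd z
  have hs2 := (hasSum_qExpansion one_pos hper hol hbd z).mul_left (1 + (ℓ : ℂ))
  refine hs1.unique ?_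
  refine hs2.congr_fun ?_
  intro m
  have h3 := UpperHalfPlane.qCoeff_heckeT hper' hol hbd 2 hℓ.ne_zero m
  simp only [ModularFormClass.qCoeff] at h3
  rw [h3, coeffHeckeT_apply]
  simp only [ModularFormClass.qCoeff, hk_qExpansion_E2, PowerSeries.coeff_mk, smul_eq_mul]
  rw [← mul_assoc]
  congr 1
  have h4 := hk_sigma_mul_prime hℓ m
  have h4c : ((ArithmeticFunction.sigma 1 (ℓ * m) : ℕ) : ℂ) +
      (if ℓ ∣ m then (ℓ : ℂ) * (ArithmeticFunction.sigma 1 (m / ℓ) : ℕ) else 0) =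
      (1 + (ℓ : ℂ)) * (ArithmeticFunction.sigma 1 m : ℕ) := by
    have := congrArg (Nat.cast : ℕ → ℂ) h4
    push_cast at this
    exact this
  rcases Nat.eq_zero_or_pos m with rfl | hm
  · simp
  · have hmℓ : m * ℓ ≠ 0 := Nat.mul_ne_zero hm.ne' hℓ.ne_zero
    rw [if_neg hmℓ, if_neg hm.ne', mul_comm m ℓ]
    by_cases hd : ℓ ∣ m
    · have hml : m / ℓ ≠ 0 := by
        obtain ⟨k, rfl⟩ := hd
        rw [Nat.mul_div_cancel_left _ hℓ.pos]
        rintro rfl; simp at hm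
      rw [if_pos hd, if_neg hml]
      rw [if_pos hd] at h4c
      norm_num
      linear_combination (-24 : ℂ) * h4c
    · rw [if_neg hd]
      rw [if_neg hd] at h4c
      linear_combination (-24 : ℂ) * h4c


theorem hk_TT_BB {ℓ : ℕ} (hℓ : ℓ.Prime) : TT ℓ BB = (1 + (ℓ : ℂ)) • BB := by
  have hℓc : (ℓ : ℂ) ≠ 0 := by exact_mod_cast hℓ.ne_zero
  have h1 := IsPrim.TT isPrim_BB hℓ.ne_zero
  have h2 : heckeT 2 ℓ (fun z => EisensteinSeries.E2 z - 1) =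
      (1 + (ℓ : ℂ)) • fun z => EisensteinSeries.E2 z - 1 := by
    funext z
    have e : (fun z => EisensteinSeries.E2 z - 1) = EisensteinSeries.E2 - fun _ => (1 : ℂ) := rfl
    rw [e, heckeT_sub, Pi.sub_apply, heckeT_E2 hℓ, heckeT_apply 2 hℓ.ne_zero]
    simp only [Finset.sum_const, Finset.card_range, nsmul_eq_mul, mul_one, Pi.smul_apply,
      Pi.sub_apply, smul_eq_mul]
    rw [inv_mul_cancel₀ hℓc]
    norm_num
    ring
  rw [h2] at h1
  exact h1.unique (isPrim_BB.smul _)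

theorem TT_AA {ℓ : ℕ} (hℓ : ℓ.Prime) : ∃ C : ℂ, ∀ z, TT ℓ AA z = (1 + (ℓ : ℂ)) * AA z + C := by
  have hℓc : (ℓ : ℂ) ≠ 0 := by exact_mod_cast hℓ.ne_zero
  refine ⟨(∑ j ∈ Finset.range ℓ, (j : ℂ)) / ℓ, fun z => ?_⟩
  have h1 : TT ℓ AA z = (∑ j ∈ Finset.range ℓ, ((heckeMatrix ℓ j • z : ℍ) : ℂ) +
      ((heckeDiagMatrix ℓ • z : ℍ) : ℂ)) + TT ℓ BB z := by
    simp only [TT, UU, AA, Finset.sum_add_distrib]
    ring
  rw [h1, hk_TT_BB hℓ]
  simp only [coe_heckeMatrix_smul hℓ.ne_zero, coe_heckeDiagMatrix_smul hℓ.ne_zero, Pi.smul_apply,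
    smul_eq_mul, AA, add_div, Finset.sum_add_distrib, Finset.sum_const, Finset.card_range,
    nsmul_eq_mul, ← Finset.sum_div]
  field_simp
  ring

theorem hk_heckeDiag_heckeMatrix {p : ℕ} (hp : p ≠ 0) (j : ℕ) (z : ℍ) :
    heckeDiagMatrix p • (heckeMatrix p j • z) = ModularGroup.T ^ (j : ℤ) • z := by
  have hpc : (p : ℂ) ≠ 0 := by exact_mod_cast hp
  apply UpperHalfPlane.ext
  rw [coe_heckeDiagMatrix_smul hp, coe_heckeMatrix_smul hp, modular_T_zpow_smul, coe_vadd]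
  push_cast
  field_simp
  ring

theorem UU_Psi {p : ℕ} (hp : p.Prime) : ∃ C : ℂ, ∀ z, UU p (Psi p) z = Psi p z + C := by
  obtain ⟨C, hC⟩ := TT_AA hp
  refine ⟨(∑ j ∈ Finset.range p, (j : ℂ)) - C, fun z => ?_⟩
  have h1 : UU p (Psi p) z = ∑ j ∈ Finset.range p, (AA z + j) - UU p AA z := by
    simp only [UU, Psi, Finset.sum_sub_distrib]
    congr 1
    refine Finset.sum_congr rfl fun j _ => ?_
    rw [hk_heckeDiag_heckeMatrix hp.ne_zero, AA_T_zpow]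
    push_cast; ring
  have h2 : UU p AA z = (1 + (p : ℂ)) * AA z + C - AA (heckeDiagMatrix p • z) := by
    rw [← hC z, TT]; ring
  rw [h1, h2, Finset.sum_add_distrib, Finset.sum_const, Finset.card_range, nsmul_eq_mul, Psi]
  ring

/-- multiplication by `p` permutes the residues mod `ℓ`. -/
theorem hk_sum_mul_mod {M : Type*} [AddCommMonoid M] {p ℓ : ℕ} (hℓ : ℓ.Prime) (hℓp : ¬ ℓ ∣ p)
    (F : ℕ → M) : ∑ j ∈ Finset.range ℓ, F ((p * j) % ℓ) = ∑ j ∈ Finset.range ℓ, F j := by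
  have hcop : Nat.Coprime ℓ p := (Nat.Prime.coprime_iff_not_dvd hℓ).mpr hℓp
  have hmaps : Set.MapsTo (fun j => (p * j) % ℓ) (Finset.range ℓ : Set ℕ) (Finset.range ℓ : Set ℕ) := by
    intro j _
    simpa using Nat.mod_lt _ hℓ.pos
  have hinj : Set.InjOn (fun j => (p * j) % ℓ) (Finset.range ℓ : Set ℕ) := by
    intro a ha b hb hab
    have ha' : a < ℓ := by simpa using ha
    have hb' : b < ℓ := by simpa using hb
    have h1 : p * a ≡ p * b [MOD ℓ] := hab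
    have h2 : a ≡ b [MOD ℓ] := Nat.ModEq.cancel_left_of_coprime (by rwa [Nat.coprime_iff_gcd_eq_one] at hcop) h1
    exact Nat.ModEq.eq_of_lt_of_lt h2 ha' hb'
  refine Finset.sum_nbij (fun j => (p * j) % ℓ) hmaps hinj ?_ (fun _ _ => rfl)
  exact Finset.surjOn_of_injOn_of_card_le _ hmaps hinj le_rfl

theorem TT_Psi {p ℓ : ℕ} (hp : p ≠ 0) (hℓ : ℓ.Prime) (hℓp : ¬ ℓ ∣ p) :
    ∃ C : ℂ, ∀ z, TT ℓ (Psi p) z = (1 + (ℓ : ℂ)) * Psi p z + C := by
  have hℓc : (ℓ : ℂ) ≠ 0 := by exact_mod_cast hℓ.ne_zero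
  obtain ⟨C, hC⟩ := TT_AA hℓ
  refine ⟨∑ j ∈ Finset.range ℓ, (((p * j) / ℓ : ℕ) : ℂ), fun z => ?_⟩
  set w := heckeDiagMatrix p • z with hw
  have h1 : ∀ j : ℕ, heckeDiagMatrix p • (heckeMatrix ℓ j • z) =
      ModularGroup.T ^ (((p * j) / ℓ : ℕ) : ℤ) • (heckeMatrix ℓ ((p * j) % ℓ) • w) := by
    intro j
    have h2 : (p : ℂ) * j = (ℓ : ℂ) * ((p * j) / ℓ : ℕ) + ((p * j) % ℓ : ℕ) := by
      exact_mod_cast (Nat.div_add_mod (p * j) ℓ).symm
    generalize (p * j) / ℓ = d at h2 ⊢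
    generalize (p * j) % ℓ = r at h2 ⊢
    apply UpperHalfPlane.ext
    rw [coe_heckeDiagMatrix_smul hp, coe_heckeMatrix_smul hℓ.ne_zero, modular_T_zpow_smul, coe_vadd,
      coe_heckeMatrix_smul hℓ.ne_zero, hw, coe_heckeDiagMatrix_smul hp]
    push_cast
    field_simp
    linear_combination h2
  have h2 : heckeDiagMatrix p • (heckeDiagMatrix ℓ • z) = heckeDiagMatrix ℓ • w := by
    apply UpperHalfPlane.ext
    rw [coe_heckeDiagMatrix_smul hp, coe_heckeDiagMatrix_smul hℓ.ne_zero,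
      coe_heckeDiagMatrix_smul hℓ.ne_zero, hw, coe_heckeDiagMatrix_smul hp]
    ring
  have h3 : TT ℓ (Psi p) z = (∑ j ∈ Finset.range ℓ, AA (heckeDiagMatrix p • (heckeMatrix ℓ j • z)) +
      AA (heckeDiagMatrix p • (heckeDiagMatrix ℓ • z))) - TT ℓ AA z := by
    simp only [TT, UU, Psi, Finset.sum_sub_distrib]
    ring
  have h4 : ∑ j ∈ Finset.range ℓ, AA (heckeDiagMatrix p • (heckeMatrix ℓ j • z)) =
      UU ℓ AA w + ∑ j ∈ Finset.range ℓ, (((p * j) / ℓ : ℕ) : ℂ) := by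
    rw [UU, ← hk_sum_mul_mod hℓ hℓp (fun j => AA (heckeMatrix ℓ j • w)), ← Finset.sum_add_distrib]
    refine Finset.sum_congr rfl fun j _ => ?_
    rw [h1, AA_T_zpow, Int.cast_natCast]
  have h5 : UU ℓ AA w + AA (heckeDiagMatrix ℓ • w) = TT ℓ AA w := rfl
  rw [h3, h4, h2, hC z]
  have h6 := hC w
  rw [← h5] at h6
  simp only [Psi, ← hw]
  linear_combination h6

theorem TT_prim {N ℓ : ℕ} [NeZero N] (hℓ : ℓ.Prime) (hℓN : ¬ ℓ ∣ N) (f : CuspForm (Gamma0 N) 2) :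
    TT ℓ (Fermat.Agent.S21.prim f) = Fermat.Agent.S21.prim (CuspForm.heckeTLin 2 hℓ hℓN f) := by
  have h1 := IsPrim.TT (Fermat.Agent.S21.isPrim_prim f) hℓ.ne_zero
  have h2 := Fermat.Agent.S21.isPrim_prim (CuspForm.heckeTLin 2 hℓ hℓN f)
  rw [CuspForm.coe_heckeTLin_apply] at h2
  exact h1.unique h2

theorem UU_prim {N q : ℕ} [NeZero N] (hqN : q ∣ N) (f : CuspForm (Gamma0 N) 2) :
    UU q (Fermat.Agent.S21.prim f) = Fermat.Agent.S21.prim (CuspForm.heckeULin 2 hqN f) := by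
  have hq : q ≠ 0 := fun h => NeZero.ne N (Nat.eq_zero_of_zero_dvd (h ▸ hqN))
  have h1 := IsPrim.UU (Fermat.Agent.S21.isPrim_prim f) hq
  have h2 := Fermat.Agent.S21.isPrim_prim (CuspForm.heckeULin 2 hqN f)
  rw [CuspForm.coe_heckeULin_apply] at h2
  exact h1.unique h2

theorem prim_T {N : ℕ} [NeZero N] (f : CuspForm (Gamma0 N) 2) (z : ℍ) :
    Fermat.Agent.S21.prim f (ModularGroup.T • z) = Fermat.Agent.S21.prim f z := by
  obtain ⟨ψ, h1, h2⟩ := Fermat.Agent.S22.exists_isPrim one_pos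
    (SlashInvariantFormClass.periodic_comp_ofComplex f
      (CongruenceSubgroup.one_mem_strictPeriods_Gamma0 N))
    (CuspFormClass.holo f) (CuspFormClass.zero_at_infty f)
  rw [(Fermat.Agent.S21.isPrim_prim f).unique h1]
  exact log_T_of_periodic h2 z

open Fermat.Agent.S21.Inj (rfl' coe_rfl') in
theorem UU_comp_rfl {ℓ : ℕ} (hℓ : ℓ ≠ 0) (G : ℍ → ℂ) (hG : ∀ z, G (ModularGroup.T • z) = G z) (z : ℍ) :
    UU ℓ (fun w => G (Fermat.Agent.S21.Inj.rfl' w)) z = UU ℓ G (Fermat.Agent.S21.Inj.rfl' z) := by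
  have hℓc : (ℓ : ℂ) ≠ 0 := by exact_mod_cast hℓ
  obtain ⟨n, rfl⟩ := Nat.exists_eq_succ_of_ne_zero hℓ
  simp only [UU]
  rw [Finset.sum_range_succ', Finset.sum_range_succ' (fun j => G (heckeMatrix (n + 1) j • rfl' z)),
    ← Finset.sum_range_reflect (fun j => G (heckeMatrix (n + 1) (j + 1) • rfl' z))]
  congr 1
  · refine Finset.sum_congr rfl fun j hj => ?_
    have hj' : j < n := Finset.mem_range.mp hj
    rw [← hG (rfl' (heckeMatrix (n + 1) (j + 1) • z))]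
    congr 1
    apply UpperHalfPlane.ext
    rw [modular_T_smul, coe_vadd, coe_rfl', coe_heckeMatrix_smul hℓ, coe_heckeMatrix_smul hℓ, coe_rfl']
    have h1 : ((n - 1 - j + 1 : ℕ) : ℂ) = (n : ℂ) - j := by
      have : n - 1 - j + 1 = n - j := by omega
      rw [this, Nat.cast_sub hj'.le]
    rw [h1]
    simp only [map_div₀, map_add, map_natCast]
    push_cast at hℓc ⊢
    field_simp
    ring
  · congr 1
    apply UpperHalfPlane.ext
    rw [coe_rfl', coe_heckeMatrix_smul hℓ, coe_heckeMatrix_smul hℓ, coe_rfl']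
    simp only [map_div₀, map_add, map_natCast]
    push_cast
    ring

open Fermat.Agent.S21.Inj (rfl' coe_rfl') in
theorem TT_comp_rfl {ℓ : ℕ} (hℓ : ℓ ≠ 0) (G : ℍ → ℂ) (hG : ∀ z, G (ModularGroup.T • z) = G z) (z : ℍ) :
    TT ℓ (fun w => G (Fermat.Agent.S21.Inj.rfl' w)) z = TT ℓ G (Fermat.Agent.S21.Inj.rfl' z) := by
  simp only [TT]
  rw [UU_comp_rfl hℓ G hG]
  congr 2
  apply UpperHalfPlane.ext
  rw [coe_rfl', coe_heckeDiagMatrix_smul hℓ, coe_heckeDiagMatrix_smul hℓ, coe_rfl']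
  simp only [map_mul, map_natCast]
  ring

end Fermat.Agent.S16.Coh
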