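import Fermat.Agent.S16.CohDefs
import Fermat.Agent.S20.Serre
import Fermat.Agent.S20.LevelOne

/-!
# S16 (cohomological lower bound), piece LOG: `A = (2πi)⁻¹ log Δ` and `Ψ = A(pz) - A(z)`

Tools: `S22.exists_isPrim`, `S22.hasTower_of_periodic`, `S22.HasTower.isTower`, `S22.IsPrim.unique`,
`S22.const_of_hasDerivAt_zero`, `S22.hasDerivAt_comp_smul`; Mathlib `EisensteinSeries.E2_mdifferentiable`,
`E2_eq_tsum_cexp`, `hasSum_qExpansion_E2`, `E2_slash_action`, `D2_S`, `D2_T`, `riemannZeta_two`,
`ModularForm.discriminant_ne_zero`, `CuspForm.discriminant`; `S20.D_discriminant` (`D Δ = E₂ Δ`),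
`S20.Delta_div_q_tendsto`; Prelude (Sol) `heckeDiagMatrix_mul_of_eq'`.

* `isPrim_BB`: `E₂ - 1` is `1`-periodic, holomorphic and tends to `0`.
* `exp_AA`: `Δ · exp(-2πi A)` has derivative `0`, and tends to `1`.
* `AA_S`: `A(-1/z) - A(z) - 6/(πi) log z` has derivative `z⁻² E₂(-1/z) - E₂(z) - 6/(πi z) = 0`.
* `isIntEquiv_Psi`: for `γ = [a b; c d] ∈ Γ₀(p)`: `p (γ z) = γ' (p z)`, `γ' = [a, pb; c/p, d]`, same
  denominator, so `u = Δ(pz)/Δ(z)` is invariant; `exp (2πi (Ψ(γz) - Ψ z)) = 1`, so `Ψ(γz) - Ψ z` is a continuous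
  `ℤ`-valued function on the connected space `ℍ` (`IsPreconnected.eqOn_const_of_mapsTo` or
  `IsPreconnected.constant`).
* `Psi_fricke`: `Ψ(-1/(pz)) = A(-1/z) - A(-1/(pz))`, apply `AA_S` at `z` and at `pz`;
  `log (p z) = log p + log z`.
* `Psi_Tlow`: `Tlow p • z = fricke p (T • fricke p z)`.
-/

set_option autoImplicit false

namespace Fermat.Agent.S16.Coh

open UpperHalfPlane CongruenceSubgroup ModularForm Filter Topology
open scoped MatrixGroups Manifold Real

open Fermat.Agent.S22 (IsPrim)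

/-- periodicity on `ℍ` gives periodicity of `F ∘ ofComplex`. -/
theorem log_periodic_of_T {F : ℍ → ℂ} (h : ∀ z : ℍ, F (ModularGroup.T • z) = F z) :
    Function.Periodic (F ∘ ofComplex) (1 : ℝ) := by
  intro w
  by_cases hw : 0 < w.im
  · have hw' : 0 < (w + (1 : ℝ)).im := by simpa using hw
    simp only [Function.comp_apply, ofComplex_apply_of_im_pos hw, ofComplex_apply_of_im_pos hw']
    rw [← h ⟨w, hw⟩]
    congr 1
    apply UpperHalfPlane.ext
    rw [UpperHalfPlane.modular_T_smul]
    simp [add_comm]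
  · have hw1 : w.im ≤ 0 := not_lt.mp hw
    have hw' : (w + (1 : ℝ)).im ≤ 0 := by simpa using hw1
    simp only [Function.comp_apply, ofComplex_apply_of_im_nonpos hw1,
      ofComplex_apply_of_im_nonpos hw']

theorem log_T_of_periodic {F : ℍ → ℂ} (h : Function.Periodic (F ∘ ofComplex) (1 : ℝ)) (z : ℍ) :
    F (ModularGroup.T • z) = F z := by
  have := h (z : ℂ)
  simp only [Function.comp_apply, ofComplex_apply] at this
  rw [← this]
  congr 1
  apply UpperHalfPlane.ext
  rw [UpperHalfPlane.modular_T_smul]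
  have hw' : 0 < ((z : ℂ) + (1 : ℝ)).im := by simpa using z.im_pos
  rw [ofComplex_apply_of_im_pos hw']
  simp [add_comm]

theorem E2_T (z : ℍ) : EisensteinSeries.E2 (ModularGroup.T • z) = EisensteinSeries.E2 z := by
  have h := congrFun (EisensteinSeries.E2_slash_action ModularGroup.T) z
  rw [EisensteinSeries.D2_T, smul_zero, sub_zero, ModularForm.SL_slash_apply] at h
  have hd : denom ((ModularGroup.T : SL(2, ℤ)) : GL (Fin 2) ℝ) z = 1 := by
    rw [ModularGroup.denom_apply]
    simp [ModularGroup.T]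
  rw [hd] at h
  simpa using h

theorem E2_tendsto : Tendsto EisensteinSeries.E2 atImInfty (𝓝 1) := by
  have hper := log_periodic_of_T E2_T
  have han : AnalyticAt ℂ (cuspFunction 1 EisensteinSeries.E2) 0 :=
    analyticAt_cuspFunction_zero one_pos hper E2_mdifferentiable
      EisensteinSeries.isBoundedAtImInfty_E2
  have hs : ∀ τ : ℍ, HasSum (fun m : ℕ ↦ (if m = 0 then 1 else -24 * ArithmeticFunction.sigma 1 m : ℂ) •
      Function.Periodic.qParam 1 τ ^ m) (EisensteinSeries.E2 τ) := fun τ => by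
    simpa only [Function.Periodic.qParam, Complex.ofReal_one, div_one] using
      EisensteinSeries.hasSum_qExpansion_E2 (z := τ)
  have h0 : cuspFunction 1 EisensteinSeries.E2 0 = 1 := by
    have := (hasFPowerSeriesOnBall_cuspFunction one_pos han hs).coeff_zero (fun _ => 0)
    simpa using this.symm
  have ht : Tendsto EisensteinSeries.E2 atImInfty (𝓝 (cuspFunction 1 EisensteinSeries.E2 0)) := by
    have : (cuspFunction 1 EisensteinSeries.E2 ∘ fun τ : ℍ ↦ Function.Periodic.qParam 1 τ) =
        EisensteinSeries.E2 := funext fun τ => eq_cuspFunction τ one_ne_zero hper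
    simpa [this] using han.continuousAt.tendsto.comp (qParam_tendsto_atImInfty one_pos)
  rwa [h0] at ht

theorem log_exists_isPrim : ∃ ψ, IsPrim (fun z => EisensteinSeries.E2 z - 1) ψ ∧
    Function.Periodic (ψ ∘ ofComplex) (1 : ℝ) := by
  refine Fermat.Agent.S22.exists_isPrim one_pos ?_ ?_ ?_
  · exact log_periodic_of_T (F := fun z => EisensteinSeries.E2 z - 1) fun z => by rw [E2_T]
  · exact E2_mdifferentiable.sub mdifferentiable_const
  · have := E2_tendsto.sub_const 1
    rw [sub_self] at this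
    exact this

theorem isPrim_BB : Fermat.Agent.S22.IsPrim (fun z => EisensteinSeries.E2 z - 1) BB := by
  have hper : Function.Periodic ((fun z => EisensteinSeries.E2 z - 1) ∘ ofComplex) (1 : ℝ) :=
    log_periodic_of_T (F := fun z => EisensteinSeries.E2 z - 1) fun z => by rw [E2_T]
  have hz : IsZeroAtImInfty (fun z => EisensteinSeries.E2 z - 1) := by
    have := E2_tendsto.sub_const 1
    rw [sub_self] at this
    exact this
  obtain ⟨J, hJ, -⟩ := Fermat.Agent.S22.hasTower_of_periodic one_pos hper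
    (E2_mdifferentiable.sub mdifferentiable_const) hz
  exact (Fermat.Agent.S22.HasTower.isTower ⟨J, hJ⟩).1

theorem BB_T (z : ℍ) : BB (ModularGroup.T • z) = BB z := by
  obtain ⟨ψ, h1, h2⟩ := log_exists_isPrim
  rw [isPrim_BB.unique h1]
  exact log_T_of_periodic h2 z

theorem hasDerivAt_AA (τ : ℍ) : HasDerivAt (AA ∘ ofComplex) (EisensteinSeries.E2 τ) τ := by
  have h1 := (Fermat.Agent.S22.hasDerivAt_coe_ofComplex τ).add (isPrim_BB.1 τ)
  have e : (1 : ℂ) + (EisensteinSeries.E2 τ - 1) = EisensteinSeries.E2 τ := by ring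
  rw [e] at h1
  exact h1

theorem AA_T (z : ℍ) : AA (ModularGroup.T • z) = AA z + 1 := by
  rw [AA, AA, BB_T, UpperHalfPlane.modular_T_smul]
  simp
  ring

theorem AA_T_zpow (n : ℤ) (z : ℍ) : AA (ModularGroup.T ^ n • z) = AA z + n := by
  induction n using Int.induction_on generalizing z with
  | zero => simp
  | succ n ih =>
    rw [zpow_add_one, mul_smul, ih, AA_T]
    push_cast; ring
  | pred n ih =>
    have h1 := AA_T (ModularGroup.T ^ (-(n : ℤ) - 1) • z)
    rw [← mul_smul, ← zpow_one_add] at h1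
    have e : (1 : ℤ) + (-(n : ℤ) - 1) = -(n : ℤ) := by ring
    rw [e, ih] at h1
    push_cast at h1 ⊢
    linear_combination -h1


theorem exp_AA (z : ℍ) : Complex.exp (2 * π * Complex.I * AA z) = ModularForm.discriminant z := by
  set g : ℍ → ℂ := fun z => ModularForm.discriminant z * Complex.exp (-(2 * π * Complex.I * AA z))
    with hg
  have hΔ : MDiff ModularForm.discriminant := CuspForm.discriminant.holo'
  have hder : ∀ τ : ℍ, HasDerivAt (g ∘ ofComplex) 0 τ := by
    intro τ
    have h1 := Fermat.Agent.S20.hasDerivAt_comp_ofComplex hΔ τ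
    rw [Fermat.Agent.S20.D_discriminant] at h1
    have h2 := (((hasDerivAt_AA τ).const_mul (2 * π * Complex.I)).neg).cexp
    have h3 := h1.mul h2
    have h4 : HasDerivAt (g ∘ ofComplex) _ τ := h3
    refine h4.congr_deriv ?_
    simp only [Function.comp_apply, ofComplex_apply, Pi.neg_apply]
    ring
  have hconst := Fermat.Agent.S22.const_of_hasDerivAt_zero hder
  have hlim : Tendsto g atImInfty (𝓝 1) := by
    have h1 : Tendsto (fun z : ℍ => Complex.exp (-(2 * π * Complex.I * BB z))) atImInfty (𝓝 1) := by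
      have h2 : Tendsto (fun z : ℍ => -(2 * π * Complex.I * BB z)) atImInfty (𝓝 0) := by
        have := (isPrim_BB.2.const_mul (2 * π * Complex.I)).neg
        simpa using this
      have := (Complex.continuous_exp.tendsto 0).comp h2
      rw [Complex.exp_zero] at this
      exact this
    have h3 := Fermat.Agent.S20.Delta_div_q_tendsto.mul h1
    rw [one_mul] at h3
    refine h3.congr fun z => ?_
    simp only [hg, AA]
    rw [mul_add, neg_add, Complex.exp_add, Complex.exp_neg (2 * π * Complex.I * (z : ℂ))]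
    ring
  have h1 : g z = 1 := by
    have : g = fun _ => g z := funext fun w => hconst w z
    rw [this] at hlim
    exact tendsto_nhds_unique tendsto_const_nhds hlim
  simp only [hg] at h1
  rw [Complex.exp_neg] at h1
  have hne := Complex.exp_ne_zero (2 * π * Complex.I * AA z)
  field_simp at h1
  exact h1.symm

theorem log_det_mapGL (δ : SL(2, ℤ)) : (Matrix.SpecialLinearGroup.mapGL ℝ δ).val.det = 1 := by
  rw [← Matrix.GeneralLinearGroup.val_det_apply]; simp

theorem AA_S : ∃ k : ℂ, ∀ z : ℍ,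
    AA (ModularGroup.S • z) = AA z + 6 / (π * Complex.I) * Complex.log z + k := by
  set K : ℍ → ℂ := fun z => AA (ModularGroup.S • z) - AA z - 6 / (π * Complex.I) * Complex.log z
    with hK
  have hder : ∀ τ : ℍ, HasDerivAt (K ∘ ofComplex) 0 τ := by
    intro τ
    set g : GL (Fin 2) ℝ := Matrix.SpecialLinearGroup.mapGL ℝ ModularGroup.S with hgdef
    have hdet : g.val.det = 1 := log_det_mapGL _
    have h1 := Fermat.Agent.S22.hasDerivAt_comp_smul (F := AA) (g := g) (by rw [hdet]; exact one_pos) τ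
      (hasDerivAt_AA (g • τ))
    have h2 : HasDerivAt (fun w : ℂ => Complex.log ((ofComplex w : ℍ) : ℂ)) ((τ : ℂ)⁻¹) τ := by
      have := (Complex.hasDerivAt_log (mem_slitPlane τ))
      exact this.congr_of_eventuallyEq (by
        filter_upwards [eventuallyEq_coe_comp_ofComplex τ.im_pos] with w hw
        simp only [Function.comp_apply] at hw
        rw [hw]; rfl)
    have h3 := (h1.sub (hasDerivAt_AA τ)).sub (h2.const_mul (6 / (π * Complex.I)))
    have hE2 := congrFun (EisensteinSeries.E2_slash_action ModularGroup.S) τ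
    simp only [ModularForm.SL_slash_apply, Pi.sub_apply, Pi.smul_apply, EisensteinSeries.D2_S,
      riemannZeta_two, smul_eq_mul] at hE2
    have hden : denom g τ = τ := by
      rw [hgdef]
      exact ModularGroup.denom_S τ
    have hden' : denom ((ModularGroup.S : SL(2, ℤ)) : GL (Fin 2) ℝ) τ = τ := ModularGroup.denom_S τ
    rw [hden'] at hE2
    have hτ : (τ : ℂ) ≠ 0 := ne_zero τ
    have hπ : (π : ℂ) ≠ 0 := by exact_mod_cast Real.pi_ne_zero
    have e : EisensteinSeries.E2 (g • τ) * ((g.val.det : ℂ) / denom g τ ^ 2) -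
        EisensteinSeries.E2 τ - 6 / (π * Complex.I) * (τ : ℂ)⁻¹ = 0 := by
      rw [hdet, hden]
      have : EisensteinSeries.E2 (g • τ) = EisensteinSeries.E2 (ModularGroup.S • τ) := rfl
      rw [this]
      have h4 : EisensteinSeries.E2 (ModularGroup.S • τ) * (τ : ℂ) ^ (-(2 : ℤ)) =
          EisensteinSeries.E2 (ModularGroup.S • τ) * (((1 : ℝ) : ℂ) / (τ : ℂ) ^ 2) := by
        rw [zpow_neg]; simp
      rw [← h4, hE2]
      field_simp
      ring_nf
      rw [Complex.I_sq]
      ring
    rw [e] at h3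
    exact h3
  refine ⟨K UpperHalfPlane.I, fun z => ?_⟩
  rw [← Fermat.Agent.S22.const_of_hasDerivAt_zero hder z UpperHalfPlane.I]
  simp only [hK]
  ring


/-- a holomorphic function `D` with `exp (2πi D) = 1` is an integer constant. -/
theorem log_const_of_exp_eq_one {D : ℍ → ℂ} (hd : ∀ τ : ℍ, DifferentiableAt ℂ (D ∘ ofComplex) τ)
    (h : ∀ z, Complex.exp (2 * π * Complex.I * D z) = 1) : ∃ m : ℤ, ∀ z, D z = m := by
  have hder : ∀ τ : ℍ, HasDerivAt (D ∘ ofComplex) 0 τ := by
    intro τ
    have h1 := (hd τ).hasDerivAt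
    have h2 := (h1.const_mul (2 * π * Complex.I)).cexp
    have h3 : (fun w : ℂ => Complex.exp (2 * π * Complex.I * (D ∘ ofComplex) w)) = fun _ => 1 :=
      funext fun w => h _
    rw [h3] at h2
    have h4 := h2.unique (hasDerivAt_const _ _)
    have h5 : deriv (D ∘ ofComplex) τ = 0 := by
      have hne := Complex.exp_ne_zero (2 * π * Complex.I * (D ∘ ofComplex) τ)
      have hne2 : (2 * π * Complex.I : ℂ) ≠ 0 := Complex.two_pi_I_ne_zero
      rcases mul_eq_zero.mp h4 with h6 | h6
      · exact absurd h6 hne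
      · exact (mul_eq_zero.mp h6).resolve_left hne2
    rw [h5] at h1
    exact h1
  obtain ⟨m, hm⟩ := Complex.exp_eq_one_iff.mp (h UpperHalfPlane.I)
  refine ⟨m, fun z => ?_⟩
  rw [Fermat.Agent.S22.const_of_hasDerivAt_zero hder z UpperHalfPlane.I]
  have hne2 : (2 * π * Complex.I : ℂ) ≠ 0 := Complex.two_pi_I_ne_zero
  apply mul_left_cancel₀ hne2
  rw [hm]; ring

theorem log_differentiableAt_AA_smul (g : GL (Fin 2) ℝ) (hg : 0 < g.val.det) (τ : ℍ) :
    DifferentiableAt ℂ ((fun z : ℍ => AA (g • z)) ∘ ofComplex) τ :=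
  (Fermat.Agent.S22.hasDerivAt_comp_smul (F := AA) hg τ (hasDerivAt_AA (g • τ))).differentiableAt

theorem log_val_det_heckeDiagMatrix {p : ℕ} (hp : p ≠ 0) :
    (heckeDiagMatrix p).val.det = (p : ℝ) := by
  rw [← Matrix.GeneralLinearGroup.val_det_apply, det_heckeDiagMatrix hp]

theorem discriminant_smul (γ : SL(2, ℤ)) (z : ℍ) :
    discriminant (γ • z) = denom (γ : GL (Fin 2) ℝ) z ^ 12 * discriminant z := by
  have h := congrFun (SlashInvariantForm.slash_action_generators_SL2Z discriminant_S_invariant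
    discriminant_T_invariant γ) z
  rw [ModularForm.SL_slash_apply] at h
  have hd := denom_ne_zero (γ : GL (Fin 2) ℝ) z
  rw [← h, zpow_neg]
  have : denom (γ : GL (Fin 2) ℝ) z ^ (12 : ℤ) = denom (γ : GL (Fin 2) ℝ) z ^ 12 := by
    norm_cast
  rw [this]
  field_simp

open P2MW.S_ModularForm_heckeT_slash_eq_self_of_mem_Gamma0.ModularForm.HeckeSlashInvariance in
theorem isIntEquiv_Psi (p : ℕ) (hp : p ≠ 0) : IsIntEquiv p (Psi p) := by
  intro γ hγ
  have hcN : (p : ℤ) ∣ γ 1 0 :=
    (ZMod.intCast_zmod_eq_zero_iff_dvd _ _).mp (CongruenceSubgroup.Gamma0_mem.mp hγ)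
  obtain ⟨e, he⟩ := hcN
  obtain ⟨γ', hγ', hmul⟩ := heckeDiagMatrix_mul_of_eq' hp γ e he
  have hsm : ∀ z : ℍ, heckeDiagMatrix p • (γ • z) = γ' • (heckeDiagMatrix p • z) := by
    intro z
    have h1 : heckeDiagMatrix p • (γ • z) =
        (heckeDiagMatrix p * Matrix.SpecialLinearGroup.mapGL ℝ γ) • z := by
      rw [mul_smul]; rfl
    rw [h1, hmul, mul_smul]; rfl
  have hp' : (0 : ℝ) < p := by exact_mod_cast Nat.pos_of_ne_zero hp
  apply log_const_of_exp_eq_one
  · intro τ
    have h1 := log_differentiableAt_AA_smul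
      (heckeDiagMatrix p * Matrix.SpecialLinearGroup.mapGL ℝ γ) (by
        rw [Units.val_mul, Matrix.det_mul, log_val_det_heckeDiagMatrix hp, log_det_mapGL, mul_one]
        exact hp') τ
    have h2 := log_differentiableAt_AA_smul (Matrix.SpecialLinearGroup.mapGL ℝ γ) (by
        rw [log_det_mapGL]; exact one_pos) τ
    have h3 := log_differentiableAt_AA_smul (heckeDiagMatrix p) (by
        rw [log_val_det_heckeDiagMatrix hp]; exact hp') τ
    have h4 := (hasDerivAt_AA τ).differentiableAt
    have := (h1.sub h2).sub (h3.sub h4)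
    refine this.congr_of_eventuallyEq (Eventually.of_forall fun w => ?_)
    simp only [Function.comp_apply, Psi, Pi.sub_apply, mul_smul]
    rfl
  · intro z
    have e1 : 2 * π * Complex.I * (Psi p (γ • z) - Psi p z) =
        2 * π * Complex.I * AA (heckeDiagMatrix p • (γ • z)) - 2 * π * Complex.I * AA (γ • z) -
        (2 * π * Complex.I * AA (heckeDiagMatrix p • z) - 2 * π * Complex.I * AA z) := by
      simp only [Psi]; ring
    rw [e1, Complex.exp_sub, Complex.exp_sub, Complex.exp_sub, exp_AA, exp_AA, exp_AA, exp_AA, hsm,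
      discriminant_smul, discriminant_smul]
    have hden : denom (γ' : GL (Fin 2) ℝ) ((heckeDiagMatrix p • z : ℍ) : ℂ) =
        denom (γ : GL (Fin 2) ℝ) z := by
      rw [ModularGroup.denom_apply, ModularGroup.denom_apply, coe_heckeDiagMatrix_smul hp, hγ', he]
      have h11 : γ' 1 1 = γ 1 1 := by
        have := congrArg (fun M : GL (Fin 2) ℝ => M 1 1) hmul
        simp [Matrix.mul_apply, Fin.sum_univ_two, val_heckeDiagMatrix hp] at this
        exact_mod_cast this.symm
      rw [h11]
      push_cast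
      ring
    rw [hden]
    have h1 := denom_ne_zero (γ : GL (Fin 2) ℝ) z
    have h2 := discriminant_ne_zero z
    have h3 := discriminant_ne_zero (heckeDiagMatrix p • z)
    field_simp

theorem Psi_T (p : ℕ) (hp : p ≠ 0) (z : ℍ) : Psi p (ModularGroup.T • z) - Psi p z = (p : ℂ) - 1 := by
  have h1 : heckeDiagMatrix p • (ModularGroup.T • z) =
      ModularGroup.T ^ (p : ℤ) • (heckeDiagMatrix p • z) := by
    apply UpperHalfPlane.ext
    rw [coe_heckeDiagMatrix_smul hp, modular_T_smul, modular_T_zpow_smul, coe_vadd, coe_vadd,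
      coe_heckeDiagMatrix_smul hp]
    push_cast
    ring
  simp only [Psi]
  rw [h1, AA_T_zpow, AA_T]
  push_cast
  ring

theorem log_coe_S_smul (z : ℍ) : ((ModularGroup.S • z : ℍ) : ℂ) = -1 / (z : ℂ) := by
  rw [modular_S_smul]
  simp [neg_div, inv_neg]

theorem coe_fricke (p : ℕ) (hp : p ≠ 0) (z : ℍ) : ((fricke p z : ℍ) : ℂ) = -1 / ((p : ℂ) * z) := by
  rw [fricke, log_coe_S_smul, coe_heckeDiagMatrix_smul hp]

theorem Psi_fricke (p : ℕ) (hp : p ≠ 0) (z : ℍ) :
    Psi p (fricke p z) = - Psi p z - 6 / (π * Complex.I) * (Real.log p : ℂ) := by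
  obtain ⟨k, hk⟩ := AA_S
  have hpc : (p : ℂ) ≠ 0 := by exact_mod_cast hp
  have h1 : heckeDiagMatrix p • (fricke p z) = ModularGroup.S • z := by
    apply UpperHalfPlane.ext
    rw [coe_heckeDiagMatrix_smul hp, coe_fricke p hp, log_coe_S_smul]
    have := ne_zero z
    field_simp
  simp only [Psi]
  rw [h1, fricke, hk, hk, coe_heckeDiagMatrix_smul hp]
  have h2 : Complex.log ((p : ℂ) * z) = (Real.log p : ℂ) + Complex.log z := by
    have := Complex.log_ofReal_mul (r := (p : ℝ)) (by exact_mod_cast Nat.pos_of_ne_zero hp)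
      (ne_zero z)
    simpa using this
  rw [h2]
  ring

theorem Psi_Tlow (p : ℕ) (hp : p ≠ 0) (z : ℍ) : Psi p (Tlow p • z) - Psi p z = -((p : ℂ) - 1) := by
  have hpc : (p : ℂ) ≠ 0 := by exact_mod_cast hp
  have h1 : Tlow p • z = fricke p (ModularGroup.T • fricke p z) := by
    apply UpperHalfPlane.ext
    rw [coe_fricke p hp, modular_T_smul, coe_vadd, coe_fricke p hp,
      UpperHalfPlane.coe_specialLinearGroup_apply]
    have hz := ne_zero z
    have hd := denom_ne_zero ((Tlow p : SL(2, ℤ)) : GL (Fin 2) ℝ) z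
    rw [ModularGroup.denom_apply] at hd
    simp only [Tlow] at hd ⊢
    simp at hd ⊢
    have hd' : (1 : ℂ) - p * z ≠ 0 := by
      intro h; apply hd; linear_combination h
    have hd'' : (p : ℂ) * z - 1 ≠ 0 := by
      intro h; apply hd; linear_combination -h
    have e1 : (p : ℂ) * (1 + -1 / ((p : ℂ) * z)) = ((p : ℂ) * z - 1) / z := by
      field_simp
      ring
    rw [e1, div_div_eq_mul_div, div_eq_div_iff hd hd'']
    ring
  rw [h1, Psi_fricke p hp]
  have h2 := Psi_T p hp (fricke p z)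
  rw [Psi_fricke p hp] at h2
  linear_combination -h2

end Fermat.Agent.S16.Coh
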