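import Fermat.Agent.S16.CohDefs
import Fermat.Agent.S16.Cosets
import Fermat.Agent.S21.Parab

/-!
# S16 (cohomological lower bound), piece PAR: a homomorphism killing `T` and `[1 0; -p 1]` is parabolic

Let `γ ∈ Γ₀(p)`, `tr² = 4`.  `S21.exists_conj_T_of_trace_sq`: `γ = ± δ T^m δ⁻¹`, `δ ∈ SL(2,ℤ)`.
`ψ (-1) = 0` (`2 ψ(-1) = ψ 1 = 0`), `-1 ∈ Γ₀(p)`; so we may assume `γ = δ T^m δ⁻¹`.
`S16.exists_coset`: `δ ∈ Γ₀(p)` (then `ψ γ = m ψ T = 0`) or `δ = γ₀ S T^j`, `γ₀ ∈ Γ₀(p)`; then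
`γ = γ₀ (S T^m S⁻¹) γ₀⁻¹`, `S T^m S⁻¹ = [1 0; -m 1] ∈ Γ₀(p)`, so `m = p k` and `S T^m S⁻¹ = (Tlow p)^k`.
-/

set_option autoImplicit false

namespace Fermat.Agent.S16.Coh

open CongruenceSubgroup ModularCurve.Period
open scoped MatrixGroups

namespace Parab

theorem conj_eq (m : ℤ) : (ModularGroup.S * ModularGroup.T ^ m * ModularGroup.S⁻¹ : SL(2, ℤ))
    = ⟨!![1, 0; -m, 1], by simp [Matrix.det_fin_two_of]⟩ := by
  apply Matrix.SpecialLinearGroup.ext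
  intro i j
  fin_cases i <;> fin_cases j <;>
    simp [Matrix.adjugate_fin_two, Matrix.mul_apply, Fin.sum_univ_two, ModularGroup.coe_S,
          ModularGroup.coe_T_zpow]

theorem Tlow_eq (p : ℕ) : Tlow p = ModularGroup.S * ModularGroup.T ^ (p : ℤ) * ModularGroup.S⁻¹ := by
  rw [conj_eq]
  rfl

theorem conj_entry (m : ℤ) :
    (ModularGroup.S * ModularGroup.T ^ m * ModularGroup.S⁻¹ : SL(2, ℤ)) 1 0 = -m := by
  simp [Matrix.adjugate_fin_two, Matrix.mul_apply, Fin.sum_univ_two, ModularGroup.coe_S,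
          ModularGroup.coe_T_zpow]

variable (p : ℕ) (ψ : Additive (Gamma0 p) →+ ℂ)

theorem psi_mul (a b : Gamma0 p) :
    ψ (Additive.ofMul (a * b)) = ψ (Additive.ofMul a) + ψ (Additive.ofMul b) := by
  rw [ofMul_mul, map_add]

theorem psi_inv (a : Gamma0 p) :
    ψ (Additive.ofMul a⁻¹) = - ψ (Additive.ofMul a) := by
  rw [ofMul_inv, map_neg]

theorem psi_zpow (a : Gamma0 p) (k : ℤ) :
    ψ (Additive.ofMul (a ^ k)) = k • ψ (Additive.ofMul a) := by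
  rw [ofMul_zpow, map_zsmul]

theorem core [Fact p.Prime] (h1 : ψ (Additive.ofMul (Tg p)) = 0) (h2 : ψ (Additive.ofMul (Tlowg p)) = 0)
    (γ : Gamma0 p) (δ : SL(2, ℤ)) (m : ℤ) (h : (γ : SL(2, ℤ)) = δ * ModularGroup.T ^ m * δ⁻¹) :
    ψ (Additive.ofMul γ) = 0 := by
  rcases exists_coset p δ with hδ | ⟨γ₀, hγ₀, j, hj⟩
  · have : γ = (⟨δ, hδ⟩ : Gamma0 p) * (Tg p) ^ m * (⟨δ, hδ⟩ : Gamma0 p)⁻¹ := by
      apply Subtype.ext
      rw [h]
      simp [Tg]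
    rw [this, psi_mul, psi_mul, psi_inv, psi_zpow, h1]
    simp
  · have e1 : (γ : SL(2, ℤ)) = γ₀ * (ModularGroup.S * ModularGroup.T ^ m * ModularGroup.S⁻¹) * γ₀⁻¹ := by
      rw [h, hj]
      have : ModularGroup.T ^ j * ModularGroup.T ^ m * (ModularGroup.T ^ j)⁻¹ = ModularGroup.T ^ m := by
        rw [← zpow_add, ← zpow_neg, ← zpow_add]
        congr 1
        ring
      calc γ₀ * ModularGroup.S * ModularGroup.T ^ j * ModularGroup.T ^ m *
            (γ₀ * ModularGroup.S * ModularGroup.T ^ j)⁻¹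
          = γ₀ * (ModularGroup.S * (ModularGroup.T ^ j * ModularGroup.T ^ m * (ModularGroup.T ^ j)⁻¹)
              * ModularGroup.S⁻¹) * γ₀⁻¹ := by
            simp only [mul_inv_rev, mul_assoc]
        _ = _ := by rw [this]
    have e2 : (ModularGroup.S * ModularGroup.T ^ m * ModularGroup.S⁻¹ : SL(2, ℤ)) ∈ Gamma0 p := by
      have : (ModularGroup.S * ModularGroup.T ^ m * ModularGroup.S⁻¹ : SL(2, ℤ))
          = γ₀⁻¹ * γ * γ₀ := by
        rw [e1]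
        group
      rw [this]
      exact mul_mem (mul_mem (inv_mem hγ₀) γ.2) hγ₀
    have e3 := e2
    rw [Gamma0_mem, conj_entry, ZMod.intCast_zmod_eq_zero_iff_dvd] at e3
    obtain ⟨k, hk⟩ := (dvd_neg.mp e3)
    have e4 : (ModularGroup.S * ModularGroup.T ^ m * ModularGroup.S⁻¹ : SL(2, ℤ)) = (Tlow p) ^ k := by
      rw [Tlow_eq, conj_zpow, ← zpow_mul, hk]
    have : γ = (⟨γ₀, hγ₀⟩ : Gamma0 p) * (Tlowg p) ^ k * (⟨γ₀, hγ₀⟩ : Gamma0 p)⁻¹ := by
      apply Subtype.ext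
      rw [e1, e4]
      simp [Tlowg]
    rw [this, psi_mul, psi_mul, psi_inv, psi_zpow, h2]
    simp

end Parab

theorem mem_parabolicHoms_of (p : ℕ) [Fact p.Prime] (ψ : Additive (Gamma0 p) →+ ℂ)
    (h1 : ψ (Additive.ofMul (Tg p)) = 0) (h2 : ψ (Additive.ofMul (Tlowg p)) = 0) :
    ψ ∈ parabolicHoms ℂ (Gamma0 p) ℂ := by
  rw [mem_parabolicHoms_iff]
  intro γ hγ
  obtain ⟨δ, m, hm | hm⟩ := Fermat.Agent.S21.exists_conj_T_of_trace_sq (γ : SL(2, ℤ)) hγ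
  · exact Parab.core p ψ h1 h2 γ δ m hm
  · have hn : (-1 : SL(2, ℤ)) ∈ Gamma0 p := by
      rw [Gamma0_mem]; simp
    let n1 : Gamma0 p := ⟨-1, hn⟩
    have hn1 : ψ (Additive.ofMul n1) = 0 := by
      have h3 : n1 * n1 = 1 := by
        apply Subtype.ext
        simp [n1]
      have h4 := Parab.psi_mul p ψ n1 n1
      rw [h3] at h4
      have h5 : ψ (Additive.ofMul (1 : Gamma0 p)) = 0 := by
        rw [ofMul_one, map_zero]
      rw [h5] at h4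
      linear_combination -(1/2 : ℂ) * h4
    have h6 : ψ (Additive.ofMul (n1 * γ)) = 0 := by
      apply Parab.core p ψ h1 h2 (n1 * γ) δ m
      rw [Subgroup.coe_mul, hm]
      simp [n1]
    rw [Parab.psi_mul, hn1, zero_add] at h6
    exact h6

end Fermat.Agent.S16.Coh
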