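import Fermat.Agent.S16.CohDefs

/-!
# S16 (cohomological lower bound), piece PSI1: a homomorphism `Γ₀(p) → ℤ` with `T ↦ 1`

PURE GROUP THEORY (no analysis, no free products).  `G = SL(2,ℤ)`, `Γ = Γ₀(p)`, `p ≥ 2`.
For `g = [a b; c d]` put `χ g = 1` if `a b + c d < 0` and `χ g = 0` otherwise
(geometrically: `Re (g⁻¹ i) > 0`, i.e. `i` lies to the right of the geodesic `g (0,∞)`).  `χ (-g) = χ g`.

* (F0) KEY: for `g ∈ G`: `(a b)(c d) = (b c)(b c + 1) ≥ 0`.  So if `c d ≠ 0` then `a b + c d` has the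
  sign of `c d`, and if `a b ≠ 0` it has the sign of `a b`.
* (F1) `χ (S⁻¹ g) = χ g` (`S⁻¹ g = [c d; -a -b]`).
* (F2) `T⁻¹ g = [a-c, b-d; c, d]` has the same bottom row, so `χ (T⁻¹ g) = χ g` unless `c d = 0`;
  `c = 0`: `g = ± T^b`, `χ g = [b < 0]`, `χ (T⁻¹ g) = [b ≤ 0]`: differ iff `g = ± 1`;
  `d = 0`: `g = ± [a -1; 1 0]`, differ iff `a = 1`.  So `{g | χ (T⁻¹ g) ≠ χ g}` is finite (entries in `[-1,1]`).
* (F3) `supp γ := {g ∈ G | χ (γ⁻¹ g) ≠ χ g}` is finite for ALL `γ ∈ G`: `supp (γ δ) ⊆ supp γ ∪ γ • supp δ`,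
  `supp γ⁻¹ = γ⁻¹ • supp γ`, and `G = closure {S, T}` (`SpecialLinearGroup.SL2Z_generators`,
  `Subgroup.closure_induction`).
* (F4) DEFINITION: `ψ γ := ∑ᶠ x : Γ ⧸ {±1}, (χ (γ⁻¹ g) - χ g)` (`g` a representative of `x`; the summand is
  well defined since `χ (-g) = χ g`).  [Equivalent: sum over `{g ∈ Γ | 0 < g 1 1 }`... any way of
  counting each pair `± g` once; or show that the sum over all of `Γ` is even.]  Additivity:
  `χ ((γδ)⁻¹ g) - χ g = (χ (δ⁻¹ (γ⁻¹ g)) - χ (γ⁻¹ g)) + (χ (γ⁻¹ g) - χ g)`, `finsum_add_distrib` (F3) and the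
  reindexing `g ↦ γ g` of `Γ ⧸ {±1}`.
* (F5) `ψ T = 1`: in `Γ` we have `d ≠ 0` (`a d - b c = 1`, `p ∣ c`), so by (F2) only `g = ± 1` contributes:
  `χ (T⁻¹) - χ 1 = 1 - 0`.
* (F6) `ψ (Tlow p) = -1`: `(Tlow p)⁻¹ g = [a, b; c + p a, d + p b]` has the same top row; in `Γ`: `a ≠ 0`;
  `b = 0`: `g = ± [1 0; p k 1]`, `χ g = [k < 0]`, `χ ((Tlow p)⁻¹ g) = [k + 1 < 0]`: differ iff `g = ± Tlow p`:
  `χ 1 - χ (Tlow p) = 0 - 1`.
-/

set_option autoImplicit false

namespace Fermat.Agent.S16.Coh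

open CongruenceSubgroup
open scoped MatrixGroups

namespace PsiOne

/-- `χ g = 1` iff `a b + c d < 0`. -/
def chi (g : SL(2, ℤ)) : ℤ := if g 0 0 * g 0 1 + g 1 0 * g 1 1 < 0 then 1 else 0

theorem det_eq (g : SL(2, ℤ)) : g 0 0 * g 1 1 - g 0 1 * g 1 0 = 1 := by
  have := g.det_coe
  rwa [Matrix.det_fin_two] at this

theorem chi_neg (g : SL(2, ℤ)) : chi (-g) = chi g := by
  unfold chi
  simp

theorem key (g : SL(2, ℤ)) : 0 ≤ (g 0 0 * g 0 1) * (g 1 0 * g 1 1) := by
  have h := det_eq g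
  have h1 : (g 0 0 * g 0 1) * (g 1 0 * g 1 1) = (g 0 1 * g 1 0) * (g 0 1 * g 1 0 + 1) := by
    linear_combination (g 0 1 * g 1 0) * h
  rw [h1]
  generalize g 0 1 * g 1 0 = t
  rcases le_or_gt 0 t with ht | ht
  · positivity
  · have : t + 1 ≤ 0 := by omega
    nlinarith

theorem chi_of_bot (g : SL(2, ℤ)) (h : g 1 0 * g 1 1 ≠ 0) :
    chi g = if g 1 0 * g 1 1 < 0 then 1 else 0 := by
  have hk := key g
  unfold chi
  generalize g 0 0 * g 0 1 = x at *
  generalize g 1 0 * g 1 1 = y at *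
  rcases lt_or_gt_of_ne h with hy | hy
  · have hx : x ≤ 0 := by
      by_contra hx
      rw [not_le] at hx
      nlinarith
    rw [if_pos (by omega), if_pos hy]
  · have hx : 0 ≤ x := by
      by_contra hx
      rw [not_le] at hx
      nlinarith
    rw [if_neg (by omega), if_neg (by omega)]

theorem chi_of_top (g : SL(2, ℤ)) (h : g 0 0 * g 0 1 ≠ 0) :
    chi g = if g 0 0 * g 0 1 < 0 then 1 else 0 := by
  have hk := key g
  unfold chi
  generalize g 0 0 * g 0 1 = x at *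
  generalize g 1 0 * g 1 1 = y at *
  rcases lt_or_gt_of_ne h with hy | hy
  · have hx : y ≤ 0 := by
      by_contra hx
      rw [not_le] at hx
      nlinarith
    rw [if_pos (by omega), if_pos hy]
  · have hx : 0 ≤ y := by
      by_contra hx
      rw [not_le] at hx
      nlinarith
    rw [if_neg (by omega), if_neg (by omega)]

theorem inv_mul_00 (γ g : SL(2, ℤ)) : (γ⁻¹ * g) 0 0 = γ 1 1 * g 0 0 - γ 0 1 * g 1 0 := by
  rw [Matrix.SpecialLinearGroup.coe_mul, Matrix.SpecialLinearGroup.coe_inv, Matrix.adjugate_fin_two]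
  simp [Matrix.mul_apply, Fin.sum_univ_two]
  ring

theorem inv_mul_01 (γ g : SL(2, ℤ)) : (γ⁻¹ * g) 0 1 = γ 1 1 * g 0 1 - γ 0 1 * g 1 1 := by
  rw [Matrix.SpecialLinearGroup.coe_mul, Matrix.SpecialLinearGroup.coe_inv, Matrix.adjugate_fin_two]
  simp [Matrix.mul_apply, Fin.sum_univ_two]
  ring

theorem inv_mul_10 (γ g : SL(2, ℤ)) : (γ⁻¹ * g) 1 0 = - γ 1 0 * g 0 0 + γ 0 0 * g 1 0 := by
  rw [Matrix.SpecialLinearGroup.coe_mul, Matrix.SpecialLinearGroup.coe_inv, Matrix.adjugate_fin_two]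
  simp [Matrix.mul_apply, Fin.sum_univ_two]

theorem inv_mul_11 (γ g : SL(2, ℤ)) : (γ⁻¹ * g) 1 1 = - γ 1 0 * g 0 1 + γ 0 0 * g 1 1 := by
  rw [Matrix.SpecialLinearGroup.coe_mul, Matrix.SpecialLinearGroup.coe_inv, Matrix.adjugate_fin_two]
  simp [Matrix.mul_apply, Fin.sum_univ_two]

theorem ext4 (g h : SL(2, ℤ)) (h00 : g 0 0 = h 0 0) (h01 : g 0 1 = h 0 1) (h10 : g 1 0 = h 1 0)
    (h11 : g 1 1 = h 1 1) : g = h := by
  apply Matrix.SpecialLinearGroup.ext
  intro i j
  fin_cases i <;> fin_cases j <;> assumption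

/-- the difference function. -/
def dchi (γ g : SL(2, ℤ)) : ℤ := chi (γ⁻¹ * g) - chi g

theorem dchi_neg (γ g : SL(2, ℤ)) : dchi γ (-g) = dchi γ g := by
  unfold dchi
  rw [mul_neg, chi_neg, chi_neg]

theorem dchi_mul (γ δ g : SL(2, ℤ)) : dchi (γ * δ) g = dchi δ (γ⁻¹ * g) + dchi γ g := by
  unfold dchi
  rw [mul_inv_rev, mul_assoc]
  ring

theorem dchi_one (g : SL(2, ℤ)) : dchi 1 g = 0 := by
  unfold dchi
  simp

theorem dchi_inv (γ g : SL(2, ℤ)) : dchi γ⁻¹ g = - dchi γ (γ * g) := by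
  unfold dchi
  simp

theorem dchi_S (g : SL(2, ℤ)) : dchi ModularGroup.S g = 0 := by
  unfold dchi chi
  rw [inv_mul_00, inv_mul_01, inv_mul_10, inv_mul_11]
  have e00 : (ModularGroup.S : SL(2, ℤ)) 0 0 = 0 := by simp [ModularGroup.S]
  have e01 : (ModularGroup.S : SL(2, ℤ)) 0 1 = -1 := by simp [ModularGroup.S]
  have e10 : (ModularGroup.S : SL(2, ℤ)) 1 0 = 1 := by simp [ModularGroup.S]
  have e11 : (ModularGroup.S : SL(2, ℤ)) 1 1 = 0 := by simp [ModularGroup.S]
  rw [e00, e01, e10, e11]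
  have : (0 * g 0 0 - -1 * g 1 0) * (0 * g 0 1 - -1 * g 1 1) + (-1 * g 0 0 + 0 * g 1 0) * (-1 * g 0 1 + 0 * g 1 1)
    = g 0 0 * g 0 1 + g 1 0 * g 1 1 := by ring
  rw [this, sub_self]

/-- where `χ (T⁻¹ g) ≠ χ g`. -/
theorem dchi_T_ne (g : SL(2, ℤ)) (h : dchi ModularGroup.T g ≠ 0) :
    (g 1 0 = 0 ∧ g 0 1 = 0) ∨ (g 1 1 = 0 ∧ g 0 0 = g 1 0) := by
  have e00 : (ModularGroup.T : SL(2, ℤ)) 0 0 = 1 := by simp [ModularGroup.T]
  have e01 : (ModularGroup.T : SL(2, ℤ)) 0 1 = 1 := by simp [ModularGroup.T]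
  have e10 : (ModularGroup.T : SL(2, ℤ)) 1 0 = 0 := by simp [ModularGroup.T]
  have e11 : (ModularGroup.T : SL(2, ℤ)) 1 1 = 1 := by simp [ModularGroup.T]
  have f00 := inv_mul_00 ModularGroup.T g
  have f01 := inv_mul_01 ModularGroup.T g
  have f10 := inv_mul_10 ModularGroup.T g
  have f11 := inv_mul_11 ModularGroup.T g
  rw [e00, e01, e10, e11] at *
  have hd := det_eq g
  by_cases hcd : g 1 0 * g 1 1 = 0
  · rcases mul_eq_zero.mp hcd with hc | hd0
    · left
      refine ⟨hc, ?_⟩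
      by_contra hb
      apply h
      unfold dchi chi
      rw [f00, f01, f10, f11, hc]
      rw [hc] at hd
      have h1 : g 0 0 * g 1 1 = 1 := by linarith
      have h2 : g 0 0 * g 0 1 ≠ 0 := by
        apply mul_ne_zero _ hb
        rintro h0
        rw [h0] at h1
        simp at h1
      have h3 : (1 * g 0 0 - 1 * 0) * (1 * g 0 1 - 1 * g 1 1) + (-0 * g 0 0 + 1 * 0) * (-0 * g 0 1 + 1 * g 1 1)
        = g 0 0 * g 0 1 - 1 := by linear_combination -h1
      rw [h3]
      generalize g 0 0 * g 0 1 = t at *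
      split_ifs <;> omega
    · right
      refine ⟨hd0, ?_⟩
      by_contra hb
      apply h
      unfold dchi chi
      rw [f00, f01, f10, f11, hd0]
      rw [hd0] at hd
      have h1 : g 0 1 * g 1 0 = -1 := by linarith
      have h3 : (1 * g 0 0 - 1 * g 1 0) * (1 * g 0 1 - 1 * 0) + (-0 * g 0 0 + 1 * g 1 0) * (-0 * g 0 1 + 1 * 0)
        = g 0 0 * g 0 1 + 1 := by linear_combination -h1
      rw [h3]
      have h2 : g 0 0 * g 0 1 ≠ -1 := by
        intro h4
        apply hb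
        have h5 : g 0 1 ≠ 0 := by
          rintro h0
          rw [h0] at h1
          simp at h1
        apply mul_right_cancel₀ h5
        linarith
      generalize g 0 0 * g 0 1 = t at *
      split_ifs <;> omega
  · exfalso
    apply h
    unfold dchi
    rw [chi_of_bot g hcd, chi_of_bot]
    · rw [f10, f11]
      simp
    · rw [f10, f11]
      simpa using hcd

theorem finite_supp_T : {g : SL(2, ℤ) | dchi ModularGroup.T g ≠ 0}.Finite := by
  let M : SL(2, ℤ) := ⟨!![1, -1; 1, 0], by simp [Matrix.det_fin_two_of]⟩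
  have hM00 : M 0 0 = 1 := by simp [M]
  have hM01 : M 0 1 = -1 := by simp [M]
  have hM10 : M 1 0 = 1 := by simp [M]
  have hM11 : M 1 1 = 0 := by simp [M]
  apply Set.Finite.subset (s := {1, -1, M, -M}) (by simp)
  intro g hg
  have hd := det_eq g
  simp only [Set.mem_insert_iff, Set.mem_singleton_iff]
  rcases dchi_T_ne g hg with ⟨hc, hb⟩ | ⟨hd0, hac⟩
  · rw [hc, hb] at hd
    have h1 : g 0 0 * g 1 1 = 1 := by linarith
    rcases Int.eq_one_or_neg_one_of_mul_eq_one' h1 with ⟨h2, h3⟩ | ⟨h2, h3⟩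
    · left
      apply ext4 <;> simp [*]
    · right; left
      apply ext4 <;> simp [*]
  · rw [hd0, hac] at hd
    have h1 : g 1 0 * (- g 0 1) = 1 := by linarith
    rcases Int.eq_one_or_neg_one_of_mul_eq_one' h1 with ⟨h2, h3⟩ | ⟨h2, h3⟩
    · right; right; left
      have h4 : g 0 1 = -1 := by omega
      apply ext4 <;> simp [*]
    · right; right; right
      have h4 : g 0 1 = 1 := by omega
      apply ext4 <;> simp [*]

theorem finite_supp (γ : SL(2, ℤ)) : {g : SL(2, ℤ) | dchi γ g ≠ 0}.Finite := by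
  have hγ : γ ∈ Subgroup.closure {ModularGroup.S, ModularGroup.T} := by
    simp [SpecialLinearGroup.SL2Z_generators]
  induction hγ using Subgroup.closure_induction with
  | mem x hx =>
    rcases hx with rfl | hx
    · simp [dchi_S]
    · rw [Set.mem_singleton_iff] at hx
      rw [hx]
      exact finite_supp_T
  | one => simp [dchi_one]
  | mul x y _ _ hx hy =>
    refine ((hy.preimage (f := fun g => x⁻¹ * g) (mul_right_injective _).injOn).union hx).subset ?_
    intro g hg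
    rw [Set.mem_ofPred_eq, dchi_mul] at hg
    by_contra hcon
    simp only [Set.mem_union, Set.mem_preimage, Set.mem_ofPred_eq, not_or, not_not] at hcon
    rw [hcon.1, hcon.2] at hg
    simp at hg
  | inv x _ hx =>
    refine (hx.preimage (f := fun g => x * g) (mul_right_injective _).injOn).subset ?_
    intro g hg
    rw [Set.mem_ofPred_eq, dchi_inv] at hg
    simpa using hg

variable (p : ℕ)

/-- sum over all of `Γ` (counts every pair `± g` twice). -/
noncomputable def psi2 (γ : Gamma0 p) : ℤ := ∑ᶠ g : Gamma0 p, dchi γ g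

/-- sum over `Γ / ± 1`. -/
noncomputable def psi (γ : Gamma0 p) : ℤ :=
  ∑ᶠ g : Gamma0 p, if 0 < (g : SL(2, ℤ)) 1 1 then dchi γ g else 0

theorem finite_supp' (γ : SL(2, ℤ)) :
    (Function.support (fun g : Gamma0 p => dchi γ g)).Finite :=
  (finite_supp γ).preimage (f := fun g : Gamma0 p => (g : SL(2, ℤ))) Subtype.val_injective.injOn

theorem psi2_mul (γ δ : Gamma0 p) : psi2 p (γ * δ) = psi2 p γ + psi2 p δ := by
  unfold psi2
  have h1 : ∀ g : Gamma0 p, dchi ((γ * δ : Gamma0 p) : SL(2, ℤ)) g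
      = dchi δ ((Equiv.mulLeft γ⁻¹ g : Gamma0 p) : SL(2, ℤ)) + dchi γ g := by
    intro g
    rw [Subgroup.coe_mul, dchi_mul]
    rfl
  simp only [h1]
  rw [finsum_add_distrib _ (finite_supp' p γ),
    finsum_comp_equiv (Equiv.mulLeft γ⁻¹) (f := fun g : Gamma0 p => dchi δ g), add_comm]
  exact ((finite_supp' p δ).preimage (f := Equiv.mulLeft γ⁻¹) (Equiv.injective _).injOn)

theorem negOne_mem : (-1 : SL(2, ℤ)) ∈ Gamma0 p := by
  rw [Gamma0_mem]; simp

theorem d_ne_zero (hp : 2 ≤ p) (g : Gamma0 p) : (g : SL(2, ℤ)) 1 1 ≠ 0 := by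
  intro h
  have hd := det_eq (g : SL(2, ℤ))
  have hg := g.2
  rw [Gamma0_mem, ZMod.intCast_zmod_eq_zero_iff_dvd] at hg
  rw [h] at hd
  have h1 : (p : ℤ) ∣ 1 := by
    have : (1 : ℤ) = (g : SL(2, ℤ)) 1 0 * (- (g : SL(2, ℤ)) 0 1) := by linarith
    rw [this]
    exact Dvd.dvd.mul_right hg _
  have := Int.le_of_dvd one_pos h1
  omega

theorem a_ne_zero (hp : 2 ≤ p) (g : Gamma0 p) : (g : SL(2, ℤ)) 0 0 ≠ 0 := by
  intro h
  have hd := det_eq (g : SL(2, ℤ))
  have hg := g.2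
  rw [Gamma0_mem, ZMod.intCast_zmod_eq_zero_iff_dvd] at hg
  rw [h] at hd
  have h1 : (p : ℤ) ∣ 1 := by
    have : (1 : ℤ) = (g : SL(2, ℤ)) 1 0 * (- (g : SL(2, ℤ)) 0 1) := by linarith
    rw [this]
    exact Dvd.dvd.mul_right hg _
  have := Int.le_of_dvd one_pos h1
  omega

theorem psi2_eq (hp : 2 ≤ p) (γ : Gamma0 p) : psi2 p γ = 2 * psi p γ := by
  unfold psi2 psi
  set f : Gamma0 p → ℤ := fun g => if 0 < (g : SL(2, ℤ)) 1 1 then dchi γ g else 0 with hf
  let n1 : Gamma0 p := ⟨-1, negOne_mem p⟩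
  have hfin : (Function.support f).Finite := by
    apply (finite_supp' p γ).subset
    intro g hg
    rw [Function.mem_support] at hg ⊢
    intro h0
    apply hg
    simp only [hf]
    rw [h0]
    simp
  have h1 : ∀ g : Gamma0 p, dchi γ g = f g + f (Equiv.mulLeft n1 g) := by
    intro g
    have hn : ((Equiv.mulLeft n1 g : Gamma0 p) : SL(2, ℤ)) = - (g : SL(2, ℤ)) := by
      simp [n1]
    simp only [hf]
    rw [hn, dchi_neg]
    have hd := d_ne_zero p hp g
    have : (-(g : SL(2, ℤ))) 1 1 = - (g : SL(2, ℤ)) 1 1 := by simp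
    rw [this]
    rcases lt_or_gt_of_ne hd with h | h
    · rw [if_neg (by omega), if_pos (by omega), zero_add]
    · rw [if_pos (by omega), if_neg (by omega), add_zero]
  simp only [h1]
  rw [finsum_add_distrib hfin, finsum_comp_equiv (Equiv.mulLeft n1) (f := f), two_mul]
  exact (hfin.preimage (f := Equiv.mulLeft n1) (Equiv.injective _).injOn)

theorem psi_mul (hp : 2 ≤ p) (γ δ : Gamma0 p) : psi p (γ * δ) = psi p γ + psi p δ := by
  have := psi2_mul p γ δ
  rw [psi2_eq p hp, psi2_eq p hp, psi2_eq p hp] at this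
  omega

theorem psi_T : psi p (Tg p) = 1 := by
  unfold psi
  rw [finsum_eq_single _ (1 : Gamma0 p)]
  · have : dchi ((Tg p : Gamma0 p) : SL(2, ℤ)) ((1 : Gamma0 p) : SL(2, ℤ)) = 1 := by
      unfold dchi chi
      rw [inv_mul_00, inv_mul_01, inv_mul_10, inv_mul_11]
      simp [Tg, ModularGroup.T]
    rw [this]
    simp
  · intro g hg
    split_ifs with h0
    · by_contra hne
      apply hg
      have hd := det_eq (g : SL(2, ℤ))
      rcases dchi_T_ne g hne with ⟨hc, hb⟩ | ⟨hd0, hac⟩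
      · rw [hc, hb] at hd
        have h1 : (g : SL(2, ℤ)) 0 0 * (g : SL(2, ℤ)) 1 1 = 1 := by linarith
        rcases Int.eq_one_or_neg_one_of_mul_eq_one' h1 with ⟨h2, h3⟩ | ⟨h2, h3⟩
        · apply Subtype.ext
          apply ext4 <;> simp [*]
        · omega
      · omega
    · rfl

theorem psi_Tlow (hp : 2 ≤ p) : psi p (Tlowg p) = -1 := by
  have e00 : (Tlow p : SL(2, ℤ)) 0 0 = 1 := by simp [Tlow]
  have e01 : (Tlow p : SL(2, ℤ)) 0 1 = 0 := by simp [Tlow]
  have e10 : (Tlow p : SL(2, ℤ)) 1 0 = -p := by simp [Tlow]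
  have e11 : (Tlow p : SL(2, ℤ)) 1 1 = 1 := by simp [Tlow]
  unfold psi
  rw [finsum_eq_single _ (Tlowg p)]
  · have : dchi ((Tlowg p : Gamma0 p) : SL(2, ℤ)) ((Tlowg p : Gamma0 p) : SL(2, ℤ)) = -1 := by
      unfold dchi chi
      rw [inv_mul_cancel]
      simp only [Tlowg, e00, e01, e10, e11]
      have : ¬ p = 0 := by omega
      simp [this]
    rw [this]
    simp [Tlowg, e11]
  · intro g hg
    split_ifs with h0
    · by_contra hne
      apply hg
      have hd := det_eq (g : SL(2, ℤ))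
      have f00 := inv_mul_00 (Tlow p) g
      have f01 := inv_mul_01 (Tlow p) g
      have f10 := inv_mul_10 (Tlow p) g
      have f11 := inv_mul_11 (Tlow p) g
      rw [e01, e11] at f00 f01
      rw [e00, e10] at f10 f11
      by_cases hab : (g : SL(2, ℤ)) 0 0 * (g : SL(2, ℤ)) 0 1 = 0
      · have hb : (g : SL(2, ℤ)) 0 1 = 0 := by
          rcases mul_eq_zero.mp hab with h | h
          · exact absurd h (a_ne_zero p hp g)
          · exact h
        rw [hb] at hd
        have h1 : (g : SL(2, ℤ)) 0 0 * (g : SL(2, ℤ)) 1 1 = 1 := by linarith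
        have hg2 := g.2
        rw [Gamma0_mem, ZMod.intCast_zmod_eq_zero_iff_dvd] at hg2
        obtain ⟨k, hk⟩ := hg2
        rcases Int.eq_one_or_neg_one_of_mul_eq_one' h1 with ⟨h2, h3⟩ | ⟨h2, h3⟩
        · have hc : (g : SL(2, ℤ)) 1 0 = -p := by
            by_contra hc
            apply hne
            change dchi (Tlow p) g = 0
            unfold dchi chi
            rw [f00, f01, f10, f11, hb, h2, h3, hk]
            have hk1 : k ≠ -1 := by
              rintro rfl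
              apply hc
              rw [hk]; ring
            have hp0 : (0 : ℤ) < p := by omega
            rcases lt_or_gt_of_ne hk1 with hk2 | hk2
            · have h5 : (p : ℤ) * k + p < 0 := by nlinarith
              have h6 : (p : ℤ) * k < 0 := by nlinarith
              rw [if_pos (by linarith), if_pos (by linarith), sub_self]
            · have h5 : 0 ≤ (p : ℤ) * k := by
                have : 0 ≤ k := by omega
                positivity
              rw [if_neg (by linarith), if_neg (by linarith), sub_self]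
          clear hk
          apply Subtype.ext
          apply ext4 <;> simp [Tlowg, *]
        · omega
      · exfalso
        apply hne
        change dchi (Tlow p) g = 0
        unfold dchi
        rw [chi_of_top g hab, chi_of_top]
        · rw [f00, f01]
          simp
        · rw [f00, f01]
          simpa using hab
    · rfl

end PsiOne

theorem exists_psi_one (p : ℕ) (hp : 2 ≤ p) :
    ∃ ψ : Additive (Gamma0 p) →+ ℂ, (∀ γ, ∃ m : ℤ, ψ γ = m) ∧
      ψ (Additive.ofMul (Tg p)) = 1 ∧ ψ (Additive.ofMul (Tlowg p)) = -1 := by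
  refine ⟨AddMonoidHom.mk' (fun γ => ((PsiOne.psi p (Additive.toMul γ) : ℤ) : ℂ)) ?_, ?_, ?_, ?_⟩
  · intro a b
    rw [toMul_add, PsiOne.psi_mul p hp]
    push_cast
    rfl
  · intro γ
    exact ⟨_, rfl⟩
  · simp [PsiOne.psi_T]
  · simp [PsiOne.psi_Tlow p hp]

end Fermat.Agent.S16.Coh
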