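import Fermat.Agent.S21
import Fermat.Agent.S16.CohPsiOne
import Fermat.Agent.S16.CohParab
import Fermat.Agent.S16.CohEquiv
import Fermat.Agent.S16.CohHecke
import Fermat.Agent.S16.CohGcd
import Fermat.Prelude.Def_CuspForm_HeckeEvalForms
import Fermat.Prelude.Def_ModularCurve_ModularUnit

/-!
# S16: cohomological lower bound, main theorem

If `Q ∈ HeckeAlg` acts as `0` on `S₂(Γ₀(p))` then `n = eisensteinNumerator p` divides `λ(Q)`
(`λ` = evaluation at the Eisenstein system).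
-/

set_option autoImplicit false

namespace Fermat.Agent.S16.Coh

open UpperHalfPlane CongruenceSubgroup ModularForm ModularCurve ModularCurve.Period
open scoped MatrixGroups

open Fermat.Agent.S21 (prim)
open Fermat.Agent.S21.Inj (rfl')

noncomputable section

variable (p : ℕ)

/-- the function attached to a triple `(x, f, g) ∈ ℂ × S₂ × S₂`. -/
def Fn (x : ℂ) (f g : CuspForm (Gamma0 p) 2) (z : ℍ) : ℂ :=
  x * Psi p z + prim f z + prim g (rfl' z)

/-- the action of `Q` on cusp forms. -/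
def ev [NeZero p] (Q : HeckeAlg) : Module.End ℂ (CuspForm (Gamma0 p) 2) :=
  ((CuspForm.heckeEvalForms p 2 Q : CuspForm.heckeAlgebra p 2 ∅) :
    Module.End ℂ (CuspForm (Gamma0 p) 2))

/-- the Eisenstein eigenvalue of `Q`. -/
def lam (Q : HeckeAlg) : ℤ := MvPolynomial.aeval (eisensteinSystem p) Q

variable {p}

theorem prim_zero' [NeZero p] : prim (⇑(0 : CuspForm (Gamma0 p) 2)) = 0 :=
  (Fermat.Agent.S21.isPrim_prim (0 : CuspForm (Gamma0 p) 2)).unique
    (by rw [FunLike.coe_zero]; exact Fermat.Agent.S22.isPrim_zero)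

theorem Fn_add [NeZero p] (x y : ℂ) (f f' g g' : CuspForm (Gamma0 p) 2) (z : ℍ) :
    Fn p (x + y) (f + f') (g + g') z = Fn p x f g z + Fn p y f' g' z := by
  simp only [Fn, Fermat.Agent.S21.prim_add, Pi.add_apply]
  ring

theorem Fn_smul [NeZero p] (c x : ℂ) (f g : CuspForm (Gamma0 p) 2) (z : ℍ) :
    Fn p (c * x) (c • f) (c • g) z = c * Fn p x f g z := by
  simp only [Fn, Fermat.Agent.S21.prim_smul, Pi.smul_apply, smul_eq_mul]
  ring

theorem UU_Fn (q : ℕ) (x : ℂ) (f g : CuspForm (Gamma0 p) 2) (z : ℍ) :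
    UU q (Fn p x f g) z = x * UU q (Psi p) z + UU q (prim f) z +
      UU q (fun w => prim g (rfl' w)) z := by
  simp only [UU, Fn, Finset.sum_add_distrib, Finset.mul_sum]

theorem TT_Fn (q : ℕ) (x : ℂ) (f g : CuspForm (Gamma0 p) 2) (z : ℍ) :
    TT q (Fn p x f g) z = x * TT q (Psi p) z + TT q (prim f) z +
      TT q (fun w => prim g (rfl' w)) z := by
  simp only [TT, UU_Fn]
  simp only [Fn]
  ring

/-- generator step, `ℓ ∤ p`. -/
theorem isIntEquiv_Fn_T [NeZero p] {ℓ : ℕ} (hℓ : ℓ.Prime) (hℓp : ¬ ℓ ∣ p) (x : ℂ)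
    (f g : CuspForm (Gamma0 p) 2) (h : IsIntEquiv p (Fn p x f g)) :
    IsIntEquiv p (Fn p ((1 + (ℓ : ℂ)) * x) (CuspForm.heckeTLin 2 hℓ hℓp f)
      (CuspForm.heckeTLin 2 hℓ hℓp g)) := by
  obtain ⟨C, hC⟩ := TT_Psi (NeZero.ne p) hℓ hℓp
  refine (h.TT hℓ hℓp).congr_const (-(x * C)) fun z => ?_
  rw [TT_Fn, hC, TT_comp_rfl hℓ.ne_zero _ (prim_T g), TT_prim hℓ hℓp f, TT_prim hℓ hℓp g]
  simp only [Fn]
  ring

/-- generator step, `ℓ = p`. -/
theorem isIntEquiv_Fn_U [NeZero p] (hp : p.Prime) {q : ℕ} (hq : q.Prime) (hqp : q ∣ p) (x : ℂ)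
    (f g : CuspForm (Gamma0 p) 2) (h : IsIntEquiv p (Fn p x f g)) :
    IsIntEquiv p (Fn p x (CuspForm.heckeULin 2 hqp f) (CuspForm.heckeULin 2 hqp g)) := by
  have hqp' : q = p := (Nat.prime_dvd_prime_iff_eq hq hp).mp hqp
  subst hqp'
  obtain ⟨C, hC⟩ := UU_Psi hq
  refine (h.UU hq hqp).congr_const (-(x * C)) fun z => ?_
  rw [UU_Fn, hC, UU_comp_rfl hq.ne_zero _ (prim_T g), UU_prim hqp f, UU_prim hqp g]
  simp only [Fn]
  ring

theorem ev_C [NeZero p] (a : ℤ) (f : CuspForm (Gamma0 p) 2) :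
    ev p (MvPolynomial.C a) f = (a : ℂ) • f := by
  rw [ev, CuspForm.heckeEvalForms_C]
  simp only [Subalgebra.coe_algebraMap, Module.algebraMap_end_apply]
  exact (Int.cast_smul_eq_zsmul ℂ a f).symm

theorem ev_add [NeZero p] (P Q : HeckeAlg) (f : CuspForm (Gamma0 p) 2) :
    ev p (P + Q) f = ev p P f + ev p Q f := by
  simp [ev, map_add]

theorem ev_mul [NeZero p] (P Q : HeckeAlg) (f : CuspForm (Gamma0 p) 2) :
    ev p (P * Q) f = ev p P (ev p Q f) := by
  simp [ev, map_mul]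

/-- the lattice of triples with integral periods is stable under the Hecke algebra. -/
theorem isIntEquiv_Fn_ev [NeZero p] (hp : p.Prime) (Q : HeckeAlg) :
    ∀ (x : ℂ) (f g : CuspForm (Gamma0 p) 2), IsIntEquiv p (Fn p x f g) →
      IsIntEquiv p (Fn p ((lam p Q : ℂ) * x) (ev p Q f) (ev p Q g)) := by
  induction Q using MvPolynomial.induction_on with
  | C a =>
    intro x f g h
    have h1 : lam p (MvPolynomial.C a) = a := by simp [lam]
    rw [h1, ev_C, ev_C]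
    have := h.int_mul a
    refine this.congr_const 0 fun z => ?_
    rw [Fn_smul, add_zero]
  | add P Q hP hQ =>
    intro x f g h
    have h1 : lam p (P + Q) = lam p P + lam p Q := by simp [lam]
    have := (hP x f g h).add (hQ x f g h)
    refine this.congr_const 0 fun z => ?_
    rw [h1, ev_add, ev_add, add_zero, ← Fn_add]
    push_cast
    rw [add_mul]
  | mul_X P ℓ hP =>
    intro x f g h
    have h1 : lam p (P * MvPolynomial.X ℓ) = lam p P * eisensteinSystem p ℓ := by simp [lam]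
    rw [h1, ev_mul, ev_mul]
    push_cast
    rw [mul_assoc]
    apply hP
    by_cases hℓ : (ℓ : ℕ) ∣ p
    · have e1 : ev p (MvPolynomial.X ℓ) = CuspForm.heckeULin 2 hℓ := by
        have := CuspForm.heckeEvalForms_heckeGen_of_dvd (N := p) (k := 2) hℓ
        rw [heckeGen] at this
        rw [ev, this]; rfl
      rw [e1, eisensteinSystem_of_dvd hℓ]
      simpa using isIntEquiv_Fn_U hp ℓ.2 hℓ x f g h
    · have e1 : ev p (MvPolynomial.X ℓ) = CuspForm.heckeTLin 2 ℓ.2 hℓ := by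
        have := CuspForm.heckeEvalForms_heckeGen_of_not_dvd (N := p) (k := 2) hℓ
        rw [heckeGen] at this
        rw [ev, this]; rfl
      rw [e1, eisensteinSystem_of_not_dvd hℓ]
      simpa using isIntEquiv_Fn_T ℓ.2 hℓ x f g h

/-- the periods of `Fn`. -/
theorem Fn_smul_sub [NeZero p] (x : ℂ) (f g : CuspForm (Gamma0 p) 2) (γ : Gamma0 p) (z : ℍ) :
    Fn p x f g ((γ : SL(2, ℤ)) • z) - Fn p x f g z =
      x * (Psi p ((γ : SL(2, ℤ)) • z) - Psi p z) + periodMap p f (Additive.ofMul γ) +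
        charInvolution p ℂ ℂ (periodMap p g) (Additive.ofMul γ) := by
  rw [Fermat.Agent.S21.periodMap_apply p f γ z, charInvolution_apply,
    Fermat.Agent.S21.periodMap_apply p g _ (rfl' z)]
  simp only [Fn, Fermat.Agent.S21.Inj.rfl'_smul, toMul_ofMul, jConjGamma0_coe]
  ring

/-- there is a triple `(1/(p-1), f, g)` with integral periods. -/
theorem exists_isIntEquiv_Fn [Fact p.Prime] :
    ∃ f g : CuspForm (Gamma0 p) 2, IsIntEquiv p (Fn p (1 / ((p : ℂ) - 1)) f g) := by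
  have hp : p.Prime := Fact.out
  haveI : NeZero p := ⟨hp.ne_zero⟩
  have hp1 : ((p : ℂ) - 1) ≠ 0 := by
    have : (p : ℂ) ≠ 1 := by exact_mod_cast hp.one_lt.ne'
    exact sub_ne_zero.mpr this
  obtain ⟨ψ₁, hint, hT, hT'⟩ := exists_psi_one p hp.two_le
  -- the period homomorphism of `Ψ`
  have hΨ : IsEquivariantPrimitive (Gamma0 p) (Psi p) := fun γ => by
    obtain ⟨m, hm⟩ := isIntEquiv_Psi p hp.ne_zero γ γ.2
    exact ⟨m, hm⟩
  set ψu := hΨ.periodHom with hψu
  have hu : ∀ (γ : Gamma0 p) (z : ℍ), Psi p ((γ : SL(2, ℤ)) • z) - Psi p z =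
      ψu (Additive.ofMul γ) := fun γ z => by
    rw [hψu, IsEquivariantPrimitive.periodHom_apply, hΨ.sub_eq_period]
  set φ : Additive (Gamma0 p) →+ ℂ := ψ₁ - (1 / ((p : ℂ) - 1)) • ψu with hφ
  have hφpar : φ ∈ parabolicHoms ℂ (Gamma0 p) ℂ := by
    apply mem_parabolicHoms_of
    · have := hu (Tg p) UpperHalfPlane.I
      rw [show ((Tg p : Gamma0 p) : SL(2, ℤ)) = ModularGroup.T from rfl, Psi_T p hp.ne_zero] at this
      rw [hφ, AddMonoidHom.sub_apply, AddMonoidHom.smul_apply, hT, ← this, smul_eq_mul]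
      field_simp
      ring
    · have := hu (Tlowg p) UpperHalfPlane.I
      rw [show ((Tlowg p : Gamma0 p) : SL(2, ℤ)) = Tlow p from rfl, Psi_Tlow p hp.ne_zero] at this
      rw [hφ, AddMonoidHom.sub_apply, AddMonoidHom.smul_apply, hT', ← this, smul_eq_mul]
      field_simp
      ring
  rw [← (Fermat.Agent.S21.result p).2] at hφpar
  obtain ⟨⟨f₀, g₀⟩, hfg⟩ := hφpar
  rw [Fermat.Agent.S21.periodHomPair_eq] at hfg
  simp only [LinearMap.coprod_apply, LinearMap.comp_apply, LinearMap.add_apply,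
    LinearMap.sub_apply, LinearMap.id_apply, Fermat.Agent.S21.pml_apply] at hfg
  refine ⟨f₀ + g₀, f₀ - g₀, fun γ hγ => ?_⟩
  obtain ⟨m, hm⟩ := hint (Additive.ofMul (⟨γ, hγ⟩ : Gamma0 p))
  refine ⟨m, fun z => ?_⟩
  have h1 := Fn_smul_sub (1 / ((p : ℂ) - 1)) (f₀ + g₀) (f₀ - g₀) ⟨γ, hγ⟩ z
  simp only at h1
  rw [h1, ← hm, hu ⟨γ, hγ⟩ z]
  have h2 := DFunLike.congr_fun hfg (Additive.ofMul (⟨γ, hγ⟩ : Gamma0 p))
  have e1 : periodMap p (f₀ + g₀) = periodMap p f₀ + periodMap p g₀ :=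
    map_add (Fermat.Agent.S21.pml p) f₀ g₀
  have e2 : periodMap p (f₀ - g₀) = periodMap p f₀ - periodMap p g₀ :=
    map_sub (Fermat.Agent.S21.pml p) f₀ g₀
  rw [e1, e2, map_sub]
  rw [hφ] at h2
  simp only [AddMonoidHom.add_apply, AddMonoidHom.sub_apply, AddMonoidHom.smul_apply,
    smul_eq_mul] at h2 ⊢
  linear_combination h2

theorem dvd_aux {m a : ℕ} (h : m ∣ 12 * a) : m / Nat.gcd m 12 ∣ a := by
  rcases Nat.eq_zero_or_pos m with rfl | hm
  · have : 12 * a = 0 := Nat.eq_zero_of_zero_dvd h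
    have : a = 0 := by omega
    simp [this]
  have hg : 0 < Nat.gcd m 12 := Nat.gcd_pos_of_pos_left _ hm
  have hcop : Nat.Coprime (m / Nat.gcd m 12) (12 / Nat.gcd m 12) :=
    Nat.coprime_div_gcd_div_gcd hg
  apply hcop.dvd_of_dvd_mul_left
  obtain ⟨u, hu⟩ := Nat.gcd_dvd_left m 12
  obtain ⟨v, hv⟩ := Nat.gcd_dvd_right m 12
  have e1 : m / Nat.gcd m 12 = u := Nat.div_eq_of_eq_mul_right hg hu
  have e2 : 12 / Nat.gcd m 12 = v := Nat.div_eq_of_eq_mul_right hg hv
  rw [e1, e2]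
  have : Nat.gcd m 12 * u ∣ Nat.gcd m 12 * (v * a) := by
    rw [← hu, ← mul_assoc, ← hv]; exact h
  exact Nat.dvd_of_mul_dvd_mul_left hg this

end

theorem eisensteinNumerator_dvd_of_heckeEvalForms_eq_zero (p : ℕ) [Fact p.Prime]
    (Q : ModularCurve.HeckeAlg) (hQ : CuspForm.heckeEvalForms p 2 Q = 0) :
    (ModularCurve.eisensteinNumerator p : ℤ) ∣
      MvPolynomial.aeval (ModularCurve.eisensteinSystem p) Q := by
  have hp : p.Prime := Fact.out
  haveI : NeZero p := ⟨hp.ne_zero⟩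
  have hp1 : ((p : ℂ) - 1) ≠ 0 := by
    have : (p : ℂ) ≠ 1 := by exact_mod_cast hp.one_lt.ne'
    exact sub_ne_zero.mpr this
  obtain ⟨f, g, hfg⟩ := exists_isIntEquiv_Fn (p := p)
  have h1 := isIntEquiv_Fn_ev hp Q _ f g hfg
  have hev : ev p Q = 0 := by rw [ev, hQ]; rfl
  change (ModularCurve.eisensteinNumerator p : ℤ) ∣ lam p Q
  set L : ℤ := lam p Q with hL
  -- `(L/(p-1)) Ψ` has integral periods
  have h2 : IsIntEquiv p (fun z => (L : ℂ) / ((p : ℂ) - 1) * Psi p z) := by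
    refine h1.congr_const 0 fun z => ?_
    rw [hev]
    simp only [Fn, LinearMap.zero_apply, prim_zero', Pi.zero_apply]
    ring
  have hm : (0 : ℤ) < ((p - 1 : ℕ) : ℤ) := by
    have := hp.one_lt
    omega
  set a : ℕ := (L % ((p - 1 : ℕ) : ℤ)).toNat with ha
  have ha' : (a : ℤ) = L % ((p - 1 : ℕ) : ℤ) := Int.toNat_of_nonneg (Int.emod_nonneg _ hm.ne')
  have halt : a < p - 1 := by
    have := Int.emod_lt_of_pos L hm
    omega
  set k : ℤ := L / ((p - 1 : ℕ) : ℤ) with hk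
  have hLk : L = ((p - 1 : ℕ) : ℤ) * k + a := by
    rw [ha', hk]; exact (Int.mul_ediv_add_emod _ _).symm
  have hcast : (((p - 1 : ℕ) : ℤ) : ℂ) = (p : ℂ) - 1 := by
    rw [Int.cast_natCast, Nat.cast_sub hp.one_lt.le, Nat.cast_one]
  have h3 : IsIntEquiv p (fun z => (a : ℂ) / ((p : ℂ) - 1) * Psi p z) := by
    have := h2.sub ((isIntEquiv_Psi p hp.ne_zero).int_mul k)
    refine this.congr_const 0 fun z => ?_
    have : (L : ℂ) = ((p : ℂ) - 1) * k + a := by
      rw [← hcast]; exact_mod_cast hLk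
    rw [this]
    field_simp
    ring
  have hn : (ModularCurve.eisensteinNumerator p : ℤ) ∣ ((p - 1 : ℕ) : ℤ) :=
    Int.natCast_dvd_natCast.mpr (ModularCurve.eisensteinNumerator_dvd p)
  have hna : (ModularCurve.eisensteinNumerator p : ℤ) ∣ (a : ℤ) := by
    rcases Nat.eq_zero_or_pos a with h0 | h0
    · rw [h0]; simp
    · exact Int.natCast_dvd_natCast.mpr (dvd_aux (dvd_of_isIntEquiv p a h0 halt h3))
  rw [hLk]
  exact dvd_add (hn.mul_right k) hna

end Fermat.Agent.S16.Coh
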