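import Mathlib
import Fermat.Prelude.Def_FLTPrelim_Modularity

/-!
# S16: shared definitions

Everything in the "upper bound" half of the project is phrased with *power series*:
`IsQ N k P` says that `P` is the `q`-expansion of a modular form of weight `k` on `Γ₀(N)`,
`IsQ1 k P` the same for level one.  The weight is a parameter of a `Prop`, so there are never any
casts between spaces of modular forms of (propositionally) equal weights.
-/

set_option autoImplicit false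

namespace Fermat.Agent.S16

open UpperHalfPlane ModularForm CongruenceSubgroup PowerSeries
open scoped MatrixGroups ModularForm

noncomputable section

/-- Coefficientwise cast `ℤ⟦X⟧ → ℂ⟦X⟧`. -/
def toC : PowerSeries ℤ →+* PowerSeries ℂ := PowerSeries.map (Int.castRingHom ℂ)

/-- `P` is the `q`-expansion of a modular form of weight `k` on `Γ₀(N)`. -/
def IsQ (N : ℕ) (k : ℤ) (P : PowerSeries ℂ) : Prop :=
  ∃ f : ModularForm (Gamma0 N) k, qExpansion 1 f = P

/-- `P` is the `q`-expansion of a modular form of weight `k` and level one. -/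
def IsQ1 (k : ℤ) (P : PowerSeries ℂ) : Prop :=
  ∃ f : ModularForm 𝒮ℒ k, qExpansion 1 f = P

/-- `P` is the `q`-expansion of a cusp form of weight `k` on `Γ₀(N)`. -/
def IsCuspQ (N : ℕ) (k : ℤ) (P : PowerSeries ℂ) : Prop :=
  ∃ f : CuspForm (Gamma0 N) k, qExpansion 1 f = P

/-- integral versions -/
def IsQZ (N : ℕ) (k : ℤ) (P : PowerSeries ℤ) : Prop := IsQ N k (toC P)

def IsQZ1 (k : ℤ) (P : PowerSeries ℤ) : Prop := IsQ1 k (toC P)

def IsCuspQZ (N : ℕ) (k : ℤ) (P : PowerSeries ℤ) : Prop := IsCuspQ N k (toC P)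

/-- The operator `U_p : ∑ aₙ qⁿ ↦ ∑ a_{pn} qⁿ`. -/
def U {R : Type*} [Semiring R] (p : ℕ) (P : PowerSeries R) : PowerSeries R :=
  PowerSeries.mk fun n => PowerSeries.coeff (p * n) P

/-- The operator `V_p : ∑ aₙ qⁿ ↦ ∑ aₙ q^{pn}`. -/
def V {R : Type*} [Semiring R] (p : ℕ) (P : PowerSeries R) : PowerSeries R :=
  PowerSeries.mk fun n => if p ∣ n then PowerSeries.coeff (n / p) P else 0

/-- `∑_{d ∣ k, N ∤ d} d` (for `N = p` prime: the sum of the divisors of `k` prime to `p`);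
`sig N 0 = 0`. -/
def sig (N k : ℕ) : ℤ := ∑ d ∈ k.divisors with ¬ N ∣ d, (d : ℤ)

/-- `δ_N = ∑_{k ≥ 1} (∑_{d ∣ k, N ∤ d} d) q^k`. -/
def delta (N : ℕ) : PowerSeries ℤ := PowerSeries.mk fun k => sig N k

/-- `φ_j = ∑_{n ≥ 1} σ_j(n) qⁿ`. -/
def phi (j : ℕ) : PowerSeries ℤ := PowerSeries.mk fun n => (ArithmeticFunction.sigma j n : ℤ)

/-- The `q`-expansions of `E₄`, `E₆`, `E₈ = E₄²`. -/
def E4z : PowerSeries ℤ := 1 + 240 * phi 3
def E6z : PowerSeries ℤ := 1 - 504 * phi 5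

/-- `P ≡ Q` modulo `m`, coefficientwise. -/
def PSModEq (m : ℤ) (P Q : PowerSeries ℤ) : Prop := ∀ n, m ∣ PowerSeries.coeff n (P - Q)

/-- A counterexample to the local upper bound at `ℓ`: a form in `M₂(Γ₀(p))` with integral
`q`-expansion `u + ℓ^w R`, `ℓ ∤ u`, `R(0) = 0`. -/
def Bad (p ℓ w : ℕ) : Prop :=
  ∃ (u : ℤ) (R : PowerSeries ℤ), ¬ (ℓ : ℤ) ∣ u ∧ PowerSeries.constantCoeff R = 0 ∧
    IsQZ p 2 (PowerSeries.C u + PowerSeries.C ((ℓ : ℤ) ^ w) * R)

end

end Fermat.Agent.S16
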