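import Fermat.Agent.S20.Basic
import Fermat.Agent.S20.Comb
import Fermat.Agent.S23.Nice
import Fermat.Agent.S16.Defs
import Fermat.Prelude.Def_ModularForm_HeckeOperatorForms
import Fermat.Prelude.Thm_UpperHalfPlane_qCoeff_heckeU
import Fermat.Prelude.Thm_ModularForm_periodic_heckeU_comp_ofComplex
import Fermat.Prelude.Thm_ModularForm_isBoundedAtImInfty_heckeU
import Fermat.Prelude.Thm_CongruenceSubgroup_one_mem_strictPeriods_Gamma0

/-!
# S16, piece TR (function level): the trace `M_k(Γ₀(p)) → M_k(SL₂(ℤ))` and the Fricke involution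
-/

set_option autoImplicit false

namespace Fermat.Agent.S16

open Fermat.Agent.S20 UpperHalfPlane ModularForm CongruenceSubgroup ModularGroup Filter Topology
open Matrix.SpecialLinearGroup (mapGL)
open Fermat.Agent.S23 (Nice qHom)
open scoped MatrixGroups ModularForm Manifold

/-! ### The trace for a general finite index subgroup -/

section general

variable {H : Subgroup SL(2, ℤ)} [Fintype (Cos H)] {k : ℤ} {F : ℍ → ℂ}

/-- The trace of `F` to level one. -/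
noncomputable def trFun (H : Subgroup SL(2, ℤ)) [Fintype (Cos H)] (k : ℤ) (F : ℍ → ℂ) : ℍ → ℂ :=
  ∑ x : Cos H, vec H k F x

lemma trFun_slash (hF : F ∈ MFs H k) (g : SL(2, ℤ)) : trFun H k F ∣[k] g = trFun H k F := by
  unfold trFun
  rw [SlashAction.sum_slash]
  simp_rw [vec_slash hF]
  exact Equiv.sum_comp (MulAction.toPerm g⁻¹) (fun x => vec H k F x)

lemma trFun_mem (hF : F ∈ MFs H k) : trFun H k F ∈ MFs ⊤ k := by
  refine ⟨?_, fun g _ => trFun_slash hF g, fun g => ?_⟩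
  · unfold trFun
    have : ∀ s : Finset (Cos H), MDiff (∑ x ∈ s, vec H k F x) := by
      intro s
      classical
      induction s using Finset.induction_on with
      | empty =>
        rw [Finset.sum_empty]
        exact (mdifferentiable_const : MDiff (fun _ : ℍ => (0 : ℂ)))
      | insert i s hi ih =>
        rw [Finset.sum_insert hi]
        exact (vec_mdiff H hF.1 i).add ih
    exact this _
  · rw [trFun_slash hF g]
    unfold trFun
    have : ∀ s : Finset (Cos H), IsBoundedAtImInfty (∑ x ∈ s, vec H k F x) := by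
      intro s
      classical
      induction s using Finset.induction_on with
      | empty => simpa using zero_form_isBoundedAtImInfty
      | insert i s hi ih =>
        rw [Finset.sum_insert hi]
        exact (vec_bdd hF i).add ih
    exact this _

end general

/-! ### Cosets of `Γ₀(p)` -/

section cosets

variable (p : ℕ) [Fact p.Prime]

omit [Fact p.Prime] in
lemma coe_ST (j : ℕ) :
    ((S * T ^ j : SL(2, ℤ)) : Matrix (Fin 2) (Fin 2) ℤ) = !![0, -1; 1, (j : ℤ)] := by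
  rw [← zpow_natCast, Matrix.SpecialLinearGroup.coe_mul, coe_S, coe_T_zpow]
  simp

lemma ST_inv_zero_zero (j : ℕ) : ((S * T ^ j)⁻¹ : SL(2, ℤ)) 0 0 = (j : ℤ) := by
  rw [Matrix.SpecialLinearGroup.SL2_inv_expl]
  show ((S * T ^ j : SL(2, ℤ)) : Matrix (Fin 2) (Fin 2) ℤ) 1 1 = j
  rw [coe_ST]
  rfl

lemma ST_inv_one_zero (j : ℕ) : ((S * T ^ j)⁻¹ : SL(2, ℤ)) 1 0 = -1 := by
  rw [Matrix.SpecialLinearGroup.SL2_inv_expl]
  show -((S * T ^ j : SL(2, ℤ)) : Matrix (Fin 2) (Fin 2) ℤ) 1 0 = -1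
  rw [coe_ST]
  rfl

/-- The coset representatives. -/
noncomputable def cosMap : Option (Fin p) → Cos (Gamma0 p)
  | none => ((1 : SL(2, ℤ)) : Cos (Gamma0 p))
  | some j => (((S * T ^ (j : ℕ))⁻¹ : SL(2, ℤ)) : Cos (Gamma0 p))

lemma cosMap_injective : Function.Injective (cosMap p) := by
  have : Fact (1 < p) := ⟨(Fact.out : p.Prime).one_lt⟩
  intro a b hab
  rcases a with _ | a <;> rcases b with _ | b
  · rfl
  · exfalso
    simp only [cosMap] at hab
    rw [coset_eq_iff] at hab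
    simp only [colA, colC, ST_inv_zero_zero, ST_inv_one_zero] at hab
    simp at hab
  · exfalso
    simp only [cosMap] at hab
    rw [coset_eq_iff] at hab
    simp only [colA, colC, ST_inv_zero_zero, ST_inv_one_zero] at hab
    simp at hab
  · simp only [cosMap] at hab
    rw [coset_eq_iff] at hab
    simp only [colA, colC, ST_inv_zero_zero, ST_inv_one_zero] at hab
    have h1 : ((a : ℕ) : ZMod p) = ((b : ℕ) : ZMod p) := by
      push_cast at hab
      linear_combination -hab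
    rw [ZMod.natCast_eq_natCast_iff'] at h1
    rw [Nat.mod_eq_of_lt a.2, Nat.mod_eq_of_lt b.2] at h1
    exact congrArg some (Fin.ext h1)

lemma cosMap_bijective [Fintype (Cos (Gamma0 p))] : Function.Bijective (cosMap p) := by
  have : NeZero p := ⟨(Fact.out : p.Prime).ne_zero⟩
  rw [Fintype.bijective_iff_injective_and_card]
  refine ⟨cosMap_injective p, ?_⟩
  have h1 : Fintype.card (Cos (Gamma0 p)) = p + 1 := by
    rw [← Nat.card_eq_fintype_card, card_cos]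
    have := dedekindPsi_prime_pow (Fact.out : p.Prime) 0
    simpa using this
  rw [h1, Fintype.card_option, Fintype.card_fin]

/-- Sums over `SL₂(ℤ)/Γ₀(p)`. -/
lemma sum_cos [Fintype (Cos (Gamma0 p))] {M : Type*} [AddCommMonoid M]
    (φ : Cos (Gamma0 p) → M) :
    ∑ x, φ x = φ ((1 : SL(2, ℤ)) : Cos (Gamma0 p)) +
      ∑ j ∈ Finset.range p, φ (((S * T ^ j)⁻¹ : SL(2, ℤ)) : Cos (Gamma0 p)) := by
  rw [← (Equiv.ofBijective _ (cosMap_bijective p)).sum_comp φ, Fintype.sum_option,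
    ← Fin.sum_univ_eq_sum_range (fun j => φ (((S * T ^ j)⁻¹ : SL(2, ℤ)) : Cos (Gamma0 p)))]
  rfl

/-- Every coset is one of the `p + 1` standard ones. -/
lemma cos_cases [Fintype (Cos (Gamma0 p))] (x : Cos (Gamma0 p)) :
    x = ((1 : SL(2, ℤ)) : Cos (Gamma0 p)) ∨
      ∃ j : ℕ, x = (((S * T ^ j)⁻¹ : SL(2, ℤ)) : Cos (Gamma0 p)) := by
  obtain ⟨a, rfl⟩ := (cosMap_bijective p).2 x
  rcases a with _ | a
  · exact Or.inl rfl
  · exact Or.inr ⟨a, rfl⟩

noncomputable instance instFintypeCosGamma0 : Fintype (Cos (Gamma0 p)) :=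
  have : NeZero p := ⟨(Fact.out : p.Prime).ne_zero⟩
  Subgroup.fintypeQuotientOfFiniteIndex

variable {p} {k : ℤ} {F : ℍ → ℂ}

lemma trFun_Gamma0 (hF : F ∈ MFs (Gamma0 p) k) :
    trFun (Gamma0 p) k F = F + ∑ j ∈ Finset.range p, F ∣[k] (S * T ^ j) := by
  unfold trFun
  rw [sum_cos, vec_one hF]
  congr 1
  refine Finset.sum_congr rfl fun j _ => ?_
  rw [vec_eq_slash hF, inv_inv]

/-- Criterion for membership in `MFs (Γ₀(p))`. -/
lemma mem_MFs_Gamma0 (hF : MDiff F) (hinv : ∀ γ ∈ Gamma0 p, F ∣[k] γ = F)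
    (h1 : IsBoundedAtImInfty F) (h2 : ∀ j : ℕ, IsBoundedAtImInfty (F ∣[k] (S * T ^ j))) :
    F ∈ MFs (Gamma0 p) k := by
  refine mem_MFs_of_vec hF hinv fun x => ?_
  rcases cos_cases p x with rfl | ⟨j, rfl⟩
  · rw [vec_eq_slash_of_inv hinv, inv_one, SlashAction.slash_one]; exact h1
  · rw [vec_eq_slash_of_inv hinv, inv_inv]; exact h2 j

lemma mem_CFs_Gamma0 (hF : MDiff F) (hinv : ∀ γ ∈ Gamma0 p, F ∣[k] γ = F)
    (h1 : IsZeroAtImInfty F) (h2 : ∀ j : ℕ, IsZeroAtImInfty (F ∣[k] (S * T ^ j))) :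
    F ∈ CFs (Gamma0 p) k := by
  refine mem_CFs_of_vec hF hinv fun x => ?_
  rcases cos_cases p x with rfl | ⟨j, rfl⟩
  · rw [vec_eq_slash_of_inv hinv, inv_one, SlashAction.slash_one]; exact h1
  · rw [vec_eq_slash_of_inv hinv, inv_inv]; exact h2 j

end cosets

/-! ### Matrix identities -/

/-- In weight two, the slash action only depends on the matrix up to a scalar. -/
lemma slash_two_eq_of_smul {A B : GL (Fin 2) ℝ} (hB : 0 < B.det.val) {c : ℝ} (hc : c ≠ 0)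
    (h : (A : Matrix (Fin 2) (Fin 2) ℝ) = c • (B : Matrix (Fin 2) (Fin 2) ℝ)) (f : ℍ → ℂ) :
    f ∣[(2 : ℤ)] A = f ∣[(2 : ℤ)] B := by
  have hdet : A.det.val = c ^ 2 * B.det.val := by
    rw [Matrix.GeneralLinearGroup.val_det_apply, Matrix.GeneralLinearGroup.val_det_apply, h,
      Matrix.det_smul]
    simp
  have hA : 0 < A.det.val := by rw [hdet]; positivity
  have hnum : ∀ z : ℂ, num A z = c * num B z := by
    intro z
    have h00 : A 0 0 = c * B 0 0 := by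
      have := congrFun (congrFun h 0) 0; simpa using this
    have h01 : A 0 1 = c * B 0 1 := by
      have := congrFun (congrFun h 0) 1; simpa using this
    simp only [num, h00, h01]; push_cast; ring
  have hden : ∀ z : ℂ, denom A z = c * denom B z := by
    intro z
    have h00 : A 1 0 = c * B 1 0 := by
      have := congrFun (congrFun h 1) 0; simpa using this
    have h01 : A 1 1 = c * B 1 1 := by
      have := congrFun (congrFun h 1) 1; simpa using this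
    simp only [denom, h00, h01]; push_cast; ring
  have hc' : (c : ℂ) ≠ 0 := by exact_mod_cast hc
  ext τ
  have hsm : A • τ = B • τ := by
    apply UpperHalfPlane.ext
    rw [coe_smul_of_det_pos hA, coe_smul_of_det_pos hB, hnum, hden, mul_div_mul_left _ _ hc']
  rw [slash_apply, slash_apply, hsm, σ, σ, if_pos hA, if_pos hB, hden, hdet]
  have hd : denom B τ ≠ 0 := denom_ne_zero B τ
  simp only [ContinuousAlgEquiv.refl_apply]
  rw [abs_of_pos (by positivity), abs_of_pos hB]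
  push_cast
  norm_num
  field_simp

section matrices

lemma coe_mapGL_eq (γ : SL(2, ℤ)) :
    ((mapGL ℝ γ : GL (Fin 2) ℝ) : Matrix (Fin 2) (Fin 2) ℝ) =
      !![(γ 0 0 : ℝ), (γ 0 1 : ℝ); (γ 1 0 : ℝ), (γ 1 1 : ℝ)] := by
  ext i j
  fin_cases i <;> fin_cases j <;> simp [Matrix.SpecialLinearGroup.mapGL_coe_matrix]

lemma coe_mapGL_ST (j : ℕ) :
    ((mapGL ℝ (S * T ^ j) : GL (Fin 2) ℝ) : Matrix (Fin 2) (Fin 2) ℝ) =
      !![0, -1; 1, (j : ℝ)] := by
  rw [coe_mapGL_eq]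
  have h := coe_ST j
  have h00 : (S * T ^ j : SL(2, ℤ)) 0 0 = 0 := by
    show ((S * T ^ j : SL(2, ℤ)) : Matrix (Fin 2) (Fin 2) ℤ) 0 0 = 0
    rw [h]; rfl
  have h01 : (S * T ^ j : SL(2, ℤ)) 0 1 = -1 := by
    show ((S * T ^ j : SL(2, ℤ)) : Matrix (Fin 2) (Fin 2) ℤ) 0 1 = -1
    rw [h]; rfl
  have h10 : (S * T ^ j : SL(2, ℤ)) 1 0 = 1 := by
    show ((S * T ^ j : SL(2, ℤ)) : Matrix (Fin 2) (Fin 2) ℤ) 1 0 = 1
    rw [h]; rfl
  have h11 : (S * T ^ j : SL(2, ℤ)) 1 1 = j := by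
    show ((S * T ^ j : SL(2, ℤ)) : Matrix (Fin 2) (Fin 2) ℤ) 1 1 = j
    rw [h]; rfl
  rw [h00, h01, h10, h11]
  simp

lemma coe_mapGL_S :
    ((mapGL ℝ S : GL (Fin 2) ℝ) : Matrix (Fin 2) (Fin 2) ℝ) = !![0, -1; 1, 0] := by
  have := coe_mapGL_ST 0
  simpa using this

variable (p : ℕ) [Fact p.Prime]

/-- The Fricke matrix `[0, -1; p, 0]`. -/
noncomputable def frickeW : GL (Fin 2) ℝ :=
  Matrix.GeneralLinearGroup.mkOfDetNeZero !![0, -1; (p : ℝ), 0] (by
    rw [Matrix.det_fin_two_of]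
    have : (p : ℝ) ≠ 0 := Nat.cast_ne_zero.2 (Fact.out : p.Prime).ne_zero
    simpa using this)

lemma coe_frickeW : ((frickeW p : GL (Fin 2) ℝ) : Matrix (Fin 2) (Fin 2) ℝ) =
    !![0, -1; (p : ℝ), 0] := rfl

lemma p_ne_zero' : p ≠ 0 := (Fact.out : p.Prime).ne_zero

lemma frickeW_mul_heckeMatrix (j : ℕ) :
    ((frickeW p * heckeMatrix p j : GL (Fin 2) ℝ) : Matrix (Fin 2) (Fin 2) ℝ) =
      (p : ℝ) • ((mapGL ℝ (S * T ^ j) : GL (Fin 2) ℝ) : Matrix (Fin 2) (Fin 2) ℝ) := by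
  rw [Matrix.GeneralLinearGroup.coe_mul, coe_frickeW, val_heckeMatrix (p_ne_zero' p), coe_mapGL_ST]
  ext a b
  fin_cases a <;> fin_cases b <;> simp [Matrix.mul_apply, Fin.sum_univ_two]

lemma frickeW_mul_self :
    ((frickeW p * frickeW p : GL (Fin 2) ℝ) : Matrix (Fin 2) (Fin 2) ℝ) =
      (-(p : ℝ)) • ((1 : GL (Fin 2) ℝ) : Matrix (Fin 2) (Fin 2) ℝ) := by
  rw [Matrix.GeneralLinearGroup.coe_mul, coe_frickeW]
  ext a b
  fin_cases a <;> fin_cases b <;> simp [Matrix.mul_apply, Fin.sum_univ_two]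

lemma frickeW_mul_ST (j : ℕ) :
    ((frickeW p * mapGL ℝ (S * T ^ j) : GL (Fin 2) ℝ) : Matrix (Fin 2) (Fin 2) ℝ) =
      (-1 : ℝ) • ((heckeMatrix p j : GL (Fin 2) ℝ) : Matrix (Fin 2) (Fin 2) ℝ) := by
  rw [Matrix.GeneralLinearGroup.coe_mul, coe_frickeW, val_heckeMatrix (p_ne_zero' p), coe_mapGL_ST]
  ext a b
  fin_cases a <;> fin_cases b <;> simp [Matrix.mul_apply, Fin.sum_univ_two]

lemma frickeW_eq : frickeW p = mapGL ℝ S * heckeDiagMatrix p := by
  apply Units.ext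
  rw [Matrix.GeneralLinearGroup.coe_mul, coe_frickeW, val_heckeDiagMatrix (p_ne_zero' p),
    coe_mapGL_S]
  ext a b
  fin_cases a <;> fin_cases b <;> simp [Matrix.mul_apply, Fin.sum_univ_two]

lemma heckeDiag_mul_ST (j : ℕ) :
    heckeDiagMatrix p * mapGL ℝ (S * T ^ j) = mapGL ℝ S * heckeMatrix p j := by
  apply Units.ext
  rw [Matrix.GeneralLinearGroup.coe_mul, Matrix.GeneralLinearGroup.coe_mul,
    val_heckeDiagMatrix (p_ne_zero' p), val_heckeMatrix (p_ne_zero' p), coe_mapGL_S, coe_mapGL_ST]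
  ext a b
  fin_cases a <;> fin_cases b <;> simp [Matrix.mul_apply, Fin.sum_univ_two]


/-- Build an element of `SL₂(ℤ)` from its entries. -/
def mkSL (a b c d : ℤ) (h : a * d - b * c = 1) : SL(2, ℤ) :=
  ⟨!![a, b; c, d], by rw [Matrix.det_fin_two_of]; exact h⟩

lemma coe_mapGL_mkSL (a b c d : ℤ) (h : a * d - b * c = 1) :
    ((mapGL ℝ (mkSL a b c d h) : GL (Fin 2) ℝ) : Matrix (Fin 2) (Fin 2) ℝ) =
      !![(a : ℝ), (b : ℝ); (c : ℝ), (d : ℝ)] := by
  rw [coe_mapGL_eq]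
  rfl

lemma exists_frickeW_conj {γ : SL(2, ℤ)} (hγ : γ ∈ Gamma0 p) :
    ∃ γ' ∈ Gamma0 p, frickeW p * mapGL ℝ γ = mapGL ℝ γ' * frickeW p := by
  rw [Gamma0_mem, ZMod.intCast_zmod_eq_zero_iff_dvd] at hγ
  obtain ⟨c', hc'⟩ := hγ
  have hdet : γ 0 0 * γ 1 1 - γ 0 1 * γ 1 0 = 1 := by
    have := γ.det_coe
    rwa [Matrix.det_fin_two] at this
  refine ⟨mkSL (γ 1 1) (-c') (-(p : ℤ) * γ 0 1) (γ 0 0) ?_, ?_, ?_⟩
  · rw [hc'] at hdet
    linear_combination hdet
  · rw [Gamma0_mem]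
    show ((-(p : ℤ) * γ 0 1 : ℤ) : ZMod p) = 0
    simp
  · apply Units.ext
    rw [Matrix.GeneralLinearGroup.coe_mul, Matrix.GeneralLinearGroup.coe_mul, coe_frickeW,
      coe_mapGL_eq, coe_mapGL_mkSL]
    have hc'' : (γ 1 0 : ℝ) = (p : ℝ) * (c' : ℝ) := by exact_mod_cast hc'
    ext a b
    fin_cases a <;> fin_cases b <;> simp [Matrix.mul_apply, Fin.sum_univ_two, hc''] <;> ring

lemma exists_heckeDiag_conj {γ : SL(2, ℤ)} (hγ : γ ∈ Gamma0 p) :
    ∃ γ' : SL(2, ℤ), heckeDiagMatrix p * mapGL ℝ γ = mapGL ℝ γ' * heckeDiagMatrix p := by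
  rw [Gamma0_mem, ZMod.intCast_zmod_eq_zero_iff_dvd] at hγ
  obtain ⟨c', hc'⟩ := hγ
  have hdet : γ 0 0 * γ 1 1 - γ 0 1 * γ 1 0 = 1 := by
    have := γ.det_coe
    rwa [Matrix.det_fin_two] at this
  refine ⟨mkSL (γ 0 0) ((p : ℤ) * γ 0 1) c' (γ 1 1) ?_, ?_⟩
  · rw [hc'] at hdet
    linear_combination hdet
  · apply Units.ext
    rw [Matrix.GeneralLinearGroup.coe_mul, Matrix.GeneralLinearGroup.coe_mul,
      val_heckeDiagMatrix (p_ne_zero' p), coe_mapGL_eq, coe_mapGL_mkSL]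
    have hc'' : (γ 1 0 : ℝ) = (p : ℝ) * (c' : ℝ) := by exact_mod_cast hc'
    ext a b
    fin_cases a <;> fin_cases b <;> simp [Matrix.mul_apply, Fin.sum_univ_two, hc''] <;> ring


end matrices

/-! ### Growth -/

section growth

variable (p : ℕ) [Fact p.Prime]

lemma tendsto_heckeMatrix_smul (j : ℕ) :
    Tendsto (fun τ : ℍ => heckeMatrix p j • τ) atImInfty atImInfty := by
  rw [atImInfty, tendsto_comap_iff]
  have hp : (0 : ℝ) < p := Nat.cast_pos.2 (Fact.out : p.Prime).pos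
  have h : (im ∘ fun τ : ℍ => heckeMatrix p j • τ) = fun τ : ℍ => τ.im / p := by
    funext τ
    have h1 := coe_heckeMatrix_smul (p_ne_zero' p) j τ
    have h2 := congrArg Complex.im h1
    simp only [Function.comp]
    rw [← coe_im, h2]
    have : (((τ : ℂ) + (j : ℂ)) / (p : ℂ)) = (((τ : ℂ) + (j : ℂ)) / ((p : ℝ) : ℂ)) := by simp
    rw [this, Complex.div_ofReal_im]
    simp
  rw [h]
  exact (tendsto_comap (f := im) (x := atTop)).atTop_div_const hp

lemma tendsto_heckeDiagMatrix_smul :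
    Tendsto (fun τ : ℍ => heckeDiagMatrix p • τ) atImInfty atImInfty := by
  rw [atImInfty, tendsto_comap_iff]
  have hp : (0 : ℝ) < p := Nat.cast_pos.2 (Fact.out : p.Prime).pos
  have h : (im ∘ fun τ : ℍ => heckeDiagMatrix p • τ) = fun τ : ℍ => p * τ.im := by
    funext τ
    have h1 := coe_heckeDiagMatrix_smul (p_ne_zero' p) τ
    have h2 := congrArg Complex.im h1
    simp only [Function.comp]
    rw [← coe_im, h2]
    have : ((p : ℂ) * (τ : ℂ)) = (((p : ℝ) : ℂ) * (τ : ℂ)) := by simp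
    rw [this, Complex.im_ofReal_mul]
    simp
  rw [h]
  exact (tendsto_comap (f := im) (x := atTop)).const_mul_atTop hp

variable {p} {f : ℍ → ℂ}

lemma bdd_slash_heckeMatrix (hf : IsBoundedAtImInfty f) (k : ℤ) (j : ℕ) :
    IsBoundedAtImInfty (f ∣[k] heckeMatrix p j) := by
  have h1 : IsBoundedAtImInfty (fun τ => f (heckeMatrix p j • τ)) :=
    Asymptotics.IsBigO.comp_tendsto hf (tendsto_heckeMatrix_smul p j)
  have h2 : f ∣[k] heckeMatrix p j = (p : ℂ)⁻¹ • fun τ => f (heckeMatrix p j • τ) := by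
    funext τ
    rw [slash_heckeMatrix_apply k (p_ne_zero' p)]
    rfl
  rw [h2]
  exact h1.const_smul_left _

lemma zero_slash_heckeMatrix (hf : IsZeroAtImInfty f) (k : ℤ) (j : ℕ) :
    IsZeroAtImInfty (f ∣[k] heckeMatrix p j) := by
  have h1 : Tendsto (fun τ => f (heckeMatrix p j • τ)) atImInfty (𝓝 0) :=
    Tendsto.comp hf (tendsto_heckeMatrix_smul p j)
  have h2 : f ∣[k] heckeMatrix p j = fun τ => (p : ℂ)⁻¹ * f (heckeMatrix p j • τ) := by
    funext τ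
    rw [slash_heckeMatrix_apply k (p_ne_zero' p)]
  rw [h2]
  have := h1.const_mul (p : ℂ)⁻¹
  rw [mul_zero] at this
  exact this

lemma bdd_slash_heckeDiagMatrix (hf : IsBoundedAtImInfty f) (k : ℤ) :
    IsBoundedAtImInfty (f ∣[k] heckeDiagMatrix p) := by
  have h1 : IsBoundedAtImInfty (fun τ => f (heckeDiagMatrix p • τ)) :=
    Asymptotics.IsBigO.comp_tendsto hf (tendsto_heckeDiagMatrix_smul p)
  have h2 : f ∣[k] heckeDiagMatrix p = (p : ℂ) ^ (k - 1) • fun τ => f (heckeDiagMatrix p • τ) := by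
    funext τ
    rw [slash_heckeDiagMatrix_apply k (p_ne_zero' p)]
    rfl
  rw [h2]
  exact h1.const_smul_left _

end growth

/-! ### The Fricke involution in weight two -/

section fricke

variable (p : ℕ) [Fact p.Prime]

/-- The Fricke involution in weight two. -/
noncomputable def frW (h : ℍ → ℂ) : ℍ → ℂ := h ∣[(2 : ℤ)] frickeW p

variable {p} {h : ℍ → ℂ}

lemma det_mapGL_pos (γ : SL(2, ℤ)) : 0 < (mapGL ℝ γ : GL (Fin 2) ℝ).det.val := by
  rw [Matrix.SpecialLinearGroup.det_mapGL]; simp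

omit [Fact p.Prime] in
lemma slash_mapGL (f : ℍ → ℂ) (k : ℤ) (γ : SL(2, ℤ)) : f ∣[k] γ = f ∣[k] (mapGL ℝ γ) := rfl

lemma p_cast_ne_zero : (p : ℝ) ≠ 0 := Nat.cast_ne_zero.2 (p_ne_zero' p)

lemma frW_slash_heckeMatrix (j : ℕ) :
    frW p h ∣[(2 : ℤ)] heckeMatrix p j = h ∣[(2 : ℤ)] (S * T ^ j) := by
  unfold frW
  rw [← SlashAction.slash_mul, slash_two_eq_of_smul (det_mapGL_pos _) p_cast_ne_zero
    (frickeW_mul_heckeMatrix p j)]
  rfl

lemma frW_frW : frW p (frW p h) = h := by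
  unfold frW
  rw [← SlashAction.slash_mul, slash_two_eq_of_smul (B := 1) (by simp)
    (neg_ne_zero.2 p_cast_ne_zero) (frickeW_mul_self p), SlashAction.slash_one]

lemma frW_slash_ST (j : ℕ) :
    frW p h ∣[(2 : ℤ)] (S * T ^ j) = h ∣[(2 : ℤ)] heckeMatrix p j := by
  unfold frW
  rw [slash_mapGL, ← SlashAction.slash_mul, slash_two_eq_of_smul (det_heckeMatrix_pos p j)
    (by norm_num) (frickeW_mul_ST p j)]

lemma frW_eq : frW p h = (h ∣[(2 : ℤ)] S) ∣[(2 : ℤ)] heckeDiagMatrix p := by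
  unfold frW
  rw [frickeW_eq, SlashAction.slash_mul]
  rfl

lemma frW_mem (hh : h ∈ MFs (Gamma0 p) 2) : frW p h ∈ MFs (Gamma0 p) 2 := by
  apply mem_MFs_Gamma0
  · exact hh.1.slash 2 _
  · intro γ hγ
    obtain ⟨γ', hγ', he⟩ := exists_frickeW_conj p hγ
    unfold frW
    rw [slash_mapGL, ← SlashAction.slash_mul, he, SlashAction.slash_mul, ← slash_mapGL,
      hh.2.1 γ' hγ']
  · rw [frW_eq]
    exact bdd_slash_heckeDiagMatrix (hh.2.2 S) 2
  · intro j
    rw [frW_slash_ST]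
    have := hh.2.2 1
    rw [SlashAction.slash_one] at this
    exact bdd_slash_heckeMatrix this 2 j

/-- `h + U_p (h ∣ W) = 0`. -/
lemma add_heckeU_frW (hh : h ∈ MFs (Gamma0 p) 2) : h + heckeU 2 p (frW p h) = 0 := by
  have h1 := MFs_top_two_eq_zero (trFun_mem hh)
  rw [trFun_Gamma0 hh] at h1
  rw [heckeU_def]
  simp_rw [frW_slash_heckeMatrix]
  exact h1

/-- `h ∣ W = - U_p h`. -/
lemma frW_eq_neg_heckeU (hh : h ∈ MFs (Gamma0 p) 2) : frW p h = - heckeU 2 p h := by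
  have h1 := add_heckeU_frW (frW_mem hh)
  rw [frW_frW] at h1
  exact eq_neg_of_add_eq_zero_left h1

/-- `U_p (U_p h) = h`. -/
lemma heckeU_heckeU (hh : h ∈ MFs (Gamma0 p) 2) : heckeU 2 p (heckeU 2 p h) = h := by
  have h1 := add_heckeU_frW hh
  rw [frW_eq_neg_heckeU hh, heckeU_neg] at h1
  exact (sub_eq_zero.1 (by rw [sub_eq_add_neg]; exact h1)).symm

/-- The key formula for the conjugates of `h`. -/
lemma slash_ST_eq (hh : h ∈ MFs (Gamma0 p) 2) (j : ℕ) :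
    h ∣[(2 : ℤ)] (S * T ^ j) = - (heckeU 2 p h ∣[(2 : ℤ)] heckeMatrix p j) := by
  rw [← frW_slash_heckeMatrix (p := p), frW_eq_neg_heckeU hh, SlashAction.neg_slash]

lemma slash_ST_apply (hh : h ∈ MFs (Gamma0 p) 2) (j : ℕ) (τ : ℍ) :
    (h ∣[(2 : ℤ)] (S * T ^ j)) τ = - ((p : ℂ)⁻¹ * heckeU 2 p h (heckeMatrix p j • τ)) := by
  rw [slash_ST_eq hh, Pi.neg_apply, slash_heckeMatrix_apply 2 (p_ne_zero' p)]

end fricke

/-! ### The trace identities for functions -/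

section traces

variable {p : ℕ} [Fact p.Prime] {h : ℍ → ℂ}

lemma pow_slash_SL (f : ℍ → ℂ) (a : ℤ) (n : ℕ) (g : SL(2, ℤ)) :
    (f ^ n) ∣[(n : ℤ) * a] g = (f ∣[a] g) ^ n := by
  induction n with
  | zero => simpa using is_invariant_one g
  | succ n ih =>
    have : ((n + 1 : ℕ) : ℤ) * a = (n : ℤ) * a + a := by push_cast; ring
    rw [this, pow_succ, mul_slash_SL2, ih, pow_succ]

lemma p_cast_ne_zero' : (p : ℂ) ≠ 0 := Nat.cast_ne_zero.2 (p_ne_zero' p)

/-- **(T)** at the level of functions. -/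
lemma trace_pow_fun_eq (hh : h ∈ MFs (Gamma0 p) 2) (i : ℕ) :
    (p : ℂ) ^ i • trFun (Gamma0 p) ((i : ℤ) * 2) (h ^ i) =
      (p : ℂ) ^ i • h ^ i +
        ((-1) ^ i * (p : ℂ)) • heckeU ((i : ℤ) * 2) p ((heckeU 2 p h) ^ i) := by
  rw [trFun_Gamma0 (pow_mem_MFs hh i), smul_add]
  congr 1
  funext τ
  have hp := p_cast_ne_zero' (p := p)
  simp only [Pi.smul_apply, Finset.sum_apply, smul_eq_mul, pow_slash_SL, Pi.pow_apply,
    slash_ST_apply hh, heckeU_apply _ (p_ne_zero' p)]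
  rw [Finset.mul_sum, Finset.mul_sum, Finset.mul_sum]
  refine Finset.sum_congr rfl fun j _ => ?_
  rw [neg_pow, mul_pow, inv_pow]
  field_simp

lemma trace_pow_fun (hh : h ∈ MFs (Gamma0 p) 2) (i : ℕ) :
    (p : ℂ) ^ i • h ^ i +
        ((-1) ^ i * (p : ℂ)) • heckeU ((i : ℤ) * 2) p ((heckeU 2 p h) ^ i) ∈
      MFs ⊤ ((i : ℤ) * 2) := by
  rw [← trace_pow_fun_eq hh]
  exact Submodule.smul_mem _ _ (trFun_mem (pow_mem_MFs hh i))

/-- `G(p z)`. -/
noncomputable def Vfun (p : ℕ) (G : ℍ → ℂ) : ℍ → ℂ := fun τ => G (heckeDiagMatrix p • τ)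

variable {k : ℕ} {G : ℍ → ℂ}

lemma slash_heckeDiag_mem (hG : G ∈ MFs ⊤ (k : ℤ)) :
    G ∣[(k : ℤ)] heckeDiagMatrix p ∈ MFs (Gamma0 p) k := by
  have hb : IsBoundedAtImInfty G := by
    have := hG.2.2 1
    rwa [SlashAction.slash_one] at this
  apply mem_MFs_Gamma0
  · exact hG.1.slash _ _
  · intro γ hγ
    obtain ⟨γ', he⟩ := exists_heckeDiag_conj p hγ
    rw [slash_mapGL, ← SlashAction.slash_mul, he, SlashAction.slash_mul, ← slash_mapGL,
      slash_of_mem_top hG]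
  · exact bdd_slash_heckeDiagMatrix hb _
  · intro j
    rw [slash_mapGL, ← SlashAction.slash_mul, heckeDiag_mul_ST, SlashAction.slash_mul,
      ← slash_mapGL, slash_of_mem_top hG]
    exact bdd_slash_heckeMatrix hb _ j

lemma slash_heckeDiag_slash_ST (hG : G ∈ MFs ⊤ (k : ℤ)) (j : ℕ) :
    (G ∣[(k : ℤ)] heckeDiagMatrix p) ∣[(k : ℤ)] (S * T ^ j) = G ∣[(k : ℤ)] heckeMatrix p j := by
  rw [slash_mapGL, ← SlashAction.slash_mul, heckeDiag_mul_ST, SlashAction.slash_mul,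
      ← slash_mapGL, slash_of_mem_top hG]

/-- **(T')** at the level of functions. -/
lemma trace_mul_fun_eq (hh : h ∈ MFs (Gamma0 p) 2) (hG : G ∈ MFs ⊤ (k : ℤ)) :
    (-(p : ℂ)) • trFun (Gamma0 p) (2 + (k : ℤ)) (h * (G ∣[(k : ℤ)] heckeDiagMatrix p)) =
      heckeU (2 + (k : ℤ)) p (heckeU 2 p h * G) - (p : ℂ) ^ k • (h * Vfun p G) := by
  rw [trFun_Gamma0 (mul_mem_MFs hh (slash_heckeDiag_mem hG))]
  funext τ
  have hp := p_cast_ne_zero' (p := p)
  simp only [Pi.smul_apply, Pi.add_apply, Pi.sub_apply, Pi.mul_apply, Finset.sum_apply,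
    smul_eq_mul, mul_slash_SL2, slash_heckeDiag_slash_ST hG, slash_ST_apply hh,
    heckeU_apply _ (p_ne_zero' p), slash_heckeMatrix_apply _ (p_ne_zero' p),
    slash_heckeDiagMatrix_apply _ (p_ne_zero' p), Vfun]
  rw [mul_add, Finset.mul_sum, Finset.mul_sum]
  have e1 : -(p : ℂ) * (h τ * ((p : ℂ) ^ ((k : ℤ) - 1) * G (heckeDiagMatrix p • τ))) =
      - ((p : ℂ) ^ k * (h τ * G (heckeDiagMatrix p • τ))) := by
    rw [zpow_sub_one₀ hp, zpow_natCast]
    field_simp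
  rw [e1, add_comm, sub_eq_add_neg]
  congr 1
  refine Finset.sum_congr rfl fun j _ => ?_
  field_simp

lemma trace_mul_fun (hh : h ∈ MFs (Gamma0 p) 2) (hG : G ∈ MFs ⊤ (k : ℤ)) :
    heckeU (2 + (k : ℤ)) p (heckeU 2 p h * G) - (p : ℂ) ^ k • (h * Vfun p G) ∈
      MFs ⊤ (2 + (k : ℤ)) := by
  rw [← trace_mul_fun_eq hh hG]
  exact Submodule.smul_mem _ _ (trFun_mem (mul_mem_MFs hh (slash_heckeDiag_mem hG)))

/-- Cusp criterion. -/
lemma mem_CFs_of_zero (hh : h ∈ MFs (Gamma0 p) 2) (h0 : IsZeroAtImInfty h)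
    (h1 : IsZeroAtImInfty (heckeU 2 p h)) : h ∈ CFs (Gamma0 p) 2 := by
  apply mem_CFs_Gamma0 hh.1 hh.2.1 h0
  intro j
  rw [slash_ST_eq hh]
  have h2 : Tendsto (heckeU 2 p h ∣[(2 : ℤ)] heckeMatrix p j) atImInfty (𝓝 0) :=
    zero_slash_heckeMatrix (p := p) h1 2 j
  have h3 := h2.neg
  rw [neg_zero] at h3
  exact h3

end traces

/-! ### `q`-expansions -/

section qexp

variable {p : ℕ} [Fact p.Prime] {k : ℤ} {F G : ℍ → ℂ}

instance instNeZeroP : NeZero p := ⟨p_ne_zero' p⟩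

lemma nice_of_mem_MFs (hF : F ∈ MFs (Gamma0 p) k) : F ∈ Nice := by
  obtain ⟨f, rfl⟩ := exists_modularForm_of_mem_MFs hF
  exact Fermat.Agent.S23.coe_mem_Nice (one_mem_strictPeriods_Gamma0 p) f

lemma nice_of_mem_MFs_top (hF : F ∈ MFs ⊤ k) : F ∈ Nice := by
  obtain ⟨f, rfl⟩ := exists_modularForm_of_mem_MFs_top hF
  exact Fermat.Agent.S23.coe_mem_Nice one_mem_strictPeriods_SL f

omit [Fact p.Prime] in
lemma nice_heckeU (hF : F ∈ Nice) (k : ℤ) (p : ℕ) : heckeU k p F ∈ Nice :=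
  ⟨periodic_heckeU_comp_ofComplex hF.1 k p, mdifferentiable_heckeU hF.2.1 k p,
    isBoundedAtImInfty_heckeU hF.2.2 k p⟩

lemma qExp_heckeU (hF : F ∈ Nice) (k : ℤ) :
    qExpansion 1 (heckeU k p F) = U p (qExpansion 1 F) := by
  ext n
  have := UpperHalfPlane.qCoeff_heckeU hF.1 hF.2.1 hF.2.2 k (p_ne_zero' p) n
  simp only [ModularFormClass.qCoeff, coeffHeckeU] at this
  rw [this, U, PowerSeries.coeff_mk, mul_comm]

lemma qExp_add (hF : F ∈ Nice) (hG : G ∈ Nice) :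
    qExpansion 1 (F + G) = qExpansion 1 F + qExpansion 1 G :=
  qExpansion_add (Fermat.Agent.S23.Nice.analyticAt hF) (Fermat.Agent.S23.Nice.analyticAt hG)

lemma qExp_sub (hF : F ∈ Nice) (hG : G ∈ Nice) :
    qExpansion 1 (F - G) = qExpansion 1 F - qExpansion 1 G :=
  qExpansion_sub (Fermat.Agent.S23.Nice.analyticAt hF) (Fermat.Agent.S23.Nice.analyticAt hG)

lemma qExp_mul (hF : F ∈ Nice) (hG : G ∈ Nice) :
    qExpansion 1 (F * G) = qExpansion 1 F * qExpansion 1 G :=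
  qExpansion_mul (Fermat.Agent.S23.Nice.analyticAt hF) (Fermat.Agent.S23.Nice.analyticAt hG)

lemma qExp_smul (c : ℂ) (hF : F ∈ Nice) :
    qExpansion 1 (c • F) = PowerSeries.C c * qExpansion 1 F := by
  rw [qExpansion_smul (Fermat.Agent.S23.Nice.analyticAt hF), PowerSeries.smul_eq_C_mul]

lemma qExp_pow (hF : F ∈ Nice) (n : ℕ) :
    qExpansion 1 (F ^ n) = qExpansion 1 F ^ n :=
  map_pow qHom (⟨F, hF⟩ : Nice) n

lemma nice_tendsto (hF : F ∈ Nice) :
    Tendsto F atImInfty (𝓝 ((qExpansion 1 F).coeff 0)) := by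
  have han := (Fermat.Agent.S23.Nice.analyticAt hF)
  have h0 : (qExpansion 1 F).coeff 0 = cuspFunction 1 F 0 := by
    simp [qExpansion_coeff]
  have hcomp : (cuspFunction 1 F ∘ fun τ : ℍ ↦ Function.Periodic.qParam 1 τ : ℍ → ℂ) = F := by
    funext τ
    exact eq_cuspFunction τ one_ne_zero hF.1
  rw [h0]
  have := han.continuousAt.tendsto.comp (qParam_tendsto_atImInfty one_pos)
  rwa [hcomp] at this

lemma Vfun_eq {k : ℕ} (G : ℍ → ℂ) :
    Vfun p G = ((p : ℂ) ^ ((k : ℤ) - 1))⁻¹ • (G ∣[(k : ℤ)] heckeDiagMatrix p) := by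
  funext τ
  have hp : (p : ℂ) ^ ((k : ℤ) - 1) ≠ 0 := zpow_ne_zero _ p_cast_ne_zero'
  rw [Pi.smul_apply, slash_heckeDiagMatrix_apply _ (p_ne_zero' p), smul_eq_mul, Vfun]
  field_simp

lemma nice_Vfun {k : ℕ} (hG : G ∈ MFs ⊤ (k : ℤ)) : Vfun p G ∈ Nice := by
  rw [Vfun_eq (k := k)]
  exact Subalgebra.smul_mem _ (nice_of_mem_MFs (slash_heckeDiag_mem hG)) _

lemma qParam_heckeDiag (τ : ℍ) :
    Function.Periodic.qParam 1 ((heckeDiagMatrix p • τ : ℍ) : ℂ) =
      Function.Periodic.qParam 1 (τ : ℂ) ^ p := by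
  rw [coe_heckeDiagMatrix_smul (p_ne_zero' p), Function.Periodic.qParam, Function.Periodic.qParam,
    ← Complex.exp_nat_mul]
  congr 1
  ring

lemma hasSum_Vfun (hG : G ∈ Nice) (τ : ℍ) :
    HasSum (fun m ↦ (V p (qExpansion 1 G)).coeff m • Function.Periodic.qParam 1 (τ : ℂ) ^ m)
      (Vfun p G τ) := by
  have h := hasSum_qExpansion one_pos hG.1 hG.2.1 hG.2.2 (heckeDiagMatrix p • τ)
  rw [qParam_heckeDiag] at h
  have hpos : 0 < p := Nat.pos_of_ne_zero (p_ne_zero' p)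
  have hinj : Function.Injective (fun m : ℕ => p * m) := fun a b hab =>
    Nat.eq_of_mul_eq_mul_left hpos hab
  rw [← hinj.hasSum_iff]
  · have hfun : ((fun m => (V p (qExpansion 1 G)).coeff m • Function.Periodic.qParam 1 (τ : ℂ) ^ m)
        ∘ fun m => p * m) =
        fun i => (PowerSeries.coeff i) (qExpansion 1 G) •
          (Function.Periodic.qParam 1 (τ : ℂ) ^ p) ^ i := by
      funext m
      simp only [Function.comp, V, PowerSeries.coeff_mk, dvd_mul_right, if_true,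
        Nat.mul_div_cancel_left _ hpos, pow_mul]
    rw [hfun]
    exact h
  · intro n hn
    have : ¬ p ∣ n := fun ⟨m, hm⟩ => hn ⟨m, hm.symm⟩
    simp [V, this]

lemma qExp_Vfun {k : ℕ} (hG : G ∈ MFs ⊤ (k : ℤ)) :
    qExpansion 1 (Vfun p G) = V p (qExpansion 1 G) := by
  have hmem : Vfun p G ∈ MFs (Gamma0 p) (k : ℤ) := by
    rw [Vfun_eq (k := k)]
    exact Submodule.smul_mem _ _ (slash_heckeDiag_mem hG)
  obtain ⟨f, hf⟩ := exists_modularForm_of_mem_MFs hmem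
  ext n
  have h := UpperHalfPlane.qExpansion_coeff_unique f (h := 1)
    (c := fun m => (V p (qExpansion 1 G)).coeff m) one_pos
    (by rw [hf]; exact Fermat.Agent.S23.Nice.analyticAt (nice_Vfun hG))
    (by rw [hf]; exact hasSum_Vfun (nice_of_mem_MFs_top hG)) n
  rw [hf] at h
  exact h.symm

end qexp

end Fermat.Agent.S16
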