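import Fermat.Agent.S16.CohDefs
import Fermat.Agent.S16.Cosets
import Fermat.Agent.S16.TraceFun
import Fermat.Agent.S20.LevelOne

/-!
# S16 (cohomological lower bound), piece TRC: trace to level one of a `Γ₀(p)`-invariant unit

`H : ℍ → ℂ` holomorphic, nowhere zero, `Γ₀(p)`-invariant, `H(-1/(pz)) H(z) = c`.
`F := H Δ` is a cusp form of weight `12` on `Γ₀(p)`; its trace to level one (`TraceFun.lean`) is
`F + ∑_{j<p} F ∣ S T^j`, `(F ∣ S T^j)(z) = H (S T^j z) Δ z = c M'((z+j)/p)`, `M' = Δ(p·)/H`.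
The trace is a cusp form of level one and weight `12`, hence a multiple of `Δ`.
-/

set_option autoImplicit false

namespace Fermat.Agent.S16.Coh

open UpperHalfPlane CongruenceSubgroup ModularForm Filter Topology
open scoped MatrixGroups Manifold Real

namespace Trc

open Fermat.Agent.S20 ModularGroup

lemma slash_mul_disc (H : ℍ → ℂ) (g : SL(2, ℤ)) (z : ℍ) :
    ((fun w => H w * discriminant w) ∣[(12 : ℤ)] g) z = H (g • z) * discriminant z := by
  have h1 : ((discriminant : ℍ → ℂ) ∣[(12 : ℤ)] g) z = discriminant z := by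
    rw [slash_of_mem_top Delta_mem_MFs]
  rw [SL_slash_apply] at h1 ⊢
  rw [mul_assoc, h1]

lemma ST_smul (p : ℕ) (hp : p ≠ 0) (j : ℕ) (z : ℍ) :
    (S * T ^ j : SL(2, ℤ)) • z = fricke p (heckeMatrix p j • z) := by
  have hpC : (p : ℂ) ≠ 0 := by exact_mod_cast hp
  rw [fricke, mul_smul]
  congr 1
  apply UpperHalfPlane.ext
  rw [coe_heckeDiagMatrix_smul hp, coe_heckeMatrix_smul hp]
  have : ((T ^ j : SL(2, ℤ)) • z : ℍ) = ((T ^ (j : ℤ) : SL(2, ℤ)) • z : ℍ) := by
    rw [zpow_natCast]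
  rw [this, coe_T_zpow_smul_eq]
  push_cast
  field_simp

lemma disc_T_pow (j : ℕ) (z : ℍ) :
    discriminant ((T ^ j : SL(2, ℤ)) • z) = discriminant z := by
  have h1 : ((discriminant : ℍ → ℂ) ∣[(12 : ℤ)] (T ^ j : SL(2, ℤ))) z = discriminant z := by
    rw [slash_of_mem_top Delta_mem_MFs]
  rw [SL_slash_apply] at h1
  have h2 : denom (T ^ j : SL(2, ℤ)) z = 1 := by
    rw [ModularGroup.denom_apply]
    have : (T ^ j : SL(2, ℤ)) = T ^ (j : ℤ) := by rw [zpow_natCast]
    rw [this, coe_T_zpow]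
    simp
  rw [h2] at h1
  simpa using h1

lemma heckeDiag_heckeMatrix (p : ℕ) (hp : p ≠ 0) (j : ℕ) (z : ℍ) :
    heckeDiagMatrix p • heckeMatrix p j • z = (T ^ j : SL(2, ℤ)) • z := by
  have hpC : (p : ℂ) ≠ 0 := by exact_mod_cast hp
  apply UpperHalfPlane.ext
  rw [coe_heckeDiagMatrix_smul hp, coe_heckeMatrix_smul hp]
  have : ((T ^ j : SL(2, ℤ)) • z : ℍ) = ((T ^ (j : ℤ) : SL(2, ℤ)) • z : ℍ) := by
    rw [zpow_natCast]
  rw [this, coe_T_zpow_smul_eq]
  push_cast
  field_simp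

end Trc

open Trc Fermat.Agent.S20 ModularGroup in
theorem trace_const (p : ℕ) [Fact p.Prime] (H : ℍ → ℂ) (hol : MDiff H) (hne : ∀ z, H z ≠ 0)
    (hinv : ∀ γ ∈ Gamma0 p, ∀ z : ℍ, H (γ • z) = H z) (c : ℂ)
    (hfr : ∀ z, H (fricke p z) * H z = c)
    (h0 : IsZeroAtImInfty (fun z => H z * discriminant z))
    (h0' : IsZeroAtImInfty (fun z => discriminant (heckeDiagMatrix p • z) / H z)) :
    ∃ t : ℂ, ∀ z, H z * discriminant z +
      c * p * heckeU 12 p (fun w => discriminant (heckeDiagMatrix p • w) / H w) z =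
        t * discriminant z := by
  have hp : p ≠ 0 := (Fact.out : p.Prime).ne_zero
  have hpC : (p : ℂ) ≠ 0 := by exact_mod_cast hp
  set F : ℍ → ℂ := fun z => H z * discriminant z with hF
  set M' : ℍ → ℂ := fun w => discriminant (heckeDiagMatrix p • w) / H w with hM'
  have hST : ∀ (j : ℕ) (z : ℍ), (F ∣[(12 : ℤ)] (S * T ^ j : SL(2, ℤ))) z =
      c * M' (heckeMatrix p j • z) := by
    intro j z
    rw [hF, slash_mul_disc, ST_smul p hp, hM']
    simp only
    rw [heckeDiag_heckeMatrix p hp, disc_T_pow, ← hfr (heckeMatrix p j • z)]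
    field_simp [hne (heckeMatrix p j • z)]
  have hFmem : F ∈ CFs (Gamma0 p) 12 := by
    refine mem_CFs_Gamma0 (hol.mul Delta_mem_MFs.1) (fun γ hγ => ?_) h0 (fun j => ?_)
    · ext z
      rw [hF, slash_mul_disc, hinv γ hγ]
    · have h1 : Tendsto (fun z => c * M' (heckeMatrix p j • z)) atImInfty (𝓝 0) := by
        simpa using (h0'.comp (tendsto_heckeMatrix_smul p j)).const_mul c
      exact h1.congr fun z => (hST j z).symm
  have htr := trFun_mem (CFs_le_MFs hFmem)
  have htr_eq : ∀ z, trFun (Gamma0 p) 12 F z = F z + c * p * heckeU 12 p M' z := by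
    intro z
    rw [trFun_Gamma0 (CFs_le_MFs hFmem), heckeU_apply 12 hp, Pi.add_apply, Finset.sum_apply]
    congr 1
    rw [mul_assoc, mul_inv_cancel_left₀ hpC, Finset.mul_sum]
    exact Finset.sum_congr rfl fun j _ => hST j z
  have htend : Tendsto (trFun (Gamma0 p) 12 F) atImInfty (𝓝 0) := by
    rw [trFun_Gamma0 (CFs_le_MFs hFmem)]
    have h1 : ∀ j ∈ Finset.range p,
        Tendsto (F ∣[(12 : ℤ)] (S * T ^ j : SL(2, ℤ))) atImInfty (𝓝 0) := fun j _ => hFmem.2.2 _
    have h2 := tendsto_finsetSum (Finset.range p) h1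
    have h3 := (show Tendsto F atImInfty (𝓝 0) from h0).add h2
    simp only [Finset.sum_const_zero, add_zero] at h3
    refine h3.congr fun z => ?_
    rw [Pi.add_apply, Finset.sum_apply]
  obtain ⟨f, hf⟩ := exists_of_mem_CFs_top (mem_CFs_top_of_tendsto htr htend)
  obtain ⟨t, ht⟩ := CuspForm.exists_smul_discriminant_of_weight_eq_twelve f
  refine ⟨t, fun z => ?_⟩
  rw [← htr_eq z, ← hf, ← ht]
  rfl

end Fermat.Agent.S16.Coh
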