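import Fermat.Agent.S16.LevelOne

/-!
# S16, piece NC: no level one form of weight `2e`, `gcd(e,(ℓ-1)/2) = 1`, is a unit constant mod `ℓ`

This replaces the Swinnerton-Dyer structure theorem.  Let `𝔽 = ZMod ℓ`, `ℓ ≥ 5`, `d = (ℓ-1)/2`,
`x, y ∈ 𝔽⟦q⟧` the reductions of `E4z, E6z` (`x` is a unit of `𝔽⟦q⟧`) and `t = y² / x³`.

* `1 - t = 1728 Δ / x³ = q · unit`, hence `t` is transcendental over `𝔽` (`tt_transcendental`).
* (`rep_of_isQZ1`) the reduction of an integral level one form of weight `k` is `0` or of the form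
  `x^a y^b g(t)` with `b ≤ 1`, `4a + 6b = k`, `g ∈ 𝔽[X]`, `3 deg g ≤ a`
  (induction with `IsQZ1.decomp'`).
* If `F = x^a y^b g(t) = c` and `A = x^a' y^b' g'(t) = c'` (weights `2e`, `2d`) then
  `c'^(2e) t^(db) g(t)^(2d) = c^(2d) t^(eb') g'(t)^(2e)` (multiply by `x^(de)`), so this is an identity
  of polynomials; comparing the orders of vanishing at `0`:
  `d (b + 2 v(g)) = e (b' + 2 v(g'))`.  So `d ∣ b' + 2 v(g') ≤ d / 3`, `b' = v(g') = 0`, `b = 0`, and
  `d = 2a'`, `e = 2a` are both even: contradiction.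
-/

set_option autoImplicit false

namespace Fermat.Agent.S16

open PowerSeries

namespace NC

section Bernoulli

theorem dvd_den_bernoulli (ℓ : ℕ) [Fact ℓ.Prime] (hℓ : 3 ≤ ℓ) : ℓ ∣ (bernoulli (ℓ - 1)).den := by
  have hp : ℓ.Prime := Fact.out
  obtain ⟨k, hk⟩ : ∃ k, ℓ - 1 = 2 * k := by
    have := hp.eq_two_or_odd
    exact ⟨(ℓ - 1) / 2, by omega⟩
  by_contra hcon
  obtain ⟨n, hn⟩ := Bernoulli.vonStaudt_clausen k
  rw [← hk] at hn
  have hmem : ℓ ∈ (Finset.range (ℓ - 1 + 2)).filter (fun p => p.Prime ∧ (p - 1) ∣ (ℓ - 1)) := by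
    simp only [Finset.mem_filter, Finset.mem_range]
    exact ⟨by omega, hp, dvd_rfl⟩
  rw [← Finset.add_sum_erase _ _ hmem] at hn
  have h1 : (1 : ℚ) / ℓ = n - bernoulli (ℓ - 1) -
      ∑ p ∈ ((Finset.range (ℓ - 1 + 2)).filter (fun p => p.Prime ∧ (p - 1) ∣ (ℓ - 1))).erase ℓ,
        (1 : ℚ) / p := by
    linarith
  have h2 : Rat.padicValuation ℓ ((1 : ℚ) / ℓ) ≤ 1 := by
    rw [h1]
    refine (Rat.padicValuation ℓ).map_sub_le ((Rat.padicValuation ℓ).map_sub_le ?_ ?_) ?_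
    · exact_mod_cast Int.padicValuation_le_one ℓ n
    · exact Rat.padicValuation_le_one_iff.mpr hcon
    · refine (Rat.padicValuation ℓ).map_sum_le fun q hq => ?_
      simp only [Finset.mem_erase, Finset.mem_filter, Finset.mem_range] at hq
      obtain ⟨hne, _, hq_prime, _⟩ := hq
      rw [Rat.padicValuation_le_one_iff, show ((1 : ℚ) / q).den = q by simp [hq_prime.ne_zero]]
      exact fun h => hne ((Nat.prime_dvd_prime_iff_eq hp hq_prime).mp h).symm
  rw [Rat.padicValuation_le_one_iff, show ((1 : ℚ) / ℓ).den = ℓ by simp [hp.ne_zero]] at h2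
  exact h2 dvd_rfl

end Bernoulli

section General

variable {κ : Type*} [Field κ]

theorem constantCoeff_aeval (s : PowerSeries κ) (hs : constantCoeff s = 0) (q : Polynomial κ) :
    constantCoeff (Polynomial.aeval s q) = q.coeff 0 := by
  rw [Polynomial.aeval_def, Polynomial.hom_eval₂, hs, Polynomial.eval₂_at_zero]
  simp

theorem eq_zero_of_aeval_eq_zero (s w : PowerSeries κ) (hs : s = X * w) (hw : constantCoeff w ≠ 0)
    (h : Polynomial κ) (hh : Polynomial.aeval s h = 0) : h = 0 := by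
  by_contra hne
  obtain ⟨q, hq, hnd⟩ := Polynomial.exists_eq_pow_rootMultiplicity_mul_and_not_dvd h hne 0
  rw [map_zero, sub_zero] at hq hnd
  rw [hq, map_mul, map_pow, Polynomial.aeval_X] at hh
  have hs0 : s ≠ 0 := by
    rw [hs]
    refine mul_ne_zero X_ne_zero ?_
    rintro rfl
    simp at hw
  have h1 : Polynomial.aeval s q = 0 := by
    rcases mul_eq_zero.mp hh with h | h
    · exact absurd (eq_zero_of_pow_eq_zero h) hs0
    · exact h
  have h2 := constantCoeff_aeval s (by rw [hs]; simp) q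
  rw [h1, map_zero] at h2
  exact hnd (Polynomial.X_dvd_iff.mpr h2.symm)

theorem eq_zero_of_aeval_one_sub (s w : PowerSeries κ) (hs : s = X * w)
    (hw : constantCoeff w ≠ 0) (h : Polynomial κ) (hh : Polynomial.aeval (1 - s) h = 0) : h = 0 := by
  have h1 : Polynomial.aeval s (h.comp (1 - Polynomial.X)) = 0 := by
    rw [Polynomial.aeval_comp]
    simpa using hh
  have h2 := eq_zero_of_aeval_eq_zero s w hs hw _ h1
  have h3 : (h.comp (1 - Polynomial.X)).comp (1 - Polynomial.X) = h := by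
    rw [Polynomial.comp_assoc]
    simp
  rw [← h3, h2, Polynomial.zero_comp]

theorem C_eq_zero_aux {u : κ} (h : (C u : PowerSeries κ) = 0) : u = 0 := by
  have := congrArg constantCoeff h
  simpa using this

theorem ntd_pow {p : Polynomial κ} (hp : p ≠ 0) (n : ℕ) :
    (p ^ n).natTrailingDegree = n * p.natTrailingDegree := by
  induction n with
  | zero => simp
  | succ n ih =>
    rw [pow_succ, Polynomial.natTrailingDegree_mul (pow_ne_zero _ hp) hp, ih]
    ring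

theorem ntd_formula {u : κ} (hu : u ≠ 0) {g : Polynomial κ} (hg : g ≠ 0) (m n : ℕ) :
    (Polynomial.C u * (Polynomial.X ^ m * g ^ n)).natTrailingDegree =
      m + n * g.natTrailingDegree := by
  rw [Polynomial.natTrailingDegree_mul (Polynomial.C_ne_zero.mpr hu)
    (mul_ne_zero (pow_ne_zero _ Polynomial.X_ne_zero) (pow_ne_zero _ hg)),
    Polynomial.natTrailingDegree_mul (pow_ne_zero _ Polynomial.X_ne_zero) (pow_ne_zero _ hg),
    ntd_pow hg, Polynomial.natTrailingDegree_C, Polynomial.natTrailingDegree_X_pow, zero_add]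

end General


section Specific

variable (ℓ : ℕ) [Fact ℓ.Prime]

/-- reduction mod `ℓ` of integral power series. -/
noncomputable def red : PowerSeries ℤ →+* PowerSeries (ZMod ℓ) :=
  PowerSeries.map (Int.castRingHom (ZMod ℓ))

noncomputable def x4 : PowerSeries (ZMod ℓ) := red ℓ E4z
noncomputable def y6 : PowerSeries (ZMod ℓ) := red ℓ E6z
noncomputable def xi : PowerSeries (ZMod ℓ) := (x4 ℓ).invOfUnit 1
noncomputable def tt : PowerSeries (ZMod ℓ) := y6 ℓ ^ 2 * xi ℓ ^ 3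

theorem constantCoeff_red (P : PowerSeries ℤ) :
    constantCoeff (red ℓ P) = ((constantCoeff P : ℤ) : ZMod ℓ) := by
  rw [red, ← PowerSeries.coeff_zero_eq_constantCoeff_apply, PowerSeries.coeff_map,
    PowerSeries.coeff_zero_eq_constantCoeff_apply, eq_intCast]

theorem red_C (c : ℤ) : red ℓ (C c) = C (c : ZMod ℓ) := by
  simp [red]

theorem constantCoeff_x4 : constantCoeff (x4 ℓ) = 1 := by
  rw [x4, constantCoeff_red, constantCoeff_E4z, Int.cast_one]

theorem x4_mul_xi : x4 ℓ * xi ℓ = 1 :=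
  PowerSeries.mul_invOfUnit _ _ (by rw [constantCoeff_x4]; rfl)

theorem constantCoeff_xi : constantCoeff (xi ℓ) = 1 := by
  have := congrArg constantCoeff (x4_mul_xi ℓ)
  rwa [map_mul, constantCoeff_x4, one_mul, map_one] at this

theorem x4_ne_zero : x4 ℓ ≠ 0 := by
  intro h
  have := constantCoeff_x4 ℓ
  rw [h, map_zero] at this
  exact zero_ne_one this

theorem x4_cube_mul_tt : x4 ℓ ^ 3 * tt ℓ = y6 ℓ ^ 2 := by
  rw [tt]
  calc x4 ℓ ^ 3 * (y6 ℓ ^ 2 * xi ℓ ^ 3) = y6 ℓ ^ 2 * (x4 ℓ * xi ℓ) ^ 3 := by ring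
    _ = _ := by rw [x4_mul_xi, one_pow, mul_one]

variable {ℓ}

theorem c1728_ne (hℓ : 5 ≤ ℓ) : (1728 : ZMod ℓ) ≠ 0 := by
  have hp : ℓ.Prime := Fact.out
  intro h
  have h1 : ((1728 : ℕ) : ZMod ℓ) = 0 := by exact_mod_cast h
  rw [ZMod.natCast_eq_zero_iff, show 1728 = 2 ^ 6 * 3 ^ 3 by norm_num, hp.dvd_mul] at h1
  rcases h1 with h1 | h1
  · have := Nat.le_of_dvd (by norm_num) (hp.dvd_of_dvd_pow h1)
    omega
  · have := Nat.le_of_dvd (by norm_num) (hp.dvd_of_dvd_pow h1)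
    omega

theorem red_Deltaz (hℓ : 5 ≤ ℓ) :
    red ℓ Deltaz = C ((1728 : ZMod ℓ)⁻¹) * (x4 ℓ ^ 3 * (1 - tt ℓ)) := by
  have h1 : (1728 : PowerSeries (ZMod ℓ)) * red ℓ Deltaz = x4 ℓ ^ 3 - y6 ℓ ^ 2 := by
    have := congrArg (red ℓ) Deltaz_eq
    rwa [map_mul, map_sub, map_pow, map_pow, map_ofNat] at this
  rw [mul_sub, mul_one, x4_cube_mul_tt, ← h1, ← mul_assoc,
    show (1728 : PowerSeries (ZMod ℓ)) = C (1728 : ZMod ℓ) from (map_ofNat C 1728).symm, ← map_mul,
    inv_mul_cancel₀ (c1728_ne hℓ), map_one, one_mul]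

theorem one_sub_tt (hℓ : 5 ≤ ℓ) : ∃ w : PowerSeries (ZMod ℓ), constantCoeff w ≠ 0 ∧
    1 - tt ℓ = X * w := by
  obtain ⟨u, hu, hD⟩ := Deltaz_eq_X_mul
  refine ⟨C (1728 : ZMod ℓ) * red ℓ u * xi ℓ ^ 3, ?_, ?_⟩
  · rw [map_mul, map_mul, map_pow, constantCoeff_xi, constantCoeff_red, hu]
    simpa using c1728_ne hℓ
  · have h1 := red_Deltaz hℓ
    rw [hD, map_mul] at h1
    have hX : red ℓ X = X := by simp [red]
    rw [hX] at h1
    calc 1 - tt ℓ = C (1728 : ZMod ℓ) * (C ((1728 : ZMod ℓ)⁻¹) * (x4 ℓ ^ 3 * (1 - tt ℓ))) *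
          xi ℓ ^ 3 := by
          have h2 : C (1728 : ZMod ℓ) * C ((1728 : ZMod ℓ)⁻¹) = 1 := by
            rw [← map_mul, mul_inv_cancel₀ (c1728_ne hℓ), map_one]
          calc 1 - tt ℓ = (C (1728 : ZMod ℓ) * C ((1728 : ZMod ℓ)⁻¹)) * (x4 ℓ * xi ℓ) ^ 3 *
                (1 - tt ℓ) := by rw [h2, x4_mul_xi]; ring
            _ = _ := by ring
      _ = _ := by rw [← h1]; ring

theorem tt_transcendental (hℓ : 5 ≤ ℓ) (h : Polynomial (ZMod ℓ))
    (hh : Polynomial.aeval (tt ℓ) h = 0) : h = 0 := by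
  obtain ⟨w, hw, hs⟩ := one_sub_tt hℓ
  refine eq_zero_of_aeval_one_sub (1 - tt ℓ) w hs hw h ?_
  rwa [sub_sub_cancel]

variable (ℓ)

/-- `P = E₄^a E₆^b g(E₆²/E₄³)` with `deg g ≤ a/3`, `b ≤ 1`, `4a+6b = k`. -/
def Rep (k : ℤ) (P : PowerSeries (ZMod ℓ)) : Prop :=
  ∃ (a b : ℕ) (g : Polynomial (ZMod ℓ)), b ≤ 1 ∧ 4 * (a : ℤ) + 6 * (b : ℤ) = k ∧
    3 * g.natDegree ≤ a ∧ P = x4 ℓ ^ a * y6 ℓ ^ b * Polynomial.aeval (tt ℓ) g

variable {ℓ}

theorem rep_of_isQZ1 (hℓ : 5 ≤ ℓ) {k : ℤ} {P : PowerSeries ℤ} (h : IsQZ1 k P) :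
    red ℓ P = 0 ∨ Rep ℓ k (red ℓ P) := by
  obtain ⟨N, hN⟩ : ∃ N : ℕ, k < N := ⟨(k + 1).toNat, by omega⟩
  induction N using Nat.strong_induction_on generalizing k P with
  | _ N ih =>
    rcases h.decomp' with rfl | ⟨a, b, P', hb, hab, hP', hP⟩
    · left; simp
    right
    have hk : 0 ≤ k := by omega
    obtain ⟨g, hg, hgP⟩ : ∃ g : Polynomial (ZMod ℓ), 3 * g.natDegree ≤ a ∧
        red ℓ Deltaz * red ℓ P' = x4 ℓ ^ a * y6 ℓ ^ b * Polynomial.aeval (tt ℓ) g := by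
      rcases ih (N - 12) (by omega) hP' (by omega) with h0 | ⟨a', b', g', hb', hab', hg', hP'g⟩
      · exact ⟨0, by simp, by rw [h0]; simp⟩
      · obtain rfl : b' = b := by omega
        obtain rfl : a = a' + 3 := by omega
        refine ⟨Polynomial.C ((1728 : ZMod ℓ)⁻¹) * ((1 - Polynomial.X) * g'), ?_, ?_⟩
        · have h1 : (Polynomial.C ((1728 : ZMod ℓ)⁻¹) * ((1 - Polynomial.X) * g')).natDegree ≤
              1 + g'.natDegree := by
            refine (Polynomial.natDegree_C_mul_le _ _).trans ?_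
            refine Polynomial.natDegree_mul_le.trans ?_
            gcongr
            refine (Polynomial.natDegree_sub_le _ _).trans ?_
            simp
          omega
        · rw [hP'g, red_Deltaz hℓ]
          simp only [map_mul, map_sub, map_one, Polynomial.aeval_X, Polynomial.aeval_C,
            PowerSeries.algebraMap_apply, Algebra.algebraMap_self, RingHom.id_apply]
          ring
    refine ⟨a, b, Polynomial.C ((constantCoeff P : ℤ) : ZMod ℓ) + g, hb, hab, ?_, ?_⟩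
    · have := Polynomial.natDegree_add_le (Polynomial.C ((constantCoeff P : ℤ) : ZMod ℓ)) g
      rw [Polynomial.natDegree_C] at this
      have h2 : max 0 g.natDegree = g.natDegree := by simp
      omega
    · conv_lhs => rw [hP]
      rw [map_add, map_mul (red ℓ) Deltaz, hgP, map_mul, map_mul, map_pow, map_pow, red_C]
      simp only [map_add, Polynomial.aeval_C,
            PowerSeries.algebraMap_apply, Algebra.algebraMap_self, RingHom.id_apply]
      rw [x4, y6]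
      ring

theorem red_eq_C_of_modEq {F : PowerSeries ℤ} {c : ℤ} (h : PSModEq (ℓ : ℤ) F (C c)) :
    red ℓ F = C (c : ZMod ℓ) := by
  rw [← red_C, ← sub_eq_zero, ← map_sub]
  ext n
  rw [red, PowerSeries.coeff_map, map_zero, eq_intCast, ZMod.intCast_zmod_eq_zero_iff_dvd]
  exact h n

end Specific

end NC

open NC UpperHalfPlane ModularForm EisensteinSeries ModularFormClass in
/-- A multiple of `E_{ℓ-1}` with integral coefficients which is a unit constant mod `ℓ`.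
Mathlib: `EisensteinSeries.E_qExpansion_coeff`, `Bernoulli.vonStaudt_clausen`
(`ℓ ∣ den (bernoulli (ℓ-1))`; take `A = num(B) • E_{ℓ-1}`, `c = num(B)`). -/
theorem exists_hasse (ℓ : ℕ) [Fact ℓ.Prime] (hℓ : 5 ≤ ℓ) :
    ∃ (A : PowerSeries ℤ) (c : ℤ), IsQZ1 ((ℓ : ℤ) - 1) A ∧ ¬ (ℓ : ℤ) ∣ c ∧
      PSModEq (ℓ : ℤ) A (C c) := by
  have hp : ℓ.Prime := Fact.out
  have hk : 3 ≤ ℓ - 1 := by omega
  have hk2 : Even (ℓ - 1) := by
    have := hp.eq_two_or_odd
    exact ⟨(ℓ - 1) / 2, by omega⟩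
  have hD := dvd_den_bernoulli ℓ (by omega)
  set B := bernoulli (ℓ - 1) with hB
  have hB0 : B ≠ 0 := by
    intro h
    rw [h] at hD
    simp at hD
    omega
  refine ⟨PowerSeries.mk fun m => if m = 0 then B.num else
    -(2 * ((ℓ - 1 : ℕ) : ℤ) * B.den) * (ArithmeticFunction.sigma (ℓ - 1 - 1) m : ℤ), B.num, ?_, ?_, ?_⟩
  · have : IsQZ1 ((ℓ - 1 : ℕ) : ℤ) (PowerSeries.mk fun m => if m = 0 then B.num else
        -(2 * ((ℓ - 1 : ℕ) : ℤ) * B.den) * (ArithmeticFunction.sigma (ℓ - 1 - 1) m : ℤ)) := by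
      refine ⟨(B.num : ℂ) • E hk, ?_⟩
      ext m
      rw [FunLike.coe_smul, ModularForm.qExpansion_smul one_pos one_mem_strictPeriods_SL,
        PowerSeries.coeff_smul, E_qExpansion_coeff hk hk2]
      simp only [toC, PowerSeries.coeff_map, PowerSeries.coeff_mk]
      split_ifs with hm
      · simp
      · have h1 : (B : ℂ) = (B.num : ℂ) / (B.den : ℂ) := by
          exact_mod_cast congrArg (Rat.cast : ℚ → ℂ) (Rat.num_div_den B).symm
        have h2 : (B.num : ℂ) ≠ 0 := by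
          exact_mod_cast Rat.num_ne_zero.mpr hB0
        have h3 : (B.den : ℂ) ≠ 0 := by
          exact_mod_cast B.den_ne_zero
        rw [h1, smul_eq_mul, eq_intCast]
        push_cast
        field_simp
    have hc : ((ℓ - 1 : ℕ) : ℤ) = (ℓ : ℤ) - 1 := by
      rw [Nat.cast_sub (by omega), Nat.cast_one]
    exact hc ▸ this
  · intro h
    have h1 : ℓ ∣ B.num.natAbs := Int.natCast_dvd.mp h
    have := Nat.dvd_gcd h1 hD
    rw [B.reduced] at this
    exact hp.one_lt.ne' (Nat.dvd_one.mp this)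
  · intro m
    rw [map_sub, PowerSeries.coeff_mk, PowerSeries.coeff_C]
    split_ifs with hm
    · simp
    · rw [sub_zero]
      apply Dvd.dvd.mul_right
      apply Dvd.dvd.neg_right
      apply Dvd.dvd.mul_left
      exact_mod_cast hD


open NC in
theorem no_unit_const (ℓ : ℕ) [Fact ℓ.Prime] (hℓ : 5 ≤ ℓ) (e : ℕ)
    (he : Nat.Coprime e ((ℓ - 1) / 2)) (F : PowerSeries ℤ) (hF : IsQZ1 (2 * (e : ℤ)) F) (c : ℤ)
    (hc : ¬ (ℓ : ℤ) ∣ c) (h : PSModEq (ℓ : ℤ) F (C c)) : False := by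
  have hp : ℓ.Prime := Fact.out
  obtain ⟨A, c', hA, hc', hAc⟩ := exists_hasse ℓ hℓ
  set d := (ℓ - 1) / 2 with hd
  have hd2 : 2 * d = ℓ - 1 := by
    have := hp.eq_two_or_odd
    omega
  have hFred := red_eq_C_of_modEq h
  have hAred := red_eq_C_of_modEq hAc
  have hc0 : (c : ZMod ℓ) ≠ 0 := by
    rwa [Ne, ZMod.intCast_zmod_eq_zero_iff_dvd]
  have hc0' : (c' : ZMod ℓ) ≠ 0 := by
    rwa [Ne, ZMod.intCast_zmod_eq_zero_iff_dvd]
  rcases rep_of_isQZ1 hℓ hF with h0 | ⟨a, b, g, hb, hab, hg, hFg⟩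
  · rw [hFred] at h0
    exact hc0 (C_eq_zero_aux h0)
  rcases rep_of_isQZ1 hℓ hA with h0 | ⟨a', b', g', hb', hab', hg', hAg⟩
  · rw [hAred] at h0
    exact hc0' (C_eq_zero_aux h0)
  have hg0 : g ≠ 0 := by
    rintro rfl
    rw [hFred, map_zero, mul_zero] at hFg
    exact hc0 (C_eq_zero_aux hFg)
  have hg0' : g' ≠ 0 := by
    rintro rfl
    rw [hAred, map_zero, mul_zero] at hAg
    exact hc0' (C_eq_zero_aux hAg)
  have he' : e = 2 * a + 3 * b := by omega
  have hd' : d = 2 * a' + 3 * b' := by omega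
  have h1 : x4 ℓ ^ (d * e) * (tt ℓ ^ (d * b) * Polynomial.aeval (tt ℓ) g ^ (2 * d)) =
      C ((c : ZMod ℓ) ^ (2 * d)) := by
    calc x4 ℓ ^ (d * e) * (tt ℓ ^ (d * b) * Polynomial.aeval (tt ℓ) g ^ (2 * d))
        = x4 ℓ ^ (2 * d * a) * (x4 ℓ ^ 3 * tt ℓ) ^ (d * b) *
            Polynomial.aeval (tt ℓ) g ^ (2 * d) := by
          rw [show d * e = 2 * d * a + 3 * (d * b) by rw [he']; ring]
          ring
      _ = (x4 ℓ ^ a * y6 ℓ ^ b * Polynomial.aeval (tt ℓ) g) ^ (2 * d) := by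
          rw [x4_cube_mul_tt]; ring
      _ = _ := by rw [← hFg, hFred, map_pow]
  have h2 : x4 ℓ ^ (d * e) * (tt ℓ ^ (e * b') * Polynomial.aeval (tt ℓ) g' ^ (2 * e)) =
      C ((c' : ZMod ℓ) ^ (2 * e)) := by
    calc x4 ℓ ^ (d * e) * (tt ℓ ^ (e * b') * Polynomial.aeval (tt ℓ) g' ^ (2 * e))
        = x4 ℓ ^ (2 * e * a') * (x4 ℓ ^ 3 * tt ℓ) ^ (e * b') *
            Polynomial.aeval (tt ℓ) g' ^ (2 * e) := by
          rw [show d * e = 2 * e * a' + 3 * (e * b') by rw [hd']; ring]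
          ring
      _ = (x4 ℓ ^ a' * y6 ℓ ^ b' * Polynomial.aeval (tt ℓ) g') ^ (2 * e) := by
          rw [x4_cube_mul_tt]; ring
      _ = _ := by rw [← hAg, hAred, map_pow]
  have key : Polynomial.C ((c' : ZMod ℓ) ^ (2 * e)) * (Polynomial.X ^ (d * b) * g ^ (2 * d)) =
      Polynomial.C ((c : ZMod ℓ) ^ (2 * d)) * (Polynomial.X ^ (e * b') * g' ^ (2 * e)) := by
    rw [← sub_eq_zero]
    apply tt_transcendental hℓ
    rw [map_sub, sub_eq_zero]
    simp only [map_mul, map_pow, Polynomial.aeval_X, Polynomial.aeval_C,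
      PowerSeries.algebraMap_apply, Algebra.algebraMap_self, RingHom.id_apply]
    apply mul_left_cancel₀ (pow_ne_zero (d * e) (x4_ne_zero ℓ))
    rw [mul_left_comm, h1, mul_left_comm (x4 ℓ ^ (d * e)), h2, map_pow, map_pow, mul_comm]
  have hv := congrArg Polynomial.natTrailingDegree key
  rw [ntd_formula (pow_ne_zero _ hc0') hg0, ntd_formula (pow_ne_zero _ hc0) hg0'] at hv
  have hv' := Polynomial.natTrailingDegree_le_natDegree g'
  set v := g.natTrailingDegree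
  set v' := g'.natTrailingDegree
  have h3 : d * (b + 2 * v) = e * (b' + 2 * v') := by
    calc d * (b + 2 * v) = d * b + 2 * d * v := by ring
      _ = e * b' + 2 * e * v' := hv
      _ = _ := by ring
  have h4 : d ∣ b' + 2 * v' := (Nat.Coprime.symm he).dvd_of_dvd_mul_left ⟨_, h3.symm⟩
  have h5 : b' + 2 * v' = 0 := by
    by_contra hne
    have := Nat.le_of_dvd (Nat.pos_of_ne_zero hne) h4
    omega
  have hdpos : 0 < d := by omega
  rw [h5, mul_zero] at h3
  have h6 : b + 2 * v = 0 := by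
    rcases Nat.mul_eq_zero.mp h3 with h | h
    · omega
    · exact h
  have h7 : 2 ∣ Nat.gcd e d := Nat.dvd_gcd ⟨a, by omega⟩ ⟨a', by omega⟩
  rw [Nat.Coprime.gcd_eq_one he] at h7
  omega

end Fermat.Agent.S16
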