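import Fermat.Agent.S16.ThetaDefs

/-!
# S16, theta half, piece TH-G: the quadratic Gauss sum of `QF` mod `p`
-/

set_option autoImplicit false

namespace Fermat.Agent.S16

open Finset

/-- The quadratic character of `ZMod p` with values in `ℂ`. -/
noncomputable def thGchi (p : ℕ) [Fact p.Prime] : MulChar (ZMod p) ℂ :=
  (quadraticChar (ZMod p)).ringHomComp (Int.castRingHom ℂ)

theorem thGchi_apply (p : ℕ) [Fact p.Prime] (x : ZMod p) :
    thGchi p x = ((quadraticChar (ZMod p) x : ℤ) : ℂ) := rfl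

theorem thG_sum_sq (p : ℕ) [Fact p.Prime] (hp : p ≠ 2) (f : ZMod p → ℂ) :
    ∑ x, f (x ^ 2) = ∑ y, (thGchi p y + 1) * f y := by
  rw [← Finset.sum_fiberwise univ (fun x : ZMod p => x ^ 2) (fun x => f (x ^ 2))]
  refine Finset.sum_congr rfl fun y _ => ?_
  have h1 : ∑ x ∈ univ.filter (fun x : ZMod p => x ^ 2 = y), f (x ^ 2) =
      ∑ x ∈ univ.filter (fun x : ZMod p => x ^ 2 = y), f y :=
    Finset.sum_congr rfl fun x hx => by rw [(Finset.mem_filter.1 hx).2]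
  rw [h1, Finset.sum_const, nsmul_eq_mul]
  have h2 := quadraticChar_card_sqrts (F := ZMod p) (by rw [ZMod.ringChar_zmod_n]; exact hp) y
  have h3 : ({x : ZMod p | x ^ 2 = y} : Set (ZMod p)).toFinset =
      univ.filter (fun x : ZMod p => x ^ 2 = y) := by
    ext x; simp
  rw [h3] at h2
  have h4 : (((univ.filter (fun x : ZMod p => x ^ 2 = y)).card : ℤ) : ℂ) =
      ((quadraticChar (ZMod p) y + 1 : ℤ) : ℂ) := by rw [h2]
  push_cast at h4
  rw [h4, thGchi_apply]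

theorem thGchi_sq (p : ℕ) [Fact p.Prime] (c : ZMod p) (hc : c ≠ 0) :
    thGchi p c * thGchi p c = 1 := by
  rw [thGchi_apply]
  have := quadraticChar_sq_one (F := ZMod p) hc
  have h : ((quadraticChar (ZMod p) c ^ 2 : ℤ) : ℂ) = 1 := by rw [this]; simp
  push_cast at h
  rw [← h]; ring

/-- `S(c) = χ(c) G`. -/
theorem thG_S (p : ℕ) [Fact p.Prime] (hp : p ≠ 2) (c : ZMod p) (hc : c ≠ 0) :
    ∑ x : ZMod p, (ZMod.stdAddChar (c * x ^ 2) : ℂ) =
      thGchi p c * gaussSum (thGchi p) (ZMod.stdAddChar (N := p)) := by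
  rw [thG_sum_sq p hp (fun y => (ZMod.stdAddChar (c * y) : ℂ))]
  have h0 : ∑ y : ZMod p, (ZMod.stdAddChar (N := p) (c * y) : ℂ) = 0 := by
    have := AddChar.sum_mulShift (R := ZMod p) (R' := ℂ) c (ZMod.isPrimitive_stdAddChar p)
    rw [if_neg hc] at this
    simp only [mul_comm c]
    simpa using this
  have h1 : ∑ y : ZMod p, (thGchi p y + 1) * (ZMod.stdAddChar (N := p) (c * y) : ℂ) =
      gaussSum (thGchi p) ((ZMod.stdAddChar (N := p)).mulShift c) := by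
    simp only [add_mul, one_mul, Finset.sum_add_distrib, h0, add_zero]
    rfl
  rw [h1]
  have h2 := gaussSum_mulShift (thGchi p) (ZMod.stdAddChar (N := p)) (Units.mk0 c hc)
  rw [Units.val_mk0] at h2
  rw [← h2, ← mul_assoc, thGchi_sq p c hc, one_mul]

theorem thG_gauss_sq (p : ℕ) [Fact p.Prime] (hp : p ≠ 2) :
    gaussSum (thGchi p) (ZMod.stdAddChar (N := p)) ^ 2 = thGchi p (-1) * (p : ℂ) := by
  have hF : ringChar (ZMod p) ≠ 2 := by rw [ZMod.ringChar_zmod_n]; exact hp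
  have hquad : (thGchi p).IsQuadratic := (quadraticChar_isQuadratic (ZMod p)).comp _
  have hne : thGchi p ≠ 1 := by
    obtain ⟨ν, hν⟩ := FiniteField.exists_nonsquare (F := ZMod p) hF
    intro h
    have h1 : thGchi p ν = -1 := by
      rw [thGchi_apply, quadraticChar_neg_one_iff_not_isSquare.2 hν]; simp
    have hν0 : ν ≠ 0 := by rintro rfl; exact hν IsSquare.zero
    rw [h, MulChar.one_apply hν0.isUnit] at h1
    norm_num at h1
  have := gaussSum_sq hne hquad (ZMod.isPrimitive_stdAddChar p)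
  rw [this, ZMod.card]

/-- `S(c) S(c') = χ(- c c') p`. -/
theorem thG_SS (p : ℕ) [Fact p.Prime] (hp : p ≠ 2) (c c' : ZMod p) (hc : c ≠ 0) (hc' : c' ≠ 0) :
    (∑ x : ZMod p, (ZMod.stdAddChar (c * x ^ 2) : ℂ)) * ∑ x : ZMod p, (ZMod.stdAddChar (c' * x ^ 2) : ℂ) =
      thGchi p (-(c * c')) * (p : ℂ) := by
  rw [thG_S p hp c hc, thG_S p hp c' hc']
  have h := thG_gauss_sq p hp
  have h1 : thGchi p (-(c * c')) = thGchi p c * thGchi p c' * thGchi p (-1) := by
    rw [← map_mul, ← map_mul]; congr 1; ring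
  rw [h1]
  linear_combination (thGchi p c * thGchi p c') * h

theorem thG_sum_affine (p : ℕ) [Fact p.Prime] (f : ZMod p → ℂ) (α β : ZMod p) (hα : α ≠ 0) :
    ∑ x, f (α * x + β) = ∑ x, f x :=
  Equiv.sum_comp ((Equiv.mulLeft₀ α hα).trans (Equiv.addRight β)) f

/-- Reordering equivalence `F⁴ ≃ (Fin 4 → F)`. -/
def thGequiv (F : Type*) : F × F × F × F ≃ (Fin 4 → F) where
  toFun x := ![x.2.2.2, x.2.2.1, x.2.1, x.1]
  invFun g := (g 3, g 2, g 1, g 0)
  left_inv _ := rfl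
  right_inv g := by ext i; fin_cases i <;> rfl

theorem thG_sum_fin4 {F : Type*} [Fintype F] [DecidableEq F] (f : (Fin 4 → F) → ℂ) :
    ∑ g, f g = ∑ x3, ∑ x2, ∑ x1, ∑ x0, f ![x0, x1, x2, x3] := by
  rw [← Equiv.sum_comp (thGequiv F) f]
  simp only [Fintype.sum_prod_type]
  rfl

/-- Work over `F = ZMod p`, `ψ = ZMod.stdAddChar` (primitive).  The cast of `QF r s t p (liftV g)` is
`QF r s t 0 g = g₀² + g₀g₁ + s g₁² + r g₁g₂ + t g₂²` (no `g₃`: factor `p`).  `q ≠ 0` in `F` (`0` is a square) and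
`4 q QF = q u² + v²`, `u = 2 g₀ + g₁`, `v = q g₁ + 2 r g₂` (uses `4s = q+1`, `q t = r²` in `F`).
`(g₀,g₁,g₂) ↦ (u,v,g₂)` is a bijection of `F³` (another factor `p` from `g₂`), so the sum is
`p² S(a/4) S(a/(4q))`, `S(c) = ∑_x ψ(c x²) = χ(c) gaussSum χ ψ` (`χ = quadraticChar F`; number of square
roots of `y` is `1 + χ(y)`: `quadraticChar_card_sqrts`), and `gaussSum χ ψ ^ 2 = χ(-1) p`
(`quadraticChar_gaussSum_sq` / `gaussSum_sq`).  So the sum is `p² χ(q) χ(-1) p = χ(-q) p³ = - p³`.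
(Alternative without `gaussSum`: `S(c) S(-c) = |S(c)|² = p` and `S(c ν) = - S(c)` for a non-residue `ν`.) -/
theorem gauss_QF (p : ℕ) [Fact p.Prime] (hp : p ≠ 2) (q r s t : ℤ) (hs : 4 * s = q + 1)
    (ht : q * t = r ^ 2 + p) (hq : ¬ IsSquare ((-q : ℤ) : ZMod p)) (a : ℤ) (ha : ¬ (p : ℤ) ∣ a) :
    ∑ g : Fin 4 → ZMod p, ZMod.stdAddChar (((a * QF r s t (p : ℤ) (liftV g) : ℤ)) : ZMod p) =
      -(p : ℂ) ^ 3 := by
  have hpp : p.Prime := Fact.out
  set a' : ZMod p := (a : ZMod p) with ha'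
  set q' : ZMod p := (q : ZMod p) with hq'
  set r' : ZMod p := (r : ZMod p) with hr'
  set s' : ZMod p := (s : ZMod p) with hs'
  set t' : ZMod p := (t : ZMod p) with ht'
  have ha0 : a' ≠ 0 := by
    rw [ha', Ne, ZMod.intCast_zmod_eq_zero_iff_dvd]; exact ha
  have hq0 : q' ≠ 0 := by
    intro h
    apply hq
    have : ((-q : ℤ) : ZMod p) = 0 := by push_cast; rw [← hq', h]; simp
    rw [this]; exact IsSquare.zero
  have h2 : (2 : ZMod p) ≠ 0 := by
    intro h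
    have h' : ((2 : ℕ) : ZMod p) = 0 := by exact_mod_cast h
    rw [ZMod.natCast_eq_zero_iff] at h'
    exact hp ((Nat.prime_dvd_prime_iff_eq hpp Nat.prime_two).1 h')
  have h4 : (4 : ZMod p) ≠ 0 := by
    have : (4 : ZMod p) = 2 * 2 := by norm_num
    rw [this]; exact mul_ne_zero h2 h2
  have hsF : 4 * s' = q' + 1 := by
    have := congrArg (Int.cast : ℤ → ZMod p) hs
    push_cast at this; exact this
  have htF : q' * t' = r' ^ 2 := by
    have := congrArg (Int.cast : ℤ → ZMod p) ht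
    push_cast at this
    rw [ZMod.natCast_self, add_zero] at this; exact this
  set c : ZMod p := a' / (4 * q') with hc
  have hc0 : c ≠ 0 := div_ne_zero ha0 (mul_ne_zero h4 hq0)
  have hcast : ∀ g : Fin 4 → ZMod p, (((a * QF r s t (p : ℤ) (liftV g) : ℤ)) : ZMod p) =
      (c * q') * (2 * g 0 + g 1) ^ 2 + c * (q' * g 1 + 2 * r' * g 2) ^ 2 := by
    intro g
    have e1 : (((a * QF r s t (p : ℤ) (liftV g) : ℤ)) : ZMod p) =
        a' * (g 0 ^ 2 + g 0 * g 1 + s' * g 1 ^ 2 + r' * g 1 * g 2 + t' * g 2 ^ 2) := by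
      simp only [QF, liftV]
      push_cast
      simp only [ZMod.natCast_zmod_val, ZMod.natCast_self]
      ring
    rw [e1]
    have e2 : a' = c * (4 * q') := by
      rw [hc, div_mul_cancel₀ _ (mul_ne_zero h4 hq0)]
    rw [e2]
    linear_combination (c * q' * g 1 ^ 2) * hsF + (4 * c * g 2 ^ 2) * htF
  simp only [hcast]
  rw [thG_sum_fin4]
  have hin : ∀ x2 : ZMod p, ∑ x1 : ZMod p, ∑ x0 : ZMod p,
      (ZMod.stdAddChar ((c * q') * (2 * (![x0, x1, x2, (0 : ZMod p)] : Fin 4 → ZMod p) 0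
        + (![x0, x1, x2, (0 : ZMod p)] : Fin 4 → ZMod p) 1) ^ 2
        + c * (q' * (![x0, x1, x2, (0 : ZMod p)] : Fin 4 → ZMod p) 1
        + 2 * r' * (![x0, x1, x2, (0 : ZMod p)] : Fin 4 → ZMod p) 2) ^ 2) : ℂ) = -(p : ℂ) := by
    intro x2
    have e1 : ∀ x1 : ZMod p, ∑ x0 : ZMod p,
      (ZMod.stdAddChar ((c * q') * (2 * (![x0, x1, x2, (0 : ZMod p)] : Fin 4 → ZMod p) 0
        + (![x0, x1, x2, (0 : ZMod p)] : Fin 4 → ZMod p) 1) ^ 2
        + c * (q' * (![x0, x1, x2, (0 : ZMod p)] : Fin 4 → ZMod p) 1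
        + 2 * r' * (![x0, x1, x2, (0 : ZMod p)] : Fin 4 → ZMod p) 2) ^ 2) : ℂ) =
        (∑ x : ZMod p, (ZMod.stdAddChar ((c * q') * x ^ 2) : ℂ)) *
          (ZMod.stdAddChar (c * (q' * x1 + 2 * r' * x2) ^ 2) : ℂ) := by
      intro x1
      rw [← thG_sum_affine p (fun x => (ZMod.stdAddChar ((c * q') * x ^ 2) : ℂ)) 2 x1 h2,
        Finset.sum_mul]
      refine Finset.sum_congr rfl fun x0 _ => ?_
      rw [AddChar.map_add_eq_mul]
      rfl
    simp only [e1]
    rw [← Finset.mul_sum,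
      thG_sum_affine p (fun x => (ZMod.stdAddChar (c * x ^ 2) : ℂ)) q' (2 * r' * x2) hq0,
      thG_SS p hp _ _ (mul_ne_zero hc0 hq0) hc0]
    have e2 : thGchi p (-(c * q' * c)) = -1 := by
      have : -(c * q' * c) = (c * c) * (-q') := by ring
      rw [this, map_mul, map_mul, thGchi_sq p c hc0, one_mul, thGchi_apply]
      have h5 : ¬ IsSquare (-q') := by
        have : ((-q : ℤ) : ZMod p) = -q' := by push_cast; rfl
        rwa [this] at hq
      rw [quadraticChar_neg_one_iff_not_isSquare.2 h5]; simp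
    rw [e2]; ring
  have hin' : ∀ x3 x2 : ZMod p, ∑ x1 : ZMod p, ∑ x0 : ZMod p,
      (ZMod.stdAddChar ((c * q') * (2 * (![x0, x1, x2, x3] : Fin 4 → ZMod p) 0
        + (![x0, x1, x2, x3] : Fin 4 → ZMod p) 1) ^ 2
        + c * (q' * (![x0, x1, x2, x3] : Fin 4 → ZMod p) 1
        + 2 * r' * (![x0, x1, x2, x3] : Fin 4 → ZMod p) 2) ^ 2) : ℂ) = -(p : ℂ) := by
    intro x3 x2
    exact hin x2
  simp only [hin', Finset.sum_const, Finset.card_univ, ZMod.card, nsmul_eq_mul]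
  ring

end Fermat.Agent.S16
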