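import Fermat.Agent.S16.ThetaPoisson
import Fermat.Agent.S16.ThetaGauss

/-!
# S16, theta half, piece TH-C: the concrete lattice satisfies `IsLat` (proofs)
-/

set_option autoImplicit false

namespace Fermat.Agent.S16

open Complex Matrix
open scoped Real

noncomputable section

theorem thC_ee_add (x y : ℂ) : ee (x + y) = ee x * ee y := by
  unfold ee; rw [mul_add, Complex.exp_add]

theorem thC_ee_zero : ee 0 = 1 := by simp [ee]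

theorem thC_norm_ee (x : ℂ) : ‖ee x‖ = Real.exp (-(2 * π * x.im)) := by
  unfold ee
  rw [Complex.norm_exp]
  congr 1
  have : (2 * (π : ℂ) * I * x) = ((2 * π : ℝ) : ℂ) * (I * x) := by push_cast; ring
  rw [this, Complex.re_ofReal_mul]
  simp

/-- `(c z)^{1/2} = √c z^{1/2}` for `c > 0`. -/
theorem thC_sqrt_mul (c : ℝ) (hc : 0 < c) (z : ℂ) (hz : z ≠ 0) :
    ((c : ℂ) * z) ^ (1 / 2 : ℂ) = (Real.sqrt c : ℂ) * z ^ (1 / 2 : ℂ) := by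
  have hc' : (c : ℂ) ≠ 0 := by exact_mod_cast hc.ne'
  rw [Complex.cpow_def_of_ne_zero (mul_ne_zero hc' hz), Complex.cpow_def_of_ne_zero hz,
    Complex.log_ofReal_mul hc hz, add_mul, Complex.exp_add]
  congr 1
  rw [Real.sqrt_eq_rpow, Real.rpow_def_of_pos hc]
  push_cast
  ring_nf

theorem thC_sqrt_sq (z : ℂ) : (z ^ (1 / 2 : ℂ)) ^ 2 = z := by
  rw [← Complex.cpow_nat_mul]
  norm_num

/-- The reindexing `ℤ⁴ ≃ (Fin 4 → ℤ)`. -/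
def thCequiv : (ℤ × ℤ × ℤ × ℤ × Unit) ≃ (Fin 4 → ℤ) where
  toFun x := ![x.1, x.2.1, x.2.2.1, x.2.2.2.1]
  invFun g := (g 0, g 1, g 2, g 3, ())
  left_inv _ := rfl
  right_inv g := by ext i; fin_cases i <;> rfl

theorem thCequiv_0 (x : ℤ × ℤ × ℤ × ℤ × Unit) : thCequiv x 0 = x.1 := rfl
theorem thCequiv_1 (x : ℤ × ℤ × ℤ × ℤ × Unit) : thCequiv x 1 = x.2.1 := rfl
theorem thCequiv_2 (x : ℤ × ℤ × ℤ × ℤ × Unit) : thCequiv x 2 = x.2.2.1 := rfl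
theorem thCequiv_3 (x : ℤ × ℤ × ℤ × ℤ × Unit) : thCequiv x 3 = x.2.2.2.1 := rfl

/-- The summand on the lattice side. -/
def thCF (τ0 τ1 τ2 τ3 : ℂ) (s0 s1 s2 s3 u0 u1 u2 : ℝ) (x : Fin 4 → ℤ) : ℂ :=
  ee (τ0 * ((x 0 : ℂ) + s0 + u0 * (x 1 : ℂ)) ^ 2
        + τ1 * ((x 1 : ℂ) + s1 + u1 * (x 2 : ℂ)) ^ 2 + τ2 * ((x 2 : ℂ) + s2 + u2 * (x 3 : ℂ)) ^ 2
        + τ3 * ((x 3 : ℂ) + s3) ^ 2)

/-- The summand on the dual side. -/
def thCG (τ0 τ1 τ2 τ3 : ℂ) (s0 s1 s2 s3 u0 u1 u2 : ℝ) (m : Fin 4 → ℤ) : ℂ :=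
  (1 / (-2 * I * τ0) ^ (1 / 2 : ℂ) * (1 / (-2 * I * τ1) ^ (1 / 2 : ℂ)) *
        (1 / (-2 * I * τ2) ^ (1 / 2 : ℂ)) * (1 / (-2 * I * τ3) ^ (1 / 2 : ℂ))) *
        ee ((m 0 : ℂ) * s0 + ((m 1 : ℂ) - (m 0 : ℂ) * u0) * s1
          + ((m 2 : ℂ) - ((m 1 : ℂ) - (m 0 : ℂ) * u0) * u1) * s2
          + ((m 3 : ℂ) - ((m 2 : ℂ) - ((m 1 : ℂ) - (m 0 : ℂ) * u0) * u1) * u2) * s3) *
        ee (-(m 0 : ℂ) ^ 2 / (4 * τ0) + -((m 1 : ℂ) - (m 0 : ℂ) * u0) ^ 2 / (4 * τ1)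
          + -((m 2 : ℂ) - ((m 1 : ℂ) - (m 0 : ℂ) * u0) * u1) ^ 2 / (4 * τ2)
          + -((m 3 : ℂ) - ((m 2 : ℂ) - ((m 1 : ℂ) - (m 0 : ℂ) * u0) * u1) * u2) ^ 2 / (4 * τ3))

/-- The generic four-fold Poisson summation. -/
theorem thC_pkg4 (τ0 τ1 τ2 τ3 : ℂ) (h0 : 0 < τ0.im) (h1 : 0 < τ1.im) (h2 : 0 < τ2.im)
    (h3 : 0 < τ3.im) (s0 s1 s2 s3 u0 u1 u2 : ℝ) :
    (Summable fun x : Fin 4 → ℤ => ‖thCF τ0 τ1 τ2 τ3 s0 s1 s2 s3 u0 u1 u2 x‖) ∧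
    (Summable fun m : Fin 4 → ℤ => ‖thCG τ0 τ1 τ2 τ3 s0 s1 s2 s3 u0 u1 u2 m‖) ∧
    (∑' x : Fin 4 → ℤ, thCF τ0 τ1 τ2 τ3 s0 s1 s2 s3 u0 u1 u2 x =
      ∑' m : Fin 4 → ℤ, thCG τ0 τ1 τ2 τ3 s0 s1 s2 s3 u0 u1 u2 m) := by
  have h := (((PoissonPkg.base.step τ3 h3 s3 0).step τ2 h2 s2 u2).step τ1 h1 s1 u1).step τ0 h0 s0 u0
  have hF : ∀ x : ℤ × ℤ × ℤ × ℤ × Unit, thCF τ0 τ1 τ2 τ3 s0 s1 s2 s3 u0 u1 u2 (thCequiv x) =
      ee (τ0 * ((x.1 : ℂ) + s0 + u0 * ((x.2.1 : ℝ) : ℂ)) ^ 2) *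
        (ee (τ1 * ((x.2.1 : ℂ) + s1 + u1 * ((x.2.2.1 : ℝ) : ℂ)) ^ 2) *
          (ee (τ2 * ((x.2.2.1 : ℂ) + s2 + u2 * ((x.2.2.2.1 : ℝ) : ℂ)) ^ 2) *
            (ee (τ3 * ((x.2.2.2.1 : ℂ) + s3 + ((0 : ℝ) : ℂ) * ((0 : ℝ) : ℂ)) ^ 2) * 1))) := by
    intro x
    unfold thCF
    rw [thC_ee_add, thC_ee_add, thC_ee_add, thCequiv_0, thCequiv_1, thCequiv_2, thCequiv_3]
    simp only [Complex.ofReal_intCast, Complex.ofReal_zero, mul_zero, add_zero, mul_one]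
    ring
  have hG : ∀ m : ℤ × ℤ × ℤ × ℤ × Unit, thCG τ0 τ1 τ2 τ3 s0 s1 s2 s3 u0 u1 u2 (thCequiv m) =
      1 / (-2 * I * τ0) ^ (1 / 2 : ℂ) * ee (((m.1 : ℂ) - ((0 : ℝ) : ℂ)) * s0) *
          ee (-((m.1 : ℂ) - ((0 : ℝ) : ℂ)) ^ 2 / (4 * τ0)) *
      (1 / (-2 * I * τ1) ^ (1 / 2 : ℂ) * ee (((m.2.1 : ℂ) - ((((m.1 : ℝ) - 0) * u0 : ℝ) : ℂ)) * s1) *
          ee (-((m.2.1 : ℂ) - ((((m.1 : ℝ) - 0) * u0 : ℝ) : ℂ)) ^ 2 / (4 * τ1)) *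
        (1 / (-2 * I * τ2) ^ (1 / 2 : ℂ) *
            ee (((m.2.2.1 : ℂ) - ((((m.2.1 : ℝ) - ((m.1 : ℝ) - 0) * u0) * u1 : ℝ) : ℂ)) * s2) *
            ee (-((m.2.2.1 : ℂ) - ((((m.2.1 : ℝ) - ((m.1 : ℝ) - 0) * u0) * u1 : ℝ) : ℂ)) ^ 2 / (4 * τ2)) *
          (1 / (-2 * I * τ3) ^ (1 / 2 : ℂ) *
                ee (((m.2.2.2.1 : ℂ) -
                  ((((m.2.2.1 : ℝ) - ((m.2.1 : ℝ) - ((m.1 : ℝ) - 0) * u0) * u1) * u2 : ℝ) : ℂ)) * s3) *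
              ee (-((m.2.2.2.1 : ℂ) -
                  ((((m.2.2.1 : ℝ) - ((m.2.1 : ℝ) - ((m.1 : ℝ) - 0) * u0) * u1) * u2 : ℝ) : ℂ)) ^ 2 / (4 * τ3)) *
            1))) := by
    intro m
    unfold thCG
    rw [thC_ee_add, thC_ee_add, thC_ee_add, thC_ee_add, thC_ee_add, thC_ee_add,
      thCequiv_0, thCequiv_1, thCequiv_2, thCequiv_3]
    simp only [Complex.ofReal_intCast, Complex.ofReal_zero, Complex.ofReal_mul, Complex.ofReal_sub,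
      sub_zero, mul_one]
    ring
  refine ⟨?_, ?_, ?_⟩
  · rw [← thCequiv.summable_iff]
    refine h.sF.congr fun x => ?_
    simp only [Function.comp_apply]
    rw [hF]
  · rw [← thCequiv.summable_iff]
    refine (h.sG 0).congr fun x => ?_
    simp only [Function.comp_apply]
    rw [hG]
  · rw [← thCequiv.tsum_eq, ← thCequiv.tsum_eq (fun m => thCG τ0 τ1 τ2 τ3 s0 s1 s2 s3 u0 u1 u2 m)]
    have := h.eq 0
    simp only [Complex.ofReal_zero, zero_mul, thC_ee_zero, one_mul] at this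
    simp only [hF, hG]
    simpa using this

theorem thC_const (P q : ℝ) (hP : 0 < P) (hq : 0 < q) (w : ℂ) (hw : 0 < w.im) :
    (1 / (-2 * I * w) ^ (1 / 2 : ℂ) * (1 / (-2 * I * (w * ((q / 4 : ℝ) : ℂ))) ^ (1 / 2 : ℂ)) *
        (1 / (-2 * I * (w * ((P / q : ℝ) : ℂ))) ^ (1 / 2 : ℂ)) *
        (1 / (-2 * I * (w * ((P / 4 : ℝ) : ℂ))) ^ (1 / 2 : ℂ))) = -(w ^ 2 * (P : ℂ))⁻¹ := by
  have hw0 : w ≠ 0 := by rintro rfl; simp at hw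
  have hz : (-2 * I * w) ≠ 0 := mul_ne_zero (mul_ne_zero (by norm_num) I_ne_zero) hw0
  have e1 : (-2 * I * (w * ((q / 4 : ℝ) : ℂ))) = ((q / 4 : ℝ) : ℂ) * (-2 * I * w) := by ring
  have e2 : (-2 * I * (w * ((P / q : ℝ) : ℂ))) = ((P / q : ℝ) : ℂ) * (-2 * I * w) := by ring
  have e3 : (-2 * I * (w * ((P / 4 : ℝ) : ℂ))) = ((P / 4 : ℝ) : ℂ) * (-2 * I * w) := by ring
  rw [e1, e2, e3, thC_sqrt_mul _ (by positivity) _ hz, thC_sqrt_mul _ (by positivity) _ hz,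
    thC_sqrt_mul _ (by positivity) _ hz]
  set ζ := (-2 * I * w) ^ (1 / 2 : ℂ) with hζ
  have hζ2 : ζ ^ 2 = -2 * I * w := thC_sqrt_sq _
  have hζ0 : ζ ≠ 0 := by
    intro h; rw [h] at hζ2; exact hz (by rw [← hζ2]; ring)
  have hs : Real.sqrt (q / 4) * Real.sqrt (P / q) * Real.sqrt (P / 4) = P / 4 := by
    rw [← Real.sqrt_mul (by positivity), ← Real.sqrt_mul (by positivity)]
    have : q / 4 * (P / q) * (P / 4) = (P / 4) ^ 2 := by field_simp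
    rw [this, Real.sqrt_sq (by positivity)]
  have hsC : (Real.sqrt (q / 4) : ℂ) * (Real.sqrt (P / q) : ℂ) * (Real.sqrt (P / 4) : ℂ) = (P : ℂ) / 4 := by
    have := congrArg (fun x : ℝ => (x : ℂ)) hs
    push_cast at this
    exact this
  have hP' : (P : ℂ) ≠ 0 := by exact_mod_cast hP.ne'
  have h1 : (1 / ζ * (1 / ((Real.sqrt (q / 4) : ℂ) * ζ)) * (1 / ((Real.sqrt (P / q) : ℂ) * ζ)) *
      (1 / ((Real.sqrt (P / 4) : ℂ) * ζ))) =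
      1 / (((Real.sqrt (q / 4) : ℂ) * (Real.sqrt (P / q) : ℂ) * (Real.sqrt (P / 4) : ℂ)) * (ζ ^ 2) ^ 2) := by
    rw [one_div_mul_one_div, one_div_mul_one_div, one_div_mul_one_div]
    congr 1; ring
  rw [h1, hsC, hζ2]
  have : (P : ℂ) / 4 * (-2 * I * w) ^ 2 = -(w ^ 2 * (P : ℂ)) := by
    have hI : I ^ 2 = -1 := I_sq
    linear_combination (P : ℂ) * w ^ 2 * hI
  rw [this, one_div, inv_neg]

section concrete

variable (p : ℕ) (hp0 : 0 < p) (q r s t : ℤ) (hq0 : 0 < q) (hs : 4 * s = q + 1)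
  (ht : q * t = r ^ 2 + p)

include hp0 hq0 hs ht

theorem thC_F_eq (w : ℂ) (g x : Fin 4 → ℤ) :
    thCF w (w * ((q / 4 : ℝ) : ℂ)) (w * ((p / q : ℝ) : ℂ)) (w * ((p / 4 : ℝ) : ℂ))
      ((g 0 + g 1 / 2) / p) ((g 1 + 2 * r / q * g 2) / p) ((g 2 + q / 2 * g 3) / p) (g 3 / p)
      (1 / 2) (2 * r / q) (q / 2) x =
    ee (w * ((QF r s t (p : ℤ) (g + (p : ℤ) • x) : ℤ) : ℂ) / (p : ℂ) ^ 2) := by
  have hpC : (p : ℂ) ≠ 0 := by exact_mod_cast hp0.ne'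
  have hqC : (q : ℂ) ≠ 0 := by exact_mod_cast hq0.ne'
  have hsC : (s : ℂ) = ((q : ℂ) + 1) / 4 := by
    have := congrArg (fun x : ℤ => (x : ℂ)) hs
    push_cast at this
    rw [← this]; ring
  have htC : (t : ℂ) = ((r : ℂ) ^ 2 + p) / q := by
    have := congrArg (fun x : ℤ => (x : ℂ)) ht
    push_cast at this
    rw [← this]; field_simp
  unfold thCF
  congr 1
  simp only [QF, Pi.add_apply, Pi.smul_apply, smul_eq_mul]
  push_cast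
  rw [hsC, htC]
  field_simp
  ring

theorem thC_G_eq (w : ℂ) (hw : 0 < w.im) (g m : Fin 4 → ℤ) :
    thCG w (w * ((q / 4 : ℝ) : ℂ)) (w * ((p / q : ℝ) : ℂ)) (w * ((p / 4 : ℝ) : ℂ))
      ((g 0 + g 1 / 2) / p) ((g 1 + 2 * r / q * g 2) / p) ((g 2 + q / 2 * g 3) / p) (g 3 / p)
      (1 / 2) (2 * r / q) (q / 2) m =
    -(w ^ 2 * (p : ℂ))⁻¹ * (ee (-((QFd q r s t m : ℤ) : ℂ) / ((p : ℂ) * w)) *
      ee (((m ⬝ᵥ g : ℤ) : ℂ) / (p : ℂ))) := by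
  have hw0 : w ≠ 0 := by rintro rfl; simp at hw
  have hpC : (p : ℂ) ≠ 0 := by exact_mod_cast hp0.ne'
  have hqC : (q : ℂ) ≠ 0 := by exact_mod_cast hq0.ne'
  have hsC : (s : ℂ) = ((q : ℂ) + 1) / 4 := by
    have := congrArg (fun x : ℤ => (x : ℂ)) hs
    push_cast at this
    rw [← this]; ring
  have htC : (t : ℂ) = ((r : ℂ) ^ 2 + p) / q := by
    have := congrArg (fun x : ℤ => (x : ℂ)) ht
    push_cast at this
    rw [← this]; field_simp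
  unfold thCG
  have hc := thC_const (p : ℝ) (q : ℝ) (by exact_mod_cast hp0) (by exact_mod_cast hq0) w hw
  rw [hc, mul_assoc, mul_comm (ee (-((QFd q r s t m : ℤ) : ℂ) / ((p : ℂ) * w)))]
  congr 2
  · congr 1
    simp only [dotProduct, Fin.sum_univ_four]
    push_cast
    field_simp
    ring
  · congr 1
    simp only [QFd]
    push_cast
    rw [hsC, htC]
    field_simp
    ring

omit hp0 hq0 hs ht in
theorem thC_im_pos (w : ℂ) (hw : 0 < w.im) (c : ℝ) (hc : 0 < c) : 0 < (w * (c : ℂ)).im := by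
  rw [mul_comm, Complex.im_ofReal_mul]; positivity

omit hp0 hq0 hs ht in
theorem thC_QF_smul (c : ℤ) (x : Fin 4 → ℤ) : QF r s t (p : ℤ) (c • x) = c ^ 2 * QF r s t (p : ℤ) x := by
  simp only [QF, Pi.smul_apply, smul_eq_mul]; ring

theorem thC_all (w : ℂ) (hw : 0 < w.im) (g : Fin 4 → ℤ) :
    (Summable fun x : Fin 4 → ℤ =>
      ‖ee (w * ((QF r s t (p : ℤ) (g + (p : ℤ) • x) : ℤ) : ℂ) / (p : ℂ) ^ 2)‖) ∧
    (Summable fun m : Fin 4 → ℤ => ‖-(w ^ 2 * (p : ℂ))⁻¹ * (ee (-((QFd q r s t m : ℤ) : ℂ) / ((p : ℂ) * w)) *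
      ee (((m ⬝ᵥ g : ℤ) : ℂ) / (p : ℂ)))‖) ∧
    (∑' x : Fin 4 → ℤ, ee (w * ((QF r s t (p : ℤ) (g + (p : ℤ) • x) : ℤ) : ℂ) / (p : ℂ) ^ 2) =
      ∑' m : Fin 4 → ℤ, -(w ^ 2 * (p : ℂ))⁻¹ * (ee (-((QFd q r s t m : ℤ) : ℂ) / ((p : ℂ) * w)) *
      ee (((m ⬝ᵥ g : ℤ) : ℂ) / (p : ℂ)))) := by
  have hpR : (0 : ℝ) < p := by exact_mod_cast hp0
  have hqR : (0 : ℝ) < q := by exact_mod_cast hq0
  have h := thC_pkg4 w (w * ((q / 4 : ℝ) : ℂ)) (w * ((p / q : ℝ) : ℂ)) (w * ((p / 4 : ℝ) : ℂ)) hw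
    (thC_im_pos w hw _ (by positivity))
    (thC_im_pos w hw _ (by positivity))
    (thC_im_pos w hw _ (by positivity))
      ((g 0 + g 1 / 2) / p) ((g 1 + 2 * r / q * g 2) / p) ((g 2 + q / 2 * g 3) / p) (g 3 / p)
      (1 / 2) (2 * r / q) (q / 2)
  simp only [thC_F_eq p hp0 q r s t hq0 hs ht w g, thC_G_eq p hp0 q r s t hq0 hs ht w hw g] at h
  exact h

theorem thC_pos (x : Fin 4 → ℤ) (hx : x ≠ 0) : 0 < QF r s t (p : ℤ) x := by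
  have hpZ : (0 : ℤ) < p := by exact_mod_cast hp0
  have key : 4 * q * QF r s t (p : ℤ) x = q * (2 * x 0 + x 1) ^ 2 + (q * x 1 + 2 * r * x 2) ^ 2
      + p * (2 * x 2 + q * x 3) ^ 2 + p * q * x 3 ^ 2 := by
    simp only [QF]
    linear_combination (q * x 1 ^ 2 + p * q * x 3 ^ 2) * hs + 4 * x 2 ^ 2 * ht
  by_contra hneg
  rw [not_lt] at hneg
  have h0 : 4 * q * QF r s t (p : ℤ) x ≤ 0 := mul_nonpos_of_nonneg_of_nonpos (by positivity) hneg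
  have t1 : 0 ≤ q * (2 * x 0 + x 1) ^ 2 := by positivity
  have t2 : 0 ≤ (q * x 1 + 2 * r * x 2) ^ 2 := by positivity
  have t3 : 0 ≤ (p : ℤ) * (2 * x 2 + q * x 3) ^ 2 := by positivity
  have t4 : 0 ≤ (p : ℤ) * q * x 3 ^ 2 := by positivity
  have e1 : q * (2 * x 0 + x 1) ^ 2 = 0 := by linarith
  have e2 : (q * x 1 + 2 * r * x 2) ^ 2 = 0 := by linarith
  have e3 : (p : ℤ) * (2 * x 2 + q * x 3) ^ 2 = 0 := by linarith
  have e4 : (p : ℤ) * q * x 3 ^ 2 = 0 := by linarith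
  have x3 : x 3 = 0 := by
    have := (mul_eq_zero.1 e4).resolve_left (mul_ne_zero hpZ.ne' hq0.ne')
    exact pow_eq_zero_iff (two_ne_zero) |>.1 this
  have x2 : x 2 = 0 := by
    have := (mul_eq_zero.1 e3).resolve_left hpZ.ne'
    have := pow_eq_zero_iff (two_ne_zero) |>.1 this
    rw [x3] at this; linarith
  have x1 : x 1 = 0 := by
    have := pow_eq_zero_iff (two_ne_zero) |>.1 e2
    rw [x2] at this
    have h' : q * x 1 = 0 := by linarith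
    exact (mul_eq_zero.1 h').resolve_left hq0.ne'
  have x0 : x 0 = 0 := by
    have := (mul_eq_zero.1 e1).resolve_left hq0.ne'
    have := pow_eq_zero_iff (two_ne_zero) |>.1 this
    rw [x1] at this; linarith
  apply hx
  ext i
  fin_cases i
  · exact x0
  · exact x1
  · exact x2
  · exact x3

theorem thC_summ (y : ℝ) (hy : 0 < y) :
    Summable fun x : Fin 4 → ℤ => Real.exp (-y * ((QF r s t (p : ℤ) x : ℤ) : ℝ)) := by
  have hpC : (p : ℂ) ≠ 0 := by exact_mod_cast hp0.ne'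
  have hw : 0 < (I * ((y / (2 * π) : ℝ) : ℂ)).im := by
    rw [mul_comm, Complex.im_ofReal_mul]; simp; positivity
  refine (thC_all p hp0 q r s t hq0 hs ht _ hw 0).1.congr fun x => ?_
  rw [thC_norm_ee, zero_add, thC_QF_smul]
  congr 1
  have : (I * ((y / (2 * π) : ℝ) : ℂ) * (((p : ℤ) ^ 2 * QF r s t (p : ℤ) x : ℤ) : ℂ) / (p : ℂ) ^ 2) =
      ((y / (2 * π) * (QF r s t (p : ℤ) x : ℤ) : ℝ) : ℂ) * I := by
    push_cast; field_simp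
  rw [this, Complex.im_ofReal_mul]
  simp only [Complex.I_im, mul_one]
  field_simp

theorem thC_summd (y : ℝ) (hy : 0 < y) :
    Summable fun x : Fin 4 → ℤ => Real.exp (-y * ((QFd q r s t x : ℤ) : ℝ)) := by
  have hpC : (p : ℂ) ≠ 0 := by exact_mod_cast hp0.ne'
  have hpR : (0 : ℝ) < p := by exact_mod_cast hp0
  have hyC : (y : ℂ) ≠ 0 := by exact_mod_cast hy.ne'
  have hπC : (π : ℂ) ≠ 0 := by exact_mod_cast Real.pi_ne_zero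
  have hw : 0 < (I * ((2 * π / (p * y) : ℝ) : ℂ)).im := by
    rw [mul_comm, Complex.im_ofReal_mul]; simp; positivity
  have h := (thC_all p hp0 q r s t hq0 hs ht _ hw 0).2.1
  set C := -((I * ((2 * π / (p * y) : ℝ) : ℂ)) ^ 2 * (p : ℂ))⁻¹ with hC
  have hC0 : ‖C‖ ≠ 0 := by
    rw [hC, norm_ne_zero_iff, neg_ne_zero]
    apply inv_ne_zero
    refine mul_ne_zero (pow_ne_zero _ (mul_ne_zero I_ne_zero ?_)) hpC
    have : (2 * π / (p * y) : ℝ) ≠ 0 := by positivity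
    exact_mod_cast this
  have h2 := h.mul_left (‖C‖⁻¹)
  refine h2.congr fun m => ?_
  rw [norm_mul, ← mul_assoc, inv_mul_cancel₀ hC0, one_mul, norm_mul, thC_norm_ee, thC_norm_ee]
  have e1 : (((m ⬝ᵥ (0 : Fin 4 → ℤ) : ℤ) : ℂ) / (p : ℂ)).im = 0 := by simp
  rw [e1, mul_zero, neg_zero, Real.exp_zero, mul_one]
  congr 1
  have : (-((QFd q r s t m : ℤ) : ℂ) / ((p : ℂ) * (I * ((2 * π / (p * y) : ℝ) : ℂ)))) =
      ((y / (2 * π) * (QFd q r s t m : ℤ) : ℝ) : ℂ) * I := by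
    push_cast
    field_simp
    rw [Complex.I_sq]; ring
  rw [this, Complex.im_ofReal_mul]
  simp only [Complex.I_im, mul_one]
  field_simp

end concrete

theorem isLat_QF_aux (p : ℕ) [Fact p.Prime] (hp : p ≠ 2) (q r s t : ℤ) (hq0 : 0 < q)
    (hs : 4 * s = q + 1) (ht : q * t = r ^ 2 + p) (hq : ¬ IsSquare ((-q : ℤ) : ZMod p)) :
    IsLat p (matA r s t p) (matB q r s t) (QF r s t (p : ℤ)) (QFd q r s t) := by
  have hp0 : 0 < p := (Fact.out : p.Prime).pos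
  refine ⟨?_, ?_, ?_, ?_, ?_, thC_pos p hp0 q r s t hq0 hs ht, thC_summ p hp0 q r s t hq0 hs ht,
    thC_summd p hp0 q r s t hq0 hs ht, ?_, gauss_QF p hp q r s t hs ht hq⟩
  · ext i j; fin_cases i <;> fin_cases j <;> rfl
  · ext i j; fin_cases i <;> fin_cases j <;> rfl
  · have hq' : q = 4 * s - 1 := by linarith
    subst hq'
    have hP : (p : ℤ) = (4 * s - 1) * t - r ^ 2 := by linarith
    rw [hP]
    ext i j
    fin_cases i <;> fin_cases j <;>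
      simp [matA, matB, Matrix.mul_apply, Fin.sum_univ_four] <;> ring
  · intro x
    simp [QF, matA, dotProduct, Matrix.mulVec, Fin.sum_univ_four]
    ring
  · intro x
    simp [QFd, matB, dotProduct, Matrix.mulVec, Fin.sum_univ_four]
    ring
  · intro w hw g
    rw [(thC_all p hp0 q r s t hq0 hs ht w hw g).2.2, tsum_mul_left]

end

end Fermat.Agent.S16
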