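import Mathlib

/-!
# S16, theta half: shared definitions

`V = Fin 4 → ℤ`.  An even positive definite quaternary lattice of determinant `p²` and level `p` is
given by integral symmetric matrices `A`, `B` with `A B = p` and integer valued quadratic forms
`Q x = xᵀ A x / 2`, `Qd m = mᵀ B m / 2`.  `IsLat` bundles these algebraic facts with the two
"analytic/arithmetic" inputs: the theta inversion formula with characteristics `inv`, and the value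
`-p³` of the quadratic Gauss sum of `Q` mod `p`.
-/

set_option autoImplicit false

namespace Fermat.Agent.S16

open Complex Matrix
open scoped Real

noncomputable section

/-- `e(x) = exp(2 π i x)`. -/
def ee (x : ℂ) : ℂ := Complex.exp (2 * π * I * x)

/-- The theta series `∑_{x ∈ ℤ⁴} e(z Q(x))`. -/
def thetaFn (Q : (Fin 4 → ℤ) → ℤ) (z : ℂ) : ℂ := ∑' x : Fin 4 → ℤ, ee (z * (Q x : ℂ))

/-- Lift of a vector mod `p` to `ℤ⁴`. -/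
def liftV {p : ℕ} (g : Fin 4 → ZMod p) : Fin 4 → ℤ := fun i => ((g i).val : ℤ)

structure IsLat (p : ℕ) [NeZero p] (A B : Matrix (Fin 4) (Fin 4) ℤ) (Q Qd : (Fin 4 → ℤ) → ℤ) : Prop where
  symmA : A.IsSymm
  symmB : B.IsSymm
  mulAB : A * B = (p : ℤ) • (1 : Matrix (Fin 4) (Fin 4) ℤ)
  twoQ : ∀ x, 2 * Q x = x ⬝ᵥ A *ᵥ x
  twoQd : ∀ x, 2 * Qd x = x ⬝ᵥ B *ᵥ x
  pos : ∀ x, x ≠ 0 → 0 < Q x
  summ : ∀ y : ℝ, 0 < y → Summable fun x : Fin 4 → ℤ => Real.exp (-y * (Q x : ℝ))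
  summd : ∀ y : ℝ, 0 < y → Summable fun x : Fin 4 → ℤ => Real.exp (-y * (Qd x : ℝ))
  /-- theta inversion with characteristic `g / p` -/
  inv : ∀ (w : ℂ), 0 < w.im → ∀ g : Fin 4 → ℤ,
    ∑' y : Fin 4 → ℤ, ee (w * (Q (g + (p : ℤ) • y) : ℂ) / (p : ℂ) ^ 2) =
      -(w ^ 2 * (p : ℂ))⁻¹ *
        ∑' m : Fin 4 → ℤ, ee (-(Qd m : ℂ) / ((p : ℂ) * w)) * ee (((m ⬝ᵥ g : ℤ) : ℂ) / (p : ℂ))
  /-- the quadratic Gauss sum -/
  gauss : ∀ a : ℤ, ¬ (p : ℤ) ∣ a →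
    ∑ g : Fin 4 → ZMod p, ZMod.stdAddChar (((a * Q (liftV g) : ℤ)) : ZMod p) = -(p : ℂ) ^ 3

/-- The concrete quadratic form (over any commutative ring)
`x₀² + x₀x₁ + s x₁² + r x₁x₂ + t x₂² + P x₂x₃ + P s x₃²`; we use it with `4 s = q + 1`,
`q t = r² + P`.  Over `ℚ`:
`QF = (x₀ + x₁/2)² + (q/4) (x₁ + (2r/q) x₂)² + (P/q) (x₂ + (q/2) x₃)² + (P/4) x₃²`. -/
def QF {R : Type*} [CommRing R] (r s t P : R) (x : Fin 4 → R) : R :=
  x 0 ^ 2 + x 0 * x 1 + s * x 1 ^ 2 + r * x 1 * x 2 + t * x 2 ^ 2 + P * x 2 * x 3 + P * s * x 3 ^ 2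

/-- The dual form `P · (xᵀ A⁻¹ x / 2)`. -/
def QFd {R : Type*} [CommRing R] (q r s t : R) (m : Fin 4 → R) : R :=
  s * t * m 0 ^ 2 - (t + r ^ 2) * m 0 * m 1 + (t + r ^ 2) * m 1 ^ 2 + 2 * s * r * m 0 * m 2
    - 4 * s * r * m 1 * m 2 + s * q * m 2 ^ 2 - r * m 0 * m 3 + 2 * r * m 1 * m 3 - q * m 2 * m 3
    + m 3 ^ 2

/-- Gram matrix of `QF`. -/
def matA (r s t P : ℤ) : Matrix (Fin 4) (Fin 4) ℤ :=
  !![2, 1, 0, 0; 1, 2 * s, r, 0; 0, r, 2 * t, P; 0, 0, P, 2 * P * s]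

/-- Gram matrix of `QFd`. -/
def matB (q r s t : ℤ) : Matrix (Fin 4) (Fin 4) ℤ :=
  !![2 * s * t, -(t + r ^ 2), 2 * s * r, -r;
     -(t + r ^ 2), 2 * (t + r ^ 2), -4 * s * r, 2 * r;
     2 * s * r, -4 * s * r, 2 * s * q, -q;
     -r, 2 * r, -q, 2]

end

end Fermat.Agent.S16
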