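import Fermat.Agent.S16.ThetaDefs

/-!
# S16, theta half, piece TH-P: iterated one dimensional Poisson summation
-/

set_option autoImplicit false

namespace Fermat.Agent.S16

open Complex
open scoped Real

noncomputable section

theorem ee_add (x y : ℂ) : ee (x + y) = ee x * ee y := by
  unfold ee; rw [← Complex.exp_add]; congr 1; ring

theorem ee_zero : ee 0 = 1 := by simp [ee]

theorem norm_ee (x : ℂ) : ‖ee x‖ = Real.exp (-2 * π * x.im) := by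
  unfold ee
  rw [Complex.norm_exp]
  congr 1
  have : (2 * (π : ℂ) * I * x) = ((2 * π : ℝ) : ℂ) * (I * x) := by push_cast; ring
  rw [this, Complex.re_ofReal_mul]
  simp

theorem norm_ee_ofReal (x : ℝ) : ‖ee (x : ℂ)‖ = 1 := by
  rw [norm_ee]; simp

theorem norm_ee_mul_ofReal (τ : ℂ) (x : ℝ) : ‖ee (τ * (x : ℂ))‖ = Real.exp (-(2 * π * τ.im) * x) := by
  rw [norm_ee]; congr 1
  rw [mul_comm τ, Complex.im_ofReal_mul]; ring

/-- summability of the Gaussian on `ℤ`. -/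
theorem summable_gauss0 {a : ℝ} (ha : 0 < a) : Summable fun n : ℤ => Real.exp (-a * (n : ℝ) ^ 2) := by
  have h := summable_pow_mul_jacobiTheta₂_term_bound 0 (T := a / π) (by positivity) 0
  refine h.congr fun n => ?_
  have : π ≠ 0 := Real.pi_ne_zero
  simp only [pow_zero, one_mul]
  congr 1
  field_simp
  ring

/-- the uniform constant -/
def gaussC (a : ℝ) : ℝ := Real.exp a * ∑' n : ℤ, Real.exp (-(a / 2) * (n : ℝ) ^ 2)

theorem gauss_le {a : ℝ} (ha : 0 < a) {c : ℝ} (h0 : 0 ≤ c) (h1 : c < 1) (n : ℤ) :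
    Real.exp (-a * ((n : ℝ) + c) ^ 2) ≤ Real.exp a * Real.exp (-(a / 2) * (n : ℝ) ^ 2) := by
  rw [← Real.exp_add, Real.exp_le_exp]
  have : ((n : ℝ) + c) ^ 2 ≥ (n : ℝ) ^ 2 / 2 - 1 := by nlinarith [sq_nonneg ((n : ℝ) + 2 * c)]
  nlinarith

theorem summable_gauss {a : ℝ} (ha : 0 < a) (c : ℝ) :
    Summable fun n : ℤ => Real.exp (-a * ((n : ℝ) + c) ^ 2) := by
  have h1 : Summable fun n : ℤ => Real.exp (-a * ((n : ℝ) + Int.fract c) ^ 2) :=
    Summable.of_nonneg_of_le (fun _ => (Real.exp_pos _).le)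
      (fun n => gauss_le ha (Int.fract_nonneg c) (Int.fract_lt_one c) n)
      ((summable_gauss0 (by positivity : 0 < a / 2)).mul_left _)
  have h2 := (Equiv.addRight ⌊c⌋).summable_iff.mpr h1
  refine h2.congr fun n => ?_
  simp only [Function.comp, Equiv.coe_addRight, Int.cast_add]
  have := Int.floor_add_fract c
  rw [show (n : ℝ) + ⌊c⌋ + Int.fract c = n + c by linarith]

theorem tsum_gauss_le {a : ℝ} (ha : 0 < a) (c : ℝ) :
    ∑' n : ℤ, Real.exp (-a * ((n : ℝ) + c) ^ 2) ≤ gaussC a := by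
  have h1 : Summable fun n : ℤ => Real.exp (-a * ((n : ℝ) + Int.fract c) ^ 2) :=
    summable_gauss ha _
  have h2 : ∑' n : ℤ, Real.exp (-a * ((n : ℝ) + c) ^ 2) =
      ∑' n : ℤ, Real.exp (-a * ((n : ℝ) + Int.fract c) ^ 2) := by
    rw [← (Equiv.addRight ⌊c⌋).tsum_eq (fun n : ℤ => Real.exp (-a * ((n : ℝ) + Int.fract c) ^ 2))]
    refine tsum_congr fun n => ?_
    simp only [Equiv.coe_addRight, Int.cast_add]
    have := Int.floor_add_fract c
    rw [show (n : ℝ) + ⌊c⌋ + Int.fract c = n + c by linarith]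
  rw [h2, gaussC, ← tsum_mul_left]
  exact h1.tsum_le_tsum (fun n => gauss_le ha (Int.fract_nonneg c) (Int.fract_lt_one c) n)
    ((summable_gauss0 (by positivity : 0 < a / 2)).mul_left _)

theorem poisson1 (τ : ℂ) (hτ : 0 < τ.im) (c κ : ℝ) :
    ∑' n : ℤ, ee (κ * n) * ee (τ * ((n : ℂ) + c) ^ 2) =
      1 / (-2 * I * τ) ^ (1 / 2 : ℂ) *
        ∑' m : ℤ, ee (((m : ℂ) - κ) * c) * ee (-((m : ℂ) - κ) ^ 2 / (4 * τ)) := by
  have hτ0 : τ ≠ 0 := by rintro rfl; simp at hτ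
  have h1 : ∀ n : ℤ, ee (κ * n) * ee (τ * ((n : ℂ) + c) ^ 2) =
      ee (τ * c ^ 2) * jacobiTheta₂_term n (κ + 2 * c * τ) (2 * τ) := by
    intro n
    unfold ee jacobiTheta₂_term
    rw [← Complex.exp_add, ← Complex.exp_add]
    congr 1; ring
  have h2 : ∀ m : ℤ, ee (((m : ℂ) - κ) * c) * ee (-((m : ℂ) - κ) ^ 2 / (4 * τ)) =
      ee (-κ * c - κ ^ 2 / (4 * τ)) *
        jacobiTheta₂_term m ((κ + 2 * c * τ) / (2 * τ)) (-1 / (2 * τ)) := by
    intro m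
    unfold ee jacobiTheta₂_term
    rw [← Complex.exp_add, ← Complex.exp_add]
    congr 1; field_simp; ring
  simp_rw [h1, h2, tsum_mul_left]
  rw [← jacobiTheta₂, ← jacobiTheta₂, jacobiTheta₂_functional_equation]
  have h3 : ee (τ * c ^ 2) * cexp (-π * I * (κ + 2 * c * τ) ^ 2 / (2 * τ)) =
      ee (-κ * c - κ ^ 2 / (4 * τ)) := by
    unfold ee
    rw [← Complex.exp_add]
    congr 1; field_simp; ring
  rw [← h3]
  have h4 : -I * (2 * τ) = -2 * I * τ := by ring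
  rw [h4]
  ring

theorem gaussC_nonneg (a : ℝ) : 0 ≤ gaussC a :=
  mul_nonneg (Real.exp_pos _).le (tsum_nonneg fun _ => (Real.exp_pos _).le)

/-- Gaussian in `n` with a shift depending on `x`, times a summable function of `x`. -/
theorem summable_gauss_mul_swap {X : Type} {a : ℝ} (ha : 0 < a) (c : X → ℝ) {f : X → ℝ}
    (hf0 : ∀ x, 0 ≤ f x) (hf : Summable f) :
    Summable fun x : X × ℤ => Real.exp (-a * ((x.2 : ℝ) + c x.1) ^ 2) * f x.1 := by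
  have h0 : ∀ x : X × ℤ, 0 ≤ Real.exp (-a * ((x.2 : ℝ) + c x.1) ^ 2) * f x.1 :=
    fun x => mul_nonneg (Real.exp_pos _).le (hf0 _)
  rw [summable_prod_of_nonneg h0]
  constructor
  · intro x
    have := (summable_gauss ha (c x)).mul_right (f x)
    exact this
  · refine Summable.of_nonneg_of_le (fun x => tsum_nonneg fun n => h0 (x, n)) (fun x => ?_)
      (hf.mul_left (gaussC a))
    show ∑' n : ℤ, Real.exp (-a * ((n : ℝ) + c x) ^ 2) * f x ≤ gaussC a * f x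
    rw [tsum_mul_right]
    exact mul_le_mul_of_nonneg_right (tsum_gauss_le ha _) (hf0 x)

theorem summable_gauss_mul {X : Type} {a : ℝ} (ha : 0 < a) (c : X → ℝ) {f : X → ℝ}
    (hf0 : ∀ x, 0 ≤ f x) (hf : Summable f) :
    Summable fun x : ℤ × X => Real.exp (-a * ((x.1 : ℝ) + c x.2) ^ 2) * f x.2 :=
  (Equiv.prodComm ℤ X).summable_iff.mpr (summable_gauss_mul_swap ha c hf0 hf)

/-- Gaussian in `m` times a family of summable functions with uniformly bounded sums. -/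
theorem summable_gauss_mul' {M : Type} {a : ℝ} (ha : 0 < a) (c : ℝ) (g : ℤ → M → ℝ)
    (hg0 : ∀ m m', 0 ≤ g m m') (hg : ∀ m, Summable (g m)) (C : ℝ) (hC : ∀ m, ∑' m', g m m' ≤ C) :
    (Summable fun x : ℤ × M => Real.exp (-a * ((x.1 : ℝ) + c) ^ 2) * g x.1 x.2) ∧
      ∑' x : ℤ × M, Real.exp (-a * ((x.1 : ℝ) + c) ^ 2) * g x.1 x.2 ≤ gaussC a * C := by
  have h0 : ∀ x : ℤ × M, 0 ≤ Real.exp (-a * ((x.1 : ℝ) + c) ^ 2) * g x.1 x.2 :=
    fun x => mul_nonneg (Real.exp_pos _).le (hg0 _ _)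
  have hle : ∀ m : ℤ, ∑' m', Real.exp (-a * ((m : ℝ) + c) ^ 2) * g m m' ≤
      Real.exp (-a * ((m : ℝ) + c) ^ 2) * C := by
    intro m
    rw [tsum_mul_left]
    exact mul_le_mul_of_nonneg_left (hC m) (Real.exp_pos _).le
  have hs1 : Summable fun m : ℤ => ∑' m', Real.exp (-a * ((m : ℝ) + c) ^ 2) * g m m' :=
    Summable.of_nonneg_of_le (fun m => tsum_nonneg fun m' => h0 (m, m')) hle
      ((summable_gauss ha c).mul_right C)
  have hs : Summable fun x : ℤ × M => Real.exp (-a * ((x.1 : ℝ) + c) ^ 2) * g x.1 x.2 := by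
    rw [summable_prod_of_nonneg h0]
    refine ⟨fun m => ?_, hs1⟩
    have := (hg m).mul_left (Real.exp (-a * ((m : ℝ) + c) ^ 2))
    exact this
  refine ⟨hs, ?_⟩
  rw [hs.tsum_prod]
  have hC0 : 0 ≤ C := le_trans (tsum_nonneg (hg0 0)) (hC 0)
  calc ∑' m : ℤ, ∑' m', Real.exp (-a * ((m : ℝ) + c) ^ 2) * g m m'
      ≤ ∑' m : ℤ, Real.exp (-a * ((m : ℝ) + c) ^ 2) * C :=
        hs1.tsum_le_tsum hle ((summable_gauss ha c).mul_right C)
    _ = (∑' m : ℤ, Real.exp (-a * ((m : ℝ) + c) ^ 2)) * C := tsum_mul_right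
    _ ≤ gaussC a * C := mul_le_mul_of_nonneg_right (tsum_gauss_le ha c) hC0

/-- "Poisson package": `∑_x e(t φ(x)) F(x) = ∑_m G(t, m)` for all real `t`, with absolute summability, uniform in
`t` on the dual side. -/
structure PoissonPkg (X M : Type) (φ : X → ℝ) (F : X → ℂ) (G : ℝ → M → ℂ) : Prop where
  sF : Summable fun x => ‖F x‖
  sG : ∀ t, Summable fun m => ‖G t m‖
  bG : ∃ C, ∀ t, ∑' m, ‖G t m‖ ≤ C
  eq : ∀ t : ℝ, ∑' x, ee (t * φ x) * F x = ∑' m, G t m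

theorem PoissonPkg.base : PoissonPkg Unit Unit (fun _ => 0) (fun _ => 1) (fun _ _ => 1) where
  sF := (hasSum_fintype _).summable
  sG := fun _ => (hasSum_fintype _).summable
  bG := ⟨1, fun t => by simp⟩
  eq := fun t => by simp [ee_zero]

theorem im_neg_inv_four_mul {τ : ℂ} (hτ : 0 < τ.im) : 0 < (-1 / (4 * τ)).im := by
  have hτ0 : τ ≠ 0 := by rintro rfl; simp at hτ
  have h : (-1 / (4 * τ)) = ((1 / 4 : ℝ) : ℂ) * (-τ⁻¹) := by
    push_cast; field_simp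
  rw [h, Complex.im_ofReal_mul, Complex.neg_im, Complex.inv_im]
  have : 0 < Complex.normSq τ := Complex.normSq_pos.mpr hτ0
  have h2 : 0 < τ.im / Complex.normSq τ := div_pos hτ this
  rw [neg_div, neg_neg]
  linarith

theorem norm_gaussF (τ : ℂ) (n : ℤ) (c : ℝ) :
    ‖ee (τ * ((n : ℂ) + c) ^ 2)‖ = Real.exp (-(2 * π * τ.im) * ((n : ℝ) + c) ^ 2) := by
  rw [← norm_ee_mul_ofReal]; push_cast; rfl

theorem norm_gaussG (τ : ℂ) (m : ℤ) (κ : ℝ) :
    ‖ee (-((m : ℂ) - κ) ^ 2 / (4 * τ))‖ =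
      Real.exp (-(2 * π * (-1 / (4 * τ)).im) * ((m : ℝ) + -κ) ^ 2) := by
  rw [← norm_ee_mul_ofReal]; push_cast; congr 2; ring

/-- One more variable: `F'(n, x) = e(τ (n + s + u φ(x))²) F(x)`, `φ'(n, x) = n`. -/
theorem PoissonPkg.step {X M : Type} {φ : X → ℝ} {F : X → ℂ} {G : ℝ → M → ℂ}
    (h : PoissonPkg X M φ F G) (τ : ℂ) (hτ : 0 < τ.im) (s u : ℝ) :
    PoissonPkg (ℤ × X) (ℤ × M) (fun x => (x.1 : ℝ))
      (fun x => ee (τ * ((x.1 : ℂ) + s + u * φ x.2) ^ 2) * F x.2)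
      (fun κ m => 1 / (-2 * I * τ) ^ (1 / 2 : ℂ) * ee (((m.1 : ℂ) - κ) * s) *
        ee (-((m.1 : ℂ) - κ) ^ 2 / (4 * τ)) * G (((m.1 : ℝ) - κ) * u) m.2) := by
  have ha : 0 < 2 * π * τ.im := by positivity
  have ha' : 0 < 2 * π * (-1 / (4 * τ)).im := by
    have := im_neg_inv_four_mul hτ; positivity
  set K : ℂ := 1 / (-2 * I * τ) ^ (1 / 2 : ℂ) with hK
  obtain ⟨C, hC⟩ := h.bG
  have nF : ∀ x : ℤ × X, ‖ee (τ * ((x.1 : ℂ) + s + u * φ x.2) ^ 2) * F x.2‖ =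
      Real.exp (-(2 * π * τ.im) * ((x.1 : ℝ) + (s + u * φ x.2)) ^ 2) * ‖F x.2‖ := by
    intro x
    rw [norm_mul, ← norm_gaussF]; push_cast; rw [add_assoc]
  have n1 : ∀ (κ : ℝ) (m : ℤ) (y : ℝ), ‖ee (((m : ℂ) - κ) * y)‖ = 1 := by
    intro κ m y
    rw [← norm_ee_ofReal (((m : ℝ) - κ) * y)]; push_cast; rfl
  have nG : ∀ (κ : ℝ) (m : ℤ × M), ‖K * ee (((m.1 : ℂ) - κ) * s) *
      ee (-((m.1 : ℂ) - κ) ^ 2 / (4 * τ)) * G (((m.1 : ℝ) - κ) * u) m.2‖ =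
      Real.exp (-(2 * π * (-1 / (4 * τ)).im) * ((m.1 : ℝ) + -κ) ^ 2) *
        (‖K‖ * ‖G (((m.1 : ℝ) - κ) * u) m.2‖) := by
    intro κ m
    rw [norm_mul, norm_mul, norm_mul, norm_gaussG, n1]; ring
  have sF' : Summable fun x : ℤ × X => ‖ee (τ * ((x.1 : ℂ) + s + u * φ x.2) ^ 2) * F x.2‖ := by
    simp_rw [nF]
    exact summable_gauss_mul ha (fun x => s + u * φ x) (fun _ => norm_nonneg _) h.sF
  have sGb : ∀ κ : ℝ, (Summable fun m : ℤ × M => ‖K * ee (((m.1 : ℂ) - κ) * s) *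
      ee (-((m.1 : ℂ) - κ) ^ 2 / (4 * τ)) * G (((m.1 : ℝ) - κ) * u) m.2‖) ∧
      ∑' m : ℤ × M, ‖K * ee (((m.1 : ℂ) - κ) * s) *
      ee (-((m.1 : ℂ) - κ) ^ 2 / (4 * τ)) * G (((m.1 : ℝ) - κ) * u) m.2‖ ≤
        gaussC (2 * π * (-1 / (4 * τ)).im) * (‖K‖ * C) := by
    intro κ
    simp_rw [nG]
    exact summable_gauss_mul' ha' (-κ) (fun m m' => ‖K‖ * ‖G (((m : ℝ) - κ) * u) m'‖)
      (fun _ _ => by positivity) (fun m => (h.sG _).mul_left _) (‖K‖ * C)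
      (fun m => by rw [tsum_mul_left]; exact mul_le_mul_of_nonneg_left (hC _) (norm_nonneg _))
  refine ⟨sF', fun κ => (sGb κ).1, ⟨_, fun κ => (sGb κ).2⟩, fun κ => ?_⟩
  -- the identity
  have sH : Summable (Function.uncurry fun (n : ℤ) (x : X) => ee ((κ : ℂ) * ((n : ℝ) : ℂ)) *
      (ee (τ * ((n : ℂ) + s + u * φ x) ^ 2) * F x)) := by
    refine Summable.of_norm (sF'.congr fun x => ?_)
    simp only [Function.uncurry]
    have h1 : ‖ee ((κ : ℂ) * ((x.1 : ℝ) : ℂ))‖ = 1 := by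
      rw [← Complex.ofReal_mul, norm_ee_ofReal]
    rw [norm_mul (ee ((κ : ℂ) * ((x.1 : ℝ) : ℂ))), h1, one_mul]
  have e1 : ∑' x : ℤ × X, ee ((κ : ℂ) * ((x.1 : ℝ) : ℂ)) *
      (ee (τ * ((x.1 : ℂ) + s + u * φ x.2) ^ 2) * F x.2) =
      ∑' (x : X) (n : ℤ), ee ((κ : ℂ) * ((n : ℝ) : ℂ)) *
      (ee (τ * ((n : ℂ) + s + u * φ x) ^ 2) * F x) := by
    rw [sH.tsum_comm]
    exact sH.tsum_prod
  rw [e1]
  set J : X → ℤ → ℂ := fun x m => K * (ee (((m : ℂ) - κ) * ((s + u * φ x : ℝ) : ℂ)) *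
      ee (-((m : ℂ) - κ) ^ 2 / (4 * τ))) * F x with hJ
  have e2 : ∀ x : X, ∑' n : ℤ, ee ((κ : ℂ) * ((n : ℝ) : ℂ)) *
      (ee (τ * ((n : ℂ) + s + u * φ x) ^ 2) * F x) = ∑' m : ℤ, J x m := by
    intro x
    have := poisson1 τ hτ (s + u * φ x) κ
    simp only [hJ]
    rw [tsum_mul_right, tsum_mul_left, ← this, ← tsum_mul_right]
    refine tsum_congr fun n => ?_
    push_cast
    rw [add_assoc]; ring
  simp_rw [e2]
  have sJ : Summable (Function.uncurry J) := by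
    refine Summable.of_norm ?_
    have := Summable.mul_of_nonneg h.sF ((summable_gauss ha' (-κ)).mul_left ‖K‖)
      (fun _ => norm_nonneg _) (fun _ => by positivity)
    refine this.congr fun x => ?_
    simp only [Function.uncurry, hJ]
    rw [norm_mul, norm_mul, norm_mul, norm_gaussG, n1]; ring
  rw [← sJ.tsum_comm]
  rw [(Summable.of_norm (sGb κ).1).tsum_prod]
  refine tsum_congr fun m => ?_
  dsimp only
  rw [tsum_mul_left, ← h.eq, ← tsum_mul_left]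
  refine tsum_congr fun x => ?_
  simp only [hJ]
  have : ee (((m : ℂ) - κ) * ((s + u * φ x : ℝ) : ℂ)) =
      ee (((m : ℂ) - κ) * s) * ee (((((m : ℝ) - κ) * u : ℝ) : ℂ) * φ x) := by
    rw [← ee_add]; congr 1; push_cast; ring
  rw [this]; ring

end

end Fermat.Agent.S16
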