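import Fermat.Agent.S16.ThetaDefs

/-!
# S16, theta half, piece TH-M2: the `q`-expansion of the theta series is in `1 + 2 q ℤ⟦q⟧`
-/

set_option autoImplicit false

namespace Fermat.Agent.S16

open Complex Matrix
open scoped Real

noncomputable section

theorem thq_norm_ee (z : ℂ) (n : ℤ) : ‖ee (z * (n : ℂ))‖ = Real.exp (-(2 * π * z.im) * (n : ℝ)) := by
  rw [ee, Complex.norm_exp]
  congr 1
  simp only [mul_re, mul_im, I_re, I_im, ofReal_re, ofReal_im, intCast_re, intCast_im, re_ofNat,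
    im_ofNat]
  ring

theorem thq_ee_nat (z : ℂ) (n : ℕ) : ee (z * (n : ℂ)) = ee z ^ n := by
  rw [ee, ee, ← Complex.exp_nat_mul]
  congr 1
  ring

/-- the number of representations -/
def thqCount (Q : (Fin 4 → ℤ) → ℤ) (n : ℕ) : ℕ := Nat.card ((fun x => (Q x).toNat) ⁻¹' {n})

theorem thq_fibre {Q : (Fin 4 → ℤ) → ℤ} (hnn : ∀ x, 0 ≤ Q x) (z : ℂ) (n : ℕ) :
    (thqCount Q n : ℂ) * ee z ^ n =
      ∑' (b : ↑((fun x => (Q x).toNat) ⁻¹' {n})), ee (z * ↑(Q ↑b)) := by
  have : ∀ b : ((fun x => (Q x).toNat) ⁻¹' {n}), ee (z * (Q b.1 : ℂ)) = ee z ^ n := by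
    rintro ⟨b, hb⟩
    have hb' : (Q b).toNat = n := hb
    have : Q b = (n : ℤ) := by have := hnn b; omega
    rw [this, ← thq_ee_nat]
    simp
  simp only [this]
  rw [tsum_const, thqCount, nsmul_eq_mul]

theorem thq_hasSum {Q : (Fin 4 → ℤ) → ℤ} (hnn : ∀ x, 0 ≤ Q x)
    (hsumm : ∀ y : ℝ, 0 < y → Summable fun x : Fin 4 → ℤ => Real.exp (-y * (Q x : ℝ)))
    (z : ℂ) (hz : 0 < z.im) :
    HasSum (fun n : ℕ => (thqCount Q n : ℂ) * ee z ^ n) (thetaFn Q z) := by
  have hs : Summable fun x : Fin 4 → ℤ => ee (z * (Q x : ℂ)) := by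
    apply Summable.of_norm
    simp only [thq_norm_ee]
    exact hsumm _ (by positivity)
  have h1 := hs.hasSum.tsum_fiberwise (fun x => (Q x).toNat)
  have h2 : (fun n : ℕ => (thqCount Q n : ℂ) * ee z ^ n) =
      fun c => ∑' (b : ↑((fun x => (Q x).toNat) ⁻¹' {c})), ee (z * ↑(Q ↑b)) := by
    funext n
    exact thq_fibre hnn z n
  rw [h2]
  exact h1


theorem thq_count_zero {Q : (Fin 4 → ℤ) → ℤ} (h0 : Q 0 = 0) (hpos : ∀ x, x ≠ 0 → 0 < Q x) :
    thqCount Q 0 = 1 := by
  have : ((fun x => (Q x).toNat) ⁻¹' {0}) = {0} := by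
    ext x
    simp only [Set.mem_preimage, Set.mem_singleton_iff]
    constructor
    · intro h
      by_contra hx
      have := hpos x hx
      omega
    · rintro rfl
      simp [h0]
  rw [thqCount, this]
  simp

theorem thq_count_even {Q : (Fin 4 → ℤ) → ℤ} (h0 : Q 0 = 0) (hneg : ∀ x, Q (-x) = Q x) (n : ℕ)
    (hn : n ≠ 0) : Even (thqCount Q n) := by
  rw [thqCount]
  rcases finite_or_infinite ((fun x => (Q x).toNat) ⁻¹' {n}) with hfin | hinf
  · have hfin' : ((fun x => (Q x).toNat) ⁻¹' {n}).Finite := hfin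
    rw [Nat.card_coe_set_eq, Set.ncard_eq_toFinset_card _ hfin']
    have hsum : ∑ x ∈ hfin'.toFinset, (1 : ZMod 2) = 0 := by
      refine Finset.sum_involution (fun x _ => -x) ?_ ?_ ?_ ?_
      · intro a _; decide
      · intro a ha _ hx
        have ha' : (Q a).toNat = n := by simpa using ha
        have : a = 0 := by
          ext i
          have := congrFun hx i
          simp only [Pi.neg_apply, Pi.zero_apply] at this ⊢
          omega
        rw [this, h0] at ha'
        exact hn (by simpa using ha'.symm)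
      · intro a ha
        have ha' : (Q a).toNat = n := by simpa using ha
        simpa [hneg] using ha'
      · intro a _; simp
    rw [Finset.sum_const, nsmul_eq_mul, mul_one] at hsum
    exact (ZMod.natCast_eq_zero_iff_even).1 hsum
  · rw [Nat.card_eq_zero_of_infinite]
    exact Even.zero

theorem theta_hasSum_q {p : ℕ} [NeZero p] {A B : Matrix (Fin 4) (Fin 4) ℤ}
    {Q Qd : (Fin 4 → ℤ) → ℤ} (h : IsLat p A B Q Qd) :
    ∃ R : PowerSeries ℤ, PowerSeries.constantCoeff R = 0 ∧ ∀ τ : UpperHalfPlane,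
      HasSum (fun n : ℕ => (PowerSeries.coeff n (PowerSeries.map (Int.castRingHom ℂ) (1 + 2 * R))) •
        Function.Periodic.qParam 1 (τ : ℂ) ^ n) (thetaFn Q τ) := by
  have h0 : Q 0 = 0 := by
    have := h.twoQ 0
    simp at this
    exact this
  have hneg : ∀ x, Q (-x) = Q x := by
    intro x
    have h1 := h.twoQ (-x)
    have h2 := h.twoQ x
    rw [Matrix.mulVec_neg, neg_dotProduct_neg] at h1
    omega
  have hnn : ∀ x, 0 ≤ Q x := by
    intro x
    rcases eq_or_ne x 0 with rfl | hx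
    · rw [h0]
    · exact (h.pos x hx).le
  refine ⟨PowerSeries.mk fun n => if n = 0 then 0 else ((thqCount Q n / 2 : ℕ) : ℤ), by simp, ?_⟩
  intro τ
  have h1 := thq_hasSum hnn h.summ (τ : ℂ) τ.im_pos
  convert h1 using 2 with n
  have hq : Function.Periodic.qParam 1 (τ : ℂ) = ee (τ : ℂ) := by
    rw [Function.Periodic.qParam, ee]
    simp
  rw [hq, smul_eq_mul]
  congr 1
  rw [PowerSeries.coeff_map]
  have h2 : (2 : PowerSeries ℤ) = PowerSeries.C 2 := by simp
  rw [map_add, h2, PowerSeries.coeff_C_mul, PowerSeries.coeff_mk, PowerSeries.coeff_one]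
  by_cases hn : n = 0
  · subst hn
    simp [thq_count_zero h0 h.pos]
  · obtain ⟨k, hk⟩ := thq_count_even h0 hneg n hn
    simp only [hn, if_false, zero_add]
    have : thqCount Q n / 2 = k := by omega
    rw [this, hk]
    simp only [eq_intCast]
    push_cast
    ring

end

end Fermat.Agent.S16
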