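import Fermat.Agent.S16.ThetaDefs

/-!
# S16, theta half, piece TH-T: transformation of the theta series under `[a b; p d]`

Everything follows formally from `IsLat`.  Notation `V = Fin 4 → ℤ`, `β(x,y) = x ⬝ᵥ A *ᵥ y`.

Algebra (from `symmA, symmB, mulAB, twoQ, twoQd`; cancel the factor `2` in `ℤ`):
* (F1) `Q (x + y) = Q x + Q y + x ⬝ᵥ A *ᵥ y`, `Q (c • x) = c² Q x`; hence `Q (g + p • y) ≡ Q g (mod p)`;
* (F2) `A *ᵥ (B *ᵥ k) = p • k`, `B *ᵥ (A *ᵥ x) = p • x` (`B * A = p` by transposing); `A *ᵥ ·` is injective;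
* (F3) `Q (B *ᵥ k) = p * Qd k`;   (F4) `Qd (A *ᵥ n) = p * Q n`.

Let `a d - b p = 1`, `z ∈ ℍ`, `w = -p / (p z + d) ∈ ℍ`.  Then `(a z + b)/(p z + d) = a/p + w/p²` and
`-1/(p w) = (p z + d)/p²`.
1. Split `x = g + p y`, `g` running over `liftV` of `Fin 4 → ZMod p`
   (equivalence `ℤ ≃ ℤ × ZMod p`, `x ↦ (x / p, x)`, coordinatewise; cf. `Int.divModEquiv`):
   `Θ(a/p + w/p²) = ∑_g e(a Q(g)/p) ∑_y e(w Q(g + p y)/p²)`.
2. `inv`: `= -(w² p)⁻¹ ∑_m e((p z + d) Qd(m)/p²) G(m)`, `G(m) = ∑_g ψ(a Q(g) + m·g)`, `ψ = ZMod.stdAddChar`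
   (finite sum of `tsum`s; summability of the `m`-series from `summd`).
3. `x ↦ ψ(a Q(x) + m·x)` is `p`-periodic on `V`, so one may translate `g` in `G(m)` by any integral vector.
   * translation by `ρ = B *ᵥ k`: `a Q(g+ρ) + m·(g+ρ) ≡ a Q(g) + m·g + m·ρ (mod p)` (F2, F3), so
     `G(m) = ψ(m ⬝ᵥ B *ᵥ k) G(m)`.  If `G(m) ≠ 0` then `p ∣ m ⬝ᵥ B *ᵥ k` for all `k`, i.e. `B *ᵥ m = p • n`, and
     then `p • m = A *ᵥ B *ᵥ m = p • A *ᵥ n`, `m = A *ᵥ n`.
   * `m = A *ᵥ n`: translation by `d • n`: `a Q(g + d n) ≡ a Q(g) + (A n)·g + d Q(n) (mod p)` (as `a d ≡ 1`), so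
     `G(A n) = ψ(-d Q(n)) G(0)`, and `G(0) = -p³` by `gauss` (`p ∤ a`).
4. So `∑_m = ∑_n e((p z + d) Q(n)/p) ψ(-d Q(n)) (-p³) = -p³ Θ(z)` (`tsum` over the range of the injective map
   `A *ᵥ ·`: `Function.Injective.tsum_eq`), and `-(w² p)⁻¹ (-p³) = (p z + d)²`.
-/

set_option autoImplicit false

namespace Fermat.Agent.S16

open Complex Matrix
open scoped Real

namespace ThT

noncomputable section

variable {p : ℕ} [Fact p.Prime] {A B : Matrix (Fin 4) (Fin 4) ℤ} {Q Qd : (Fin 4 → ℤ) → ℤ}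

/-! ### `ee` -/

lemma ee_add (x y : ℂ) : ee (x + y) = ee x * ee y := by
  simp only [ee, mul_add, Complex.exp_add]

lemma ee_div_p (k : ℤ) : ee ((k : ℂ) / (p : ℂ)) = ZMod.stdAddChar ((k : ZMod p)) := by
  rw [ZMod.stdAddChar_coe, ee, mul_div_assoc]

lemma norm_ee (x : ℂ) : ‖ee x‖ = Real.exp (-(2 * π * x.im)) := by
  rw [ee, Complex.norm_exp]
  congr 1
  simp [Complex.mul_re, Complex.mul_im]

/-! ### algebra -/

lemma dot_symm (hA : A.IsSymm) (x y : Fin 4 → ℤ) : y ⬝ᵥ A *ᵥ x = x ⬝ᵥ A *ᵥ y := by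
  rw [Matrix.dotProduct_mulVec, ← Matrix.mulVec_transpose, hA.eq, dotProduct_comm]

lemma Q_add (h : IsLat p A B Q Qd) (x y : Fin 4 → ℤ) : Q (x + y) = Q x + Q y + x ⬝ᵥ A *ᵥ y := by
  have h1 := h.twoQ (x + y)
  rw [Matrix.mulVec_add, add_dotProduct, dotProduct_add, dotProduct_add, ← h.twoQ x, ← h.twoQ y,
    dot_symm h.symmA x y] at h1
  linarith

lemma Q_smul (h : IsLat p A B Q Qd) (c : ℤ) (x : Fin 4 → ℤ) : Q (c • x) = c ^ 2 * Q x := by
  have h1 := h.twoQ (c • x)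
  rw [Matrix.mulVec_smul, smul_dotProduct, dotProduct_smul, ← h.twoQ x] at h1
  simp only [smul_eq_mul] at h1
  nlinarith

lemma mulBA (h : IsLat p A B Q Qd) : B * A = (p : ℤ) • (1 : Matrix (Fin 4) (Fin 4) ℤ) := by
  have := congrArg Matrix.transpose h.mulAB
  rwa [Matrix.transpose_mul, h.symmA.eq, h.symmB.eq, Matrix.transpose_smul,
    Matrix.transpose_one] at this

lemma A_B (h : IsLat p A B Q Qd) (k : Fin 4 → ℤ) : A *ᵥ (B *ᵥ k) = (p : ℤ) • k := by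
  rw [Matrix.mulVec_mulVec, h.mulAB, Matrix.smul_mulVec, Matrix.one_mulVec]

lemma B_A (h : IsLat p A B Q Qd) (k : Fin 4 → ℤ) : B *ᵥ (A *ᵥ k) = (p : ℤ) • k := by
  rw [Matrix.mulVec_mulVec, mulBA h, Matrix.smul_mulVec, Matrix.one_mulVec]

lemma Q_B (h : IsLat p A B Q Qd) (k : Fin 4 → ℤ) : Q (B *ᵥ k) = (p : ℤ) * Qd k := by
  have h1 := h.twoQ (B *ᵥ k)
  rw [A_B h, dotProduct_smul, dotProduct_comm, ← h.twoQd k] at h1
  simp only [smul_eq_mul] at h1
  linarith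

lemma Qd_A (h : IsLat p A B Q Qd) (k : Fin 4 → ℤ) : Qd (A *ᵥ k) = (p : ℤ) * Q k := by
  have h1 := h.twoQd (A *ᵥ k)
  rw [B_A h, dotProduct_smul, dotProduct_comm, ← h.twoQ k] at h1
  simp only [smul_eq_mul] at h1
  linarith

lemma p_ne_zero : (p : ℤ) ≠ 0 := by
  exact_mod_cast (Fact.out : p.Prime).ne_zero

lemma A_injective (h : IsLat p A B Q Qd) : Function.Injective (fun n : Fin 4 → ℤ => A *ᵥ n) := by
  intro x y hxy
  have h1 : B *ᵥ (A *ᵥ x) = B *ᵥ (A *ᵥ y) := congrArg _ hxy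
  rw [B_A h, B_A h] at h1
  funext i
  have := congrFun h1 i
  simp only [Pi.smul_apply, smul_eq_mul] at this
  exact mul_left_cancel₀ p_ne_zero this

/-! ### reduction mod `p` -/

/-- reduction mod `p` -/
def red (p : ℕ) (x : Fin 4 → ℤ) : Fin 4 → ZMod p := fun i => (x i : ZMod p)

lemma red_liftV (g : Fin 4 → ZMod p) : red p (liftV g) = g := by
  funext i
  simp [red, liftV]

lemma red_add (x y : Fin 4 → ℤ) : red p (x + y) = red p x + red p y := by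
  funext i
  simp [red]

lemma liftV_red (x : Fin 4 → ℤ) : liftV (red p x) + (p : ℤ) • (fun i => x i / (p : ℤ)) = x := by
  funext i
  simp only [liftV, red, Pi.add_apply, Pi.smul_apply, smul_eq_mul, ZMod.val_intCast]
  exact Int.emod_add_mul_ediv (x i) p

/-- `ℤ⁴ ≃ (ℤ/p)⁴ × ℤ⁴`. -/
def splitEquiv (p : ℕ) [Fact p.Prime] : (Fin 4 → ℤ) ≃ (Fin 4 → ZMod p) × (Fin 4 → ℤ) where
  toFun x := (red p x, fun i => x i / (p : ℤ))
  invFun gy := liftV gy.1 + (p : ℤ) • gy.2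
  left_inv x := liftV_red x
  right_inv gy := by
    obtain ⟨g, y⟩ := gy
    have hp : (0 : ℤ) < p := by exact_mod_cast (Fact.out : p.Prime).pos
    refine Prod.ext ?_ ?_
    · funext i
      simp [red, liftV]
    · funext i
      simp only [liftV, Pi.add_apply, Pi.smul_apply, smul_eq_mul]
      rw [Int.add_mul_ediv_left _ _ hp.ne', Int.ediv_eq_zero_of_lt (by positivity)
        (by exact_mod_cast ZMod.val_lt (g i)), zero_add]

/-- A function on `ℤ⁴` which is `p`-periodic. -/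
def Periodic (p : ℕ) (F : (Fin 4 → ℤ) → ℂ) : Prop := ∀ x y, F (x + (p : ℤ) • y) = F x

lemma Periodic.eq_of_red {F : (Fin 4 → ℤ) → ℂ} (hF : Periodic p F) (x : Fin 4 → ℤ) :
    F x = F (liftV (red p x)) := by
  conv_lhs => rw [← liftV_red (p := p) x]
  exact hF _ _

/-- translation invariance of complete sums -/
lemma Periodic.sum_translate {F : (Fin 4 → ℤ) → ℂ} (hF : Periodic p F) (c : Fin 4 → ℤ) :
    ∑ g : Fin 4 → ZMod p, F (liftV g + c) = ∑ g : Fin 4 → ZMod p, F (liftV g) := by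
  have h1 : ∀ g : Fin 4 → ZMod p, F (liftV g + c) = F (liftV (g + red p c)) := by
    intro g
    rw [hF.eq_of_red, red_add, red_liftV]
  simp only [h1]
  exact Equiv.sum_comp (Equiv.addRight (red p c)) (fun g => F (liftV g))

/-- The summand of the Gauss sum `G_a(m)`. -/
def gTerm (p : ℕ) [NeZero p] (Q : (Fin 4 → ℤ) → ℤ) (a : ℤ) (m x : Fin 4 → ℤ) : ℂ :=
  ZMod.stdAddChar (((a * Q x + m ⬝ᵥ x : ℤ)) : ZMod p)

/-- The Gauss sum `G_a(m)`. -/
def gSum (p : ℕ) [Fact p.Prime] (Q : (Fin 4 → ℤ) → ℤ) (a : ℤ) (m : Fin 4 → ℤ) : ℂ :=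
  ∑ g : Fin 4 → ZMod p, gTerm p Q a m (liftV g)

lemma cast_eq_of_sub_dvd {x y : ℤ} (h : (p : ℤ) ∣ x - y) : (x : ZMod p) = (y : ZMod p) := by
  rw [← sub_eq_zero, ← Int.cast_sub]
  exact (ZMod.intCast_zmod_eq_zero_iff_dvd _ _).mpr h

lemma gTerm_periodic (h : IsLat p A B Q Qd) (a : ℤ) (m : Fin 4 → ℤ) :
    Periodic p (gTerm p Q a m) := by
  intro x y
  unfold gTerm
  congr 1
  apply cast_eq_of_sub_dvd
  rw [Q_add h, Q_smul h, Matrix.mulVec_smul, dotProduct_smul, dotProduct_add, dotProduct_smul]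
  simp only [smul_eq_mul]
  exact ⟨a * (p * Q y) + a * (x ⬝ᵥ A *ᵥ y) + m ⬝ᵥ y, by ring⟩

/-- translation by the radical -/
lemma gTerm_add_B (h : IsLat p A B Q Qd) (a : ℤ) (m k x : Fin 4 → ℤ) :
    gTerm p Q a m (x + B *ᵥ k) =
      ZMod.stdAddChar (((m ⬝ᵥ B *ᵥ k : ℤ)) : ZMod p) * gTerm p Q a m x := by
  unfold gTerm
  rw [← AddChar.map_add_eq_mul, ← Int.cast_add]
  congr 1
  apply cast_eq_of_sub_dvd
  rw [Q_add h, Q_B h, A_B h, dotProduct_smul, dotProduct_add]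
  simp only [smul_eq_mul]
  exact ⟨a * Qd k + a * (x ⬝ᵥ k), by ring⟩

lemma gSum_eq_zero_or (h : IsLat p A B Q Qd) (a : ℤ) (m : Fin 4 → ℤ) (hG : gSum p Q a m ≠ 0) :
    ∃ n : Fin 4 → ℤ, m = A *ᵥ n := by
  have h1 : ∀ k : Fin 4 → ℤ, (p : ℤ) ∣ m ⬝ᵥ B *ᵥ k := by
    intro k
    have h2 : gSum p Q a m = ZMod.stdAddChar (((m ⬝ᵥ B *ᵥ k : ℤ)) : ZMod p) * gSum p Q a m := by
      conv_lhs => rw [gSum, ← (gTerm_periodic h a m).sum_translate (B *ᵥ k)]
      simp only [gTerm_add_B h, gSum, Finset.mul_sum]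
    have h3 : ZMod.stdAddChar (((m ⬝ᵥ B *ᵥ k : ℤ)) : ZMod p) = 1 := by
      have : (ZMod.stdAddChar (((m ⬝ᵥ B *ᵥ k : ℤ)) : ZMod p) - 1) * gSum p Q a m = 0 := by
        rw [sub_mul, one_mul, ← h2, sub_self]
      exact sub_eq_zero.mp ((mul_eq_zero.mp this).resolve_right hG)
    rw [← (ZMod.stdAddChar (N := p)).map_zero_eq_one] at h3
    exact (ZMod.intCast_zmod_eq_zero_iff_dvd _ _).mp (ZMod.injective_stdAddChar h3)
  have h2 : ∀ i, (p : ℤ) ∣ (B *ᵥ m) i := by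
    intro i
    have := h1 (Pi.single i 1)
    rwa [dot_symm h.symmB, single_one_dotProduct] at this
  choose n hn using h2
  refine ⟨n, ?_⟩
  have h3 : B *ᵥ m = (p : ℤ) • n := by
    funext i
    simp [hn i]
  have h4 : (p : ℤ) • m = (p : ℤ) • (A *ᵥ n) := by
    rw [← A_B h m, h3, Matrix.mulVec_smul]
  funext i
  have := congrFun h4 i
  simp only [Pi.smul_apply, smul_eq_mul] at this
  exact mul_left_cancel₀ p_ne_zero this

lemma gSum_A (h : IsLat p A B Q Qd) (a b d : ℤ) (hdet : a * d - b * p = 1) (n : Fin 4 → ℤ) :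
    gSum p Q a (A *ᵥ n) = ZMod.stdAddChar (((-(d * Q n) : ℤ)) : ZMod p) * (-(p : ℂ) ^ 3) := by
  have ha : ¬ (p : ℤ) ∣ a := by
    intro hpa
    have h1 : (p : ℤ) ∣ 1 := by
      rw [← hdet]
      exact dvd_sub (hpa.mul_right d) (Dvd.intro_left b rfl)
    have h2 := Int.eq_one_of_dvd_one (by positivity) h1
    have h3 : p = 1 := by exact_mod_cast h2
    exact (Fact.out : p.Prime).one_lt.ne' h3
  have hg := h.gauss a ha
  have h0 : gSum p Q a 0 = -(p : ℂ) ^ 3 := by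
    rw [← hg]
    simp [gSum, gTerm]
  have h1 : ∀ x, gTerm p Q a 0 (x + d • n) =
      ZMod.stdAddChar (((d * Q n : ℤ)) : ZMod p) * gTerm p Q a (A *ᵥ n) x := by
    intro x
    unfold gTerm
    rw [← AddChar.map_add_eq_mul, ← Int.cast_add]
    congr 1
    apply cast_eq_of_sub_dvd
    rw [Q_add h, Q_smul h, Matrix.mulVec_smul, dotProduct_smul, zero_dotProduct,
      dotProduct_comm (A *ᵥ n) x]
    simp only [smul_eq_mul]
    refine ⟨b * d * Q n + b * (x ⬝ᵥ A *ᵥ n), ?_⟩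
    linear_combination (d * Q n + x ⬝ᵥ A *ᵥ n) * hdet
  have h2 : gSum p Q a 0 = ZMod.stdAddChar (((d * Q n : ℤ)) : ZMod p) * gSum p Q a (A *ᵥ n) := by
    conv_lhs => rw [gSum, ← (gTerm_periodic h a 0).sum_translate (d • n)]
    simp only [h1, gSum, Finset.mul_sum]
  rw [← h0, h2, ← mul_assoc, ← AddChar.map_add_eq_mul, ← Int.cast_add]
  simp

/-! ### analysis -/

lemma summable_ee_Q (h : IsLat p A B Q Qd) {τ : ℂ} (hτ : 0 < τ.im) :
    Summable fun x : Fin 4 → ℤ => ee (τ * (Q x : ℂ)) := by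
  apply Summable.of_norm
  refine (h.summ (2 * π * τ.im) (by positivity)).congr fun x => ?_
  rw [norm_ee]
  congr 1
  simp [Complex.mul_im]
  ring

lemma summable_ee_Qd (h : IsLat p A B Q Qd) {τ : ℂ} (hτ : 0 < τ.im) :
    Summable fun x : Fin 4 → ℤ => ee (τ * (Qd x : ℂ)) := by
  apply Summable.of_norm
  refine (h.summd (2 * π * τ.im) (by positivity)).congr fun x => ?_
  rw [norm_ee]
  congr 1
  simp [Complex.mul_im]
  ring

lemma norm_stdAddChar (x : ZMod p) : ‖(ZMod.stdAddChar x : ℂ)‖ = 1 := by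
  rw [ZMod.stdAddChar_apply]
  exact Circle.norm_coe _

end

end ThT

open ThT in
theorem theta_transform {p : ℕ} [Fact p.Prime] {A B : Matrix (Fin 4) (Fin 4) ℤ}
    {Q Qd : (Fin 4 → ℤ) → ℤ} (h : IsLat p A B Q Qd) (a b d : ℤ) (hdet : a * d - b * p = 1)
    (z : ℂ) (hz : 0 < z.im) :
    thetaFn Q (((a : ℂ) * z + b) / ((p : ℂ) * z + d)) = ((p : ℂ) * z + d) ^ 2 * thetaFn Q z := by
  have hp0 : (0 : ℝ) < p := by exact_mod_cast (Fact.out : p.Prime).pos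
  have hP : (p : ℂ) ≠ 0 := by exact_mod_cast (Fact.out : p.Prime).ne_zero
  set D : ℂ := (p : ℂ) * z + d with hD
  have hDim : D.im = p * z.im := by simp [hD]
  have hD0 : D ≠ 0 := by
    intro h0
    have : D.im = 0 := by rw [h0]; simp
    rw [hDim] at this
    have : (0 : ℝ) < p * z.im := by positivity
    linarith
  set w : ℂ := -(p : ℂ) / D with hw
  have hw0 : w ≠ 0 := by
    rw [hw]; exact div_ne_zero (neg_ne_zero.mpr hP) hD0
  have hwim : 0 < w.im := by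
    rw [hw, Complex.div_im]
    simp only [Complex.neg_im, Complex.natCast_im, neg_zero, zero_mul, zero_div, Complex.neg_re,
      Complex.natCast_re, zero_sub, hDim]
    have hn : 0 < Complex.normSq D := Complex.normSq_pos.mpr hD0
    have : -(-(p : ℝ) * (p * z.im) / Complex.normSq D) = (p * (p * z.im)) / Complex.normSq D := by
      ring
    rw [this]
    positivity
  have hdetC : (a : ℂ) * d - b * p = 1 := by exact_mod_cast hdet
  set τ : ℂ := ((a : ℂ) * z + b) / D with hτ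
  have hτw : τ = (a : ℂ) / p + w / (p : ℂ) ^ 2 := by
    rw [hτ, hw]
    field_simp
    rw [hD]
    linear_combination (-1 : ℂ) * hdetC
  have hτim : 0 < τ.im := by
    rw [hτw]
    have h1 : ((a : ℂ) / p).im = 0 := by
      rw [Complex.div_im]; simp
    have h2 : (w / (p : ℂ) ^ 2).im = w.im / (p : ℝ) ^ 2 := by
      have : ((p : ℂ) ^ 2) = (((p : ℝ) ^ 2 : ℝ) : ℂ) := by push_cast; ring
      rw [this, Complex.div_ofReal_im]
    rw [Complex.add_im, h1, h2, zero_add]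
    positivity
  -- the dual exponent
  set σ : ℂ := D / (p : ℂ) ^ 2 with hσ
  have hσim : 0 < σ.im := by
    have : ((p : ℂ) ^ 2) = (((p : ℝ) ^ 2 : ℝ) : ℂ) := by push_cast; ring
    rw [hσ, this, Complex.div_ofReal_im, hDim]
    positivity
  have hE : ∀ m : Fin 4 → ℤ, ee (-(Qd m : ℂ) / ((p : ℂ) * w)) = ee (σ * (Qd m : ℂ)) := by
    intro m
    congr 1
    rw [hσ, hw]
    field_simp
  -- Step 1: split the sum
  have hsum := summable_ee_Q h hτim
  have hterm : ∀ (g : Fin 4 → ZMod p) (y : Fin 4 → ℤ),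
      ee (τ * (Q (liftV g + (p : ℤ) • y) : ℂ)) =
        gTerm p Q a 0 (liftV g) * ee (w * (Q (liftV g + (p : ℤ) • y) : ℂ) / (p : ℂ) ^ 2) := by
    intro g y
    rw [← gTerm_periodic h a 0 (liftV g) y, gTerm, zero_dotProduct, add_zero, ← ee_div_p, ← ee_add]
    congr 1
    rw [hτw]
    push_cast
    ring
  have h1 : thetaFn Q τ = ∑ g : Fin 4 → ZMod p, ∑' y : Fin 4 → ℤ,
      ee (τ * (Q (liftV g + (p : ℤ) • y) : ℂ)) := by
    have hs' : Summable (fun c : (Fin 4 → ZMod p) × (Fin 4 → ℤ) =>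
        ee (τ * (Q ((splitEquiv p).symm c) : ℂ))) := (splitEquiv p).symm.summable_iff.mpr hsum
    rw [thetaFn, ← (splitEquiv p).symm.tsum_eq, hs'.tsum_prod, tsum_fintype]
    rfl
  -- Step 2: inversion
  have h2 : ∀ g : Fin 4 → ZMod p, ∑' y : Fin 4 → ℤ, ee (τ * (Q (liftV g + (p : ℤ) • y) : ℂ)) =
      -(w ^ 2 * (p : ℂ))⁻¹ * ∑' m : Fin 4 → ℤ, ee (σ * (Qd m : ℂ)) * gTerm p Q a m (liftV g) := by
    intro g
    simp only [hterm g]
    rw [tsum_mul_left, h.inv w hwim (liftV g), mul_left_comm, ← tsum_mul_left]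
    congr 1
    refine tsum_congr fun m => ?_
    rw [hE m, ee_div_p, gTerm, gTerm, zero_dotProduct, add_zero, Int.cast_add (a * Q (liftV g)),
      AddChar.map_add_eq_mul]
    ring
  have hsm : ∀ g : Fin 4 → ZMod p,
      Summable fun m : Fin 4 → ℤ => ee (σ * (Qd m : ℂ)) * gTerm p Q a m (liftV g) := by
    intro g
    apply Summable.of_norm
    refine (summable_ee_Qd h hσim).norm.congr fun m => ?_
    rw [norm_mul, gTerm, norm_stdAddChar, mul_one]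
  have h3 : thetaFn Q τ = -(w ^ 2 * (p : ℂ))⁻¹ *
      ∑' m : Fin 4 → ℤ, ee (σ * (Qd m : ℂ)) * gSum p Q a m := by
    rw [h1]
    simp only [h2]
    rw [← Finset.mul_sum, ← Summable.tsum_finsetSum (fun g _ => hsm g)]
    congr 1
    refine tsum_congr fun m => ?_
    rw [gSum, Finset.mul_sum]
  -- Step 3/4: only `m = A n` contributes
  have h4 : ∑' m : Fin 4 → ℤ, ee (σ * (Qd m : ℂ)) * gSum p Q a m =
      ∑' n : Fin 4 → ℤ, ee (σ * (Qd (A *ᵥ n) : ℂ)) * gSum p Q a (A *ᵥ n) := by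
    refine ((A_injective h).tsum_eq ?_).symm
    intro m hm
    have hG : gSum p Q a m ≠ 0 := right_ne_zero_of_mul hm
    obtain ⟨n, rfl⟩ := gSum_eq_zero_or h a m hG
    exact ⟨n, rfl⟩
  have h5 : ∀ n : Fin 4 → ℤ, ee (σ * (Qd (A *ᵥ n) : ℂ)) * gSum p Q a (A *ᵥ n) =
      -(p : ℂ) ^ 3 * ee (z * (Q n : ℂ)) := by
    intro n
    rw [gSum_A h a b d hdet, Qd_A h, ← ee_div_p, ← mul_assoc, ← ee_add, mul_comm]
    congr 2
    rw [hσ, hD]
    push_cast
    field_simp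
    ring
  rw [h3, h4]
  simp only [h5]
  rw [tsum_mul_left, thetaFn, ← mul_assoc]
  congr 1
  rw [hw]
  field_simp

end Fermat.Agent.S16
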