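import Fermat.Agent.S16.Trace

/-!
# S16, piece TR2: the cases of the upper bound at `ℓ = 2, 3` that follow from `Tr(h²) = (1+1/p) E₄`

Throughout `H = u + ℓ^w R`, `Ĥ = U_p H = u + ℓ^w R̂`, `R̂ = U_p R`, `R = U_p R̂` (`U_U_of_isQZ`), and `Ĥ` is
again in `M₂(Γ₀(p))` (`IsQZ.U`), so every conclusion about `R` also holds for `R̂`.
Expanding `tr2_identity`:
  `2 u ℓ^w (p+1) R + ℓ^(2w) (p R² + U_p(R̂²)) = 240 (p+1) u² φ₃`.      (*)
* `not_bad_three_one` (`ℓ^w = 3`, `p ≡ 1 (3)`): (*) mod 9, `p+1`, `u` units: `R ≡ u φ₃ (3)`, same for `R̂`;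
  compare the coefficients of `q` in `R̂ = U_p R`: `u ≡ u (1+p³) ≡ 2u (3)`.  Contradiction.
* `not_bad_two_two` (`ℓ^w = 4`, `p ≡ 1 (4)`, `p + 1 = 2t`, `t` odd): (*)/16:
  `u t R + p R² + U_p(R̂²) = 30 t u² φ₃`; mod 2: `R² ≡ V₂ R`, `U_p(V₂ R̂) = V₂ (U_p R̂) = V₂ R`, so `R ≡ 0 (2)`,
  `R = 2R'`, likewise `R̂ = 2 R̂'`.  Then (*)/32 : `u t R' + 2(..) = 15 t u² φ₃`, `R' ≡ φ₃ (2)`, same for
  `R̂' = U_p R'`: coefficient of `q`: `1 ≡ 1 + p³ ≡ 0 (2)`.  Contradiction.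
* `dvd_of_bad_three_two` (`ℓ^w = 9`): coefficient of `q` in (*):
  `(p+1) u · 6 (3 r₁ - 40 u) ∈ 81 ℤ` and `3 ∤ u (3 r₁ - 40 u)`, so `27 ∣ p + 1`.
* `dvd_of_bad_two_three` (`ℓ^w = 8`, `p ≡ 3 (4)`): if `p + 1 = 4t`, `t` odd, (*)/64:
  `u t R + p R² + U_p(R̂²) = 15 t u² φ₃`, so `R ≡ φ₃ (2)`, same for `R̂ = U_p R`: contradiction as before.
-/

set_option autoImplicit false

namespace Fermat.Agent.S16

open PowerSeries

variable {p : ℕ} [Fact p.Prime]

theorem tr2_identity {H : PowerSeries ℤ} (h : IsQZ p 2 H) :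
    C (p : ℤ) * H ^ 2 + U p ((U p H) ^ 2) = C (((p : ℤ) + 1) * (constantCoeff H) ^ 2) * E4z := by
  have hpp : p.Prime := Fact.out
  have hG := trace_powZ h 2
  have e4 : (2 * ((2 : ℕ) : ℤ)) = 4 := by norm_num
  rw [e4] at hG
  have e : C ((p : ℤ) ^ 2) * H ^ 2 + C ((-1) ^ 2 * (p : ℤ)) * U p ((U p H) ^ 2)
      = C (p : ℤ) * (C (p : ℤ) * H ^ 2 + U p ((U p H) ^ 2)) := by
    simp only [map_mul, map_pow, map_neg, map_one]
    ring
  rw [e] at hG
  have hX := (hG.of_C_mul (by exact_mod_cast hpp.ne_zero)).weight_four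
  rw [hX]
  congr 2
  simp only [map_add, map_mul, map_pow, constantCoeff_U, constantCoeff_C]
  ring

section star

variable {u m : ℤ} {R : PowerSeries ℤ}

theorem tr2_U_eq : U p (C u + C m * R) = C u + C m * U p R := by
  rw [U_add, U_C p (Fact.out : p.Prime).pos, U_C_mul]

theorem tr2_UU (hm : m ≠ 0) (h : IsQZ p 2 (C u + C m * R)) : U p (U p R) = R := by
  have h1 := U_U_of_isQZ h
  rw [tr2_U_eq, tr2_U_eq] at h1
  have h2 : C m * U p (U p R) = C m * R := add_left_cancel h1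
  have hC : (C m : PowerSeries ℤ) ≠ 0 := by
    intro h0
    apply hm
    have := congrArg constantCoeff h0
    simpa using this
  exact mul_left_cancel₀ hC h2

theorem tr2_hat (h : IsQZ p 2 (C u + C m * R)) : IsQZ p 2 (C u + C m * U p R) := by
  have : NeZero p := ⟨(Fact.out : p.Prime).ne_zero⟩
  have := h.U (dvd_refl p)
  rwa [tr2_U_eq] at this

theorem tr2_star (hm : m ≠ 0) (hR : constantCoeff R = 0) (h : IsQZ p 2 (C u + C m * R)) :
    C (2 * u * m * ((p : ℤ) + 1)) * R + C (m ^ 2) * (C (p : ℤ) * R ^ 2 + U p ((U p R) ^ 2))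
      = C (240 * ((p : ℤ) + 1) * u ^ 2) * phi 3 := by
  have h1 := tr2_identity h
  have hUU := tr2_UU hm h
  have hc : constantCoeff (C u + C m * R) = u := by
    simp [hR]
  rw [hc, tr2_U_eq] at h1
  have e1 : (C u + C m * U p R) ^ 2 = C (u ^ 2) + C (2 * u * m) * U p R + C (m ^ 2) * (U p R) ^ 2 := by
    simp only [map_mul, map_pow, map_ofNat]
    ring
  rw [e1, U_add, U_add, U_C p (Fact.out : p.Prime).pos, U_C_mul, U_C_mul, hUU, E4z] at h1
  simp only [map_mul, map_pow, map_add, map_ofNat, map_one] at h1 ⊢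
  linear_combination h1

theorem tr2_C_ne_zero {c : ℤ} (hc : c ≠ 0) : (C c : PowerSeries ℤ) ≠ 0 := by
  intro h0
  apply hc
  have := congrArg constantCoeff h0
  simpa using this

/-- if both `R` and `U_p R` are `≡ c φ₃` then `ℓ ∣ c p³`. -/
theorem tr2_final {ℓ c : ℤ} (h1 : PSModEq ℓ R (C c * phi 3))
    (h2 : PSModEq ℓ (U p R) (C c * phi 3)) : ℓ ∣ c * (p : ℤ) ^ 3 := by
  have hpp : p.Prime := Fact.out
  have a1 := h1.coeff p
  have a2 := h2.coeff 1
  rw [coeff_U, mul_one, coeff_C_mul, coeff_one_phi] at a2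
  rw [coeff_C_mul, coeff_prime_phi 3 hpp] at a1
  have := dvd_sub a2 a1
  have e : coeff p R - c * 1 - (coeff p R - c * (1 + (p : ℤ) ^ 3)) = c * (p : ℤ) ^ 3 := by ring
  rwa [e] at this

theorem tr2_mod_two {a K : ℤ} (ha : Odd a) (hp2 : p ≠ 2) (hUU : U p (U p R) = R)
    (h : C a * R + (C (p : ℤ) * R ^ 2 + U p ((U p R) ^ 2)) = C K * phi 3) :
    PSModEq 2 R (C K * phi 3) := by
  have hpp : p.Prime := Fact.out
  have b1 : PSModEq 2 (R ^ 2) (V 2 R) := by
    simpa using psModEq_pow_prime Nat.prime_two R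
  have b2 : PSModEq 2 ((U p R) ^ 2) (V 2 (U p R)) := by
    simpa using psModEq_pow_prime Nat.prime_two (U p R)
  have b3 := b2.U p
  have hcop : Nat.Coprime p 2 := (Nat.coprime_primes hpp Nat.prime_two).mpr hp2
  rw [U_V_comm _ hcop, hUU] at b3
  have b4 := (PSModEq.refl 2 (C a * R)).add (((PSModEq.refl 2 (C (p : ℤ))).mul b1).add b3)
  rw [h] at b4
  obtain ⟨a', ha'⟩ := ha
  obtain ⟨p', hp'⟩ := hpp.odd_of_ne_two hp2
  have b5 : PSModEq 2 (C a * R + (C (p : ℤ) * V 2 R + V 2 R)) R := by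
    rw [psModEq_iff_exists]
    refine ⟨C a' * R + C ((p' : ℤ) + 1) * V 2 R, ?_⟩
    have : (p : ℤ) = 2 * p' + 1 := by exact_mod_cast hp'
    rw [ha', this]
    simp only [map_mul, map_add, map_ofNat, map_one]
    ring
  exact (b4.trans b5).symm

end star

theorem tr2_three_aux {u : ℤ} {R : PowerSeries ℤ} (hp : p % 3 = 1) (hu : ¬ (3 : ℤ) ∣ u)
    (hR : constantCoeff R = 0) (h : IsQZ p 2 (C u + C 3 * R)) : PSModEq 3 R (C u * phi 3) := by
  have hs := tr2_star (by norm_num) hR h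
  set X := C (p : ℤ) * R ^ 2 + U p ((U p R) ^ 2) with hX
  have h1 : PSModEq 3 (C (2 * u * ((p : ℤ) + 1)) * R) (C (2 * u * ((p : ℤ) + 1)) * (C u * phi 3)) := by
    rw [psModEq_iff_exists]
    refine ⟨C (26 * ((p : ℤ) + 1) * u ^ 2) * phi 3 - X, ?_⟩
    apply mul_left_cancel₀ (tr2_C_ne_zero (c := 3) (by norm_num))
    simp only [map_mul, map_pow, map_add, map_ofNat, map_one] at hs ⊢
    linear_combination hs
  refine h1.cancel ?_
  have h3 : Prime (3 : ℤ) := Int.prime_three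
  apply IsCoprime.symm
  rw [Prime.coprime_iff_not_dvd h3]
  intro hd
  rcases h3.dvd_mul.mp hd with hd | hd
  · rcases h3.dvd_mul.mp hd with hd | hd
    · omega
    · exact hu hd
  · omega

theorem not_bad_three_one (hp : p % 3 = 1) : ¬ Bad p 3 1 := by
  rintro ⟨u, R, hu, hR, hH⟩
  have e : (((3 : ℕ) : ℤ) ^ 1) = 3 := by norm_num
  rw [e] at hH
  have hu' : ¬ (3 : ℤ) ∣ u := by simpa using hu
  have a1 := tr2_three_aux hp hu' hR hH
  have a2 := tr2_three_aux hp hu' (by rw [constantCoeff_U, hR]) (tr2_hat hH)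
  have a3 := tr2_final a1 a2
  have h3 : Prime (3 : ℤ) := Int.prime_three
  rcases h3.dvd_mul.mp a3 with hd | hd
  · exact hu' hd
  · have := h3.dvd_of_dvd_pow hd
    omega

/-- the common end of the arguments at `2`. -/
theorem tr2_two_final {K : ℤ} {R : PowerSeries ℤ} (hK : Odd K) (hp2 : p ≠ 2)
    (h1 : PSModEq 2 R (C K * phi 3)) (h2 : PSModEq 2 (U p R) (C K * phi 3)) : False := by
  have hpp : p.Prime := Fact.out
  have a3 := tr2_final h1 h2
  have h2' : Prime (2 : ℤ) := Int.prime_two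
  obtain ⟨p', hp'⟩ := hpp.odd_of_ne_two hp2
  obtain ⟨K', hK'⟩ := hK
  rcases h2'.dvd_mul.mp a3 with hd | hd
  · omega
  · have := h2'.dvd_of_dvd_pow hd
    omega

theorem tr2_eight_aux {u t : ℤ} {R : PowerSeries ℤ} (ht : (p : ℤ) + 1 = 2 * t)
    (hut : Odd (u * t)) (hR : constantCoeff R = 0) (h : IsQZ p 2 (C u + C 8 * R)) :
    PSModEq 2 R (C (15 * t * u ^ 2) * phi 3) := by
  have hs := tr2_star (by norm_num) hR h
  set X := C (p : ℤ) * R ^ 2 + U p ((U p R) ^ 2) with hX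
  obtain ⟨a', ha'⟩ := hut
  rw [psModEq_iff_exists]
  refine ⟨-(C a' * R) - X, ?_⟩
  apply mul_left_cancel₀ (tr2_C_ne_zero (c := 32) (by norm_num))
  rw [ht] at hs
  have e : (C (u * t) : PowerSeries ℤ) = C (2 * a' + 1) := by rw [ha']
  simp only [map_mul, map_pow, map_add, map_ofNat, map_one] at hs e ⊢
  linear_combination hs - 32 * R * e

theorem tr2_not_bad_eight {u : ℤ} {R : PowerSeries ℤ} (hp : p % 4 = 1) (hu : Odd u)
    (hR : constantCoeff R = 0) (h : IsQZ p 2 (C u + C 8 * R)) : False := by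
  obtain ⟨t, ht, htodd⟩ : ∃ t : ℤ, (p : ℤ) + 1 = 2 * t ∧ Odd t := by
    refine ⟨2 * ((p / 4 : ℕ) : ℤ) + 1, ?_, ⟨_, rfl⟩⟩
    have : p = 4 * (p / 4) + 1 := by omega
    have h2 : (p : ℤ) = 4 * ((p / 4 : ℕ) : ℤ) + 1 := by exact_mod_cast this
    linarith
  have hut : Odd (u * t) := hu.mul htodd
  have hK : Odd (15 * t * u ^ 2) := ((by decide : Odd (15 : ℤ)).mul htodd).mul hu.pow
  exact tr2_two_final hK (by rintro rfl; omega) (tr2_eight_aux ht hut hR h)
    (tr2_eight_aux ht hut (by rw [constantCoeff_U, hR]) (tr2_hat h))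

theorem tr2_four_aux {u : ℤ} {R : PowerSeries ℤ} (hp : p % 4 = 1) (hu : Odd u)
    (hR : constantCoeff R = 0) (h : IsQZ p 2 (C u + C 4 * R)) : PSModEq 2 R 0 := by
  obtain ⟨t, ht, htodd⟩ : ∃ t : ℤ, (p : ℤ) + 1 = 2 * t ∧ Odd t := by
    refine ⟨2 * ((p / 4 : ℕ) : ℤ) + 1, ?_, ⟨_, rfl⟩⟩
    have : p = 4 * (p / 4) + 1 := by omega
    have h2 : (p : ℤ) = 4 * ((p / 4 : ℕ) : ℤ) + 1 := by exact_mod_cast this
    linarith
  have hs := tr2_star (by norm_num) hR h
  have hUU := tr2_UU (by norm_num) h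
  have h1 : C (u * t) * R + (C (p : ℤ) * R ^ 2 + U p ((U p R) ^ 2)) = C (30 * t * u ^ 2) * phi 3 := by
    apply mul_left_cancel₀ (tr2_C_ne_zero (c := 16) (by norm_num))
    rw [ht] at hs
    simp only [map_mul, map_pow, map_add, map_ofNat, map_one] at hs ⊢
    linear_combination hs
  have h2 := tr2_mod_two (hu.mul htodd) (by rintro rfl; omega) hUU h1
  refine h2.trans ?_
  rw [psModEq_iff_exists]
  refine ⟨C (15 * t * u ^ 2) * phi 3, ?_⟩
  simp only [map_mul, map_pow, map_ofNat]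
  ring

theorem not_bad_two_two (hp : p % 4 = 1) : ¬ Bad p 2 2 := by
  rintro ⟨u, R, hu, hR, hH⟩
  have e : (((2 : ℕ) : ℤ) ^ 2) = 4 := by norm_num
  rw [e] at hH
  have hu' : Odd u := by
    rw [← Int.not_even_iff_odd, even_iff_two_dvd]
    simpa using hu
  obtain ⟨R', hR'⟩ := psModEq_iff_exists.mp (tr2_four_aux hp hu' hR hH)
  rw [zero_add] at hR'
  have hR'0 : constantCoeff R' = 0 := by
    have := congrArg constantCoeff hR'
    rw [hR, map_mul, constantCoeff_C] at this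
    omega
  apply tr2_not_bad_eight hp hu' hR'0
  have e2 : C u + C 8 * R' = C u + C 4 * R := by
    rw [hR', ← mul_assoc, ← map_mul]
    norm_num
  rw [e2]
  exact hH

theorem dvd_of_bad_three_two (h : Bad p 3 2) : 27 ∣ p + 1 := by
  obtain ⟨u, R, hu, hR, hH⟩ := h
  have e : (((3 : ℕ) : ℤ) ^ 2) = 9 := by norm_num
  rw [e] at hH
  have hu' : ¬ (3 : ℤ) ∣ u := by simpa using hu
  have hs := tr2_star (by norm_num) hR hH
  have hc := congrArg (coeff 1) hs
  have hsq : coeff 1 (R ^ 2) = 0 := by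
    rw [pow_two, coeff_mul]
    apply Finset.sum_eq_zero
    intro x hx
    rw [Finset.HasAntidiagonal.mem_antidiagonal] at hx
    have h0 : coeff 0 R = 0 := by simpa using hR
    rcases x with ⟨a, b⟩
    simp only at hx ⊢
    have : a = 0 ∨ b = 0 := by omega
    rcases this with rfl | rfl
    · rw [h0, zero_mul]
    · rw [h0, mul_zero]
  rw [map_add, coeff_C_mul, coeff_C_mul, map_add, coeff_C_mul, hsq, coeff_C_mul, coeff_one_phi]
    at hc
  set r := coeff 1 R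
  set y := coeff 1 (U p ((U p R) ^ 2))
  have h81 : (27 : ℤ) ∣ ((p : ℤ) + 1) * (2 * (u * (3 * r - 40 * u))) := by
    refine ⟨-y, ?_⟩
    linarith
  have h3 : Prime (3 : ℤ) := Int.prime_three
  have hcop : IsCoprime (27 : ℤ) (2 * (u * (3 * r - 40 * u))) := by
    have : (27 : ℤ) = 3 ^ 3 := by norm_num
    rw [this]
    apply IsCoprime.pow_left
    rw [Prime.coprime_iff_not_dvd h3]
    intro hd
    rcases h3.dvd_mul.mp hd with hd | hd
    · omega
    · rcases h3.dvd_mul.mp hd with hd | hd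
      · exact hu' hd
      · apply hu'
        have : (3 : ℤ) ∣ 40 * u := by
          have := dvd_sub (Dvd.intro r rfl : (3 : ℤ) ∣ 3 * r) hd
          simpa using this
        rcases h3.dvd_mul.mp this with h | h
        · omega
        · exact h
  have := hcop.dvd_of_dvd_mul_right h81
  exact_mod_cast this

theorem tr2_eight_aux' {u t : ℤ} {R : PowerSeries ℤ} (hp2 : p ≠ 2) (ht : (p : ℤ) + 1 = 4 * t)
    (hut : Odd (u * t)) (hR : constantCoeff R = 0) (h : IsQZ p 2 (C u + C 8 * R)) :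
    PSModEq 2 R (C (15 * t * u ^ 2) * phi 3) := by
  have hs := tr2_star (by norm_num) hR h
  have hUU := tr2_UU (by norm_num) h
  have h1 : C (u * t) * R + (C (p : ℤ) * R ^ 2 + U p ((U p R) ^ 2)) = C (15 * t * u ^ 2) * phi 3 := by
    apply mul_left_cancel₀ (tr2_C_ne_zero (c := 64) (by norm_num))
    rw [ht] at hs
    simp only [map_mul, map_pow, map_add, map_ofNat, map_one] at hs ⊢
    linear_combination hs
  exact tr2_mod_two hut hp2 hUU h1

theorem dvd_of_bad_two_three (hp : p % 4 = 3) (h : Bad p 2 3) : 8 ∣ p + 1 := by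
  obtain ⟨u, R, hu, hR, hH⟩ := h
  have e : (((2 : ℕ) : ℤ) ^ 3) = 8 := by norm_num
  rw [e] at hH
  have hu' : Odd u := by
    rw [← Int.not_even_iff_odd, even_iff_two_dvd]
    simpa using hu
  by_contra hnd
  obtain ⟨t, ht, htodd⟩ : ∃ t : ℤ, (p : ℤ) + 1 = 4 * t ∧ Odd t := by
    refine ⟨2 * ((p / 8 : ℕ) : ℤ) + 1, ?_, ⟨_, rfl⟩⟩
    have : p = 8 * (p / 8) + 3 := by omega
    have h2 : (p : ℤ) = 8 * ((p / 8 : ℕ) : ℤ) + 3 := by exact_mod_cast this
    linarith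
  have hut : Odd (u * t) := hu'.mul htodd
  have hK : Odd (15 * t * u ^ 2) := ((by decide : Odd (15 : ℤ)).mul htodd).mul hu'.pow
  have hp2 : p ≠ 2 := by rintro rfl; omega
  exact tr2_two_final hK hp2 (tr2_eight_aux' hp2 ht hut hR hH)
    (tr2_eight_aux' hp2 ht hut (by rw [constantCoeff_U, hR]) (tr2_hat hH))

end Fermat.Agent.S16
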