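import Fermat.Agent.S16.API
import Fermat.Agent.S16.PS
import Fermat.Agent.S16.Cosets
import Fermat.Agent.S16.TraceFun

/-!
# S16, piece TR: the Fricke involution and the trace `M_k(Γ₀(p)) → M_k(SL₂(ℤ))`

Notation: `W = [0 -1; p 0] ∈ GL₂(ℝ)`, Mathlib normalisation
`(f ∣[k] W)(z) = p^(k-1) (pz)^(-k) f(-1/(pz))`.

* (W1) `f ∈ M_k(Γ₀(p)) ⟹ f ∣[k] W ∈ M_k(Γ₀(p))` (`ModularForm.translate`, `W⁻¹ Γ₀(p) W = Γ₀(p)`),
  `f ∣ W ∣ W = (-1)^k p^(k-2) f`.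
* (W2) `W * heckeMatrix p j = p • (S T^j)`, hence
  `heckeU k p (f ∣[k] W) = p^(k-2) ∑_{j<p} f ∣[k] (S T^j)`.
* (W3) `Tr f := f + p^(2-k) heckeU k p (f ∣[k] W) = f + ∑_j f ∣ S T^j` is invariant under `T`
  (cyclic permutation, `S T^p S⁻¹ ∈ Γ₀(p)`) and `S` (`f ↔ f∣S`; `S T^j S = γ S T^(j')`,
  `γ = [-j', -1; jj'+1, j] ∈ Γ₀(p)` for `j j' ≡ -1 (p)`), so it is a level one form
  (`exists_modularForm_levelOne`); alternatively identify it with Mathlib's `ModularForm.trace`.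
* (W4) `k = 2`: `M₂(SL₂ℤ) = 0` gives `f + U_p(f∣W) = 0`; applied to `f ∣ W`: `f ∣ W = - U_p f`,
  `U_p² f = f`.
* (W5) `(f g) ∣[k+l] W = p (f ∣[k] W)(g ∣[l] W)` (`ModularForm.mul_slash`), so
  `h^i ∣ W = p^(i-1) (-U_p h)^i` and `Tr(h^i) = h^i + (-1)^i p^(1-i) U_p((U_p h)^i)`.
* (W6) for `G` of level one and weight `k`: `G(p·) ∈ M_k(Γ₀(p))` has `q`-expansion `V_p G` and
  `G(p·) ∣[k] W = p⁻¹ G`, so `Tr(h · G(p·)) = h V_pG - p^(-k) U_p((U_p h) G)`.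
* (W7) cusp criterion: `(f ∣ S)(z) = p⁻¹ (f∣W)(z/p) = -p⁻¹ (U_p f)(z/p) → -p⁻¹ a₀(f)`.
All three identities below were checked numerically for `p = 11`.
-/

set_option autoImplicit false

namespace Fermat.Agent.S16

open UpperHalfPlane ModularForm CongruenceSubgroup PowerSeries
open scoped MatrixGroups ModularForm

variable {p : ℕ} [Fact p.Prime]

section Complex

variable {H : PowerSeries ℂ}

theorem U_U_of_isQ (h : IsQ p 2 H) : U p (U p H) = H := by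
  obtain ⟨f, rfl⟩ := h
  have hh : ⇑f ∈ Fermat.Agent.S20.MFs (Gamma0 p) 2 := Fermat.Agent.S20.coe_mem_MFs _ f
  have hn := nice_of_mem_MFs hh
  rw [← qExp_heckeU hn 2, ← qExp_heckeU (nice_heckeU hn 2 p) 2, heckeU_heckeU hh]

theorem trace_pow (h : IsQ p 2 H) (i : ℕ) :
    IsQ1 (2 * (i : ℤ)) (C ((p : ℂ) ^ i) * H ^ i + C ((-1) ^ i * (p : ℂ)) * U p ((U p H) ^ i)) := by
  obtain ⟨f, rfl⟩ := h
  have hh : ⇑f ∈ Fermat.Agent.S20.MFs (Gamma0 p) 2 := Fermat.Agent.S20.coe_mem_MFs _ f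
  have hn := nice_of_mem_MFs hh
  have hU := nice_heckeU hn 2 p
  obtain ⟨g, hg⟩ := Fermat.Agent.S20.exists_modularForm_of_mem_MFs_top (trace_pow_fun hh i)
  rw [mul_comm (2 : ℤ)]
  refine ⟨g, ?_⟩
  have h1 : (⇑f : ℍ → ℂ) ^ i ∈ Fermat.Agent.S23.Nice := Subalgebra.pow_mem _ hn i
  have h2 : (heckeU 2 p ⇑f) ^ i ∈ Fermat.Agent.S23.Nice := Subalgebra.pow_mem _ hU i
  have h3 := nice_heckeU h2 ((i : ℤ) * 2) p
  rw [hg, qExp_add (Subalgebra.smul_mem _ h1 _) (Subalgebra.smul_mem _ h3 _), qExp_smul _ h1,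
    qExp_smul _ h3, qExp_pow hn, qExp_heckeU h2, qExp_pow hU, qExp_heckeU hn]

theorem trace_mul_V (h : IsQ p 2 H) {k : ℕ} {G : PowerSeries ℂ} (hG : IsQ1 k G) :
    IsQ1 ((k : ℤ) + 2) (U p (U p H * G) - C ((p : ℂ) ^ k) * (H * V p G)) := by
  obtain ⟨f, rfl⟩ := h
  obtain ⟨g, rfl⟩ := hG
  have hh : ⇑f ∈ Fermat.Agent.S20.MFs (Gamma0 p) 2 := Fermat.Agent.S20.coe_mem_MFs _ f
  have hg : ⇑g ∈ Fermat.Agent.S20.MFs ⊤ (k : ℤ) := Fermat.Agent.S20.coe_mem_MFs_top g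
  have hn := nice_of_mem_MFs hh
  have hgn := nice_of_mem_MFs_top hg
  have hU := nice_heckeU hn 2 p
  have hV : Vfun p ⇑g ∈ Fermat.Agent.S23.Nice := nice_Vfun hg
  obtain ⟨t, ht⟩ := Fermat.Agent.S20.exists_modularForm_of_mem_MFs_top (trace_mul_fun hh hg)
  rw [add_comm]
  refine ⟨t, ?_⟩
  have h1 : heckeU 2 p ⇑f * ⇑g ∈ Fermat.Agent.S23.Nice := Subalgebra.mul_mem _ hU hgn
  have h2 : ⇑f * Vfun p ⇑g ∈ Fermat.Agent.S23.Nice := Subalgebra.mul_mem _ hn hV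
  rw [ht, qExp_sub (nice_heckeU h1 _ p) (Subalgebra.smul_mem _ h2 _), qExp_heckeU h1,
    qExp_smul _ h2, qExp_mul hU hgn, qExp_mul hn hV, qExp_heckeU hn, qExp_Vfun hg]

theorem isCuspQ_of_constantCoeff (h : IsQ p 2 H) (h0 : constantCoeff H = 0) : IsCuspQ p 2 H := by
  obtain ⟨f, rfl⟩ := h
  have hh : ⇑f ∈ Fermat.Agent.S20.MFs (Gamma0 p) 2 := Fermat.Agent.S20.coe_mem_MFs _ f
  have hn := nice_of_mem_MFs hh
  have hU := nice_heckeU hn 2 p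
  have h1 : IsZeroAtImInfty (⇑f : ℍ → ℂ) := by
    have := nice_tendsto hn
    rwa [coeff_zero_eq_constantCoeff_apply, h0] at this
  have h2 : IsZeroAtImInfty (heckeU 2 p ⇑f) := by
    have := nice_tendsto hU
    rw [qExp_heckeU hn, U, coeff_mk, mul_zero, coeff_zero_eq_constantCoeff_apply, h0] at this
    exact this
  obtain ⟨g, hg⟩ := Fermat.Agent.S20.exists_of_mem_CFs (mem_CFs_of_zero hh h1 h2)
  exact ⟨g, by rw [hg]⟩

end Complex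

section Int

variable {H : PowerSeries ℤ}

theorem U_U_of_isQZ (h : IsQZ p 2 H) : U p (U p H) = H := by
  apply toC_injective
  rw [toC_U, toC_U]
  exact U_U_of_isQ h

theorem trace_powZ (h : IsQZ p 2 H) (i : ℕ) :
    IsQZ1 (2 * (i : ℤ)) (C ((p : ℤ) ^ i) * H ^ i + C ((-1) ^ i * (p : ℤ)) * U p ((U p H) ^ i)) := by
  have := trace_pow h i
  unfold IsQZ1
  rw [map_add, map_mul, map_mul, toC_C, toC_C, map_pow, toC_U, map_pow, toC_U]
  push_cast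
  exact this

theorem trace_mul_VZ (h : IsQZ p 2 H) {k : ℕ} {G : PowerSeries ℤ} (hG : IsQZ1 k G) :
    IsQZ1 ((k : ℤ) + 2) (U p (U p H * G) - C ((p : ℤ) ^ k) * (H * V p G)) := by
  have := trace_mul_V h hG
  unfold IsQZ1
  rw [map_sub, map_mul, map_mul, toC_C, toC_U, map_mul, toC_U, toC_V]
  push_cast
  exact this

theorem isCuspQZ_of_constantCoeff (h : IsQZ p 2 H) (h0 : constantCoeff H = 0) :
    IsCuspQZ p 2 H := by
  apply isCuspQ_of_constantCoeff h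
  rw [← coeff_zero_eq_constantCoeff_apply, coeff_toC, coeff_zero_eq_constantCoeff_apply, h0]
  simp

end Int

end Fermat.Agent.S16
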