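import Fermat.Agent.S16.Trace
import Fermat.Agent.S16.NoConst

/-!
# S16, piece U12: the upper bound at primes `ℓ ≥ 5`
-/

set_option autoImplicit false

namespace Fermat.Agent.S16

open PowerSeries

variable {p : ℕ} [Fact p.Prime]

/-- there is `s ≥ 1` with `ℓ^(s+1) ∤ p^(ℓ^s-1) - 1`. -/
theorem u12_exists_s {ℓ p : ℕ} (hℓ : ℓ.Prime) (hp : p.Prime) (hne : ℓ ≠ p) :
    ∃ s : ℕ, 1 ≤ s ∧ ¬ ((ℓ : ℤ) ^ (s + 1) ∣ (p : ℤ) ^ (ℓ ^ s - 1) - 1) := by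
  set s := p ^ (ℓ - 1) with hs
  have hs1 : 1 ≤ s := Nat.one_le_pow _ _ hp.pos
  refine ⟨s, hs1, fun hdvd => ?_⟩
  have hcop : Nat.Coprime p (ℓ ^ (s + 1)) :=
    Nat.Coprime.pow_right _ ((Nat.coprime_primes hp hℓ).mpr (Ne.symm hne))
  set x : (ZMod (ℓ ^ (s + 1)))ˣ := ZMod.unitOfCoprime p hcop with hx
  have h1 : x ^ (ℓ ^ s - 1) = 1 := by
    apply Units.ext
    rw [Units.val_pow_eq_pow_val, hx, ZMod.coe_unitOfCoprime, Units.val_one]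
    have h2 : (((p : ℤ) ^ (ℓ ^ s - 1) - 1 : ℤ) : ZMod (ℓ ^ (s + 1))) = 0 := by
      rw [ZMod.intCast_zmod_eq_zero_iff_dvd]
      exact_mod_cast hdvd
    push_cast at h2
    exact sub_eq_zero.mp h2
  have h2 : x ^ (ℓ ^ s * (ℓ - 1)) = 1 := by
    have := ZMod.pow_totient x
    rwa [Nat.totient_prime_pow_succ hℓ] at this
  have h3 : x ^ Nat.gcd (ℓ ^ s - 1) (ℓ ^ s * (ℓ - 1)) = 1 := pow_gcd_eq_one.mpr ⟨h1, h2⟩
  have hc : Nat.Coprime (ℓ ^ s - 1) (ℓ ^ s) := by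
    have h1le : 1 ≤ ℓ ^ s := Nat.one_le_pow _ _ hℓ.pos
    have : Nat.Coprime (ℓ ^ s - 1) (ℓ ^ s - 1 + 1) := by simp
    rwa [Nat.sub_add_cancel h1le] at this
  have h4 : Nat.gcd (ℓ ^ s - 1) (ℓ ^ s * (ℓ - 1)) ∣ ℓ - 1 := by
    rw [Nat.Coprime.gcd_mul_left_cancel_right _ hc.symm]
    exact Nat.gcd_dvd_right _ _
  have h5 : x ^ (ℓ - 1) = 1 := by
    obtain ⟨m, hm⟩ := h4
    rw [hm, pow_mul, h3, one_pow]
  have h6 : ((p ^ (ℓ - 1) : ℕ) : ZMod (ℓ ^ (s + 1))) = ((1 : ℕ) : ZMod (ℓ ^ (s + 1))) := by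
    have := congrArg Units.val h5
    rw [Units.val_pow_eq_pow_val, hx, ZMod.coe_unitOfCoprime, Units.val_one] at this
    push_cast
    exact this
  rw [ZMod.natCast_eq_natCast_iff] at h6
  have hlt : s < ℓ ^ (s + 1) := by
    calc s < s + 1 := Nat.lt_succ_self s
      _ < ℓ ^ (s + 1) := Nat.lt_pow_self hℓ.one_lt
  have h7 : p ^ (ℓ - 1) = 1 := by
    have e1 := Nat.mod_eq_of_lt hlt
    have e2 : 1 % ℓ ^ (s + 1) = 1 := Nat.mod_eq_of_lt (lt_of_le_of_lt hs1 hlt)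
    unfold Nat.ModEq at h6
    rw [← hs, e1, e2] at h6
    exact h6
  have h8 : 1 < p ^ (ℓ - 1) := Nat.one_lt_pow (by have := hℓ.two_le; omega) hp.one_lt
  omega

theorem u12_U_modEq {ℓ : ℕ} {u : ℤ} {R : PowerSeries ℤ} (q : ℕ) (hq : 0 < q) :
    PSModEq (ℓ : ℤ) (U q (C u + C ((ℓ : ℤ) ^ 1) * R)) (C u) := by
  rw [U_add, U_C q hq, U_C_mul, pow_one]
  have := (PSModEq.refl (ℓ : ℤ) (C u)).add (psModEq_C_mul_self (m := (ℓ : ℤ)) (U q R))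
  rwa [add_zero] at this

theorem u12_modEq {ℓ : ℕ} {u : ℤ} {R : PowerSeries ℤ} :
    PSModEq (ℓ : ℤ) (C u + C ((ℓ : ℤ) ^ 1) * R) (C u) := by
  rw [pow_one]
  have := (PSModEq.refl (ℓ : ℤ) (C u)).add (psModEq_C_mul_self (m := (ℓ : ℤ)) R)
  rwa [add_zero] at this

theorem not_bad_of_five_le {ℓ : ℕ} [Fact ℓ.Prime] (hℓ : 5 ≤ ℓ) (hne : ℓ ≠ p) : ¬ Bad p ℓ 1 := by
  rintro ⟨u, R, hu, -, hH⟩
  have hℓp : ℓ.Prime := Fact.out
  have hpp : p.Prime := Fact.out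
  have hℓZ : Prime (ℓ : ℤ) := Nat.prime_iff_prime_int.mp hℓp
  obtain ⟨s, hs1, hs⟩ := u12_exists_s hℓp hpp hne
  set H : PowerSeries ℤ := C u + C ((ℓ : ℤ) ^ 1) * R with hHdef
  set i := ℓ ^ s with hi
  have hodd : Odd i := (hℓp.odd_of_ne_two (by omega)).pow
  have hG := trace_powZ hH i
  rw [hodd.neg_one_pow] at hG
  set G : PowerSeries ℤ := C ((p : ℤ) ^ i) * H ^ i + C (-1 * (p : ℤ)) * U p ((U p H) ^ i) with hGdef
  -- the constant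
  set c : ℤ := u ^ i * ((p : ℤ) * ((p : ℤ) ^ (i - 1) - 1)) with hc
  have hi1 : 1 ≤ i := Nat.one_le_pow _ _ hℓp.pos
  have hmod : PSModEq ((ℓ : ℤ) ^ (s + 1)) G (C c) := by
    have a1 : PSModEq ((ℓ : ℤ) ^ (s + 1)) (H ^ i) ((C u) ^ i) := (u12_modEq).pow_prime_pow s
    have a2 : PSModEq ((ℓ : ℤ) ^ (s + 1)) ((U p H) ^ i) ((C u) ^ i) :=
      (u12_U_modEq p (Fact.out : p.Prime).pos).pow_prime_pow s
    have a3 := a2.U p
    have a4 := ((PSModEq.refl ((ℓ : ℤ) ^ (s + 1)) (C ((p : ℤ) ^ i))).mul a1).add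
      ((PSModEq.refl ((ℓ : ℤ) ^ (s + 1)) (C (-1 * (p : ℤ)))).mul a3)
    have e : C ((p : ℤ) ^ i) * (C u) ^ i + C (-1 * (p : ℤ)) * U p ((C u) ^ i) = C c := by
      rw [← map_pow, U_C p (Fact.out : p.Prime).pos, ← map_mul, ← map_mul, ← map_add, hc]
      congr 1
      have : (p : ℤ) ^ i = (p : ℤ) * (p : ℤ) ^ (i - 1) := by
        rw [← pow_succ', Nat.sub_add_cancel hi1]
      rw [this]; ring
    rwa [e] at a4
  -- `ℓ^(s+1) ∤ c`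
  have hcop_u : IsCoprime ((ℓ : ℤ) ^ (s + 1)) (u ^ i) :=
    IsCoprime.pow ((Prime.coprime_iff_not_dvd hℓZ).mpr hu)
  have hcop_p : IsCoprime ((ℓ : ℤ) ^ (s + 1)) (p : ℤ) := by
    apply IsCoprime.pow_left
    rw [Prime.coprime_iff_not_dvd hℓZ]
    intro h
    have h' : ℓ ∣ p := by exact_mod_cast h
    exact hne ((Nat.prime_dvd_prime_iff_eq hℓp hpp).mp h')
  have hcnd : ¬ ((ℓ : ℤ) ^ (s + 1) ∣ c) := by
    intro h
    exact hs (hcop_p.dvd_of_dvd_mul_left (hcop_u.dvd_of_dvd_mul_left h))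
  have hc0 : c ≠ 0 := fun h => hcnd (h ▸ dvd_zero _)
  have hfin : FiniteMultiplicity (ℓ : ℤ) c := FiniteMultiplicity.def.mpr ⟨s, hcnd⟩
  obtain ⟨c', hct, hc'⟩ := hfin.exists_eq_pow_mul_and_not_dvd
  set t := multiplicity (ℓ : ℤ) c with ht
  have hts : t ≤ s := by
    by_contra hlt
    push Not at hlt
    apply hcnd
    rw [hct]
    exact Dvd.dvd.mul_right (pow_dvd_pow _ hlt) _
  obtain ⟨R', hR'⟩ := psModEq_iff_exists.mp hmod
  obtain ⟨r, hr⟩ : ∃ r, s + 1 = t + (r + 1) := ⟨s - t, by omega⟩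
  set F : PowerSeries ℤ := C c' + C ((ℓ : ℤ) ^ (r + 1)) * R' with hF
  have hGF : G = C ((ℓ : ℤ) ^ t) * F := by
    rw [hR', hF, mul_add, ← mul_assoc, ← map_mul, ← map_mul, ← pow_add, ← hr, ← hct]
  have hFQ : IsQZ1 (2 * (i : ℤ)) F := by
    rw [hGF] at hG
    exact hG.of_C_mul (pow_ne_zero _ hℓZ.ne_zero)
  have hFmod : PSModEq (ℓ : ℤ) F (C c') := by
    rw [psModEq_iff_exists]
    refine ⟨C ((ℓ : ℤ) ^ r) * R', ?_⟩
    rw [hF, ← mul_assoc, ← map_mul, ← pow_succ']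
  have hcop : Nat.Coprime i ((ℓ - 1) / 2) := by
    apply Nat.Coprime.pow_left
    rw [Nat.Prime.coprime_iff_not_dvd hℓp]
    intro h
    have h1 : 0 < (ℓ - 1) / 2 := by omega
    have := Nat.le_of_dvd h1 h
    omega
  exact no_unit_const ℓ hℓ i hcop F hFQ c' hc' hFmod

theorem not_bad_self (hp : 5 ≤ p) : ¬ Bad p p 1 := by
  rintro ⟨u, R, hu, -, hH⟩
  have hpp : p.Prime := Fact.out
  have hpZ : Prime (p : ℤ) := Nat.prime_iff_prime_int.mp hpp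
  set H : PowerSeries ℤ := C u + C ((p : ℤ) ^ 1) * R with hHdef
  have hodd : Odd p := hpp.odd_of_ne_two (by omega)
  have hG := trace_powZ hH p
  rw [hodd.neg_one_pow] at hG
  set F : PowerSeries ℤ := U p ((U p H) ^ p) - C ((p : ℤ) ^ (p - 1)) * H ^ p with hF
  have hGF : C ((p : ℤ) ^ p) * H ^ p + C (-1 * (p : ℤ)) * U p ((U p H) ^ p) = C (-(p : ℤ)) * F := by
    have : (p : ℤ) ^ p = (p : ℤ) * (p : ℤ) ^ (p - 1) := by
      rw [← pow_succ', Nat.sub_add_cancel hpp.pos]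
    rw [hF, this, map_mul, map_neg, map_mul, map_neg, map_one]
    ring
  rw [hGF] at hG
  have hFQ : IsQZ1 (2 * (p : ℤ)) F := hG.of_C_mul (neg_ne_zero.mpr hpZ.ne_zero)
  have hFmod : PSModEq (p : ℤ) F (C (u ^ p)) := by
    have a1 : PSModEq (p : ℤ) ((U p H) ^ p) ((C u) ^ p) := (u12_U_modEq p (Fact.out : p.Prime).pos).pow p
    have a2 := a1.U p
    rw [← map_pow, U_C p (Fact.out : p.Prime).pos] at a2
    have a3 : PSModEq (p : ℤ) (C ((p : ℤ) ^ (p - 1)) * H ^ p) 0 := by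
      rw [psModEq_iff_exists]
      refine ⟨C ((p : ℤ) ^ (p - 2)) * H ^ p, ?_⟩
      rw [zero_add, ← mul_assoc, ← map_mul, ← pow_succ']
      congr 3
      omega
    have := a2.sub a3
    rwa [sub_zero] at this
  have hcop : Nat.Coprime p ((p - 1) / 2) := by
    rw [Nat.Prime.coprime_iff_not_dvd hpp]
    intro h
    have h1 : 0 < (p - 1) / 2 := by omega
    have := Nat.le_of_dvd h1 h
    omega
  exact no_unit_const p hp p hcop F hFQ (u ^ p) (fun h => hu (hpZ.dvd_of_dvd_pow h)) hFmod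

end Fermat.Agent.S16
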