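import Fermat.Agent.S16.Big
import Fermat.Agent.S16.U12

/-!
# S16, piece UP: assembly of the upper bound
-/

set_option autoImplicit false

namespace Fermat.Agent.S16

open PowerSeries

variable {p : ℕ} [Fact p.Prime]

theorem Bad.mono {ℓ w w' : ℕ} (hw : w ≤ w') (h : Bad p ℓ w') : Bad p ℓ w := by
  obtain ⟨u, R, hu, hR, hQ⟩ := h
  refine ⟨u, C ((ℓ : ℤ) ^ (w' - w)) * R, hu, by simp [hR], ?_⟩
  have : C ((ℓ : ℤ) ^ w) * (C ((ℓ : ℤ) ^ (w' - w)) * R) = C ((ℓ : ℤ) ^ w') * R := by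
    rw [← mul_assoc, ← map_mul, ← pow_add, Nat.add_sub_cancel' hw]
  rwa [this]

/-- a prime power dividing the "denominator" gives a bad form -/
theorem bad_of_pow_dvd {u v : ℤ} (hcop : IsCoprime u v) {R : PowerSeries ℤ}
    (hR : constantCoeff R = 0) (h : IsQZ p 2 (C u + C v * R)) {ℓ k : ℕ} (hℓ : ℓ.Prime)
    (hk : 0 < k) (hdvd : (ℓ : ℤ) ^ k ∣ v) : Bad p ℓ k := by
  obtain ⟨v', rfl⟩ := hdvd
  refine ⟨u, C v' * R, ?_, by simp [hR], ?_⟩
  · intro hu
    have hℓv : (ℓ : ℤ) ∣ (ℓ : ℤ) ^ k * v' := Dvd.dvd.mul_right (dvd_pow_self _ hk.ne') _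
    have h1 : IsUnit (ℓ : ℤ) := hcop.isUnit_of_dvd' hu hℓv
    have h2 : (ℓ : ℤ).natAbs = 1 := Int.isUnit_iff_natAbs_eq.mp h1
    simp only [Int.natAbs_natCast] at h2
    exact hℓ.one_lt.ne' h2
  · rwa [← mul_assoc, ← map_mul]

/-- the coprime case -/
theorem upper_coprime (hp : 5 ≤ p) {u v : ℤ} (hcop : IsCoprime u v) (hv : v ≠ 0)
    {R : PowerSeries ℤ} (hR : constantCoeff R = 0) (h : IsQZ p 2 (C u + C v * R)) :
    v * (Nat.gcd (p - 1) 12 : ℤ) ∣ 24 := by
  have hpp : p.Prime := Fact.out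
  have hbad : ∀ {ℓ k : ℕ}, ℓ.Prime → 0 < k → ℓ ^ k ∣ v.natAbs → Bad p ℓ k := by
    intro ℓ k hℓ hk hd
    refine bad_of_pow_dvd hcop hR h hℓ hk ?_
    have : ((ℓ ^ k : ℕ) : ℤ) ∣ v := Int.natCast_dvd.mpr hd
    exact_mod_cast this
  -- no prime `≥ 5` divides `v`
  have h5 : ∀ {ℓ k : ℕ}, ℓ.Prime → 0 < k → ℓ ^ k ∣ v.natAbs → ℓ < 5 := by
    intro ℓ k hℓ hk hd
    by_contra hlt
    have hb := (hbad hℓ hk hd).mono (w := 1) hk
    have : Fact ℓ.Prime := ⟨hℓ⟩
    by_cases hne : ℓ = p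
    · subst hne
      exact not_bad_self hp hb
    · exact not_bad_of_five_le (by omega) hne hb
  have hp2 : p % 2 = 1 := by
    rcases hpp.eq_two_or_odd with h2 | h2
    · omega
    · exact h2
  have hp3 : p % 3 ≠ 0 := by
    intro h3
    have : 3 ∣ p := Nat.dvd_of_mod_eq_zero h3
    have := (Nat.prime_dvd_prime_iff_eq Nat.prime_three hpp).mp this
    omega
  -- the bound for the exponents of `2` and `3`
  have h3a : p % 3 = 1 → ∀ {k : ℕ}, 3 ^ k ∣ v.natAbs → k = 0 := by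
    intro h31 k hd
    by_contra hk
    exact not_bad_three_one h31 ((hbad Nat.prime_three (Nat.pos_of_ne_zero hk) hd).mono
      (Nat.pos_of_ne_zero hk))
  have h3b : p % 3 = 2 → ∀ {k : ℕ}, 3 ^ k ∣ v.natAbs → k ≤ 1 := by
    intro h32 k hd
    by_contra hk
    exact not_bad_three_two h32 ((hbad Nat.prime_three (by omega) hd).mono (by omega))
  have h2a : p % 4 = 1 → ∀ {k : ℕ}, 2 ^ k ∣ v.natAbs → k ≤ 1 := by
    intro h41 k hd
    by_contra hk
    exact not_bad_two_two h41 ((hbad Nat.prime_two (by omega) hd).mono (by omega))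
  have h2b : p % 4 = 3 → ∀ {k : ℕ}, 2 ^ k ∣ v.natAbs → k ≤ 2 := by
    intro h43 k hd
    by_contra hk
    exact not_bad_two_three h43 ((hbad Nat.prime_two (by omega) hd).mono (by omega))
  have hgcd : Nat.gcd (p - 1) 12 = Nat.gcd ((p - 1) % 12) 12 := by
    rw [Nat.gcd_comm, Nat.gcd_rec]
  -- reduce to a statement on natural numbers
  suffices hkey : ∀ c : ℕ, c * Nat.gcd (p - 1) 12 = 24 →
      (∀ ℓ k : ℕ, ℓ.Prime → ℓ ^ k ∣ v.natAbs → ℓ ^ k ∣ c) → v * (Nat.gcd (p - 1) 12 : ℤ) ∣ 24 by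
    have hprime : ∀ ℓ : ℕ, ℓ.Prime → ℓ < 5 → ℓ = 2 ∨ ℓ = 3 := by
      intro ℓ hℓ hlt
      have := hℓ.two_le
      have h4 : ℓ ≠ 4 := by rintro rfl; norm_num at hℓ
      omega
    have h12 : p % 12 = 1 ∨ p % 12 = 5 ∨ p % 12 = 7 ∨ p % 12 = 11 := by omega
    rcases h12 with h12 | h12 | h12 | h12
    · -- r = 12, c = 2
      have hr : Nat.gcd (p - 1) 12 = 12 := by
        rw [hgcd, show (p - 1) % 12 = 0 by omega]; norm_num
      refine hkey 2 (by rw [hr]) ?_
      intro ℓ k hℓ hd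
      rcases Nat.eq_zero_or_pos k with rfl | hk
      · simp
      rcases hprime ℓ hℓ (h5 hℓ hk hd) with rfl | rfl
      · have := h2a (by omega) hd
        have hk1 : k = 1 := by omega
        subst hk1; norm_num
      · have := h3a (by omega) hd
        omega
    · -- r = 4, c = 6
      have hr : Nat.gcd (p - 1) 12 = 4 := by
        rw [hgcd, show (p - 1) % 12 = 4 by omega]; norm_num
      refine hkey 6 (by rw [hr]) ?_
      intro ℓ k hℓ hd
      rcases Nat.eq_zero_or_pos k with rfl | hk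
      · simp
      rcases hprime ℓ hℓ (h5 hℓ hk hd) with rfl | rfl
      · have := h2a (by omega) hd
        have hk1 : k = 1 := by omega
        subst hk1; norm_num
      · have := h3b (by omega) hd
        have hk1 : k = 1 := by omega
        subst hk1; norm_num
    · -- r = 6, c = 4
      have hr : Nat.gcd (p - 1) 12 = 6 := by
        rw [hgcd, show (p - 1) % 12 = 6 by omega]; norm_num
      refine hkey 4 (by rw [hr]) ?_
      intro ℓ k hℓ hd
      rcases Nat.eq_zero_or_pos k with rfl | hk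
      · simp
      rcases hprime ℓ hℓ (h5 hℓ hk hd) with rfl | rfl
      · have := h2b (by omega) hd
        have hk1 : k = 1 ∨ k = 2 := by omega
        rcases hk1 with rfl | rfl <;> norm_num
      · have := h3a (by omega) hd
        omega
    · -- r = 2, c = 12
      have hr : Nat.gcd (p - 1) 12 = 2 := by
        rw [hgcd, show (p - 1) % 12 = 10 by omega]; norm_num
      refine hkey 12 (by rw [hr]) ?_
      intro ℓ k hℓ hd
      rcases Nat.eq_zero_or_pos k with rfl | hk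
      · simp
      rcases hprime ℓ hℓ (h5 hℓ hk hd) with rfl | rfl
      · have := h2b (by omega) hd
        have hk1 : k = 1 ∨ k = 2 := by omega
        rcases hk1 with rfl | rfl <;> norm_num
      · have := h3b (by omega) hd
        have hk1 : k = 1 := by omega
        subst hk1; norm_num
  intro c hc hall
  have hvc : v.natAbs ∣ c := (Nat.dvd_iff_prime_pow_dvd_dvd c v.natAbs).mpr hall
  have hvc' : v ∣ (c : ℤ) := Int.natAbs_dvd.mp (by exact_mod_cast hvc)
  have h24 : ((c : ℤ)) * (Nat.gcd (p - 1) 12 : ℤ) = 24 := by exact_mod_cast hc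
  rw [← h24]
  exact mul_dvd_mul_right hvc' _

/-- If `g = u/v + (integral)` is in `M₂(Γ₀(p))` then `u/v ∈ (gcd(p-1,12)/24) ℤ`. -/
theorem upper (hp : 5 ≤ p) (u v : ℤ) (hv : v ≠ 0) (R : PowerSeries ℤ) (hR : constantCoeff R = 0)
    (h : IsQZ p 2 (C u + C v * R)) : v * (Nat.gcd (p - 1) 12 : ℤ) ∣ 24 * u := by
  have hg0 : Int.gcd u v ≠ 0 := by
    intro h0
    exact hv (Int.gcd_eq_zero_iff.mp h0).2
  have hg : ((Int.gcd u v : ℕ) : ℤ) ≠ 0 := by exact_mod_cast hg0
  obtain ⟨u', hu'⟩ : ((Int.gcd u v : ℕ) : ℤ) ∣ u := Int.gcd_dvd_left ..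
  obtain ⟨v', hv'⟩ : ((Int.gcd u v : ℕ) : ℤ) ∣ v := Int.gcd_dvd_right ..
  set g : ℤ := ((Int.gcd u v : ℕ) : ℤ) with hgdef
  have hcop : IsCoprime u' v' := by
    obtain ⟨x, y, hxy⟩ : ∃ x y : ℤ, g = u * x + v * y := ⟨_, _, Int.gcd_eq_gcd_ab u v⟩
    refine ⟨x, y, ?_⟩
    have : g * (x * u' + y * v') = g * 1 := by
      rw [mul_one]
      conv_rhs => rw [hxy, hu', hv']
      ring
    exact mul_left_cancel₀ hg this
  have hv'0 : v' ≠ 0 := by
    rintro rfl
    exact hv (by rw [hv', mul_zero])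
  have h' : IsQZ p 2 (C u' + C v' * R) := by
    apply IsQZ.of_C_mul hg
    have : C g * (C u' + C v' * R) = C u + C v * R := by
      conv_rhs => rw [hu', hv']
      simp only [map_mul]
      ring
    rwa [this]
  have hkey := upper_coprime hp hcop hv'0 hR h'
  rw [hu', hv']
  have : g * v' * (Nat.gcd (p - 1) 12 : ℤ) = g * (v' * (Nat.gcd (p - 1) 12 : ℤ)) := by ring
  rw [this, show (24 : ℤ) * (g * u') = g * (24 * u') by ring]
  exact mul_dvd_mul_left g (hkey.mul_right u')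

end Fermat.Agent.S16
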